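import Fermat.Agent.S28.IntModEqMain
import Fermat.Prelude.Def_ModularCurve_X0ModL

/-!
# (INJ) B-glue, piece BG-fin: finiteness over `E(j)`

For any field `E` the modular function field `F = modularFunctionFieldFullC E N = E(j(q^d) : d ∣ N)`
is finite over `E(j)` (each `j(q^d)` is integral over `ℤ[j]` by the integral modular equations of
`S28`), and so is every intermediate field `Lf` of `E((q))/E` generated over `F` by one element `h`
with `h ^ p ∈ F`.

The abstract part (`bgFin_of_generators`, `bgFin_isAlgebraic_jd`, `bgFin_finite_of_rel`,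
`bgFin_adjoin_subtype_eq_top`) is stated for abstract fields, the modular instantiation is at the
end of the file.
-/

set_option autoImplicit false

noncomputable section

open IntermediateField Polynomial

namespace Fermat.Agent.INJ

open Fermat.Agent.S28

section Abstract

variable {K L : Type*} [Field K] [Field L] [Algebra K L]

/-- A field `L/K` generated over `K` by `t` and a finite set of elements algebraic over `K(t)` is
finite over `K(t)`. -/
theorem bgFin_of_generators (t : L) (T : Set L)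
    (hT : T.Finite) (halg : ∀ y ∈ T, IsAlgebraic K⟮t⟯ y)
    (hgen : IntermediateField.adjoin K (insert t T) = ⊤) : FiniteDimensional K⟮t⟯ L := by
  have : Finite T := hT
  have hfd : FiniteDimensional K⟮t⟯ (IntermediateField.adjoin K⟮t⟯ T) :=
    IntermediateField.finiteDimensional_adjoin (K := K⟮t⟯) (L := L) (S := T)
      (fun y hy => (halg y hy).isIntegral)
  have h1 : (IntermediateField.adjoin K⟮t⟯ T).restrictScalars K =
      IntermediateField.adjoin K ({t} ∪ T) :=
    IntermediateField.adjoin_adjoin_left K ({t} : Set L) T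
  have htop : IntermediateField.adjoin K⟮t⟯ T = ⊤ := by
    rw [← IntermediateField.restrictScalars_eq_top_iff (K := K), h1, Set.singleton_union]
    exact hgen
  rw [htop] at hfd
  exact (IntermediateField.topEquiv (F := K⟮t⟯) (E := L)).toLinearEquiv.finiteDimensional

/-- If `jd (p * a)` is a root of a monic polynomial with coefficients in `ℤ[jd a]` whenever
`p` is prime and `p * a ∣ N`, then every `jd d`, `d ∣ N`, is algebraic over `K(jd 1)`. -/
theorem bgFin_isAlgebraic_jd (jd : ℕ → L) (N : ℕ) (hN : N ≠ 0)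
    (hrel : ∀ p : ℕ, p.Prime → ∀ a : ℕ, p * a ∣ N → ∃ Φ : Polynomial (Polynomial ℤ), Φ.Monic ∧
      Φ.eval₂ (evalInt (jd a)) (jd (p * a)) = 0) :
    ∀ d : ℕ, d ∣ N → IsAlgebraic K⟮jd 1⟯ (jd d) := by
  intro d
  induction d using induction_on_primes with
  | zero => intro h; exact absurd (Nat.eq_zero_of_zero_dvd h) hN
  | one =>
    intro _
    exact isAlgebraic_algebraMap
      (⟨jd 1, IntermediateField.mem_adjoin_simple_self K _⟩ : K⟮jd 1⟯)
  | prime_mul p a hp ih =>
    intro hd
    have ha : a ∣ N := (Dvd.intro_left p rfl).trans hd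
    have iha := ih ha
    obtain ⟨Φ, hΦm, hΦ⟩ := hrel p hp a hd
    have haA : jd a ∈ algebraicClosure K⟮jd 1⟯ L := mem_algebraicClosure_iff.mpr iha
    have hcomp : (algebraMap (algebraicClosure K⟮jd 1⟯ L) L).comp
        (evalInt (⟨jd a, haA⟩ : algebraicClosure K⟮jd 1⟯ L)) = evalInt (jd a) :=
      comp_evalInt _ _
    have hint : IsIntegral (algebraicClosure K⟮jd 1⟯ L) (jd (p * a)) := by
      refine ⟨Φ.map (evalInt (⟨jd a, haA⟩ : algebraicClosure K⟮jd 1⟯ L)), hΦm.map _, ?_⟩
      rw [Polynomial.eval₂_map, hcomp]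
      exact hΦ
    have h2 : IsIntegral K⟮jd 1⟯ (jd (p * a)) := isIntegral_trans _ hint
    exact h2.isAlgebraic

/-- Finiteness over `K(j)` of a field generated by the `jd d`, `d ∣ N`, and one more element `h`
with `h ^ p` in the field generated by the `jd d`. -/
theorem bgFin_finite_of_rel (jd : ℕ → L) (N : ℕ) (hN : N ≠ 0)
    (hrel : ∀ p : ℕ, p.Prime → ∀ a : ℕ, p * a ∣ N → ∃ Φ : Polynomial (Polynomial ℤ), Φ.Monic ∧
      Φ.eval₂ (evalInt (jd a)) (jd (p * a)) = 0)
    (h : L) (p : ℕ) (hp : p ≠ 0)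
    (hw : h ^ p ∈ IntermediateField.adjoin K (jd '' (N.divisors : Set ℕ)))
    (hgen : IntermediateField.adjoin K (insert h (jd '' (N.divisors : Set ℕ))) = ⊤) :
    FiniteDimensional K⟮jd 1⟯ L := by
  have hjd : ∀ d ∈ (N.divisors : Set ℕ), IsAlgebraic K⟮jd 1⟯ (jd d) := fun d hd =>
    bgFin_isAlgebraic_jd jd N hN hrel d (Nat.dvd_of_mem_divisors hd)
  have hle : IntermediateField.adjoin K (jd '' (N.divisors : Set ℕ)) ≤
      (algebraicClosure K⟮jd 1⟯ L).restrictScalars K := by
    rw [IntermediateField.adjoin_le_iff]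
    rintro _ ⟨d, hd, rfl⟩
    exact mem_algebraicClosure_iff.mpr (hjd d hd)
  have hwA : h ^ p ∈ algebraicClosure K⟮jd 1⟯ L := hle hw
  have hint : IsIntegral (algebraicClosure K⟮jd 1⟯ L) h := by
    refine ⟨X ^ p - C (⟨h ^ p, hwA⟩ : algebraicClosure K⟮jd 1⟯ L), monic_X_pow_sub_C _ hp, ?_⟩
    rw [eval₂_sub, eval₂_pow, eval₂_X, eval₂_C]
    exact sub_self _
  have hh : IsAlgebraic K⟮jd 1⟯ h := (isIntegral_trans _ hint).isAlgebraic
  refine bgFin_of_generators (jd 1) (insert h (jd '' (N.divisors : Set ℕ)))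
    (((Finset.finite_toSet _).image jd).insert h) ?_ ?_
  · rintro y (rfl | ⟨d, hd, rfl⟩)
    · exact hh
    · exact hjd d hd
  · rw [eq_top_iff, ← hgen]
    exact IntermediateField.adjoin.mono K _ _ (Set.subset_insert _ _)

/-- Elements of `adjoin K S`, `S ⊆ Lf`, seen inside the field `Lf` itself. -/
theorem bgFin_mem_adjoin_subtype {M : Type*} [Field M] [Algebra K M]
    (Lf : IntermediateField K M) (S : Set M) (hS : S ⊆ Lf)
    (y : M) (hy : y ∈ IntermediateField.adjoin K S) (hyL : y ∈ Lf) :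
    (⟨y, hyL⟩ : Lf) ∈ IntermediateField.adjoin K {x : Lf | (x : M) ∈ S} := by
  have hS' : IntermediateField.adjoin K S ≤ Lf := IntermediateField.adjoin_le_iff.mpr hS
  suffices h : ∀ (y : M) (hy : y ∈ IntermediateField.adjoin K S),
      (⟨y, hS' hy⟩ : Lf) ∈ IntermediateField.adjoin K {x : Lf | (x : M) ∈ S} from h y hy
  intro y hy
  induction hy using IntermediateField.adjoin_induction with
  | mem z hz => exact IntermediateField.subset_adjoin K _ hz
  | algebraMap c => exact IntermediateField.algebraMap_mem _ c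
  | add a b ha hb iha ihb => exact add_mem iha ihb
  | inv a ha iha => exact inv_mem iha
  | mul a b ha hb iha ihb => exact mul_mem iha ihb

/-- Generators of an intermediate field, seen inside the field itself. -/
theorem bgFin_adjoin_subtype_eq_top {M : Type*} [Field M] [Algebra K M]
    (Lf : IntermediateField K M) (S : Set M) (hS : S ⊆ Lf)
    (hle : Lf ≤ IntermediateField.adjoin K S) :
    IntermediateField.adjoin K {x : Lf | (x : M) ∈ S} = ⊤ := by
  rw [eq_top_iff]
  intro x _
  exact bgFin_mem_adjoin_subtype Lf S hS x.1 (hle x.2) x.2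

end Abstract

section Modular

open ModularCurve

variable (E : Type*) [Field E] (N : ℕ) [NeZero N]

omit [NeZero N] in
/-- `j(q^d) ∈ F_N` for `d ∣ N`, in the `intJd` form. -/
theorem bgFin_intJd_mem_full {d : ℕ} (hd : d ∣ N) (hN : N ≠ 0) :
    intJd E d ∈ modularFunctionFieldFullC E N := by
  have hd0 : d ≠ 0 := fun h => hN (Nat.eq_zero_of_zero_dvd (h ▸ hd))
  have : NeZero d := ⟨hd0⟩
  rw [intJd_eq]
  exact jqModCd_mem_full E N hd

omit [NeZero N] in
/-- The generators of `F_N` are the `intJd E d`, `d ∣ N`. -/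
theorem bgFin_mem_divisorExpansionsC {x : LaurentSeries E} (hx : x ∈ divisorExpansionsC E N) :
    ∃ d : ℕ, d ∣ N ∧ x = intJd E d := by
  obtain ⟨d, hd0, hd, rfl⟩ := hx
  exact ⟨d, hd, (intJd_eq E d).symm⟩

set_option maxHeartbeats 1600000 in
set_option synthInstance.maxHeartbeats 400000 in
/-- **BG-fin, general form.** An intermediate field `Lf` of `E((q))/E` containing
`F_N = E(j(q^d) : d ∣ N)` and generated over it by one element `h` with `h ^ p ∈ F_N` is finite
over `E(j)`. -/
theorem bgFin_finiteDimensional_of_root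
    (Lf : IntermediateField E (LaurentSeries E))
    (hle : modularFunctionFieldFullC E N ≤ Lf)
    (h : LaurentSeries E) (hh : h ∈ Lf) (p : ℕ) (hp : p ≠ 0)
    (hw : h ^ p ∈ modularFunctionFieldFullC E N)
    (hgen : Lf ≤ IntermediateField.adjoin E (insert h (divisorExpansionsC E N)))
    (j : Lf) (hj : (j : LaurentSeries E) = jqModC E) :
    FiniteDimensional E⟮j⟯ Lf := by
  have hN : N ≠ 0 := NeZero.ne N
  have hmem : ∀ d : ℕ, d ∣ N → intJd E d ∈ Lf := fun d hd =>
    hle (bgFin_intJd_mem_full E N hd hN)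
  -- the generators inside `Lf`
  let jd : ℕ → Lf := fun d => if hd : d ∣ N then ⟨intJd E d, hmem d hd⟩ else 0
  have hjd : ∀ d : ℕ, d ∣ N → ((jd d : Lf) : LaurentSeries E) = intJd E d := by
    intro d hd
    simp only [jd, dif_pos hd]
  have hj1 : jd 1 = j := by
    apply Subtype.ext
    rw [hjd 1 (one_dvd N), hj, intJd_one]
  have hS : divisorExpansionsC E N ⊆ (Lf : Set (LaurentSeries E)) := fun x hx =>
    hle (IntermediateField.subset_adjoin E _ hx)
  have hsub : {x : Lf | (x : LaurentSeries E) ∈ divisorExpansionsC E N} ⊆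
      jd '' (N.divisors : Set ℕ) := by
    intro x hx
    obtain ⟨d, hd, hxd⟩ := bgFin_mem_divisorExpansionsC E N hx
    refine ⟨d, ?_, ?_⟩
    · exact Finset.mem_coe.mpr (Nat.mem_divisors.mpr ⟨hd, hN⟩)
    · apply Subtype.ext
      rw [hjd d hd, hxd]
  have hrel : ∀ q : ℕ, q.Prime → ∀ a : ℕ, q * a ∣ N →
      ∃ Φ : Polynomial (Polynomial ℤ), Φ.Monic ∧ Φ.eval₂ (evalInt (jd a)) (jd (q * a)) = 0 := by
    intro q hq a hqa
    obtain ⟨Φ, hΦm, hΦ⟩ := intModEq q hq
    refine ⟨Φ, hΦm, ?_⟩
    have ha : a ∣ N := (Dvd.intro_left q rfl).trans hqa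
    have ha0 : a ≠ 0 := fun h0 => hN (Nat.eq_zero_of_zero_dvd (h0 ▸ ha))
    have h1 := map_eval₂_evalInt (algebraMap Lf (LaurentSeries E)) Φ (jd a) (jd (q * a))
    have h2 : algebraMap Lf (LaurentSeries E) (jd a) = intJd E a := hjd a ha
    have h3 : algebraMap Lf (LaurentSeries E) (jd (q * a)) = intJd E (q * a) := hjd (q * a) hqa
    rw [h2, h3, IntModEq.shift hΦ E ha0 hq.ne_zero] at h1
    exact (algebraMap Lf (LaurentSeries E)).injective (h1.trans (map_zero _).symm)
  have hw' : (⟨h, hh⟩ : Lf) ^ p ∈ IntermediateField.adjoin E (jd '' (N.divisors : Set ℕ)) := by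
    have h1 := bgFin_mem_adjoin_subtype Lf (divisorExpansionsC E N) hS (h ^ p) hw
      (pow_mem hh p)
    exact IntermediateField.adjoin.mono E _ _ hsub h1
  have hS2 : insert h (divisorExpansionsC E N) ⊆ (Lf : Set (LaurentSeries E)) :=
    Set.insert_subset hh hS
  have hsub2 : {x : Lf | (x : LaurentSeries E) ∈ insert h (divisorExpansionsC E N)} ⊆
      insert (⟨h, hh⟩ : Lf) (jd '' (N.divisors : Set ℕ)) := by
    intro x hx
    rcases hx with hx | hx
    · exact Or.inl (Subtype.ext hx)
    · exact Or.inr (hsub hx)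
  have hgen' : IntermediateField.adjoin E
      (insert (⟨h, hh⟩ : Lf) (jd '' (N.divisors : Set ℕ))) = ⊤ := by
    rw [eq_top_iff, ← bgFin_adjoin_subtype_eq_top Lf _ hS2 hgen]
    exact IntermediateField.adjoin.mono E _ _ hsub2
  have key := bgFin_finite_of_rel (K := E) (L := Lf) jd N hN hrel ⟨h, hh⟩ p hp hw' hgen'
  rw [hj1] at key
  exact key

/-- **BG-fin for `F_N`.** For any field `E`, the modular function field
`F_N = E(j(q^d) : d ∣ N)` is finite over `E(j)`. -/
theorem bgFin_finiteDimensional_full :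
    FiniteDimensional
      E⟮(⟨jqModC E, jqModC_mem_full E N⟩ : ↥(modularFunctionFieldFullC E N))⟯
      ↥(modularFunctionFieldFullC E N) := by
  refine bgFin_finiteDimensional_of_root E N (modularFunctionFieldFullC E N) le_rfl 1
    (one_mem _) 1 one_ne_zero (by rw [pow_one]; exact one_mem _) ?_ _ rfl
  exact IntermediateField.adjoin.mono E _ _ (Set.subset_insert _ _)

/-- **BG-fin, `⊔` form.** Same as `bgFin_finiteDimensional_of_root` with the generation
hypothesis in the form `Lf ≤ F_N ⊔ E(h)`. -/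
theorem bgFin_finiteDimensional_of_root_sup
    (Lf : IntermediateField E (LaurentSeries E))
    (hle : modularFunctionFieldFullC E N ≤ Lf)
    (h : LaurentSeries E) (hh : h ∈ Lf) (p : ℕ) (hp : p ≠ 0)
    (hw : h ^ p ∈ modularFunctionFieldFullC E N)
    (hgen : Lf ≤ modularFunctionFieldFullC E N ⊔ E⟮h⟯)
    (j : Lf) (hj : (j : LaurentSeries E) = jqModC E) :
    FiniteDimensional E⟮j⟯ Lf := by
  refine bgFin_finiteDimensional_of_root E N Lf hle h hh p hp hw (hgen.trans ?_) j hj
  refine sup_le ?_ ?_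
  · exact IntermediateField.adjoin.mono E _ _ (Set.subset_insert _ _)
  · rw [IntermediateField.adjoin_simple_le_iff]
    exact IntermediateField.subset_adjoin E _ (Set.mem_insert _ _)

end Modular

end Fermat.Agent.INJ
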