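import Mathlib
import Fermat.Prelude.Def_ModularCurve_ReductionModL
import Fermat.Prelude.Def_FLTPrelim_Ramification

/-!
# (INJ) B-glue: small lemmas for the descent to a number field

* `nf_order_coeffMap`, `nf_leadingCoeff_coeffMap` : order and leading coefficient are preserved
  by `coeffMap f` for an injective `f`;
* `nf_perfectRing_residueField` : the residue field of a valuation subring of an algebraically
  closed field, of residue characteristic `ℓ`, is perfect.
-/

set_option autoImplicit false

open ModularCurve

namespace Fermat.Agent.INJ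

section Order

variable {R S : Type*} [CommRing R] [CommRing S]

theorem nf_coeffMap_eq_zero_iff (f : R →+* S) (hf : Function.Injective f) (x : LaurentSeries R) :
    coeffMap f x = 0 ↔ x = 0 := by
  constructor
  · intro h
    ext n
    have := congrArg (fun z => z.coeff n) h
    simp only [coeffMap_coeff, HahnSeries.coeff_zero] at this
    rw [HahnSeries.coeff_zero]
    exact hf (by rw [this, map_zero])
  · rintro rfl
    exact map_zero _

theorem nf_order_coeffMap (f : R →+* S) (hf : Function.Injective f) (x : LaurentSeries R) :
    (coeffMap f x).order = x.order := by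
  rcases eq_or_ne x 0 with rfl | hx
  · simp
  have hx' : coeffMap f x ≠ 0 := fun h => hx ((nf_coeffMap_eq_zero_iff f hf x).mp h)
  apply le_antisymm
  · apply HahnSeries.order_le_of_coeff_ne_zero
    rw [coeffMap_coeff]
    intro h
    have h0 : x.coeff x.order = 0 := hf (by rw [h, map_zero])
    exact hx (HahnSeries.coeff_order_eq_zero.mp h0)
  · apply HahnSeries.order_le_of_coeff_ne_zero
    intro h
    have : (coeffMap f x).coeff (coeffMap f x).order = 0 := by
      rw [coeffMap_coeff, h, map_zero]
    exact hx' (HahnSeries.coeff_order_eq_zero.mp this)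

theorem nf_leadingCoeff_coeffMap (f : R →+* S) (hf : Function.Injective f)
    (x : LaurentSeries R) :
    (coeffMap f x).leadingCoeff = f x.leadingCoeff := by
  rw [HahnSeries.leadingCoeff_eq, HahnSeries.leadingCoeff_eq, nf_order_coeffMap f hf,
    coeffMap_coeff]

end Order

section Perfect

variable {L : Type*} [Field L] [IsAlgClosed L]

/-- The residue field of a valuation subring of an algebraically closed field is perfect. -/
theorem nf_perfectRing_residueField (A : ValuationSubring L) (ℓ : ℕ) [Fact ℓ.Prime]
    [CharP (IsLocalRing.ResidueField A) ℓ] :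
    PerfectRing (IsLocalRing.ResidueField A) ℓ := by
  apply PerfectRing.ofSurjective
  intro x
  obtain ⟨a, rfl⟩ := IsLocalRing.residue_surjective x
  have hℓ : 0 < ℓ := (Fact.out : ℓ.Prime).pos
  obtain ⟨b, hb⟩ := IsAlgClosed.exists_pow_nat_eq (a : L) hℓ
  have hbA : b ∈ A := by
    rw [← A.valuation_le_one_iff]
    have h1 : A.valuation (a : L) ≤ 1 := (A.valuation_le_one_iff _).mpr a.2
    rw [← hb, map_pow] at h1
    exact (pow_le_one_iff_of_nonneg zero_le' (Nat.pos_iff_ne_zero.mp hℓ)).mp h1
  refine ⟨IsLocalRing.residue A ⟨b, hbA⟩, ?_⟩
  rw [frobenius_def, ← map_pow]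
  congr 1
  exact Subtype.ext hb

end Perfect

end Fermat.Agent.INJ
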