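import Mathlib
import Fermat.Prelude.Def_ModularCurve_ReductionModL

/-!
# (INJ) B-glue, piece K1: descent of elements of `F_N = ℚ̄(j(q^d) : d ∣ N)` to a number field

* `nf_coeffMap_mem_fullC` : a ring homomorphism of fields `f : K → K'` maps (coefficientwise)
  `modularFunctionFieldFullC K N` into `modularFunctionFieldFullC K' N`.
* `nf_exists_descent` : every `y ∈ modularFunctionFieldBar N` is `coeffMap (K₀ ↪ ℚ̄) y₀` for a
  number field `K₀ ⊂ ℚ̄` and some `y₀ ∈ modularFunctionFieldFullC K₀ N`.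
* `nf_exists_descent_finset` : the same for finitely many elements at once, with `K₀` containing
  a prescribed finite set of constants.
-/

set_option autoImplicit false

open ModularCurve

namespace Fermat.Agent.INJ

/-- `ℚ̄` -/
abbrev NfQb : Type := AlgebraicClosure ℚ

section General

variable {K K' : Type*} [Field K] [Field K']

theorem nf_coeffMap_algebraMap (f : K →+* K') (c : K) :
    coeffMap f (algebraMap K (LaurentSeries K) c) = algebraMap K' (LaurentSeries K') (f c) := by
  rw [algebraMap_laurentSeries_eq_single, algebraMap_laurentSeries_eq_single, coeffMap_single]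

theorem nf_coeffMap_injective (f : K →+* K') : Function.Injective (coeffMap f) := by
  intro x y h
  ext n
  have := congrArg (fun z => z.coeff n) h
  simp only [coeffMap_coeff] at this
  exact f.injective this

/-- `coeffMap f` maps `F_N` over `K` into `F_N` over `K'`. -/
theorem nf_coeffMap_mem_fullC (f : K →+* K') (N : ℕ) {x : LaurentSeries K}
    (hx : x ∈ modularFunctionFieldFullC K N) :
    coeffMap f x ∈ modularFunctionFieldFullC K' N := by
  have hx' : x ∈ Subfield.closure
      (Set.range (algebraMap K (LaurentSeries K)) ∪ divisorExpansionsC K N) := hx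
  clear hx
  induction hx' using Subfield.closure_induction with
  | mem y hy =>
      rcases hy with ⟨a, rfl⟩ | ⟨d, hd, hdN, rfl⟩
      · rw [nf_coeffMap_algebraMap]
        exact (modularFunctionFieldFullC K' N).algebraMap_mem _
      · have : coeffMap f (qExpand K d (jqModC K)) = qExpand K' d (jqModC K') :=
          coeffMap_jqNModC f d
        rw [this]
        exact jqModCd_mem_full K' N hdN
  | one => simp
  | add x y _ _ hx hy => simpa using add_mem hx hy
  | neg x _ hx => simpa using neg_mem hx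
  | inv x _ hx => simpa using inv_mem hx
  | mul x y _ _ hx hy => simpa using mul_mem hx hy

end General

section Descent

variable (N : ℕ)

/-- the descent predicate -/
def NfDescends (y : LaurentSeries NfQb) : Prop :=
  ∃ K₀ : IntermediateField ℚ NfQb, FiniteDimensional ℚ K₀ ∧
    ∃ y₀ : LaurentSeries K₀, y₀ ∈ modularFunctionFieldFullC K₀ N ∧
      coeffMap (algebraMap K₀ NfQb) y₀ = y

variable {N}

theorem nf_coeffMap_inclusion {K₀ K₁ : IntermediateField ℚ NfQb} (h : K₀ ≤ K₁)
    (y₀ : LaurentSeries K₀) :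
    coeffMap (algebraMap K₁ NfQb) (coeffMap (IntermediateField.inclusion h).toRingHom y₀)
      = coeffMap (algebraMap K₀ NfQb) y₀ := by
  rw [coeffMap_coeffMap]
  exact coeffMap_congr (RingHom.ext fun c => rfl) y₀

/-- enlarging the number field -/
theorem NfDescends.mono_aux {K₀ K₁ : IntermediateField ℚ NfQb} (h : K₀ ≤ K₁)
    {y₀ : LaurentSeries K₀} (hy₀ : y₀ ∈ modularFunctionFieldFullC K₀ N) :
    coeffMap (IntermediateField.inclusion h).toRingHom y₀ ∈ modularFunctionFieldFullC K₁ N :=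
  nf_coeffMap_mem_fullC _ N hy₀

theorem nfDescends_algebraMap (c : NfQb) :
    NfDescends N (algebraMap NfQb (LaurentSeries NfQb) c) := by
  have hc : IsIntegral ℚ c := (AlgebraicClosure.isAlgebraic ℚ).isIntegral.isIntegral c
  refine ⟨IntermediateField.adjoin ℚ {c}, IntermediateField.adjoin.finiteDimensional hc,
    algebraMap _ _ (⟨c, IntermediateField.mem_adjoin_simple_self ℚ c⟩ : IntermediateField.adjoin ℚ {c}),
    (modularFunctionFieldFullC _ N).algebraMap_mem _, ?_⟩
  rw [nf_coeffMap_algebraMap]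
  rfl

theorem nfDescends_coeffEmb {z : LaurentSeries ℚ} (hz : z ∈ modularFunctionFieldFull N) :
    NfDescends N (coeffEmb NfQb z) := by
  refine ⟨⊥, inferInstance, coeffMap (algebraMap ℚ (⊥ : IntermediateField ℚ NfQb)) z,
    nf_coeffMap_mem_fullC _ N (by rw [modularFunctionFieldFullC_rat]; exact hz), ?_⟩
  rw [coeffMap_coeffMap]
  exact coeffMap_congr (RingHom.ext fun c => rfl) z

theorem NfDescends.binary {y y' : LaurentSeries NfQb} (hy : NfDescends N y)
    (hy' : NfDescends N y') :
    ∃ K₀ : IntermediateField ℚ NfQb, FiniteDimensional ℚ K₀ ∧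
      ∃ y₀ y₀' : LaurentSeries K₀, y₀ ∈ modularFunctionFieldFullC K₀ N ∧
        y₀' ∈ modularFunctionFieldFullC K₀ N ∧
        coeffMap (algebraMap K₀ NfQb) y₀ = y ∧ coeffMap (algebraMap K₀ NfQb) y₀' = y' := by
  obtain ⟨K₁, hK₁, y₁, hy₁, rfl⟩ := hy
  obtain ⟨K₂, hK₂, y₂, hy₂, rfl⟩ := hy'
  have h1 : K₁ ≤ K₁ ⊔ K₂ := le_sup_left
  have h2 : K₂ ≤ K₁ ⊔ K₂ := le_sup_right
  exact ⟨K₁ ⊔ K₂, IntermediateField.finiteDimensional_sup K₁ K₂, _, _,
    NfDescends.mono_aux h1 hy₁, NfDescends.mono_aux h2 hy₂,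
    nf_coeffMap_inclusion h1 y₁, nf_coeffMap_inclusion h2 y₂⟩

/-- **K1.** Every element of `F_N` over `ℚ̄` is defined over a number field. -/
theorem nf_exists_descent {y : LaurentSeries NfQb} (hy : y ∈ modularFunctionFieldBar N) :
    NfDescends N y := by
  have hy' := mem_laurentBaseChange_iff.mp hy
  clear hy
  induction hy' using Subfield.closure_induction with
  | mem y hy =>
      rcases hy with ⟨a, rfl⟩ | ⟨z, hz, rfl⟩
      · exact nfDescends_algebraMap a
      · exact nfDescends_coeffEmb hz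
  | one =>
      have := nfDescends_algebraMap (N := N) (1 : NfQb)
      rwa [map_one] at this
  | add x y _ _ hx hy =>
      obtain ⟨K₀, hK₀, x₀, y₀, hx₀, hy₀, rfl, rfl⟩ := hx.binary hy
      exact ⟨K₀, hK₀, x₀ + y₀, add_mem hx₀ hy₀, map_add _ _ _⟩
  | neg x _ hx =>
      obtain ⟨K₀, hK₀, x₀, hx₀, rfl⟩ := hx
      exact ⟨K₀, hK₀, -x₀, neg_mem hx₀, map_neg _ _⟩
  | inv x _ hx =>
      obtain ⟨K₀, hK₀, x₀, hx₀, rfl⟩ := hx
      exact ⟨K₀, hK₀, x₀⁻¹, inv_mem hx₀, map_inv₀ _ _⟩
  | mul x y _ _ hx hy =>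
      obtain ⟨K₀, hK₀, x₀, y₀, hx₀, hy₀, rfl, rfl⟩ := hx.binary hy
      exact ⟨K₀, hK₀, x₀ * y₀, mul_mem hx₀ hy₀, map_mul _ _ _⟩

/-- the descent can be done over any larger number field -/
theorem NfDescends.exists_of_le {y : LaurentSeries NfQb} (hy : NfDescends N y) :
    ∃ K₀ : IntermediateField ℚ NfQb, FiniteDimensional ℚ K₀ ∧
      ∀ K₁ : IntermediateField ℚ NfQb, K₀ ≤ K₁ →
        ∃ y₁ : LaurentSeries K₁, y₁ ∈ modularFunctionFieldFullC K₁ N ∧
          coeffMap (algebraMap K₁ NfQb) y₁ = y := by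
  obtain ⟨K₀, hK₀, y₀, hy₀, rfl⟩ := hy
  exact ⟨K₀, hK₀, fun K₁ h => ⟨_, NfDescends.mono_aux h hy₀, nf_coeffMap_inclusion h y₀⟩⟩

/-- **K1, finite sets.** Finitely many elements of `F_N` and finitely many constants live over
one number field. -/
theorem nf_exists_descent_finset (S : Finset NfQb) (Y : Finset (LaurentSeries NfQb))
    (hY : ∀ y ∈ Y, y ∈ modularFunctionFieldBar N) :
    ∃ K₀ : IntermediateField ℚ NfQb, FiniteDimensional ℚ K₀ ∧ (∀ s ∈ S, s ∈ K₀) ∧
      ∀ K₁ : IntermediateField ℚ NfQb, K₀ ≤ K₁ → ∀ y ∈ Y,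
        ∃ y₁ : LaurentSeries K₁, y₁ ∈ modularFunctionFieldFullC K₁ N ∧
          coeffMap (algebraMap K₁ NfQb) y₁ = y := by
  classical
  induction Y using Finset.induction_on with
  | empty =>
      refine ⟨IntermediateField.adjoin ℚ (S : Set NfQb), ?_, ?_, ?_⟩
      · exact IntermediateField.finiteDimensional_adjoin
          (fun x _ => (AlgebraicClosure.isAlgebraic ℚ).isIntegral.isIntegral x)
      · exact fun s hs => IntermediateField.subset_adjoin ℚ _ hs
      · intro K₁ _ y hy
        exact absurd hy (Finset.notMem_empty y)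
  | insert a Y _ ih =>
      obtain ⟨K₀, hK₀, hS, hK⟩ := ih (fun y hy => hY y (Finset.mem_insert_of_mem hy))
      obtain ⟨Ka, hKa, hKa'⟩ :=
        (nf_exists_descent (hY a (Finset.mem_insert_self a Y))).exists_of_le
      refine ⟨K₀ ⊔ Ka, IntermediateField.finiteDimensional_sup K₀ Ka,
        fun s hs => (le_sup_left : K₀ ≤ K₀ ⊔ Ka) (hS s hs), ?_⟩
      intro K₁ hK₁ y hy
      rcases Finset.mem_insert.mp hy with rfl | hy
      · exact hKa' K₁ (le_trans le_sup_right hK₁)
      · exact hK K₁ (le_trans le_sup_left hK₁) y hy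

end Descent

end Fermat.Agent.INJ
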