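import Fermat.Agent.INJ.NumField

/-!
# (INJ) B-glue: the embedding `F_N(K) → F_N(ℚ̄)` for a subfield `K ⊆ ℚ̄`

`nfEmb K₀ N : modularFunctionFieldFullC K₀ N →+* modularFunctionFieldBar N` (coefficientwise
inclusion), the algebra structures it induces and the fact that `F_N(ℚ̄)` is generated over `ℚ̄`
by the image.
-/

set_option autoImplicit false

open ModularCurve

namespace Fermat.Agent.INJ

/-- `F_N` over `ℚ̄` in the two descriptions of the prelude -/
theorem nf_fullC_le_bar (N : ℕ) :
    modularFunctionFieldFullC NfQb N ≤ modularFunctionFieldBar N := by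
  rw [modularFunctionFieldFullC, IntermediateField.adjoin_le_iff]
  rintro _ ⟨d, hd, hdN, rfl⟩
  have h1 : qExpand NfQb d (jqModC NfQb) = coeffEmb NfQb (qExpand ℚ d jq) := by
    have := coeffMap_jqNModC (algebraMap ℚ NfQb) d
    rw [jqNModC, jqNModC, jqModC_rat] at this
    exact this.symm
  rw [h1]
  exact coeffEmb_mem_laurentBaseChange NfQb (jqd_mem_full N hdN)

theorem nf_bar_le_fullC (N : ℕ) :
    modularFunctionFieldBar N ≤ modularFunctionFieldFullC NfQb N := by
  show laurentBaseChange NfQb (modularFunctionFieldFull N) ≤ _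
  rw [laurentBaseChange, IntermediateField.adjoin_le_iff]
  rintro _ ⟨x, hx, rfl⟩
  exact nf_coeffMap_mem_fullC (algebraMap ℚ NfQb) N
    (by rw [modularFunctionFieldFullC_rat]; exact hx)

theorem nf_bar_eq_fullC (N : ℕ) :
    modularFunctionFieldBar N = modularFunctionFieldFullC NfQb N :=
  le_antisymm (nf_bar_le_fullC N) (nf_fullC_le_bar N)

variable (K₀ : IntermediateField ℚ NfQb) (N : ℕ)

theorem nf_coeffMap_mem_bar {x : LaurentSeries K₀} (hx : x ∈ modularFunctionFieldFullC K₀ N) :
    coeffMap (algebraMap K₀ NfQb) x ∈ modularFunctionFieldBar N :=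
  nf_fullC_le_bar N (nf_coeffMap_mem_fullC _ N hx)

/-- the embedding `F_N(K₀) → F_N(ℚ̄)` -/
noncomputable def nfEmb : modularFunctionFieldFullC K₀ N →+* modularFunctionFieldBar N where
  toFun x := ⟨coeffMap (algebraMap K₀ NfQb) x, nf_coeffMap_mem_bar K₀ N x.2⟩
  map_one' := by ext1; simp
  map_mul' x y := by ext1; simp
  map_zero' := by ext1; simp
  map_add' x y := by ext1; simp

@[simp]
theorem nfEmb_coe (x : modularFunctionFieldFullC K₀ N) :
    ((nfEmb K₀ N x : modularFunctionFieldBar N) : LaurentSeries NfQb)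
      = coeffMap (algebraMap K₀ NfQb) (x : LaurentSeries K₀) := rfl

theorem nfEmb_injective : Function.Injective (nfEmb K₀ N) := (nfEmb K₀ N).injective

theorem nfEmb_algebraMap (c : K₀) :
    nfEmb K₀ N (algebraMap K₀ (modularFunctionFieldFullC K₀ N) c)
      = algebraMap NfQb (modularFunctionFieldBar N) (algebraMap K₀ NfQb c) := by
  ext1
  show coeffMap (algebraMap K₀ NfQb) (algebraMap K₀ (LaurentSeries K₀) c) = _
  rw [nf_coeffMap_algebraMap]
  rfl

/-- `F_N(ℚ̄)` is generated over `ℚ̄` by the image of `F_N(K₀)`. -/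
theorem nfEmb_adjoin_range :
    IntermediateField.adjoin NfQb (Set.range (nfEmb K₀ N)) = ⊤ := by
  apply IntermediateField.lift_injective
  rw [IntermediateField.lift_top, IntermediateField.lift_adjoin]
  apply le_antisymm
  · rw [IntermediateField.adjoin_le_iff]
    rintro _ ⟨_, ⟨y, rfl⟩, rfl⟩
    exact (nfEmb K₀ N y).2
  · refine le_trans (nf_bar_le_fullC N) ?_
    rw [modularFunctionFieldFullC, IntermediateField.adjoin_le_iff]
    rintro _ ⟨d, hd, hdN, rfl⟩
    refine IntermediateField.subset_adjoin NfQb _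
      ⟨nfEmb K₀ N ⟨qExpand K₀ d (jqModC K₀), jqModCd_mem_full K₀ N hdN⟩, ⟨_, rfl⟩, ?_⟩
    exact coeffMap_jqNModC (algebraMap K₀ NfQb) d

end Fermat.Agent.INJ
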