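import Mathlib

/-!
# (INJ) B2-T, generic degree count

`hmMem_of_degree`: if `A ≤ B ≤ A(h)`, `[B : A] = n` and `h` is a root of a monic polynomial of degree `n`
over `A`, then `h ∈ B`.
-/

set_option autoImplicit false

open IntermediateField Polynomial

namespace Fermat.Agent.INJ

section Degree

variable {K Lb : Type*} [Field K] [Field Lb] [Algebra K Lb]

/-- **Degree count**: if `A ≤ B`, `[B : A] = n`, `h` is a root of a monic polynomial of degree `n`
over `A` and `B ⊆ A(h)`, then `h ∈ B`. -/
theorem hmMem_of_degree (A B : IntermediateField K Lb) (hAB : A ≤ B) (h : Lb) (n : ℕ)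
    (hn : 0 < n) (hrel : relfinrank A B = n) (P : Polynomial A) (hP : P.Monic)
    (hdeg : P.natDegree = n) (hroot : aeval h P = 0)
    (hgen : B ≤ (IntermediateField.adjoin A {h}).restrictScalars K) : h ∈ B := by
  set C' : IntermediateField A Lb := IntermediateField.adjoin A {h} with hC'
  set C : IntermediateField K Lb := C'.restrictScalars K with hC
  have hint : IsIntegral A h := ⟨P, hP, hroot⟩
  have hAC : A ≤ C := hAB.trans hgen
  have hext : extendScalars hAC = C' := by
    ext x
    rw [mem_extendScalars, hC, mem_restrictScalars]
  have hfin : Module.finrank A C' = (minpoly A h).natDegree :=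
    IntermediateField.adjoin.finrank hint
  have hle : (minpoly A h).natDegree ≤ n := by
    rw [← hdeg]
    exact natDegree_le_of_dvd (minpoly.dvd A h hroot) hP.ne_zero
  have hpos : 0 < (minpoly A h).natDegree := minpoly.natDegree_pos hint
  have hrelAC : relfinrank A C = (minpoly A h).natDegree := by
    rw [relfinrank_eq_finrank_of_le hAC, hext, hfin]
  have hmul := relfinrank_mul_relfinrank hAB hgen
  rw [hrel, hrelAC] at hmul
  have hone : relfinrank B C = 1 := by
    rcases Nat.eq_zero_or_pos (relfinrank B C) with h0 | h0
    · rw [h0, mul_zero] at hmul; omega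
    · by_contra hne
      have h2 : 2 ≤ relfinrank B C := by omega
      have : n * 2 ≤ n * relfinrank B C := Nat.mul_le_mul_left n h2
      omega
  have hCB : C ≤ B := relfinrank_eq_one_iff.mp hone
  apply hCB
  rw [hC, mem_restrictScalars]
  exact IntermediateField.mem_adjoin_simple_self A h

end Degree

end Fermat.Agent.INJ
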