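import Fermat.Agent.INJ.HMScale

/-!
# INJ / B-I3 — the level-3 Hauptmodul identities, formal power series form (norm form)

With `E = eisenstein4`, `D = dedekindEtaUnit` (`Δ = q·D`), `D₃ = D(q³)`, `E₃ = E(q³)`, the two
"norm" identities (the product of the wanted relation for `h` and for `-h`, `h² = Δ(z)/Δ(3z)`,
cleared of denominators) hold in `ℤ[[q]]`:

* `hm_level3_formal`  (from `j h³ = (h+27)(h+243)³`),
* `hm_level3b_formal` (from `j(3z) h = (h+27)(h+3)³`).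

Proof: Sturm bound for weight 48 on `Γ₀(3)` (17 coefficients).
-/

set_option autoImplicit false

noncomputable section

namespace Fermat.Agent.INJ.HM

open UpperHalfPlane ModularForm PowerSeries
open Fermat.Agent.S23 Fermat.Agent.S24 Fermat.Agent.S28
open scoped MatrixGroups ModularForm Manifold

local notation "Δ" => ModularForm.discriminant

/-- the table of `D = ∏(1-qⁿ)^24` up to `q¹²`. -/
def hmDtab13 : List ℤ :=
  [1, -24, 252, -1472, 4830, -6048, -16744, 84480, -113643, -115920, 534612, -370944, -577738]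

theorem hmTr_D13 : HMTr 13 ModularCurve.dedekindEtaUnit hmDtab13 :=
  (hmTr_D 13).congr (by decide +kernel)

/-- generic norm form: `-J² D D₃ + 2 q J M₁ + M₂² - q² D D₃ M₃²`. -/
def hmNorm3 (J M₁ M₂ M₃ : PowerSeries ℤ) : PowerSeries ℤ :=
  X ^ 1 * (C (2 : ℤ) * (J * M₁)) + M₂ ^ 2 -
    (J ^ 2 * (ModularCurve.dedekindEtaUnit * hmDilPS 3 ModularCurve.dedekindEtaUnit) +
      X ^ 2 * (ModularCurve.dedekindEtaUnit * hmDilPS 3 ModularCurve.dedekindEtaUnit * M₃ ^ 2))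

/-- the formal series of the first level-3 norm identity. -/
def hmF3 : PowerSeries ℤ :=
  hmNorm3 (ModularCurve.eisenstein4 ^ 3)
    (C (756 : ℤ) * (ModularCurve.dedekindEtaUnit ^ 2 * hmDilPS 3 ModularCurve.dedekindEtaUnit) +
      X ^ 2 * (C (19131876 : ℤ) *
        (ModularCurve.dedekindEtaUnit * hmDilPS 3 ModularCurve.dedekindEtaUnit ^ 2)))
    (ModularCurve.dedekindEtaUnit ^ 2 +
      (X ^ 2 * (C (196830 : ℤ) *
          (ModularCurve.dedekindEtaUnit * hmDilPS 3 ModularCurve.dedekindEtaUnit)) +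
        X ^ 4 * (C (387420489 : ℤ) * hmDilPS 3 ModularCurve.dedekindEtaUnit ^ 2)))
    (C (756 : ℤ) * ModularCurve.dedekindEtaUnit +
      X ^ 2 * (C (19131876 : ℤ) * hmDilPS 3 ModularCurve.dedekindEtaUnit))

/-- the formal series of the second level-3 norm identity. -/
def hmF3b : PowerSeries ℤ :=
  hmNorm3 (hmDilPS 3 ModularCurve.eisenstein4 ^ 3)
    (ModularCurve.dedekindEtaUnit * hmDilPS 3 ModularCurve.dedekindEtaUnit *
      (C (36 : ℤ) * ModularCurve.dedekindEtaUnit +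
        X ^ 2 * (C (756 : ℤ) * hmDilPS 3 ModularCurve.dedekindEtaUnit)))
    (ModularCurve.dedekindEtaUnit ^ 2 +
      (X ^ 2 * (C (270 : ℤ) *
          (ModularCurve.dedekindEtaUnit * hmDilPS 3 ModularCurve.dedekindEtaUnit)) +
        X ^ 4 * (C (729 : ℤ) * hmDilPS 3 ModularCurve.dedekindEtaUnit ^ 2)))
    (C (36 : ℤ) * ModularCurve.dedekindEtaUnit +
      X ^ 2 * (C (756 : ℤ) * hmDilPS 3 ModularCurve.dedekindEtaUnit))

theorem hmTr_norm3 {n : ℕ} {J M₁ M₂ M₃ : PowerSeries ℤ} {lJ l₁ l₂ l₃ lD lD3 : List ℤ}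
    (hD : HMTr n ModularCurve.dedekindEtaUnit lD)
    (hD3 : HMTr n (hmDilPS 3 ModularCurve.dedekindEtaUnit) lD3)
    (hJ : HMTr n J lJ) (h₁ : HMTr n M₁ l₁) (h₂ : HMTr n M₂ l₂) (h₃ : HMTr n M₃ l₃) :
    HMTr n (hmNorm3 J M₁ M₂ M₃)
      (hmSub n (hmAdd n (hmShift n 1 (hmSmul n 2 (hmMul n lJ l₁))) (hmPow n l₂ 2))
        (hmAdd n (hmMul n (hmPow n lJ 2) (hmMul n lD lD3))
          (hmShift n 2 (hmMul n (hmMul n lD lD3) (hmPow n l₃ 2))))) :=
  ((((hJ.mul h₁).smul 2).shift 1).add (h₂.pow 2)).sub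
    (((hJ.pow 2).mul (hD.mul hD3)).add ((((hD.mul hD3).mul (h₃.pow 2))).shift 2))

theorem hmF3_trunc : ∀ i, i < 13 → coeff i hmF3 = 0 := by
  have hE := hmTr_E4 13
  have hD := hmTr_D13
  have hD3 := hD.dil (d := 3) (by norm_num)
  have hJ := hE.pow 3
  have h₁ := (((hD.pow 2).mul hD3).smul 756).add ((((hD.mul (hD3.pow 2))).smul 19131876).shift 2)
  have h₂ := (hD.pow 2).add ((((hD.mul hD3).smul 196830).shift 2).add
    (((hD3.pow 2).smul 387420489).shift 4))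
  have h₃ := (hD.smul 756).add ((hD3.smul 19131876).shift 2)
  exact HMTr.eq_zero ((hmTr_norm3 hD hD3 hJ h₁ h₂ h₃).congr (by decide +kernel))

theorem hmF3b_trunc : ∀ i, i < 13 → coeff i hmF3b = 0 := by
  have hE := (hmTr_E4 13).dil (d := 3) (by norm_num)
  have hD := hmTr_D13
  have hD3 := hD.dil (d := 3) (by norm_num)
  have hJ := hE.pow 3
  have h₃ := (hD.smul 36).add ((hD3.smul 756).shift 2)
  have h₁ := (hD.mul hD3).mul h₃
  have h₂ := (hD.pow 2).add ((((hD.mul hD3).smul 270).shift 2).add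
    (((hD3.pow 2).smul 729).shift 4))
  exact HMTr.eq_zero ((hmTr_norm3 hD hD3 hJ h₁ h₂ h₃).congr (by decide +kernel))

/-! ### the analytic side -/

/-- analytic norm form. -/
def hmNorm3a (Ja M1a M2a M3a : ℍ → ℂ) : ℍ → ℂ :=
  (2 : ℂ) • (Ja * M1a) + M2a ^ 2 -
    (Ja ^ 2 * ((Δ : ℍ → ℂ) * deltaNFun 3) + (Δ : ℍ → ℂ) * deltaNFun 3 * M3a ^ 2)

theorem hm_isMF_norm3a {Ja M1a M2a M3a : ℍ → ℂ} (hJ : IsMF (G0 3) 12 Ja)
    (h1 : IsMF (G0 3) 36 M1a) (h2 : IsMF (G0 3) 24 M2a) (h3 : IsMF (G0 3) 12 M3a) :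
    IsMF (G0 3) 48 (hmNorm3a Ja M1a M2a M3a) := by
  have hΔ : IsMF (G0 3) 12 (Δ : ℍ → ℂ) := isMF_discriminant 3
  have hΔ3 : IsMF (G0 3) 12 (deltaNFun 3) := hm_isMF_DeltaN 3
  have a1 := ((hJ.mul h1).const_smul 2).of_weight_eq (show (12 : ℤ) + 36 = 48 by norm_num)
  have a2 := (h2.pow 2).of_weight_eq (show ((2 : ℕ) : ℤ) * 24 = 48 by norm_num)
  have a3 := ((hJ.pow 2).mul (hΔ.mul hΔ3)).of_weight_eq
    (show ((2 : ℕ) : ℤ) * 12 + (12 + 12) = 48 by norm_num)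
  have a4 := ((hΔ.mul hΔ3).mul (h3.pow 2)).of_weight_eq
    (show (12 : ℤ) + 12 + ((2 : ℕ) : ℤ) * 12 = 48 by norm_num)
  exact (a1.add a2).sub (a3.add a4)

theorem hm_qExp_norm3a {Ja M1a M2a M3a : ℍ → ℂ} {J M₁ M₂ M₃ : PowerSeries ℤ}
    (hJ : IsMF (G0 3) 12 Ja) (h1 : IsMF (G0 3) 36 M1a) (h2 : IsMF (G0 3) 24 M2a)
    (h3 : IsMF (G0 3) 12 M3a)
    (qJ : qExpansion 1 Ja = hmC J) (q1 : qExpansion 1 M1a = X ^ 5 * hmC M₁)
    (q2 : qExpansion 1 M2a = X ^ 2 * hmC M₂) (q3 : qExpansion 1 M3a = X ^ 1 * hmC M₃) :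
    qExpansion 1 (hmNorm3a Ja M1a M2a M3a) = X ^ 4 * hmC (hmNorm3 J M₁ M₂ M₃) := by
  have hΔ : IsMF (G0 3) 12 (Δ : ℍ → ℂ) := isMF_discriminant 3
  have hΔ3 : IsMF (G0 3) 12 (deltaNFun 3) := hm_isMF_DeltaN 3
  have a1 := (hJ.mul h1).const_smul 2
  have a2 := h2.pow 2
  have a3 := (hJ.pow 2).mul (hΔ.mul hΔ3)
  have a4 := (hΔ.mul hΔ3).mul (h3.pow 2)
  rw [hmNorm3a, (a1.add a2).qExpansion_sub (a3.add a4), a1.qExpansion_add a2,
    a3.qExpansion_add a4, (hJ.mul h1).qExpansion_smul, hJ.qExpansion_mul h1,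
    h2.qExpansion_pow, (hJ.pow 2).qExpansion_mul (hΔ.mul hΔ3), hJ.qExpansion_pow,
    hΔ.qExpansion_mul hΔ3, (hΔ.mul hΔ3).qExpansion_mul (h3.pow 2), hΔ.qExpansion_mul hΔ3,
    h3.qExpansion_pow, qJ, q1, q2, q3, hm_qExp_Delta, hm_qExp_DeltaN, hmNorm3]
  rw [PowerSeries.smul_eq_C_mul]
  simp only [map_sub, map_mul, map_pow, map_add, PowerSeries.map_X, map_ofNat]
  ring

/-- a form of weight 48 on `Γ₀(3)` of the shape `q⁴ · F` vanishes as soon as `F ≡ 0 mod q¹³`. -/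
theorem hm_level3_vanish {G : ℍ → ℂ} {F : PowerSeries ℤ} (hG : IsMF (G0 3) 48 G)
    (hq : qExpansion 1 G = X ^ 4 * hmC F) (hF : ∀ i, i < 13 → coeff i F = 0) : F = 0 := by
  have hq0 : qExpansion 1 G = 0 := by
    refine hm_sturm 3 hG 16 ?_ ?_
    · rw [hm_index3]; decide
    · intro n hn
      rw [hq, PowerSeries.coeff_X_pow_mul']
      split_ifs with h
      · rw [hmC, PowerSeries.coeff_map, hF _ (by omega)]
        simp
      · rfl
  rw [hq] at hq0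
  have h2 : hmC F = 0 := by
    rcases mul_eq_zero.mp hq0 with h | h
    · exact absurd h (pow_ne_zero 4 PowerSeries.X_ne_zero)
    · exact h
  exact hmC_injective (by rw [h2, map_zero])

/-- the monomial `c Δ^i Δ(3·)^j`. -/
def hmMono3 (c : ℤ) (i j : ℕ) : ℍ → ℂ := (c : ℂ) • ((Δ : ℍ → ℂ) ^ i * deltaNFun 3 ^ j)

theorem hm_isMF_mono3 (c : ℤ) (i j : ℕ) {k : ℤ} (hk : 12 * ((i : ℤ) + j) = k) :
    IsMF (G0 3) k (hmMono3 c i j) := by
  have hΔ : IsMF (G0 3) 12 (Δ : ℍ → ℂ) := isMF_discriminant 3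
  have hΔ3 : IsMF (G0 3) 12 (deltaNFun 3) := hm_isMF_DeltaN 3
  exact (((hΔ.pow i).mul (hΔ3.pow j)).const_smul c).of_weight_eq (by rw [← hk]; ring)

theorem hm_qExp_mono3 (c : ℤ) (i j : ℕ) :
    qExpansion 1 (hmMono3 c i j) =
      X ^ (i + 3 * j) * ((c : PowerSeries ℂ) * (hmC ModularCurve.dedekindEtaUnit ^ i *
        hmC (hmDilPS 3 ModularCurve.dedekindEtaUnit) ^ j)) := by
  have hΔ : IsMF (G0 3) 12 (Δ : ℍ → ℂ) := isMF_discriminant 3
  have hΔ3 : IsMF (G0 3) 12 (deltaNFun 3) := hm_isMF_DeltaN 3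
  have a := (hΔ.pow i).mul (hΔ3.pow j)
  rw [hmMono3, a.qExpansion_smul, (hΔ.pow i).qExpansion_mul (hΔ3.pow j), hΔ.qExpansion_pow,
    hΔ3.qExpansion_pow, hm_qExp_Delta, hm_qExp_DeltaN, PowerSeries.smul_eq_C_mul]
  have hc : (C (c : ℂ) : PowerSeries ℂ) = (c : PowerSeries ℂ) := by
    simp
  rw [hc]
  ring

/-! ### first identity -/

def hmM1a : ℍ → ℂ := hmMono3 756 2 1 + hmMono3 19131876 1 2
def hmM2a : ℍ → ℂ := hmMono3 1 2 0 + (hmMono3 196830 1 1 + hmMono3 387420489 0 2)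
def hmM3a : ℍ → ℂ := hmMono3 756 1 0 + hmMono3 19131876 0 1

/-- the analytic form of the first level-3 norm identity. -/
def hmG3 : ℍ → ℂ := hmNorm3a ((E₄ : ℍ → ℂ) ^ 3) hmM1a hmM2a hmM3a

theorem hm_isMF_M1a : IsMF (G0 3) 36 hmM1a :=
  (hm_isMF_mono3 _ _ _ (by norm_num)).add (hm_isMF_mono3 _ _ _ (by norm_num))

theorem hm_isMF_M2a : IsMF (G0 3) 24 hmM2a :=
  (hm_isMF_mono3 _ _ _ (by norm_num)).add
    ((hm_isMF_mono3 _ _ _ (by norm_num)).add (hm_isMF_mono3 _ _ _ (by norm_num)))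

theorem hm_isMF_M3a : IsMF (G0 3) 12 hmM3a :=
  (hm_isMF_mono3 _ _ _ (by norm_num)).add (hm_isMF_mono3 _ _ _ (by norm_num))

theorem hm_isMF_E4cube3 : IsMF (G0 3) 12 ((E₄ : ℍ → ℂ) ^ 3) :=
  ((hm_isMF_E4 3).pow 3).of_weight_eq (by norm_num)

theorem hm_qExp_G3 : qExpansion 1 hmG3 = X ^ 4 * hmC hmF3 := by
  refine hm_qExp_norm3a hm_isMF_E4cube3 hm_isMF_M1a hm_isMF_M2a hm_isMF_M3a ?_ ?_ ?_ ?_
  · rw [(hm_isMF_E4 3).qExpansion_pow, hm_qExp_E4, map_pow]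
  · rw [hmM1a, (hm_isMF_mono3 756 2 1 (k := 36) (by norm_num)).qExpansion_add
      (hm_isMF_mono3 19131876 1 2 (k := 36) (by norm_num)), hm_qExp_mono3, hm_qExp_mono3]
    simp only [map_mul, map_pow, map_add, PowerSeries.map_X, map_ofNat, Int.cast_ofNat]
    ring
  · rw [hmM2a, (hm_isMF_mono3 1 2 0 (k := 24) (by norm_num)).qExpansion_add
      ((hm_isMF_mono3 196830 1 1 (k := 24) (by norm_num)).add
        (hm_isMF_mono3 387420489 0 2 (k := 24) (by norm_num))),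
      (hm_isMF_mono3 196830 1 1 (k := 24) (by norm_num)).qExpansion_add
        (hm_isMF_mono3 387420489 0 2 (k := 24) (by norm_num)),
      hm_qExp_mono3, hm_qExp_mono3, hm_qExp_mono3]
    simp only [map_mul, map_pow, map_add, PowerSeries.map_X, map_ofNat, Int.cast_ofNat,
      Int.cast_one]
    ring
  · rw [hmM3a, (hm_isMF_mono3 756 1 0 (k := 12) (by norm_num)).qExpansion_add
      (hm_isMF_mono3 19131876 0 1 (k := 12) (by norm_num)), hm_qExp_mono3, hm_qExp_mono3]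
    simp only [map_mul, map_pow, map_add, PowerSeries.map_X, map_ofNat, Int.cast_ofNat]
    ring

/-- **Level 3, first norm identity** (formal). -/
theorem hm_level3_formal : hmF3 = 0 :=
  hm_level3_vanish
    (hm_isMF_norm3a hm_isMF_E4cube3 hm_isMF_M1a hm_isMF_M2a hm_isMF_M3a) hm_qExp_G3 hmF3_trunc

/-! ### second identity -/

def hmM1b : ℍ → ℂ := hmMono3 36 2 1 + hmMono3 756 1 2
def hmM2b : ℍ → ℂ := hmMono3 1 2 0 + (hmMono3 270 1 1 + hmMono3 729 0 2)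
def hmM3b : ℍ → ℂ := hmMono3 36 1 0 + hmMono3 756 0 1

/-- the analytic form of the second level-3 norm identity. -/
def hmG3b : ℍ → ℂ := hmNorm3a (hmE4N 3 ^ 3) hmM1b hmM2b hmM3b

theorem hm_isMF_M1b : IsMF (G0 3) 36 hmM1b :=
  (hm_isMF_mono3 _ _ _ (by norm_num)).add (hm_isMF_mono3 _ _ _ (by norm_num))

theorem hm_isMF_M2b : IsMF (G0 3) 24 hmM2b :=
  (hm_isMF_mono3 _ _ _ (by norm_num)).add
    ((hm_isMF_mono3 _ _ _ (by norm_num)).add (hm_isMF_mono3 _ _ _ (by norm_num)))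

theorem hm_isMF_M3b : IsMF (G0 3) 12 hmM3b :=
  (hm_isMF_mono3 _ _ _ (by norm_num)).add (hm_isMF_mono3 _ _ _ (by norm_num))

theorem hm_isMF_E4Ncube3 : IsMF (G0 3) 12 (hmE4N 3 ^ 3) :=
  ((hm_isMF_E4N 3).pow 3).of_weight_eq (by norm_num)

theorem hm_qExp_G3b : qExpansion 1 hmG3b = X ^ 4 * hmC hmF3b := by
  refine hm_qExp_norm3a hm_isMF_E4Ncube3 hm_isMF_M1b hm_isMF_M2b hm_isMF_M3b ?_ ?_ ?_ ?_
  · rw [(hm_isMF_E4N 3).qExpansion_pow, hm_qExp_E4N, map_pow]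
  · rw [hmM1b, (hm_isMF_mono3 36 2 1 (k := 36) (by norm_num)).qExpansion_add
      (hm_isMF_mono3 756 1 2 (k := 36) (by norm_num)), hm_qExp_mono3, hm_qExp_mono3]
    simp only [map_mul, map_pow, map_add, PowerSeries.map_X, map_ofNat, Int.cast_ofNat]
    ring
  · rw [hmM2b, (hm_isMF_mono3 1 2 0 (k := 24) (by norm_num)).qExpansion_add
      ((hm_isMF_mono3 270 1 1 (k := 24) (by norm_num)).add
        (hm_isMF_mono3 729 0 2 (k := 24) (by norm_num))),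
      (hm_isMF_mono3 270 1 1 (k := 24) (by norm_num)).qExpansion_add
        (hm_isMF_mono3 729 0 2 (k := 24) (by norm_num)),
      hm_qExp_mono3, hm_qExp_mono3, hm_qExp_mono3]
    simp only [map_mul, map_pow, map_add, PowerSeries.map_X, map_ofNat, Int.cast_ofNat,
      Int.cast_one]
    ring
  · rw [hmM3b, (hm_isMF_mono3 36 1 0 (k := 12) (by norm_num)).qExpansion_add
      (hm_isMF_mono3 756 0 1 (k := 12) (by norm_num)), hm_qExp_mono3, hm_qExp_mono3]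
    simp only [map_mul, map_pow, map_add, PowerSeries.map_X, map_ofNat, Int.cast_ofNat]
    ring

/-- **Level 3, second norm identity** (formal). -/
theorem hm_level3b_formal : hmF3b = 0 :=
  hm_level3_vanish
    (hm_isMF_norm3a hm_isMF_E4Ncube3 hm_isMF_M1b hm_isMF_M2b hm_isMF_M3b) hm_qExp_G3b hmF3b_trunc

end Fermat.Agent.INJ.HM
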