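import Fermat.Agent.INJ.Hauptmodul2Formal
import Fermat.Agent.INJ.Hauptmodul3Formal
import Fermat.Prelude.Def_ModularCurve_JqCoeff
import Fermat.Prelude.Thm_ModularCurve_coeffMap_qExpand

/-!
# INJ / B-I3 — the Hauptmoduln of `X₀(2)` and `X₀(3)` as Laurent series over any commutative ring

* `hm2 K = q⁻¹ ∏ ((1-qⁿ)/(1-q²ⁿ))²⁴`, `hm3 K = q⁻¹ ∏ ((1-qⁿ)/(1-q³ⁿ))¹²`  (`K` any commutative ring),
  `hm2_eq`, `hm3_eq` : `hmN K = single (-1) 1 * ofPowerSeries (unit with constant coefficient 1)`,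
  `hm2_map`, `hm3_map` : compatibility with `coeffMap`.
* `hm2_j  : jqModC K * hm2 K ^ 2 = (hm2 K + 256) ^ 3`
* `hm2_j2 : jqNModC K 2 * hm2 K = (hm2 K + 16) ^ 3`
* `hm3_j  : jqModC K * hm3 K ^ 3 = (hm3 K + 27) * (hm3 K + 243) ^ 3`
* `hm3_j3 : jqNModC K 3 * hm3 K = (hm3 K + 27) * (hm3 K + 3) ^ 3`
-/

set_option autoImplicit false

noncomputable section

namespace Fermat.Agent.INJ

open PowerSeries HahnSeries ModularCurve Fermat.Agent.INJ.HM

/-! ### power series preliminaries -/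

theorem hm_constantCoeff_dil (N : ℕ) (F : PowerSeries ℤ) :
    PowerSeries.constantCoeff (hmDilPS N F) = PowerSeries.constantCoeff F := by
  rw [← PowerSeries.coeff_zero_eq_constantCoeff_apply, coeff_hmDilPS, if_pos (dvd_zero N),
    Nat.zero_div, PowerSeries.coeff_zero_eq_constantCoeff_apply]

/-- the inverse of `F(q^N)` for a series `F` with constant coefficient `1`. -/
def hmInvDil (N : ℕ) (F : PowerSeries ℤ) : PowerSeries ℤ := (hmDilPS N F).invOfUnit 1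

theorem hm_dil_mul_inv (N : ℕ) {F : PowerSeries ℤ} (hF : PowerSeries.constantCoeff F = 1) :
    hmDilPS N F * hmInvDil N F = 1 :=
  PowerSeries.mul_invOfUnit _ _ (by rw [hm_constantCoeff_dil, hF]; rfl)

theorem hm_constantCoeff_invDil (N : ℕ) {F : PowerSeries ℤ}
    (hF : PowerSeries.constantCoeff F = 1) : PowerSeries.constantCoeff (hmInvDil N F) = 1 := by
  have h := congrArg (PowerSeries.constantCoeff (R := ℤ)) (hm_dil_mul_inv N hF)
  rwa [map_mul, hm_constantCoeff_dil, hF, one_mul, map_one] at h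

/-- unit part of the Hauptmodul of level 2: `D(q)/D(q²)`. -/
def hm2U : PowerSeries ℤ := dedekindEtaUnit * hmInvDil 2 dedekindEtaUnit

/-- unit part of the Hauptmodul of level 3: `(e(q)/e(q³))¹²`, `e = ∏ (1 - qⁿ)`. -/
def hm3U : PowerSeries ℤ := etaProd ^ 12 * hmInvDil 3 etaProd ^ 12

theorem constantCoeff_hm2U : PowerSeries.constantCoeff hm2U = 1 := by
  rw [hm2U, map_mul, constantCoeff_dedekindEtaUnit,
    hm_constantCoeff_invDil 2 constantCoeff_dedekindEtaUnit, one_mul]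

theorem constantCoeff_hm3U : PowerSeries.constantCoeff hm3U = 1 := by
  rw [hm3U, map_mul, map_pow, map_pow, constantCoeff_etaProd,
    hm_constantCoeff_invDil 3 constantCoeff_etaProd, one_pow, one_mul]

/-! ### commutative algebra -/

theorem hm_alg2 {R : Type*} [CommRing R] [IsDomain R] (J E3 D D2 u c0 : R)
    (hJ : E3 = J * D) (hu : D = u * D2) (h3 : E3 * D * D2 = (D + c0 * D2) ^ 3) (hD2 : D2 ≠ 0) :
    J * u ^ 2 = (u + c0) ^ 3 := by
  subst hJ
  subst hu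
  have h : (J * u ^ 2 - (u + c0) ^ 3) * D2 ^ 3 = 0 := by linear_combination h3
  rcases mul_eq_zero.mp h with h | h
  · exact sub_eq_zero.mp h
  · exact absurd h (pow_ne_zero 3 hD2)

theorem hm_alg2b {R : Type*} [CommRing R] [IsDomain R] (J2 E3 D D2 u c0 : R)
    (hJ : E3 = J2 * D2) (hu : D = u * D2) (h3 : E3 * D * D2 = (D + c0 * D2) ^ 3) (hD2 : D2 ≠ 0) :
    J2 * u = (u + c0) ^ 3 := by
  subst hJ
  subst hu
  have h : (J2 * u - (u + c0) ^ 3) * D2 ^ 3 = 0 := by linear_combination h3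
  rcases mul_eq_zero.mp h with h | h
  · exact sub_eq_zero.mp h
  · exact absurd h (pow_ne_zero 3 hD2)

/-- the norm trick: `P₊ · P₋ = 0`, `P₋ ≠ 0` ⇒ `P₊ = 0`. -/
theorem hm_alg3 {R : Type*} [CommRing R] [IsDomain R] (J E3 D D3 u X : R)
    (a b c d e : R) (hJ : E3 = J * D) (hu : D = u ^ 2 * D3)
    (hB : ∀ t : R, (u + 27 * t) * (u + 243 * t) ^ 3 =
      u ^ 4 + a * t * u ^ 3 + c * t ^ 2 * u ^ 2 + b * t ^ 3 * u + d * t ^ 4)
    (hF : X * (2 * (E3 * (a * (D ^ 2 * D3) + X ^ 2 * (b * (D * D3 ^ 2))))) +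
        (D ^ 2 + (X ^ 2 * (c * (D * D3)) + X ^ 4 * (d * D3 ^ 2))) ^ 2 -
        (E3 ^ 2 * (D * D3) + X ^ 2 * (D * D3 * (a * D + X ^ 2 * (b * D3)) ^ 2)) = e)
    (he : e = 0) (hD3 : D3 ≠ 0)
    (hm : -(J * u ^ 3) - (u - 27 * X) * (u - 243 * X) ^ 3 ≠ 0) :
    J * u ^ 3 = (u + 27 * X) * (u + 243 * X) ^ 3 := by
  subst hJ
  subst hu
  subst he
  have h1 := hB X
  have h2 := hB (-X)
  have h : (J * u ^ 3 - (u + 27 * X) * (u + 243 * X) ^ 3) *
      (-(J * u ^ 3) - (u - 27 * X) * (u - 243 * X) ^ 3) * D3 ^ 4 = 0 := by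
    have e1 : (u - 27 * X) * (u - 243 * X) ^ 3 =
        u ^ 4 - a * X * u ^ 3 + c * X ^ 2 * u ^ 2 - b * X ^ 3 * u + d * X ^ 4 := by
      linear_combination h2
    rw [h1, e1]
    linear_combination hF
  rcases mul_eq_zero.mp h with h | h
  · rcases mul_eq_zero.mp h with h | h
    · exact sub_eq_zero.mp h
    · exact absurd h hm
  · exact absurd h (pow_ne_zero 4 hD3)

theorem hm_alg3b {R : Type*} [CommRing R] [IsDomain R] (J3 E3 D D3 u X : R)
    (a b c d e : R) (hJ : E3 = J3 * D3) (hu : D = u ^ 2 * D3)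
    (hB : ∀ t : R, (u + 27 * t) * (u + 3 * t) ^ 3 =
      u ^ 4 + a * t * u ^ 3 + c * t ^ 2 * u ^ 2 + b * t ^ 3 * u + d * t ^ 4)
    (hF : X * (2 * (E3 * (D * D3 * (a * D + X ^ 2 * (b * D3))))) +
        (D ^ 2 + (X ^ 2 * (c * (D * D3)) + X ^ 4 * (d * D3 ^ 2))) ^ 2 -
        (E3 ^ 2 * (D * D3) + X ^ 2 * (D * D3 * (a * D + X ^ 2 * (b * D3)) ^ 2)) = e)
    (he : e = 0) (hD3 : D3 ≠ 0)
    (hm : -(J3 * u) - (u - 27 * X) * (u - 3 * X) ^ 3 ≠ 0) :
    J3 * u = (u + 27 * X) * (u + 3 * X) ^ 3 := by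
  subst hJ
  subst hu
  subst he
  have h1 := hB X
  have h2 := hB (-X)
  have h : (J3 * u - (u + 27 * X) * (u + 3 * X) ^ 3) *
      (-(J3 * u) - (u - 27 * X) * (u - 3 * X) ^ 3) * D3 ^ 4 = 0 := by
    have e1 : (u - 27 * X) * (u - 3 * X) ^ 3 =
        u ^ 4 - a * X * u ^ 3 + c * X ^ 2 * u ^ 2 - b * X ^ 3 * u + d * X ^ 4 := by
      linear_combination h2
    rw [h1, e1]
    linear_combination hF
  rcases mul_eq_zero.mp h with h | h
  · rcases mul_eq_zero.mp h with h | h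
    · exact sub_eq_zero.mp h
    · exact absurd h hm
  · exact absurd h (pow_ne_zero 4 hD3)

/-! ### the power series identities -/

theorem hm_ne_zero_of_constantCoeff {F : PowerSeries ℤ} {c : ℤ} (hc : c ≠ 0)
    (hF : PowerSeries.constantCoeff F = c) : F ≠ 0 := by
  rintro rfl
  exact hc (by rw [← hF, map_zero])

theorem hm_E_eq : eisenstein4 ^ 3 = jNum * dedekindEtaUnit := by
  rw [jNum, mul_assoc, mul_comm dedekindEtaUnitInv, dedekindEtaUnit_mul_inv, mul_one]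

theorem hm_D_eq2 : dedekindEtaUnit = hm2U * hmDilPS 2 dedekindEtaUnit := by
  rw [hm2U, mul_assoc, mul_comm (hmInvDil 2 _), hm_dil_mul_inv 2 constantCoeff_dedekindEtaUnit,
    mul_one]

theorem hm_dil_E_eq (N : ℕ) (hN : N ≠ 0) :
    hmDilPS N eisenstein4 ^ 3 = hmDilPS N jNum * hmDilPS N dedekindEtaUnit := by
  rw [← hmDilPS_pow N hN, ← hmDilPS_mul N hN, hm_E_eq]

theorem hm_D_eq3 : dedekindEtaUnit = hm3U ^ 2 * hmDilPS 3 dedekindEtaUnit := by
  have h1 : hmDilPS 3 dedekindEtaUnit = hmDilPS 3 etaProd ^ 24 := by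
    rw [dedekindEtaUnit, hmDilPS_pow 3 (by norm_num)]
  have h2 := hm_dil_mul_inv 3 constantCoeff_etaProd
  rw [h1, hm3U, dedekindEtaUnit]
  calc etaProd ^ 24 = etaProd ^ 24 * (hmDilPS 3 etaProd * hmInvDil 3 etaProd) ^ 24 := by
        rw [h2, one_pow, mul_one]
    _ = (etaProd ^ 12 * hmInvDil 3 etaProd ^ 12) ^ 2 * hmDilPS 3 etaProd ^ 24 := by ring

/-- level 2, `d = 1`, power series form. -/
theorem hm2U_j : jNum * hm2U ^ 2 = (hm2U + PowerSeries.C (256 : ℤ) * X) ^ 3 := by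
  refine hm_alg2 jNum (eisenstein4 ^ 3) dedekindEtaUnit (hmDilPS 2 dedekindEtaUnit) hm2U
    (PowerSeries.C (256 : ℤ) * X) hm_E_eq hm_D_eq2 ?_ ?_
  · have := hm_level2_formal
    rw [this]; ring
  · exact hm_ne_zero_of_constantCoeff one_ne_zero
      (by rw [hm_constantCoeff_dil, constantCoeff_dedekindEtaUnit])

/-- level 2, `d = 2`, power series form. -/
theorem hm2U_j2 : hmDilPS 2 jNum * hm2U = (hm2U + PowerSeries.C (16 : ℤ) * X) ^ 3 := by
  refine hm_alg2b (hmDilPS 2 jNum) (hmDilPS 2 eisenstein4 ^ 3) dedekindEtaUnit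
    (hmDilPS 2 dedekindEtaUnit) hm2U (PowerSeries.C (16 : ℤ) * X) (hm_dil_E_eq 2 (by norm_num)) hm_D_eq2 ?_ ?_
  · have := hm_level2b_formal
    rw [this]; ring
  · exact hm_ne_zero_of_constantCoeff one_ne_zero
      (by rw [hm_constantCoeff_dil, constantCoeff_dedekindEtaUnit])

theorem hm_constantCoeff_X_mul (c : ℤ) :
    PowerSeries.constantCoeff (PowerSeries.C c * (X : PowerSeries ℤ)) = 0 := by
  simp

/-- level 3, `d = 1`, power series form. -/
theorem hm3U_j :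
    jNum * hm3U ^ 3 = (hm3U + PowerSeries.C (27 : ℤ) * X) * (hm3U + PowerSeries.C (243 : ℤ) * X) ^ 3 := by
  have key := hm_alg3 jNum (eisenstein4 ^ 3) dedekindEtaUnit (hmDilPS 3 dedekindEtaUnit) hm3U
    (X : PowerSeries ℤ) 756 19131876 196830 387420489 hmF3 hm_E_eq hm_D_eq3
    (fun t => by ring) ?_ hm_level3_formal ?_ ?_
  · rw [key]
    simp only [map_ofNat]
  · rw [hmF3, hmNorm3]
    simp only [map_ofNat]
    ring
  · exact hm_ne_zero_of_constantCoeff one_ne_zero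
      (by rw [hm_constantCoeff_dil, constantCoeff_dedekindEtaUnit])
  · refine hm_ne_zero_of_constantCoeff (c := -2) (by norm_num) ?_
    simp [constantCoeff_hm3U]

/-- level 3, `d = 3`, power series form. -/
theorem hm3U_j3 :
    hmDilPS 3 jNum * hm3U = (hm3U + PowerSeries.C (27 : ℤ) * X) * (hm3U + PowerSeries.C (3 : ℤ) * X) ^ 3 := by
  have key := hm_alg3b (hmDilPS 3 jNum) (hmDilPS 3 eisenstein4 ^ 3) dedekindEtaUnit
    (hmDilPS 3 dedekindEtaUnit) hm3U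
    (X : PowerSeries ℤ) 36 756 270 729 hmF3b (hm_dil_E_eq 3 (by norm_num)) hm_D_eq3
    (fun t => by ring) ?_ hm_level3b_formal ?_ ?_
  · rw [key]
    simp only [map_ofNat]
  · rw [hmF3b, hmNorm3]
    simp only [map_ofNat]
    ring
  · exact hm_ne_zero_of_constantCoeff one_ne_zero
      (by rw [hm_constantCoeff_dil, constantCoeff_dedekindEtaUnit])
  · refine hm_ne_zero_of_constantCoeff (c := -2) (by norm_num) ?_
    simp [constantCoeff_hm3U, hm_constantCoeff_dil]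

/-! ### Laurent series over `ℤ` -/

/-- `q⁻¹` in `ℤ((q))`. -/
def hmQinv : LaurentSeries ℤ := HahnSeries.single (-1 : ℤ) (1 : ℤ)

/-- the embedding `ℤ[[q]] → ℤ((q))`. -/
abbrev hmPhi : PowerSeries ℤ →+* LaurentSeries ℤ := HahnSeries.ofPowerSeries ℤ ℤ

theorem hmQinv_mul_X : hmQinv * hmPhi PowerSeries.X = 1 := by
  rw [hmQinv, hmPhi, HahnSeries.ofPowerSeries_X, HahnSeries.single_mul_single]
  simp

theorem hm_jqModC_int : jqModC ℤ = hmQinv * hmPhi jNum := by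
  rw [jqModC, hmQinv, hmPhi]
  congr 2

theorem hm_qExpand_phi (N : ℕ) [NeZero N] (u : PowerSeries ℤ) :
    qExpand ℤ N (hmPhi u) = hmPhi (hmDilPS N u) := by
  have hN : (N : ℤ) ≠ 0 := by exact_mod_cast NeZero.ne N
  have hNpos : (0 : ℤ) < N := by exact_mod_cast Nat.pos_of_ne_zero (NeZero.ne N)
  ext k
  by_cases hk : (N : ℤ) ∣ k
  · obtain ⟨m, rfl⟩ := hk
    rw [qExpand_coeff_mul]
    rcases le_or_gt 0 m with hm | hm
    · lift m to ℕ using hm
      rw [hmPhi, HahnSeries.ofPowerSeries_apply_coeff,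
        show (N : ℤ) * (m : ℤ) = ((N * m : ℕ) : ℤ) by push_cast; ring,
        HahnSeries.ofPowerSeries_apply_coeff, coeff_hmDilPS, if_pos (dvd_mul_right N m),
        Nat.mul_div_cancel_left _ (Nat.pos_of_ne_zero (NeZero.ne N))]
    · rw [hmPhi, ofPowerSeries_coeff_of_neg _ hm,
        ofPowerSeries_coeff_of_neg _ (mul_neg_of_pos_of_neg hNpos hm)]
  · rw [qExpand_coeff_of_not_dvd N _ hk]
    rcases le_or_gt 0 k with hk0 | hk0
    · lift k to ℕ using hk0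
      have hk' : ¬ N ∣ k := fun h => hk (Int.natCast_dvd_natCast.mpr h)
      rw [hmPhi, HahnSeries.ofPowerSeries_apply_coeff, coeff_hmDilPS, if_neg hk']
    · rw [hmPhi, ofPowerSeries_coeff_of_neg _ hk0]

theorem hm_qExpand_qinv (N : ℕ) [NeZero N] : qExpand ℤ N hmQinv = hmQinv ^ N := by
  rw [hmQinv, qExpand_single, HahnSeries.single_pow, one_pow]
  congr 1

theorem hm_jqNModC_int (N : ℕ) [NeZero N] :
    jqNModC ℤ N = hmQinv ^ N * hmPhi (hmDilPS N jNum) := by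
  rw [jqNModC, hm_jqModC_int, map_mul, hm_qExpand_qinv, hm_qExpand_phi]

/-- the Hauptmodul of `X₀(2)` over `ℤ`: `q⁻¹ ∏ ((1-qⁿ)/(1-q²ⁿ))²⁴`. -/
def hm2Z : LaurentSeries ℤ := hmQinv * hmPhi hm2U

/-- the Hauptmodul of `X₀(3)` over `ℤ`: `q⁻¹ ∏ ((1-qⁿ)/(1-q³ⁿ))¹²`. -/
def hm3Z : LaurentSeries ℤ := hmQinv * hmPhi hm3U

theorem hm2Z_j : jqModC ℤ * hm2Z ^ 2 = (hm2Z + 256) ^ 3 := by
  have key := congrArg hmPhi hm2U_j
  simp only [map_mul, map_pow, map_add, map_ofNat] at key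
  rw [hm_jqModC_int, hm2Z]
  calc hmQinv * hmPhi jNum * (hmQinv * hmPhi hm2U) ^ 2
      = hmQinv ^ 3 * (hmPhi jNum * hmPhi hm2U ^ 2) := by ring
    _ = (hmQinv * hmPhi hm2U + 256 * (hmQinv * hmPhi PowerSeries.X)) ^ 3 := by rw [key]; ring
    _ = _ := by rw [hmQinv_mul_X, mul_one]

theorem hm2Z_j2 : jqNModC ℤ 2 * hm2Z = (hm2Z + 16) ^ 3 := by
  have key := congrArg hmPhi hm2U_j2
  simp only [map_mul, map_pow, map_add, map_ofNat] at key
  rw [hm_jqNModC_int, hm2Z]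
  calc hmQinv ^ 2 * hmPhi (hmDilPS 2 jNum) * (hmQinv * hmPhi hm2U)
      = hmQinv ^ 3 * (hmPhi (hmDilPS 2 jNum) * hmPhi hm2U) := by ring
    _ = (hmQinv * hmPhi hm2U + 16 * (hmQinv * hmPhi PowerSeries.X)) ^ 3 := by rw [key]; ring
    _ = _ := by rw [hmQinv_mul_X, mul_one]

theorem hm3Z_j : jqModC ℤ * hm3Z ^ 3 = (hm3Z + 27) * (hm3Z + 243) ^ 3 := by
  have key := congrArg hmPhi hm3U_j
  simp only [map_mul, map_pow, map_add, map_ofNat] at key
  rw [hm_jqModC_int, hm3Z]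
  calc hmQinv * hmPhi jNum * (hmQinv * hmPhi hm3U) ^ 3
      = hmQinv ^ 4 * (hmPhi jNum * hmPhi hm3U ^ 3) := by ring
    _ = (hmQinv * hmPhi hm3U + 27 * (hmQinv * hmPhi PowerSeries.X)) *
          (hmQinv * hmPhi hm3U + 243 * (hmQinv * hmPhi PowerSeries.X)) ^ 3 := by rw [key]; ring
    _ = _ := by rw [hmQinv_mul_X, mul_one, mul_one]

theorem hm3Z_j3 : jqNModC ℤ 3 * hm3Z = (hm3Z + 27) * (hm3Z + 3) ^ 3 := by
  have key := congrArg hmPhi hm3U_j3
  simp only [map_mul, map_pow, map_add, map_ofNat] at key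
  rw [hm_jqNModC_int, hm3Z]
  calc hmQinv ^ 3 * hmPhi (hmDilPS 3 jNum) * (hmQinv * hmPhi hm3U)
      = hmQinv ^ 4 * (hmPhi (hmDilPS 3 jNum) * hmPhi hm3U) := by ring
    _ = (hmQinv * hmPhi hm3U + 27 * (hmQinv * hmPhi PowerSeries.X)) *
          (hmQinv * hmPhi hm3U + 3 * (hmQinv * hmPhi PowerSeries.X)) ^ 3 := by rw [key]; ring
    _ = _ := by rw [hmQinv_mul_X, mul_one, mul_one]

/-! ### any coefficient ring -/

section General

variable (K : Type*) [CommRing K]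

/-- the Hauptmodul of `X₀(2)`, `q⁻¹ ∏ ((1-qⁿ)/(1-q²ⁿ))²⁴`, as a Laurent series over `K`. -/
def hm2 : LaurentSeries K := coeffMap (Int.castRingHom K) hm2Z

/-- the Hauptmodul of `X₀(3)`, `q⁻¹ ∏ ((1-qⁿ)/(1-q³ⁿ))¹²`, as a Laurent series over `K`. -/
def hm3 : LaurentSeries K := coeffMap (Int.castRingHom K) hm3Z

theorem hm_coeffMap_jqModC : coeffMap (Int.castRingHom K) (jqModC ℤ) = jqModC K :=
  map_jqModC (Int.castRingHom K)

theorem hm_coeffMap_jqNModC (N : ℕ) [NeZero N] :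
    coeffMap (Int.castRingHom K) (jqNModC ℤ N) = jqNModC K N := by
  rw [jqNModC, ModularCurve.coeffMap_qExpand, hm_coeffMap_jqModC, jqNModC]

/-- **Level 2**: `j · h² = (h + 256)³`. -/
theorem hm2_j : jqModC K * hm2 K ^ 2 = (hm2 K + 256) ^ 3 := by
  have := congrArg (coeffMap (Int.castRingHom K)) hm2Z_j
  simpa only [map_mul, map_pow, map_add, map_ofNat, hm_coeffMap_jqModC, hm2] using this

/-- **Level 2**: `j(q²) · h = (h + 16)³`. -/
theorem hm2_j2 : jqNModC K 2 * hm2 K = (hm2 K + 16) ^ 3 := by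
  have := congrArg (coeffMap (Int.castRingHom K)) hm2Z_j2
  simpa only [map_mul, map_pow, map_add, map_ofNat, hm_coeffMap_jqNModC, hm2] using this

/-- **Level 3**: `j · h³ = (h + 27)(h + 243)³`. -/
theorem hm3_j : jqModC K * hm3 K ^ 3 = (hm3 K + 27) * (hm3 K + 243) ^ 3 := by
  have := congrArg (coeffMap (Int.castRingHom K)) hm3Z_j
  simpa only [map_mul, map_pow, map_add, map_ofNat, hm_coeffMap_jqModC, hm3] using this

/-- **Level 3**: `j(q³) · h = (h + 27)(h + 3)³`. -/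
theorem hm3_j3 : jqNModC K 3 * hm3 K = (hm3 K + 27) * (hm3 K + 3) ^ 3 := by
  have := congrArg (coeffMap (Int.castRingHom K)) hm3Z_j3
  simpa only [map_mul, map_pow, map_add, map_ofNat, hm_coeffMap_jqNModC, hm3] using this

variable {K}

theorem hm2_map {K' : Type*} [CommRing K'] (f : K →+* K') : coeffMap f (hm2 K) = hm2 K' := by
  rw [hm2, hm2, coeffMap_coeffMap]
  exact coeffMap_congr (RingHom.ext_int _ _) _

theorem hm3_map {K' : Type*} [CommRing K'] (f : K →+* K') : coeffMap f (hm3 K) = hm3 K' := by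
  rw [hm3, hm3, coeffMap_coeffMap]
  exact coeffMap_congr (RingHom.ext_int _ _) _

variable (K)

theorem hm_coeffMap_phi (u : PowerSeries ℤ) :
    coeffMap (Int.castRingHom K) (hmPhi u) =
      HahnSeries.ofPowerSeries ℤ K (u.map (Int.castRingHom K)) := by
  ext k
  rw [coeffMap_coeff]
  rcases le_or_gt 0 k with hk | hk
  · lift k to ℕ using hk
    rw [hmPhi, HahnSeries.ofPowerSeries_apply_coeff, HahnSeries.ofPowerSeries_apply_coeff,
      PowerSeries.coeff_map]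
  · rw [hmPhi, ofPowerSeries_coeff_of_neg _ hk, ofPowerSeries_coeff_of_neg _ hk, map_zero]

/-- `hm2 K = q⁻¹ · (unit power series with integral coefficients, constant coefficient 1)`. -/
theorem hm2_eq : hm2 K = HahnSeries.single (-1 : ℤ) 1 *
    HahnSeries.ofPowerSeries ℤ K (hm2U.map (Int.castRingHom K)) := by
  rw [hm2, hm2Z, map_mul, hm_coeffMap_phi, hmQinv, coeffMap_single, map_one]

/-- `hm3 K = q⁻¹ · (unit power series with integral coefficients, constant coefficient 1)`. -/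
theorem hm3_eq : hm3 K = HahnSeries.single (-1 : ℤ) 1 *
    HahnSeries.ofPowerSeries ℤ K (hm3U.map (Int.castRingHom K)) := by
  rw [hm3, hm3Z, map_mul, hm_coeffMap_phi, hmQinv, coeffMap_single, map_one]

end General

end Fermat.Agent.INJ
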