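import Fermat.Agent.INJ.RamJ
import Fermat.Agent.INJ.Hauptmodul
import Fermat.Agent.INJ.HMDegree
import Fermat.Agent.S20.Index
import Fermat.Agent.S24.BridgeAlg

/-!
# (INJ) B2-T, part 1: the Hauptmoduln of `X₀(2)`, `X₀(3)` lie in the function fields

* `hmMem_finrank_jF` : `[F_N : ℚ̄(j)] = ψ(N)`;
* `hm2_mem N (h : 2 ∣ N) : hm2 ℚ̄ ∈ modularFunctionFieldBar N`;
* `hm3_mem N (h : 3 ∣ N) : hm3 ℚ̄ ∈ modularFunctionFieldBar N`.

Proof: `F_2 ⊆ ℚ̄(h)` by the two identities of `Hauptmodul.lean`, `[ℚ̄(h) : ℚ̄(j)] ≤ 3 = ψ(2)`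
(`h` is a root of the cubic `(X + 256)³ - j X²`), hence equality; same at level `3`.
-/

set_option autoImplicit false

open AlgebraicCurve IntermediateField ModularCurve Polynomial
open scoped MatrixGroups

namespace Fermat.Agent.INJ

open Fermat.Agent.S24

/-- `[F_N : ℚ̄(j)] = ψ(N)`. -/
theorem hmMem_finrank_jF (N : ℕ) [NeZero N] :
    Module.finrank Kb⟮jF N⟯ (FF N) = ModularCurve.dedekindPsi N := by
  obtain ⟨R⟩ := exists_realization N
  have hfin : FiniteDimensional Kb⟮jF N⟯ (FF N) := (principal_inputs N R).2.1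
  have hj0 : jF N - algebraMap Kb (FF N) 0 = jF N := by simp
  have hfacts := intClosure_facts (K := Kb) (jF N) (transcendental_jF N)
  have hram := sum_ramificationIdx_eq_finrank (K := Kb) (jF N) (transcendental_jF N)
  obtain ⟨S, hS, hsum⟩ := sum_ord_eq_finrank_of (jF N) (transcendental_jF N) hfacts hram
  obtain ⟨w, hw, hε, hL⟩ := R.loc_zero
  have : Finite R.act.range := R.finite_range
  have key := card_places_eq_card_orbits R.φ R.act (CongruenceSubgroup.Gamma0 N) R.act_j R.fixed
    R.stab_iff (IntermediateField.mem_adjoin_simple_self Kb (jF N))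
    (IntermediateField.mem_adjoin_simple_self Kb (jF N)) (ModularGroup.S * ModularGroup.T)
    w hw hε hL S hS hsum
    (fun v S' hv hvS hS' => exists_ord_neg_of (jF N) hfacts v S' hv hvS hS')
  rw [key.2]
  exact Fermat.Agent.S20.card_quot_Gamma0 N

/-- `jBar = jqModC ℚ̄`. -/
theorem hmMem_jBar_eq : jBar = jqModC Kb := by
  rw [jBar, coeffEmb, ← jqModC_rat]
  exact map_jqModC (algebraMap ℚ Kb)

/-- `j(q^d)` with coefficients in `ℚ̄`. -/
theorem hmMem_jd_eq (d : ℕ) [NeZero d] : coeffEmb Kb (qExpand ℚ d jq) = jqNModC Kb d := by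
  rw [coeffEmb, coeffMap_qExpand, ← jqModC_rat, jqNModC]
  congr 1
  exact map_jqModC (algebraMap ℚ Kb)

/-- The relative degree of `F_N` over `ℚ̄(j)` inside `ℚ̄((q))`. -/
theorem hmMem_relfinrank (N : ℕ) [NeZero N] :
    relfinrank (Kb⟮jBar⟯ : IntermediateField Kb (LaurentSeries Kb)) (modularFunctionFieldBar N)
      = ModularCurve.dedekindPsi N := by
  have h1 := IntermediateField.finrank_comap
    (A := (Kb⟮jBar⟯ : IntermediateField Kb (LaurentSeries Kb)))
    (modularFunctionFieldBar N).val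
  rw [IntermediateField.fieldRange_val] at h1
  rw [← h1, ← hmMem_finrank_jF N]
  have hcomap : (Kb⟮jBar⟯ : IntermediateField Kb (LaurentSeries Kb)).comap
      (modularFunctionFieldBar N).val = Kb⟮jF N⟯ := by
    have hlift : IntermediateField.lift (Kb⟮jF N⟯ : IntermediateField Kb (FF N)) =
        (Kb⟮jBar⟯ : IntermediateField Kb (LaurentSeries Kb)) := by
      rw [IntermediateField.lift_adjoin_simple]
      rfl
    ext x
    have h2 : x ∈ (Kb⟮jBar⟯ : IntermediateField Kb (LaurentSeries Kb)).comap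
        (modularFunctionFieldBar N).val ↔
        (x : LaurentSeries Kb) ∈ (Kb⟮jBar⟯ : IntermediateField Kb (LaurentSeries Kb)) := Iff.rfl
    rw [h2, ← hlift]
    exact IntermediateField.mem_lift x
  rw [hcomap]

/-- monotonicity of the function fields in the level -/
theorem hmMem_bar_mono {M N : ℕ} [NeZero M] [NeZero N] (h : M ∣ N) :
    modularFunctionFieldBar M ≤ modularFunctionFieldBar N := by
  rw [br_modularFunctionFieldBar_eq_adjoin M, IntermediateField.adjoin_le_iff]
  rintro _ ⟨d, rfl⟩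
  exact (jdF N d.1 (d.2.trans h)).2

theorem hm2_ne_zero : hm2 Kb ≠ 0 := by
  intro h
  have h1 := hm2_j Kb
  rw [h] at h1
  simp only [ne_eq, OfNat.ofNat_ne_zero, not_false_eq_true, zero_pow, mul_zero, zero_add] at h1
  have h2 : ((256 : LaurentSeries Kb)) ^ 3 ≠ 0 := by
    have : (256 : LaurentSeries Kb) ≠ 0 := by
      have h3 : (256 : LaurentSeries Kb) = algebraMap Kb (LaurentSeries Kb) 256 :=
        (map_ofNat (algebraMap Kb (LaurentSeries Kb)) 256).symm
      rw [h3, Ne, map_eq_zero]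
      norm_num
    exact pow_ne_zero _ this
  exact h2 h1.symm

/-- **Membership at level 2.** -/
theorem hm2_mem_two : hm2 Kb ∈ modularFunctionFieldBar 2 := by
  set A : IntermediateField Kb (LaurentSeries Kb) := Kb⟮jBar⟯ with hA
  have hjA : jBar ∈ A := IntermediateField.mem_adjoin_simple_self Kb jBar
  set jA : A := ⟨jBar, hjA⟩ with hjAdef
  have hAB : A ≤ modularFunctionFieldBar 2 := by
    rw [hA, IntermediateField.adjoin_simple_le_iff]
    exact jBar_mem 2
  have hrel : relfinrank A (modularFunctionFieldBar 2) = 3 := by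
    rw [hA, hmMem_relfinrank 2]
    exact Fermat.Agent.S20.dedekindPsi_prime Nat.prime_two
  -- the cubic
  set P : Polynomial A := (X + C 256) ^ 3 - C jA * X ^ 2 with hP
  have hdeg1 : ((X + C (256 : A)) ^ 3 : Polynomial A).natDegree = 3 := by
    rw [natDegree_pow, natDegree_X_add_C]
  have hdeg2 : (C jA * X ^ 2 : Polynomial A).natDegree < 3 := by
    calc (C jA * X ^ 2 : Polynomial A).natDegree ≤ 2 := by
          refine (natDegree_C_mul_le _ _).trans ?_
          rw [natDegree_X_pow]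
      _ < 3 := by norm_num
  have hPm : P.Monic := by
    refine Monic.sub_of_left ((monic_X_add_C _).pow 3) ?_
    rw [degree_eq_natDegree ((monic_X_add_C (256 : A)).pow 3).ne_zero, hdeg1]
    exact lt_of_le_of_lt degree_le_natDegree (by exact_mod_cast hdeg2)
  have hPdeg : P.natDegree = 3 := by
    rw [hP, natDegree_sub_eq_left_of_natDegree_lt (by rw [hdeg1]; exact hdeg2), hdeg1]
  have hroot : aeval (hm2 Kb) P = 0 := by
    have h1 := hm2_j Kb
    rw [← hmMem_jBar_eq] at h1
    simp only [hP, map_sub, map_pow, map_add, aeval_X, aeval_C, map_mul]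
    have h2 : (algebraMap A (LaurentSeries Kb)) jA = jBar := rfl
    have h3 : (algebraMap A (LaurentSeries Kb)) (256 : A) = 256 := map_ofNat _ 256
    rw [h2, h3, ← h1, sub_self]
  refine hmMem_of_degree A (modularFunctionFieldBar 2) hAB (hm2 Kb) 3 (by norm_num) hrel P hPm
    hPdeg hroot ?_
  -- generation
  rw [br_modularFunctionFieldBar_eq_adjoin 2, IntermediateField.adjoin_le_iff]
  rintro _ ⟨⟨d, hd⟩, rfl⟩
  have hmemC : hm2 Kb ∈ (IntermediateField.adjoin A {hm2 Kb}).restrictScalars Kb :=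
    IntermediateField.mem_adjoin_simple_self A _
  have hd' : d = 1 ∨ d = 2 := (Nat.dvd_prime Nat.prime_two).mp hd
  rcases hd' with rfl | rfl
  · have : jBfam 2 ⟨1, hd⟩ = jBar := by
      rw [jBfam_eq 2 1 hd, qExpand_one_apply]
      rfl
    rw [this]
    exact (IntermediateField.adjoin A {hm2 Kb}).algebraMap_mem jA
  · have h1 : jBfam 2 ⟨2, hd⟩ = jqNModC Kb 2 := by
      rw [jBfam_eq 2 2 hd, hmMem_jd_eq]
    have h2 := hm2_j2 Kb
    have h3 : jqNModC Kb 2 = (hm2 Kb + 16) ^ 3 / hm2 Kb := by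
      rw [eq_div_iff hm2_ne_zero, h2]
    rw [h1, h3]
    refine div_mem (pow_mem (add_mem hmemC ?_) 3) hmemC
    have : (16 : LaurentSeries Kb) = algebraMap Kb (LaurentSeries Kb) 16 :=
      (map_ofNat (algebraMap Kb (LaurentSeries Kb)) 16).symm
    rw [this]
    exact IntermediateField.algebraMap_mem _ _

/-- **Membership of the Hauptmodul of `X₀(2)`.** -/
theorem hm2_mem (N : ℕ) [NeZero N] (h2 : 2 ∣ N) : hm2 Kb ∈ modularFunctionFieldBar N :=
  hmMem_bar_mono h2 hm2_mem_two

theorem hm3_ne_zero : hm3 Kb ≠ 0 := by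
  intro h
  have h1 := hm3_j Kb
  rw [h] at h1
  simp only [ne_eq, OfNat.ofNat_ne_zero, not_false_eq_true, zero_pow, mul_zero, zero_add] at h1
  have hc : ∀ n : ℕ, n ≠ 0 → (n : LaurentSeries Kb) ≠ 0 := by
    intro n hn
    have h3 : (n : LaurentSeries Kb) = algebraMap Kb (LaurentSeries Kb) n :=
      (map_natCast (algebraMap Kb (LaurentSeries Kb)) n).symm
    rw [h3, Ne, map_eq_zero]
    exact_mod_cast hn
  have h2 : (27 : LaurentSeries Kb) * (243 : LaurentSeries Kb) ^ 3 ≠ 0 :=
    mul_ne_zero (by exact_mod_cast hc 27 (by norm_num))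
      (pow_ne_zero _ (by exact_mod_cast hc 243 (by norm_num)))
  exact h2 h1.symm

/-- **Membership at level 3.** -/
theorem hm3_mem_three : hm3 Kb ∈ modularFunctionFieldBar 3 := by
  set A : IntermediateField Kb (LaurentSeries Kb) := Kb⟮jBar⟯ with hA
  have hjA : jBar ∈ A := IntermediateField.mem_adjoin_simple_self Kb jBar
  set jA : A := ⟨jBar, hjA⟩ with hjAdef
  have hAB : A ≤ modularFunctionFieldBar 3 := by
    rw [hA, IntermediateField.adjoin_simple_le_iff]
    exact jBar_mem 3
  have hrel : relfinrank A (modularFunctionFieldBar 3) = 4 := by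
    rw [hA, hmMem_relfinrank 3]
    exact Fermat.Agent.S20.dedekindPsi_prime Nat.prime_three
  -- the quartic
  set P : Polynomial A := (X + C 27) * (X + C 243) ^ 3 - C jA * X ^ 3 with hP
  have hm1 : ((X + C (27 : A)) * (X + C 243) ^ 3 : Polynomial A).Monic :=
    (monic_X_add_C _).mul ((monic_X_add_C _).pow 3)
  have hdeg1 : ((X + C (27 : A)) * (X + C 243) ^ 3 : Polynomial A).natDegree = 4 := by
    rw [Monic.natDegree_mul (monic_X_add_C _) ((monic_X_add_C _).pow 3), natDegree_pow,
      natDegree_X_add_C, natDegree_X_add_C]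
  have hdeg2 : (C jA * X ^ 3 : Polynomial A).natDegree < 4 := by
    calc (C jA * X ^ 3 : Polynomial A).natDegree ≤ 3 := by
          refine (natDegree_C_mul_le _ _).trans ?_
          rw [natDegree_X_pow]
      _ < 4 := by norm_num
  have hPm : P.Monic := by
    refine Monic.sub_of_left hm1 ?_
    rw [degree_eq_natDegree hm1.ne_zero, hdeg1]
    exact lt_of_le_of_lt degree_le_natDegree (by exact_mod_cast hdeg2)
  have hPdeg : P.natDegree = 4 := by
    rw [hP, natDegree_sub_eq_left_of_natDegree_lt (by rw [hdeg1]; exact hdeg2), hdeg1]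
  have hroot : aeval (hm3 Kb) P = 0 := by
    have h1 := hm3_j Kb
    rw [← hmMem_jBar_eq] at h1
    simp only [hP, map_sub, map_pow, map_add, aeval_X, aeval_C, map_mul]
    have h2 : (algebraMap A (LaurentSeries Kb)) jA = jBar := rfl
    have h3 : (algebraMap A (LaurentSeries Kb)) (27 : A) = 27 := map_ofNat _ 27
    have h4 : (algebraMap A (LaurentSeries Kb)) (243 : A) = 243 := map_ofNat _ 243
    rw [h2, h3, h4, ← h1, sub_self]
  refine hmMem_of_degree A (modularFunctionFieldBar 3) hAB (hm3 Kb) 4 (by norm_num) hrel P hPm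
    hPdeg hroot ?_
  -- generation
  rw [br_modularFunctionFieldBar_eq_adjoin 3, IntermediateField.adjoin_le_iff]
  rintro _ ⟨⟨d, hd⟩, rfl⟩
  have hmemC : hm3 Kb ∈ (IntermediateField.adjoin A {hm3 Kb}).restrictScalars Kb :=
    IntermediateField.mem_adjoin_simple_self A _
  have hconst : ∀ n : ℕ, (n : LaurentSeries Kb) ∈
      (IntermediateField.adjoin A {hm3 Kb}).restrictScalars Kb := by
    intro n
    have : (n : LaurentSeries Kb) = algebraMap Kb (LaurentSeries Kb) n :=
      (map_natCast (algebraMap Kb (LaurentSeries Kb)) n).symm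
    rw [this]
    exact IntermediateField.algebraMap_mem _ _
  have hd' : d = 1 ∨ d = 3 := (Nat.dvd_prime Nat.prime_three).mp hd
  rcases hd' with rfl | rfl
  · have : jBfam 3 ⟨1, hd⟩ = jBar := by
      rw [jBfam_eq 3 1 hd, qExpand_one_apply]
      rfl
    rw [this]
    exact (IntermediateField.adjoin A {hm3 Kb}).algebraMap_mem jA
  · have h1 : jBfam 3 ⟨3, hd⟩ = jqNModC Kb 3 := by
      rw [jBfam_eq 3 3 hd, hmMem_jd_eq]
    have h2 := hm3_j3 Kb
    have h3 : jqNModC Kb 3 = (hm3 Kb + 27) * (hm3 Kb + 3) ^ 3 / hm3 Kb := by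
      rw [eq_div_iff hm3_ne_zero, h2]
    rw [h1, h3]
    refine div_mem (mul_mem (add_mem hmemC ?_) (pow_mem (add_mem hmemC ?_) 3)) hmemC
    · exact_mod_cast hconst 27
    · exact_mod_cast hconst 3

/-- **Membership of the Hauptmodul of `X₀(3)`.** -/
theorem hm3_mem (N : ℕ) [NeZero N] (h3 : 3 ∣ N) : hm3 Kb ∈ modularFunctionFieldBar N :=
  hmMem_bar_mono h3 hm3_mem_three

end Fermat.Agent.INJ
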