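import Fermat.Agent.INJ.HMTables
import Fermat.Agent.S24.QExpJ
import Fermat.Agent.S28.ScaleForm
import Fermat.Prelude.Thm_ModularForm_sturm_bound_Gamma0

/-!
# INJ / B-I3 — the Sturm bound in the form used for the Hauptmodul identities

* `hm_sturm` : a form `f` with `IsMF (G0 N) k f` whose first `B+1` `q`-coefficients vanish
  (`B ≥ k·ψ(N)/12`) has `qExpansion 1 f = 0`.
* `hm_qExp_E4`, `hm_qExp_Delta`, `hm_qExp_DeltaN` : `q`-expansions of `E₄`, `Δ`, `Δ(N·)` as images
  of the prelude's formal integral series.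
* `hm_isMF_DeltaN`, `hm_isMF_of_dvd`.
-/

set_option autoImplicit false

noncomputable section

namespace Fermat.Agent.INJ.HM

open UpperHalfPlane ModularForm PowerSeries
open Fermat.Agent.S23 Fermat.Agent.S24 Fermat.Agent.S28
open scoped MatrixGroups ModularForm Manifold

local notation "Δ" => ModularForm.discriminant

/-- the coefficient embedding `ℤ[[q]] → ℂ[[q]]`. -/
abbrev hmC : PowerSeries ℤ →+* PowerSeries ℂ := PowerSeries.map (Int.castRingHom ℂ)

theorem hmC_injective : Function.Injective hmC := by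
  intro F G h
  ext n
  have := congrArg (PowerSeries.coeff n) h
  simpa [hmC, PowerSeries.coeff_map] using this

/-- Sturm bound for `Γ₀(N)`, `IsMF` form. -/
theorem hm_sturm (N : ℕ) [NeZero N] {k : ℤ} {f : ℍ → ℂ} (hf : IsMF (G0 N) k f) (B : ℕ)
    (hB : (k * (CongruenceSubgroup.Gamma0 N).index).toNat / 12 ≤ B)
    (h : ∀ n : ℕ, n ≤ B → (qExpansion 1 f).coeff n = 0) : qExpansion 1 f = 0 := by
  obtain ⟨F, rfl⟩ := hf
  have hF : F = 0 := ModularForm.sturm_bound_Gamma0 N F fun n hn => h n (hn.trans hB)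
  rw [hF]
  simpa using UpperHalfPlane.qExpansion_zero 1

theorem hm_index2 : (CongruenceSubgroup.Gamma0 2).index = 3 := by
  rw [Fermat.Agent.S20.index_Gamma0 2 (by norm_num), Fermat.Agent.S20.dedekindPsi_prime Nat.prime_two]

theorem hm_index3 : (CongruenceSubgroup.Gamma0 3).index = 4 := by
  rw [Fermat.Agent.S20.index_Gamma0 3 (by norm_num),
    Fermat.Agent.S20.dedekindPsi_prime Nat.prime_three]

theorem hm_index4 : (CongruenceSubgroup.Gamma0 4).index = 6 := by
  rw [Fermat.Agent.S20.index_Gamma0 4 (by norm_num), show (4 : ℕ) = 2 * 2 from rfl,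
    Fermat.Agent.S20.dedekindPsi_mul_of_dvd Nat.prime_two (dvd_refl 2) (by norm_num),
    Fermat.Agent.S20.dedekindPsi_prime Nat.prime_two]

theorem hm_qExp_E4 : qExpansion 1 E₄ = hmC ModularCurve.eisenstein4 := qExpansion_E₄_eq

theorem hm_qExp_Delta :
    qExpansion 1 (Δ : ℍ → ℂ) = PowerSeries.X * hmC ModularCurve.dedekindEtaUnit :=
  qExpansion_discriminant_eq

theorem hm_subst_eq (N : ℕ) (hN : 0 < N) (F : PowerSeries ℤ) :
    thetaAlg_subst N (PowerSeries.X * hmC F) = PowerSeries.X ^ N * hmC (hmDilPS N F) := by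
  ext n
  rw [thetaAlg_subst_coeff, PowerSeries.coeff_X_pow_mul']
  by_cases h : N ∣ n
  · rw [if_pos h]
    obtain ⟨m, rfl⟩ := h
    rw [Nat.mul_div_cancel_left _ hN]
    rcases m with _ | m
    · simp only [mul_zero, PowerSeries.coeff_zero_eq_constantCoeff, map_mul,
        PowerSeries.constantCoeff_X, zero_mul]
      rw [if_neg (by omega)]
    · rw [if_pos (Nat.le_mul_of_pos_right N (Nat.succ_pos m)), PowerSeries.coeff_succ_X_mul]
      have e : N * (m + 1) - N = N * m := by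
        rw [Nat.mul_succ, Nat.add_sub_cancel]
      rw [e, hmC, PowerSeries.coeff_map, PowerSeries.coeff_map, coeff_hmDilPS,
        if_pos (dvd_mul_right N m), Nat.mul_div_cancel_left _ hN]
  · rw [if_neg h]
    split_ifs with h2
    · have h3 : ¬ N ∣ n - N := fun h' => h ((Nat.dvd_sub_iff_left h2 (dvd_refl N)).mp h')
      rw [hmC, PowerSeries.coeff_map, coeff_hmDilPS, if_neg h3]
      simp
    · rfl

theorem hm_qExp_DeltaN (N : ℕ) [NeZero N] :
    qExpansion 1 (deltaNFun N) =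
      PowerSeries.X ^ N * hmC (hmDilPS N ModularCurve.dedekindEtaUnit) := by
  rw [P7_qExpansion_deltaNFun, hm_qExp_Delta, hm_subst_eq N (Nat.pos_of_ne_zero (NeZero.ne N))]

theorem hm_isMF_DeltaN (N : ℕ) [NeZero N] : IsMF (G0 N) 12 (deltaNFun N) := by
  have := isMF_comp_scaleN N ((CuspForm.discriminant : CuspForm 𝒮ℒ 12) : ModularForm 𝒮ℒ 12)
  convert this using 1
  ext z
  exact (congrFun CuspForm.coe_discriminant (scaleN N z)).symm

theorem hm_G0_le {d N : ℕ} (h : d ∣ N) : G0 N ≤ G0 d := by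
  rintro _ ⟨γ, hγ, rfl⟩
  refine ⟨γ, ?_, rfl⟩
  have hγ' : γ ∈ CongruenceSubgroup.Gamma0 N := hγ
  show γ ∈ CongruenceSubgroup.Gamma0 d
  rw [CongruenceSubgroup.Gamma0_mem] at hγ' ⊢
  have hγ := hγ'
  have h1 : (N : ℤ) ∣ γ 1 0 := (ZMod.intCast_zmod_eq_zero_iff_dvd _ _).mp hγ
  exact (ZMod.intCast_zmod_eq_zero_iff_dvd _ _).mpr (dvd_trans (Int.natCast_dvd_natCast.mpr h) h1)

/-- restriction of the level `Γ₀(d) ⊇ Γ₀(N)` for `d ∣ N`. -/
theorem hm_isMF_of_dvd {d N : ℕ} (h : d ∣ N) {k : ℤ} {f : ℍ → ℂ} (hf : IsMF (G0 d) k f) :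
    IsMF (G0 N) k f := by
  obtain ⟨F, rfl⟩ := hf
  exact ⟨{ toFun := F
           slash_action_eq' := fun A hA => F.slash_action_eq' A (hm_G0_le h hA)
           holo' := F.holo'
           bdd_at_cusps' := fun hc => F.bdd_at_cusps' (hc.mono (hm_G0_le h)) }, rfl⟩

theorem hm_isMF_E4 (N : ℕ) [NeZero N] : IsMF (G0 N) 4 (E₄ : ℍ → ℂ) :=
  IsMF.of_levelOne ⟨E₄, rfl⟩

end Fermat.Agent.INJ.HM
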