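import Mathlib
import Fermat.Agent.S28.Deriv

/-!
# INJ B-I1 (SEP): separability from a derivation

* `isSeparable_of_derivation` (abstract): `K ⊆ Ω` fields of characteristic `ℓ`, `D` a derivation of
  `Ω` preserving `K` with `ker (D|K) = K^ℓ`.  Then every element of `Ω` algebraic over `K` is
  separable over `K`.
* `isSeparable_of_theta` : for `k` perfect of characteristic `ℓ` and `t ∈ k((q))` with `θ t ≠ 0`,
  every element of `k((q))` algebraic over `k(t)` is separable over `k(t)`.
-/

set_option autoImplicit false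

namespace Fermat.Agent.INJ

open Polynomial

section AbstractSep

variable {K Ω : Type*} [Field K] [Field Ω] [Algebra K Ω]

/-- If a derivation `D` of `Ω` restricts to `K` with kernel `K^ℓ`, every algebraic element of
`Ω` is separable over `K`. -/
theorem isSeparable_of_derivation (ℓ : ℕ) [hℓ : Fact ℓ.Prime] [CharP K ℓ]
    (D : Ω → Ω) (hadd : ∀ a b, D (a + b) = D a + D b)
    (hmul : ∀ a b, D (a * b) = D a * b + a * D b)
    (DK : K → K) (hDK : ∀ c, D (algebraMap K Ω c) = algebraMap K Ω (DK c))
    (hker : ∀ c, DK c = 0 → ∃ e, c = e ^ ℓ)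
    {y : Ω} (hy : IsIntegral K y) : IsSeparable K y := by
  classical
  have hirr := minpoly.irreducible hy
  rcases Polynomial.separable_or ℓ hirr with h | ⟨_, g, hg, hgf⟩
  · exact h
  exfalso
  have hchar : CharP Ω ℓ := charP_of_injective_algebraMap (algebraMap K Ω).injective ℓ
  have hD0 : D 0 = 0 := by
    have := hadd 0 0
    rw [add_zero] at this
    exact left_eq_add.mp this
  let Dh : Ω →+ Ω := AddMonoidHom.mk' D hadd
  have hDh : ∀ a, Dh a = D a := fun _ => rfl
  have hD1 : D 1 = 0 := by
    have := hmul 1 1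
    rw [mul_one, mul_one, one_mul] at this
    exact left_eq_add.mp this
  have hDpow : ∀ (w : Ω) (n : ℕ), D (w ^ (n + 1)) = ((n + 1 : ℕ) : Ω) * w ^ n * D w := by
    intro w n
    induction n with
    | zero => simp
    | succ n ih =>
      rw [pow_succ, hmul, ih]
      push_cast
      ring
  have hDpow0 : ∀ (w : Ω), D w = 0 → ∀ n : ℕ, D (w ^ n) = 0 := by
    intro w hw n
    cases n with
    | zero => rw [pow_zero]; exact hD1
    | succ n => rw [hDpow, hw, mul_zero]
  set z := y ^ ℓ with hz
  have hDz : D z = 0 := by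
    obtain ⟨m, hm⟩ : ∃ m, ℓ = m + 1 := ⟨ℓ - 1, (Nat.succ_pred_eq_of_pos hℓ.out.pos).symm⟩
    rw [hz]
    have h1 := hDpow y m
    rw [← hm] at h1
    rw [h1, CharP.cast_eq_zero, zero_mul, zero_mul]
  have hgz : aeval z g = 0 := by
    rw [hz, ← expand_aeval, hgf, minpoly.aeval]
  have hgmonic : g.Monic := by
    have := minpoly.monic hy
    rw [← hgf] at this
    exact (monic_expand_iff hℓ.out.pos).mp this
  have hDK0 : DK 0 = 0 := by
    apply (algebraMap K Ω).injective
    rw [← hDK, map_zero, hD0]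
  have hDK1 : DK 1 = 0 := by
    apply (algebraMap K Ω).injective
    rw [← hDK, map_one, hD1, map_zero]
  set gD : K[X] := ∑ i ∈ g.support, monomial i (DK (g.coeff i)) with hgD
  have hcoeff : ∀ i, gD.coeff i = DK (g.coeff i) := by
    intro i
    rw [hgD, finsetSum_coeff]
    simp only [coeff_monomial]
    rw [Finset.sum_ite_eq' g.support i]
    split_ifs with h
    · rfl
    · rw [notMem_support_iff.mp h, hDK0]
  have hg0 : g ≠ 0 := hgmonic.ne_zero
  have hgDz : aeval z gD = 0 := by
    have h1 : D (aeval z g) = aeval z gD := by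
      rw [aeval_def, eval₂_eq_sum, sum_def, ← hDh, map_sum, hgD, map_sum]
      refine Finset.sum_congr rfl fun i _ => ?_
      rw [hDh, hmul, hDK, hDpow0 z hDz, mul_zero, add_zero, aeval_monomial]
    rw [← h1, hgz, hD0]
  have hdeg : gD.degree < g.degree := by
    rw [degree_eq_natDegree hg0, degree_lt_iff_coeff_zero]
    intro m hm
    rw [hcoeff]
    rcases (le_iff_lt_or_eq.mp hm) with h | h
    · rw [coeff_eq_zero_of_natDegree_lt h, hDK0]
    · rw [← h, coeff_natDegree, hgmonic.leadingCoeff, hDK1]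
  have hgmin : g = minpoly K z := minpoly.eq_of_irreducible_of_monic hg hgz hgmonic
  have hgD0 : gD = 0 := by
    by_contra hne
    have h1 := minpoly.degree_le_of_ne_zero K z hne hgDz
    rw [← hgmin] at h1
    exact absurd hdeg (not_lt.mpr h1)
  have hcoeffs : ∀ i, ∃ e, g.coeff i = e ^ ℓ := fun i =>
    hker _ (by rw [← hcoeff, hgD0, coeff_zero])
  choose e he using hcoeffs
  set h : K[X] := ∑ i ∈ g.support, monomial i (e i) with hh
  have hhcoeff : ∀ i, h.coeff i = if i ∈ g.support then e i else 0 := by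
    intro i
    rw [hh, finsetSum_coeff]
    simp only [coeff_monomial]
    rw [Finset.sum_ite_eq' g.support i]
  have hmap : h.map (frobenius K ℓ) = g := by
    ext i
    rw [coeff_map, hhcoeff]
    split_ifs with hi
    · rw [frobenius_def, ← he]
    · rw [map_zero, notMem_support_iff.mp hi]
  have hf : minpoly K y = h ^ ℓ := by
    rw [← hgf, ← hmap, ← map_expand, map_frobenius_expand]
  rw [hf] at hirr
  exact not_irreducible_pow hℓ.out.ne_one hirr

end AbstractSep

section ThetaSep

open Fermat.Agent.S28.Deriv IntermediateField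

variable {k : Type*} [Field k]

/-- `θ` kills `ℓ`-th powers in characteristic `ℓ`. -/
theorem thetaFun_pow_char (ℓ : ℕ) [hℓ : Fact ℓ.Prime] [CharP k ℓ] (x : LaurentSeries k) :
    thetaFun (x ^ ℓ) = 0 := by
  have hchar : CharP (LaurentSeries k) ℓ :=
    charP_of_injective_algebraMap (algebraMap k (LaurentSeries k)).injective ℓ
  rw [thetaFun_pow, CharP.cast_eq_zero, zero_mul, zero_mul]

/-- The kernel of `θ` on `k(t)` is `k(t)^ℓ` (for `k` perfect, `θ t ≠ 0`). -/
theorem exists_pow_eq_of_thetaFun_eq_zero (ℓ : ℕ) [hℓ : Fact ℓ.Prime] [CharP k ℓ]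
    [PerfectRing k ℓ] {t : LaurentSeries k} (ht : Transcendental k t) (hθ : thetaFun t ≠ 0)
    {c : LaurentSeries k} (hc : c ∈ adjoin k {t}) (h0 : thetaFun c = 0) :
    ∃ e ∈ adjoin k {t}, c = e ^ ℓ := by
  obtain ⟨a, b, rfl⟩ := (mem_adjoin_simple_iff k c).mp hc
  have hmem : ∀ P : k[X], aeval t P ∈ adjoin k {t} := fun P =>
    (mem_adjoin_simple_iff k _).mpr ⟨P, 1, by simp⟩
  by_cases hb : aeval t b = 0
  · refine ⟨0, zero_mem _, ?_⟩
    rw [hb, div_zero, zero_pow hℓ.out.ne_zero]
  obtain ⟨m, hm⟩ : ∃ m, ℓ = m + 1 := ⟨ℓ - 1, (Nat.succ_pred_eq_of_pos hℓ.out.pos).symm⟩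
  set P : k[X] := a * b ^ m with hP
  have h1 : aeval t P = aeval t a / aeval t b * (aeval t b) ^ ℓ := by
    rw [hP, map_mul, map_pow, hm, pow_succ]
    field_simp
  have h2 : thetaFun (aeval t P) = 0 := by
    rw [h1, thetaFun_mul, h0, mul_zero, thetaFun_pow_char, mul_zero, add_zero]
  rw [thetaFun_aeval] at h2
  have h3 : aeval t (derivative P) = 0 := (mul_eq_zero.mp h2).resolve_right hθ
  have h4 : derivative P = 0 := by
    by_contra hne
    exact (transcendental_iff.mp ht (derivative P) h3 |> hne)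
  have h5 : expand k ℓ (contract ℓ P) = P := expand_contract ℓ h4 hℓ.out.ne_zero
  set P₂ : k[X] := (contract ℓ P).map ((frobeniusEquiv k ℓ).symm : k →+* k) with hP₂
  have h6 : P₂ ^ ℓ = P := by
    rw [← map_frobenius_expand, map_expand, hP₂, Polynomial.map_map]
    have : (frobenius k ℓ).comp ((frobeniusEquiv k ℓ).symm : k →+* k) = RingHom.id k := by
      ext x
      simp
    rw [this, Polynomial.map_id, h5]
  refine ⟨aeval t P₂ / aeval t b, div_mem (hmem _) (hmem _), ?_⟩
  rw [div_pow, ← map_pow, h6, h1]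
  field_simp

/-- **SEP**: for `k` perfect of characteristic `ℓ` and `t ∈ k((q))` transcendental with `θ t ≠ 0`,
every element of `k((q))` algebraic over `k(t)` is separable over `k(t)`. -/
theorem isSeparable_of_theta (ℓ : ℕ) [hℓ : Fact ℓ.Prime] [CharP k ℓ] [PerfectRing k ℓ]
    {t : LaurentSeries k} (ht : Transcendental k t) (hθ : thetaFun t ≠ 0)
    {y : LaurentSeries k} (hy : IsIntegral (adjoin k {t}) y) :
    IsSeparable (adjoin k {t}) y := by
  haveI : CharP (adjoin k {t}) ℓ :=
    charP_of_injective_algebraMap (algebraMap k (adjoin k {t})).injective ℓ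
  have hDmem : ∀ c : adjoin k {t}, thetaFun (c : LaurentSeries k) / thetaFun t ∈ adjoin k {t} := by
    intro c
    obtain ⟨r, hr, h⟩ := exists_thetaFun_eq_mul_of_mem_adjoin t c.2
    rw [h, mul_div_assoc, div_self hθ, mul_one]
    exact hr
  refine isSeparable_of_derivation ℓ (fun x => thetaFun x / thetaFun t) ?_ ?_
    (fun c => ⟨_, hDmem c⟩) (fun c => rfl) ?_ hy
  · intro a b
    show thetaFun (a + b) / thetaFun t = thetaFun a / thetaFun t + thetaFun b / thetaFun t
    rw [thetaFun_add, add_div]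
  · intro a b
    show thetaFun (a * b) / thetaFun t = thetaFun a / thetaFun t * b + a * (thetaFun b / thetaFun t)
    rw [thetaFun_mul]
    field_simp
    ring
  · intro c hc
    have h0 : thetaFun (c : LaurentSeries k) = 0 := by
      have h1 := congrArg Subtype.val hc
      simp only [ZeroMemClass.coe_zero] at h1
      rcases div_eq_zero_iff.mp h1 with h | h
      · exact h
      · exact absurd h hθ
    obtain ⟨e, he, hce⟩ := exists_pow_eq_of_thetaFun_eq_zero ℓ ht hθ c.2 h0
    exact ⟨⟨e, he⟩, Subtype.ext hce⟩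

end ThetaSep

end Fermat.Agent.INJ
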