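import Fermat.Prelude.Def_ModularCurve_ReductionModL
import Fermat.Prelude.Def_FLTPrelim_Ramification

/-!
# (INJ): the statement

`ℓ ∤ N`, `p ≠ ℓ` primes, `A ⊂ ℚ̄` a valuation ring over `ℓ`, `F = ℚ̄(j(q^d) : d ∣ N) ⊂ ℚ̄((q))`.
If `Y₁ Y₂ ∈ A((q))` have images in `F`, equal nonzero reductions modulo the maximal ideal of `A`,
and the divisor of `w = Y₁ / Y₂` is divisible by `p`, then `w` is a `p`-th power in `F`.

This is the common core of S18 (kernel of reduction of `J₀(N)` has no prime-to-`ℓ` torsion) and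
of the clauses `unram`, `frob` of `Fermat.Agent.ES.ESData`.  Plan: `NOTES/INJ-plan.md`.
Consumers should take `StmtINJ N ℓ p` as a hypothesis; the proof is assembled in
`Fermat/Agent/INJ/Inj.lean`.
-/

set_option autoImplicit false

namespace Fermat.Agent.INJ

open ModularCurve AlgebraicCurve

/-- **(INJ)** at level `N`, residue characteristic `ℓ`, exponent `p`. -/
def StmtINJ (N ℓ p : ℕ) : Prop :=
  ∀ A : ValuationSubring (AlgebraicClosure ℚ), A.LiesOverPrime ℓ →
    ∀ (Y₁ Y₂ : LaurentSeries A)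
      (h₁ : coeffMap A.subtype Y₁ ∈ modularFunctionFieldBar N)
      (h₂ : coeffMap A.subtype Y₂ ∈ modularFunctionFieldBar N),
      coeffMap (IsLocalRing.residue A) Y₁ = coeffMap (IsLocalRing.residue A) Y₂ →
      coeffMap (IsLocalRing.residue A) Y₂ ≠ 0 →
      (∀ P : Place (AlgebraicClosure ℚ) (modularFunctionFieldBar N),
        (p : ℤ) ∣ P.ord (⟨coeffMap A.subtype Y₁, h₁⟩ : modularFunctionFieldBar N)
          - P.ord (⟨coeffMap A.subtype Y₂, h₂⟩ : modularFunctionFieldBar N)) →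
      ∃ h : modularFunctionFieldBar N,
        h ^ p * (⟨coeffMap A.subtype Y₂, h₂⟩ : modularFunctionFieldBar N)
          = ⟨coeffMap A.subtype Y₁, h₁⟩

/-- The goal of the (INJ) campaign. -/
def StmtINJAll : Prop :=
  ∀ N ℓ p : ℕ, N ≠ 0 → ℓ.Prime → p.Prime → ¬ ℓ ∣ N → ℓ ≠ p → StmtINJ N ℓ p

end Fermat.Agent.INJ
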