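import Mathlib
import Fermat.Prelude.Def_ModularCurve_LaurentCoeff

/-!
# INJ B-I1 (G1): the Gauss ring of `A((q))` inside `E((q))` and its residue map

Generic version of `S28/LocInt.lean`.  `A` a commutative ring, `ι : A →+* E` an injective ring hom
into a field (think `E = Frac A`), `r : A →+* k` a ring hom onto a field (the residue map).
`Λ = A((q))`, `ι̂ = coeffMap ι`, `r̂ = coeffMap r`.

* `gaussRing ι r` : the subring of `E((q))` of all `x` with `ι̂ b * x = ι̂ T`, `T, b ∈ Λ`, `r̂ b ≠ 0`;
* `gaussRed ι hι r : gaussRing ι r →+* k((q))`, `x ↦ r̂ T / r̂ b`;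
* `exists_eq_C_mul_of_coeffMap_eq_zero` : a series over `A` with zero reduction is divisible by `π`;
* `gaussRed_eq_zero_iff_dvd` : `ker gaussRed = π · gaussRing` when `ker r = (π)`;
* `inv_mem_gaussRing` : elements with nonzero reduction are units.
-/

set_option autoImplicit false

noncomputable section

namespace Fermat.Agent.INJ

open ModularCurve

section Basic

variable {A E k : Type*} [CommRing A] [Field E] [Field k] (ι : A →+* E) (r : A →+* k)

theorem coeffMap_inj_of_injective (hι : Function.Injective ι) :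
    Function.Injective (coeffMap ι) := by
  intro x y h
  ext n
  apply hι
  have h1 := congrArg (fun z : LaurentSeries E => z.coeff n) h
  simpa using h1

/-- `x ∈ E((q))` is a quotient `T / b` of series over `A` with `b ≢ 0` in the residue field. -/
def IsGaussInt (x : LaurentSeries E) : Prop :=
  ∃ T b : LaurentSeries A, coeffMap r b ≠ 0 ∧ coeffMap ι b * x = coeffMap ι T

/-- The Gauss ring: the localisation of `A((q))` at the kernel of the reduction, inside
`E((q))`. -/
def gaussRing : Subring (LaurentSeries E) where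
  carrier := {x | IsGaussInt ι r x}
  zero_mem' := ⟨0, 1, by simp, by simp⟩
  one_mem' := ⟨1, 1, by simp, by simp⟩
  add_mem' := by
    rintro x y ⟨T, b, hb, h⟩ ⟨T', b', hb', h'⟩
    refine ⟨T * b' + T' * b, b * b', ?_, ?_⟩
    · rw [map_mul]; exact mul_ne_zero hb hb'
    · rw [map_mul, map_add, map_mul, map_mul, ← h, ← h']; ring
  neg_mem' := by
    rintro x ⟨T, b, hb, h⟩
    exact ⟨-T, b, hb, by rw [map_neg, ← h]; ring⟩
  mul_mem' := by
    rintro x y ⟨T, b, hb, h⟩ ⟨T', b', hb', h'⟩
    refine ⟨T * T', b * b', ?_, ?_⟩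
    · rw [map_mul]; exact mul_ne_zero hb hb'
    · rw [map_mul, map_mul, ← h, ← h']; ring

theorem mem_gaussRing_iff {x : LaurentSeries E} : x ∈ gaussRing ι r ↔ IsGaussInt ι r x := Iff.rfl

theorem coeffMap_mem_gaussRing (T : LaurentSeries A) : coeffMap ι T ∈ gaussRing ι r :=
  ⟨T, 1, by simp, by simp⟩

variable {ι} (hι : Function.Injective ι)

/-- The residue map of the Gauss ring, as a function (choice of a representation). -/
def gaussRedFun (x : gaussRing ι r) : LaurentSeries k :=
  coeffMap r (Classical.choose x.2) / coeffMap r (Classical.choose (Classical.choose_spec x.2))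

include hι in
theorem gaussRedFun_eq (x : gaussRing ι r) (T b : LaurentSeries A)
    (hb : coeffMap r b ≠ 0) (h : coeffMap ι b * (x : LaurentSeries E) = coeffMap ι T) :
    gaussRedFun r x = coeffMap r T / coeffMap r b := by
  obtain ⟨hb₁, h₁⟩ := Classical.choose_spec (Classical.choose_spec x.2)
  set T₁ := Classical.choose x.2
  set b₁ := Classical.choose (Classical.choose_spec x.2)
  have key : b₁ * T = b * T₁ := by
    apply coeffMap_inj_of_injective ι hι
    rw [map_mul, map_mul, ← h, ← h₁]; ring
  have key' := congrArg (coeffMap r) key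
  rw [map_mul, map_mul] at key'
  show coeffMap r T₁ / coeffMap r b₁ = coeffMap r T / coeffMap r b
  rw [div_eq_div_iff hb₁ hb]
  rw [mul_comm, ← key', mul_comm]

/-- The residue map `gaussRing → k((q))`. -/
def gaussRed : gaussRing ι r →+* LaurentSeries k where
  toFun := gaussRedFun r
  map_zero' := by
    rw [gaussRedFun_eq r hι 0 0 1 (by simp) (by simp)]; simp
  map_one' := by
    rw [gaussRedFun_eq r hι 1 1 1 (by simp) (by simp)]; simp
  map_add' := by
    intro x y
    obtain ⟨T, b, hb, h⟩ := x.2
    obtain ⟨T', b', hb', h'⟩ := y.2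
    show gaussRedFun r (x + y) = gaussRedFun r x + gaussRedFun r y
    rw [gaussRedFun_eq r hι x T b hb h, gaussRedFun_eq r hι y T' b' hb' h',
      gaussRedFun_eq r hι (x + y) (T * b' + T' * b) (b * b')
        (by rw [map_mul]; exact mul_ne_zero hb hb')
        (by
          rw [Subring.coe_add, map_mul, map_add, map_mul, map_mul, ← h, ← h']; ring)]
    rw [map_add, map_mul, map_mul, map_mul]
    field_simp
  map_mul' := by
    intro x y
    obtain ⟨T, b, hb, h⟩ := x.2
    obtain ⟨T', b', hb', h'⟩ := y.2
    show gaussRedFun r (x * y) = gaussRedFun r x * gaussRedFun r y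
    rw [gaussRedFun_eq r hι x T b hb h, gaussRedFun_eq r hι y T' b' hb' h',
      gaussRedFun_eq r hι (x * y) (T * T') (b * b')
        (by rw [map_mul]; exact mul_ne_zero hb hb')
        (by
          rw [Subring.coe_mul, map_mul, map_mul, ← h, ← h']; ring)]
    rw [map_mul, map_mul]
    field_simp

theorem gaussRed_eq (x : gaussRing ι r) (T b : LaurentSeries A)
    (hb : coeffMap r b ≠ 0) (h : coeffMap ι b * (x : LaurentSeries E) = coeffMap ι T) :
    gaussRed r hι x = coeffMap r T / coeffMap r b :=
  gaussRedFun_eq r hι x T b hb h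

theorem gaussRed_coeffMap (T : LaurentSeries A) :
    gaussRed r hι ⟨coeffMap ι T, coeffMap_mem_gaussRing ι r T⟩ = coeffMap r T := by
  rw [gaussRed_eq r hι _ T 1 (by simp) (by simp)]; simp

theorem gaussRed_eq_zero_iff (x : gaussRing ι r) (T b : LaurentSeries A)
    (hb : coeffMap r b ≠ 0) (h : coeffMap ι b * (x : LaurentSeries E) = coeffMap ι T) :
    gaussRed r hι x = 0 ↔ coeffMap r T = 0 := by
  rw [gaussRed_eq r hι x T b hb h, div_eq_zero_iff]
  exact ⟨fun h => h.resolve_right hb, Or.inl⟩

/-- Elements with nonzero reduction are units of the Gauss ring. -/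
theorem inv_mem_gaussRing (x : gaussRing ι r) (hx : gaussRed r hι x ≠ 0) :
    (x : LaurentSeries E)⁻¹ ∈ gaussRing ι r := by
  obtain ⟨T, b, hb, h⟩ := x.2
  have hT : coeffMap r T ≠ 0 := fun h0 => hx ((gaussRed_eq_zero_iff r hι x T b hb h).mpr h0)
  have hbE : coeffMap ι b ≠ 0 := by
    intro h0
    apply hb
    have : b = 0 := coeffMap_inj_of_injective ι hι (by rw [h0, map_zero])
    rw [this, map_zero]
  have hx0 : (x : LaurentSeries E) ≠ 0 := by
    intro h0
    rw [h0, mul_zero] at h
    apply hT
    have : T = 0 := coeffMap_inj_of_injective ι hι (by rw [← h, map_zero])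
    rw [this, map_zero]
  refine ⟨b, T, hT, ?_⟩
  rw [← h]
  field_simp

theorem gaussRed_inv (x : gaussRing ι r) (hx : gaussRed r hι x ≠ 0) :
    gaussRed r hι ⟨(x : LaurentSeries E)⁻¹, inv_mem_gaussRing r hι x hx⟩ =
      (gaussRed r hι x)⁻¹ := by
  have hx0 : (x : LaurentSeries E) ≠ 0 := by
    intro h0
    apply hx
    have : x = 0 := Subtype.ext h0
    rw [this, map_zero]
  have h1 : x * ⟨(x : LaurentSeries E)⁻¹, inv_mem_gaussRing r hι x hx⟩ = 1 :=
    Subtype.ext (mul_inv_cancel₀ hx0)
  have h2 := congrArg (gaussRed r hι) h1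
  rw [map_mul, map_one] at h2
  exact eq_inv_of_mul_eq_one_right h2

end Basic

section Kernel

variable {A E k : Type*} [CommRing A] [Field E] [Field k] {ι : A →+* E} (r : A →+* k)
  (hι : Function.Injective ι)

theorem coeffMap_hahnC {R S : Type*} [CommRing R] [CommRing S] (f : R →+* S) (a : R) :
    coeffMap f (HahnSeries.C a : LaurentSeries R) = HahnSeries.C (f a) := by
  show coeffMap f (HahnSeries.single 0 a) = HahnSeries.single 0 (f a)
  exact coeffMap_single f 0 a

/-- A series over `A` whose reduction vanishes is divisible by `π` (when `ker r ⊆ (π)`). -/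
theorem exists_eq_C_mul_of_coeffMap_eq_zero {π : A} (hker : ∀ a, r a = 0 → π ∣ a)
    (T : LaurentSeries A) (hT : coeffMap r T = 0) :
    ∃ T' : LaurentSeries A, T = HahnSeries.C π * T' := by
  classical
  have h1 : ∀ n, r (T.coeff n) = 0 := fun n => by
    have := congrArg (fun z : LaurentSeries k => z.coeff n) hT
    simpa using this
  choose f hf using fun n => hker _ (h1 n)
  refine ⟨⟨fun n => if T.coeff n = 0 then 0 else f n, T.isPWO_support.mono ?_⟩, ?_⟩
  · intro n hn
    simp only [Function.mem_support, ne_eq, ite_eq_left_iff, not_forall] at hn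
    obtain ⟨h, _⟩ := hn
    exact h
  · ext n
    rw [HahnSeries.C_mul_eq_smul, HahnSeries.coeff_smul]
    show T.coeff n = π • (if T.coeff n = 0 then 0 else f n)
    split_ifs with h
    · rw [h]; simp
    · rw [smul_eq_mul]; exact hf n

/-- The constant `ι π` lies in the Gauss ring. -/
theorem hahnC_mem_gaussRing (a : A) : (HahnSeries.C (ι a) : LaurentSeries E) ∈ gaussRing ι r := by
  rw [← coeffMap_hahnC]
  exact coeffMap_mem_gaussRing ι r _

include hι in
/-- **Kernel of the reduction**: `ker gaussRed = π · gaussRing`. -/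
theorem gaussRed_eq_zero_iff_dvd {π : A} (hπ : r π = 0) (hker : ∀ a, r a = 0 → π ∣ a)
    (x : gaussRing ι r) :
    gaussRed r hι x = 0 ↔
      ∃ y : gaussRing ι r, (x : LaurentSeries E) = HahnSeries.C (ι π) * (y : LaurentSeries E) := by
  constructor
  · intro h0
    obtain ⟨T, b, hb, h⟩ := x.2
    have hT : coeffMap r T = 0 := (gaussRed_eq_zero_iff r hι x T b hb h).mp h0
    obtain ⟨T', hT'⟩ := exists_eq_C_mul_of_coeffMap_eq_zero r hker T hT
    have hbE : coeffMap ι b ≠ 0 := by
      intro h0
      apply hb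
      have : b = 0 := coeffMap_inj_of_injective ι hι (by rw [h0, map_zero])
      rw [this, map_zero]
    refine ⟨⟨coeffMap ι T' / coeffMap ι b, T', b, hb, ?_⟩, ?_⟩
    · field_simp
    · show (x : LaurentSeries E) = HahnSeries.C (ι π) * (coeffMap ι T' / coeffMap ι b)
      have h2 : coeffMap ι T = HahnSeries.C (ι π) * coeffMap ι T' := by
        rw [hT', map_mul, coeffMap_hahnC]
      rw [eq_comm, mul_div_assoc', div_eq_iff hbE, ← h2, ← h, mul_comm]
  · rintro ⟨y, hy⟩
    have h1 : x = ⟨HahnSeries.C (ι π), hahnC_mem_gaussRing r π⟩ * y := Subtype.ext hy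
    rw [h1, map_mul]
    have h2 : gaussRed r hι ⟨HahnSeries.C (ι π), hahnC_mem_gaussRing r π⟩ = 0 := by
      have h3 := gaussRed_coeffMap r hι (HahnSeries.C π : LaurentSeries A)
      rw [coeffMap_hahnC r, hπ, map_zero] at h3
      rw [← h3]
      congr 1
      exact Subtype.ext (coeffMap_hahnC ι π).symm
    rw [h2, zero_mul]

end Kernel

end Fermat.Agent.INJ
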