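import Mathlib
import Fermat.Agent.S28.RedDVR
import Fermat.Agent.INJ.GaussRing

/-!
# INJ B-I1 (REP): key data over a general base and the representation theorem

Base: `A` a domain with well-founded divisibility (e.g. a DVR), `π ∈ A` nonzero and not a unit,
`E = Frac A`, `r : A →+* k` with `ker r ⊆ (π)`.  `Λ = A((q))`, `ι̂ = coeffMap (algebraMap A E)`,
`r̂ = coeffMap r`.

* `GaussKD r F t₀ x` : key data for the field `F ⊆ E((q))` with coordinate `t = ι̂ t₀` and family
  `x : Fin n → Λ` (the `ι̂ (x i)` span `F` over `E(t)`, the `r̂ (x i)` are linearly independent over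
  `k(t̄)`, `t̄` transcendental);
* `GaussKD.exists_rep` **(REP)** : every `f ∈ F` in the Gauss ring is
  `f = ∑ (P_i(t) / Q(t)) x_i` with `P_i, Q ∈ A[X]`, `Q̄ ≠ 0`, and then
  `Q̄(t̄) · gaussRed f = ∑ P̄_i(t̄) x̄_i`;
* `GaussKD.exists_table` **(TABLE)** : after scaling by `s(t)`, `s ∈ A[X]`, `s̄ ≠ 0`, the family
  `y_i = s(t) x_i` has a multiplication table with coefficients in `A[t]`.
-/

set_option autoImplicit false

noncomputable section

namespace Fermat.Agent.INJ

open ModularCurve Polynomial IntermediateField Fermat.Agent.S28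

section KD

variable {A E k : Type*} [CommRing A] [IsDomain A] [Field E] [Algebra A E] [IsFractionRing A E]
  [Field k] (r : A →+* k)

/-- Key data over the base `(A, E, k)` for the coordinate `t₀` and the family `x`. -/
structure GaussKD (F : IntermediateField E (LaurentSeries E)) (t₀ : LaurentSeries A) {n : ℕ}
    (x : Fin n → LaurentSeries A) : Prop where
  /-- the coordinate lies in the field -/
  t_mem : coeffMap (algebraMap A E) t₀ ∈ F
  /-- the family lies in the field -/
  mem : ∀ i, coeffMap (algebraMap A E) (x i) ∈ F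
  /-- the family spans the field over `E(t)` -/
  span : ∀ f ∈ F, ∃ c : Fin n → LaurentSeries E,
    (∀ i, c i ∈ adjoin E {coeffMap (algebraMap A E) t₀}) ∧
      f = ∑ i, c i * coeffMap (algebraMap A E) (x i)
  /-- the reductions are linearly independent over `k(t̄)` -/
  indep : ∀ c : Fin n → LaurentSeries k, (∀ i, c i ∈ adjoin k {coeffMap r t₀}) →
    ∑ i, c i * coeffMap r (x i) = 0 → ∀ i, c i = 0
  /-- the reduced coordinate is transcendental -/
  transc : Transcendental k (coeffMap r t₀)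

variable {r} {F : IntermediateField E (LaurentSeries E)} {t₀ : LaurentSeries A} {n : ℕ}
  {x : Fin n → LaurentSeries A}

/-- A polynomial with zero reduction is divisible by `π`. -/
theorem exists_eq_C_mul_of_map_eq_zero {π : A} (hr : ∀ a, r a = 0 → π ∣ a) {P : A[X]}
    (hP : P.map r = 0) : ∃ P' : A[X], P = C π * P' := by
  have h : C π ∣ P := by
    rw [Polynomial.C_dvd_iff_dvd_coeff]
    intro m
    have h5 := congrArg (fun q : Polynomial k => q.coeff m) hP
    simp only [Polynomial.coeff_map, Polynomial.coeff_zero] at h5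
    exact hr _ h5
  exact h

/-- Reduction of a relation: the coefficients of a relation whose left side vanishes mod `π`
vanish mod `π`. -/
theorem GaussKD.map_eq_zero_of_rel (kd : GaussKD r F t₀ x) {T b : LaurentSeries A}
    (hb : coeffMap r b ≠ 0) {D : A[X]} {P : Fin n → A[X]}
    (hrel : aeval t₀ D * T = b * ∑ i, aeval t₀ (P i) * x i)
    (h0 : (D.map r = 0) ∨ coeffMap r T = 0) : ∀ i, (P i).map r = 0 := by
  have h1 := congrArg (coeffMap r) hrel
  rw [map_mul, map_mul, map_sum, redDVR_coeffMap_aeval] at h1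
  have h2 : aeval (coeffMap r t₀) (D.map r) * coeffMap r T = 0 := by
    rcases h0 with h | h
    · rw [h, map_zero, zero_mul]
    · rw [h, mul_zero]
  rw [h2] at h1
  have h3 : ∑ i, coeffMap r (aeval t₀ (P i) * x i) = 0 :=
    (mul_eq_zero.mp h1.symm).resolve_left hb
  simp_rw [map_mul, redDVR_coeffMap_aeval] at h3
  intro i
  have h4 := kd.indep (fun i => aeval (coeffMap r t₀) ((P i).map r))
    (fun i => IntermediateField.algebra_adjoin_le_adjoin _ _
      (Polynomial.aeval_mem_adjoin_singleton _ _)) h3 i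
  exact transcendental_iff.mp kd.transc _ h4

/-- Normalisation of a relation: the denominator can be chosen with nonzero reduction. -/
theorem GaussKD.exists_normalized (kd : GaussKD r F t₀ x) {π : A} (hπ0 : π ≠ 0)
    (hr : ∀ a, r a = 0 → π ∣ a) {T b : LaurentSeries A} (hb : coeffMap r b ≠ 0) :
    ∀ (N : ℕ) (D : A[X]) (P : Fin n → A[X]), (∃ m, ¬ π ^ (N + 1) ∣ D.coeff m) →
      aeval t₀ D * T = b * ∑ i, aeval t₀ (P i) * x i →
      ∃ (Q : A[X]) (P' : Fin n → A[X]), Q.map r ≠ 0 ∧
        aeval t₀ Q * T = b * ∑ i, aeval t₀ (P' i) * x i := by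
  intro N
  induction N with
  | zero =>
    rintro D P ⟨m, hm⟩ hrel
    refine ⟨D, P, ?_, hrel⟩
    intro h0
    apply hm
    have h5 := congrArg (fun q : Polynomial k => q.coeff m) h0
    simp only [Polynomial.coeff_map, Polynomial.coeff_zero] at h5
    simpa using hr _ h5
  | succ N ih =>
    rintro D P ⟨m, hm⟩ hrel
    by_cases hD : D.map r = 0
    · obtain ⟨D', hD'⟩ := exists_eq_C_mul_of_map_eq_zero hr hD
      have hP := kd.map_eq_zero_of_rel hb hrel (Or.inl hD)
      choose P' hP' using fun i => exists_eq_C_mul_of_map_eq_zero hr (hP i)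
      refine ih D' P' ⟨m, ?_⟩ ?_
      · intro hdvd
        apply hm
        rw [hD', coeff_C_mul, pow_succ']
        exact mul_dvd_mul_left π hdvd
      · have h1 : algebraMap A (LaurentSeries A) π * (aeval t₀ D' * T
            - b * ∑ i, aeval t₀ (P' i) * x i) = 0 := by
          have h2 : aeval t₀ D = algebraMap A (LaurentSeries A) π * aeval t₀ D' := by
            rw [hD', map_mul, aeval_C]
          have h3 : ∀ i, aeval t₀ (P i) = algebraMap A (LaurentSeries A) π * aeval t₀ (P' i) := by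
            intro i
            rw [hP' i, map_mul, aeval_C]
          rw [h2] at hrel
          simp_rw [h3] at hrel
          rw [mul_sub, ← mul_assoc, hrel, Finset.mul_sum, Finset.mul_sum, Finset.mul_sum]
          rw [sub_eq_zero]
          refine Finset.sum_congr rfl fun i _ => ?_
          ring
        exact sub_eq_zero.mp (redDVR_eq_zero_of_mul hπ0 h1)
    · exact ⟨D, P, hD, hrel⟩

/-- **(REP)**, in `Λ`-form: for `f ∈ F` in the Gauss ring, written `ι̂ b * f = ι̂ T`. -/
theorem GaussKD.exists_rep_aux [WfDvdMonoid A] (kd : GaussKD r F t₀ x) {π : A} (hπ0 : π ≠ 0)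
    (hπ : ¬ IsUnit π) (hr : ∀ a, r a = 0 → π ∣ a) {f : LaurentSeries E} (hf : f ∈ F)
    {T b : LaurentSeries A} (hb : coeffMap r b ≠ 0)
    (hfb : coeffMap (algebraMap A E) b * f = coeffMap (algebraMap A E) T) :
    ∃ (Q : A[X]) (P : Fin n → A[X]), Q.map r ≠ 0 ∧
      aeval t₀ Q * T = b * ∑ i, aeval t₀ (P i) * x i := by
  have hinj : Function.Injective (coeffMap (algebraMap A E)) :=
    coeffMap_inj_of_injective _ (IsFractionRing.injective A E)
  obtain ⟨c, hc, hfc⟩ := kd.span f hf
  obtain ⟨D, hD, hDP⟩ := redDVR_exists_common_denominator (A := A)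
    (coeffMap (algebraMap A E) t₀) c hc Finset.univ
  choose P hP using fun i => hDP i (Finset.mem_univ i)
  have hD0 : D ≠ 0 := by
    rintro rfl
    apply hD
    rw [Polynomial.map_zero, map_zero]
  have hrel : aeval t₀ D * T = b * ∑ i, aeval t₀ (P i) * x i := by
    apply hinj
    rw [map_mul, map_mul, map_sum, ← hfb, redDVR_coeffMap_aeval, hfc]
    simp_rw [map_mul, redDVR_coeffMap_aeval]
    rw [mul_left_comm, Finset.mul_sum]
    congr 1
    refine Finset.sum_congr rfl fun i _ => ?_
    rw [← hP i]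
    ring
  obtain ⟨m, hm⟩ : ∃ m, D.coeff m ≠ 0 := by
    by_contra h
    push Not at h
    exact hD0 (Polynomial.ext fun m => by rw [h m, coeff_zero])
  obtain ⟨N, hN⟩ := FiniteMultiplicity.of_not_isUnit hπ hm
  exact kd.exists_normalized hπ0 hr hb N D P ⟨m, hN⟩ hrel

/-- **(REP)**: every `f ∈ F` in the Gauss ring is `∑ (P_i(t)/Q(t)) x_i` with `Q̄ ≠ 0`, and the
reduction of `f` is `∑ (P̄_i(t̄)/Q̄(t̄)) x̄_i`. -/
theorem GaussKD.exists_rep [WfDvdMonoid A] (kd : GaussKD r F t₀ x) {π : A} (hπ0 : π ≠ 0)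
    (hπ : ¬ IsUnit π) (hr : ∀ a, r a = 0 → π ∣ a) {f : LaurentSeries E} (hf : f ∈ F)
    (hfg : f ∈ gaussRing (algebraMap A E) r) :
    ∃ (Q : A[X]) (P : Fin n → A[X]), Q.map r ≠ 0 ∧
      coeffMap (algebraMap A E) (aeval t₀ Q) * f =
        ∑ i, coeffMap (algebraMap A E) (aeval t₀ (P i) * x i) ∧
      aeval (coeffMap r t₀) (Q.map r) * gaussRed r (IsFractionRing.injective A E) ⟨f, hfg⟩ =
        ∑ i, aeval (coeffMap r t₀) ((P i).map r) * coeffMap r (x i) := by
  have hinj : Function.Injective (coeffMap (algebraMap A E)) :=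
    coeffMap_inj_of_injective _ (IsFractionRing.injective A E)
  have hfg' : IsGaussInt (algebraMap A E) r f := hfg
  obtain ⟨T, b, hb, hfb⟩ := hfg'
  obtain ⟨Q, P, hQ, hrel⟩ := kd.exists_rep_aux hπ0 hπ hr hf hb hfb
  have hbE : coeffMap (algebraMap A E) b ≠ 0 := by
    intro h0
    apply hb
    have : b = 0 := hinj (by rw [h0, map_zero])
    rw [this, map_zero]
  refine ⟨Q, P, hQ, ?_, ?_⟩
  · apply mul_left_cancel₀ hbE
    have h1 := congrArg (coeffMap (algebraMap A E)) hrel
    rw [map_mul, map_mul, map_sum] at h1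
    rw [← h1, ← hfb]
    ring
  · rw [gaussRed_eq r (IsFractionRing.injective A E) ⟨f, hfg⟩ T b hb hfb]
    have h1 := congrArg (coeffMap r) hrel
    rw [map_mul, map_mul, map_sum, redDVR_coeffMap_aeval] at h1
    simp_rw [map_mul, redDVR_coeffMap_aeval] at h1
    rw [mul_div_assoc', h1, mul_div_assoc, mul_comm, div_mul_cancel₀ _ hb]

/-- **(TABLE)**: after scaling by some `s(t)`, `s ∈ A[X]` with `s̄ ≠ 0`, the family has a
multiplication table with structure constants in `A[t]`. -/
theorem GaussKD.exists_table [WfDvdMonoid A] (kd : GaussKD r F t₀ x) {π : A} (hπ0 : π ≠ 0)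
    (hπ : ¬ IsUnit π) (hr : ∀ a, r a = 0 → π ∣ a) :
    ∃ (s : A[X]) (c : Fin n → Fin n → Fin n → A[X]), s.map r ≠ 0 ∧
      ∀ j l, (aeval t₀ s * x j) * (aeval t₀ s * x l) =
        ∑ i, aeval t₀ (c j l i) * (aeval t₀ s * x i) := by
  classical
  have h1 : ∀ jl : Fin n × Fin n, ∃ (Q : A[X]) (P : Fin n → A[X]), Q.map r ≠ 0 ∧
      aeval t₀ Q * (x jl.1 * x jl.2) = 1 * ∑ i, aeval t₀ (P i) * x i := by
    intro jl
    refine kd.exists_rep_aux hπ0 hπ hr (f := coeffMap (algebraMap A E) (x jl.1 * x jl.2))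
      ?_ (by simp) (by simp)
    rw [map_mul]
    exact mul_mem (kd.mem _) (kd.mem _)
  choose Q P hQ hP using h1
  refine ⟨∏ jl, Q jl, fun j l i => (∏ jl ∈ Finset.univ.erase (j, l), Q jl) * P (j, l) i, ?_, ?_⟩
  · rw [Polynomial.map_prod]
    exact Finset.prod_ne_zero_iff.mpr fun jl _ => hQ jl
  · intro j l
    have h2 : (∏ jl, Q jl) = Q (j, l) * ∏ jl ∈ Finset.univ.erase (j, l), Q jl :=
      (Finset.mul_prod_erase Finset.univ Q (Finset.mem_univ (j, l))).symm
    have h3 := hP (j, l)
    rw [one_mul] at h3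
    set s := ∏ jl, Q jl with hs
    set s' := ∏ jl ∈ Finset.univ.erase (j, l), Q jl with hs'
    calc aeval t₀ s * x j * (aeval t₀ s * x l)
        = aeval t₀ s * aeval t₀ s' * (aeval t₀ (Q (j, l)) * (x j * x l)) := by
          rw [h2, map_mul]; ring
      _ = aeval t₀ s * aeval t₀ s' * ∑ i, aeval t₀ (P (j, l) i) * x i := by rw [h3]
      _ = ∑ i, aeval t₀ (s' * P (j, l) i) * (aeval t₀ s * x i) := by
          rw [Finset.mul_sum]
          refine Finset.sum_congr rfl fun i _ => ?_
          rw [map_mul]; ring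

end KD

end Fermat.Agent.INJ
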