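import Mathlib.FieldTheory.IntermediateField.Adjoin.Basic
import Mathlib.RingTheory.Discriminant
import Mathlib.RingTheory.DiscreteValuationRing.Basic
import Mathlib.RingTheory.IntegralClosure.Algebra.Basic
import Mathlib.RingTheory.RootsOfUnity.PrimitiveRoots
import Fermat.Prelude.Def_AlgebraicCurve_DivisorClassGroup

/-!
# (INJ) Part A: the statement of the tame specialization theorem (A5)

`A₀` a discrete valuation ring with uniformizer `π`, `E = Frac A₀` of characteristic `0`,
`Lf` a finite extension of `E(t)` with field of constants `E`,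
`C₁ = integralClosure (Algebra.adjoin A₀ {t}) Lf`.

Hypotheses (shapes fixed with the B-glue, helper36):
* `(a)` ONE integral basis of `Lf / E(t)` whose discriminant is `d(t)`, `d ∈ A₀[X]`, `π ∤ d`
  (all extensions of the Gauss valuation have `e = 1` and separable residue field);
* `(b)` `Lf / E(t)` is unramified at the finite places outside `Σ` (prelude `Place`s);
* `(b')` the ramification indices over `Σ ∪ {∞}` divide `e`, `e` a unit of `A₀`, `μ_e ⊂ A₀`;
* `(c)` the elements of `Σ` are pairwise distinct modulo `π`;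
* `(d)` `E` is algebraically closed in `Lf`;
* `(∞)` there is a place `P₀` with `ord_{P₀} t = -1` (the cusp `∞`, `t = q⁻¹ + …`).

Conclusion: `π` is a prime element of `C₁`  (the special fibre is integral; in particular the
Gauss valuation of `E(t)` has exactly one extension to `Lf`).
-/

set_option autoImplicit false

namespace Fermat.Agent.INJ

open Polynomial IntermediateField AlgebraicCurve

universe u

/-- Hypothesis `(a)`: one integral basis with discriminant prime to `π`. -/
def TSGoodBasis {A₀ E Lf : Type u} [CommRing A₀] [Field E] [Algebra A₀ E]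
    [Field Lf] [Algebra E Lf] [Algebra A₀ Lf] (π : A₀) (t : Lf) : Prop :=
  ∃ (n : ℕ) (b : Fin n → Lf) (d : A₀[X]),
    LinearIndependent E⟮t⟯ b ∧ Submodule.span E⟮t⟯ (Set.range b) = ⊤ ∧
    (∀ i, IsIntegral (Algebra.adjoin A₀ {t}) (b i)) ∧ ¬ (C π ∣ d) ∧
    algebraMap E⟮t⟯ Lf (Algebra.discr E⟮t⟯ b) = aeval t d

/-- Hypothesis `(b)`: unramified at the finite places outside `Σ`. -/
def TSUnramified {A₀ E Lf : Type u} [CommRing A₀] [Field E]
    [Field Lf] [Algebra E Lf] [Algebra A₀ Lf] (t : Lf) (S : Finset A₀) : Prop :=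
  ∀ P : Place E Lf, 0 ≤ P.ord t → (∀ c ∈ S, P.ord (t - algebraMap A₀ Lf c) = 0) →
    ∃ g : E[X], P.ord (aeval t g) = 1

/-- Hypothesis `(b')`: ramification indices over `Σ ∪ {∞}` divide `e`. -/
def TSTame {A₀ E Lf : Type u} [CommRing A₀] [Field E]
    [Field Lf] [Algebra E Lf] [Algebra A₀ Lf] (t : Lf) (S : Finset A₀) (e : ℕ) : Prop :=
  (∀ P : Place E Lf, ∀ c ∈ S, 0 < P.ord (t - algebraMap A₀ Lf c) →
      P.ord (t - algebraMap A₀ Lf c) ∣ (e : ℤ)) ∧
  (∀ P : Place E Lf, P.ord t < 0 → P.ord t ∣ (e : ℤ))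

/-- **The tame specialization theorem (statement).** -/
def TameSpecStmt : Prop :=
  ∀ (A₀ E Lf : Type u) [CommRing A₀] [IsDomain A₀] [IsDiscreteValuationRing A₀]
    [Field E] [Algebra A₀ E] [IsFractionRing A₀ E] [CharZero E]
    [Field Lf] [Algebra E Lf] [Algebra A₀ Lf] [IsScalarTower A₀ E Lf]
    (π : A₀) (_ : Irreducible π) (t : Lf) (_ : Transcendental E t) [FiniteDimensional E⟮t⟯ Lf]
    (_ : ∀ x : Lf, IsAlgebraic E x → x ∈ (algebraMap E Lf).range)
    (_ : TSGoodBasis (E := E) π t)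
    (S : Finset A₀) (_ : ∀ c ∈ S, ∀ c' ∈ S, c ≠ c' → ¬ π ∣ c - c')
    (_ : TSUnramified (E := E) t S)
    (e : ℕ) (_ : IsUnit (e : A₀)) (_ : ∃ ζ : A₀, IsPrimitiveRoot ζ e)
    (_ : TSTame (E := E) t S e)
    (_ : ∃ P₀ : Place E Lf, P₀.ord t = -1),
    Prime (algebraMap A₀ (integralClosure (Algebra.adjoin A₀ {t}) Lf) π)

end Fermat.Agent.INJ
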