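import Mathlib
import Fermat.Agent.INJ.GaussDisc
import Fermat.Agent.INJ.GaussRep
import Fermat.Agent.INJ.GaussSep
import Fermat.Agent.INJ.TSStmt

/-!
# INJ B-I1: key data give hypothesis `(a)` of the tame specialization theorem

`GaussKD.tsGoodBasis` : for key data `kd : GaussKD r F t₀ x` over `(A₀, E, k)`, `k` perfect of
characteristic `ℓ`, `θ t̄ ≠ 0`, the field `Lf = ↥F` with coordinate `t = ι̂ t₀` satisfies
`TSGoodBasis π t` (an integral basis of `Lf / E(t)` whose discriminant is `d(t)`, `π ∤ d`).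
-/

set_option autoImplicit false

noncomputable section

namespace Fermat.Agent.INJ

open ModularCurve Polynomial IntermediateField Fermat.Agent.S28 Fermat.Agent.S28.Deriv

section Pack

variable {E Ω : Type*} [Field E] [Field Ω] [Algebra E Ω]

/-- Membership in `E(t)` for elements of an intermediate field, seen in the big field. -/
theorem mem_adjoin_subtype_iff (F : IntermediateField E Ω) (t' x : F) :
    x ∈ E⟮t'⟯ ↔ (x : Ω) ∈ E⟮(t' : Ω)⟯ := by
  have h : (E⟮t'⟯).map F.val = E⟮(t' : Ω)⟯ := by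
    rw [adjoin_map, Set.image_singleton]; rfl
  rw [← h]
  constructor
  · intro hx; exact ⟨x, hx, rfl⟩
  · rintro ⟨z, hz, hzx⟩
    have : z = x := Subtype.ext hzx
    rwa [← this]

/-- From the membership forms of independence and span to a basis of `↥F` over `E(t)`. -/
theorem pack_basis (F : IntermediateField E Ω) {t : Ω} (ht : t ∈ F) {n : ℕ} (y : Fin n → Ω)
    (hy : ∀ i, y i ∈ F)
    (hind : ∀ c : Fin n → Ω, (∀ i, c i ∈ E⟮t⟯) → ∑ i, c i * y i = 0 → ∀ i, c i = 0)
    (hspan : ∀ f ∈ F, ∃ c : Fin n → Ω, (∀ i, c i ∈ E⟮t⟯) ∧ f = ∑ i, c i * y i) :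
    LinearIndependent E⟮(⟨t, ht⟩ : F)⟯ (fun i => (⟨y i, hy i⟩ : F)) ∧
      Submodule.span E⟮(⟨t, ht⟩ : F)⟯ (Set.range fun i => (⟨y i, hy i⟩ : F)) = ⊤ := by
  constructor
  · rw [Fintype.linearIndependent_iff]
    intro g hg i
    have hmem : ∀ i, F.val ((g i : F)) ∈ E⟮t⟯ := fun i =>
      (mem_adjoin_subtype_iff F ⟨t, ht⟩ (g i : F)).mp (g i).2
    have hsum : ∑ i, F.val ((g i : F)) * y i = 0 := by
      have h2 := congrArg F.val hg
      rw [map_sum, map_zero] at h2
      rw [← h2]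
      refine Finset.sum_congr rfl fun i _ => ?_
      rw [IntermediateField.smul_def, smul_eq_mul, map_mul]
      rfl
    have h1 := hind (fun i => F.val ((g i : F))) hmem hsum i
    exact Subtype.ext (Subtype.ext h1)
  · rw [Submodule.eq_top_iff']
    intro f
    obtain ⟨c, hc, hf⟩ := hspan f f.2
    have hcF : ∀ i, c i ∈ F := fun i => (adjoin_simple_le_iff.mpr ht) (hc i)
    have hcK : ∀ i, (⟨c i, hcF i⟩ : F) ∈ E⟮(⟨t, ht⟩ : F)⟯ := fun i =>
      (mem_adjoin_subtype_iff F _ _).mpr (hc i)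
    have : f = ∑ i, (⟨⟨c i, hcF i⟩, hcK i⟩ : E⟮(⟨t, ht⟩ : F)⟯) • (⟨y i, hy i⟩ : F) := by
      apply F.val.injective
      rw [map_sum]
      refine hf.trans (Finset.sum_congr rfl fun i _ => ?_)
      rw [IntermediateField.smul_def, smul_eq_mul, map_mul]
      rfl
    rw [this]
    exact Submodule.sum_mem _ fun i _ =>
      Submodule.smul_mem _ _ (Submodule.subset_span ⟨i, rfl⟩)

end Pack

section Good

universe u

variable {A₀ E : Type u} {k : Type*} [CommRing A₀] [IsDomain A₀] [Field E]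
  [Algebra A₀ E] [IsFractionRing A₀ E] [Field k] {r : A₀ →+* k}
  {F : IntermediateField E (LaurentSeries E)} {t₀ : LaurentSeries A₀} {n : ℕ}
  {x : Fin n → LaurentSeries A₀}

/-- The evaluation `A₀[X] → E(t)`, `P ↦ P(t)`. -/
def evalAdjoin {K Ω : Type*} [Field K] [Field Ω] [Algebra K Ω] {A : Type*} [CommRing A]
    (f : A →+* K) (t : Ω) : A[X] →+* K⟮t⟯ :=
  (aeval (AdjoinSimple.gen K t)).toRingHom.comp (mapRingHom f)

theorem coe_evalAdjoin {K Ω : Type*} [Field K] [Field Ω] [Algebra K Ω] {A : Type*} [CommRing A]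
    (f : A →+* K) (t : Ω) (P : A[X]) :
    ((evalAdjoin f t P : K⟮t⟯) : Ω) = aeval t (P.map f) := by
  show algebraMap K⟮t⟯ Ω (aeval (AdjoinSimple.gen K t) (P.map f)) = aeval t (P.map f)
  rw [← aeval_algebraMap_apply, AdjoinSimple.algebraMap_gen]

/-- The reduced family is linearly independent over `k(t̄)`. -/
theorem GaussKD.linearIndependent_red (kd : GaussKD r F t₀ x) :
    LinearIndependent k⟮coeffMap r t₀⟯ (fun i => coeffMap r (x i)) := by
  rw [Fintype.linearIndependent_iff]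
  intro g hg i
  have h1 := kd.indep (fun i => ((g i : k⟮coeffMap r t₀⟯) : LaurentSeries k)) (fun i => (g i).2)
    (by
      rw [← hg]
      refine Finset.sum_congr rfl fun i _ => ?_
      rw [IntermediateField.smul_def, smul_eq_mul]) i
  exact Subtype.ext h1

/-- **Reduced side**: the discriminant of the table is nonzero modulo `π`. -/
theorem GaussKD.map_det_tableTrace_ne_zero [WfDvdMonoid A₀] (kd : GaussKD r F t₀ x) {π : A₀}
    (hπ0 : π ≠ 0) (hπ : ¬ IsUnit π) (hr : ∀ a, r a = 0 → π ∣ a)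
    (ℓ : ℕ) [Fact ℓ.Prime] [CharP k ℓ] [PerfectRing k ℓ]
    (hθ : thetaFun (coeffMap r t₀) ≠ 0)
    {s : A₀[X]} {c : Fin n → Fin n → Fin n → A₀[X]} (hs : s.map r ≠ 0)
    (htab : ∀ j l, (aeval t₀ s * x j) * (aeval t₀ s * x l) =
        ∑ i, aeval t₀ (c j l i) * (aeval t₀ s * x i)) :
    ((tableTrace c).det).map r ≠ 0 := by
  classical
  set tb : LaurentSeries k := coeffMap r t₀ with htb
  set σb : LaurentSeries k := aeval tb (s.map r) with hσb
  have hσb0 : σb ≠ 0 := fun h0 => hs (transcendental_iff.mp kd.transc _ h0)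
  have hmemP : ∀ P : k[X], aeval tb P ∈ k⟮tb⟯ := fun P =>
    IntermediateField.algebra_adjoin_le_adjoin _ _ (Polynomial.aeval_mem_adjoin_singleton _ _)
  have hσbmem : σb ∈ k⟮tb⟯ := hmemP _
  set yb : Fin n → LaurentSeries k := fun i => coeffMap r (aeval t₀ s * x i) with hyb
  have hybσ : ∀ i, yb i = σb * coeffMap r (x i) := fun i => by
    simp only [hyb, map_mul, redDVR_coeffMap_aeval]
    rfl
  have hli : LinearIndependent k⟮tb⟯ yb := by
    rw [Fintype.linearIndependent_iff]
    intro g hg i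
    have h1 := kd.indep (fun i => ((g i : k⟮tb⟯) : LaurentSeries k) * σb)
      (fun i => mul_mem (g i).2 hσbmem)
      (by
        rw [← hg]
        refine Finset.sum_congr rfl fun i _ => ?_
        rw [IntermediateField.smul_def, smul_eq_mul, hybσ]
        ring) i
    exact Subtype.ext ((mul_eq_zero.mp h1).resolve_right hσb0)
  have h1 : (1 : LaurentSeries k) ∈ Submodule.span k⟮tb⟯ (Set.range yb) := by
    obtain ⟨Q, P, hQ, hrel⟩ := kd.exists_rep_aux hπ0 hπ hr (f := 1) (T := 1) (b := 1)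
      (one_mem F) (by simp) (by simp)
    have h2 := congrArg (coeffMap r) hrel
    rw [mul_one, one_mul, map_sum, redDVR_coeffMap_aeval] at h2
    simp_rw [map_mul, redDVR_coeffMap_aeval] at h2
    have hQ0 : aeval tb (Q.map r) ≠ 0 := fun h0 => hQ (transcendental_iff.mp kd.transc _ h0)
    have h3 : (1 : LaurentSeries k) = ∑ i,
        (⟨aeval tb ((P i).map r) / (aeval tb (Q.map r) * σb),
          div_mem (hmemP _) (mul_mem (hmemP _) hσbmem)⟩ : k⟮tb⟯) • yb i := by
      simp_rw [IntermediateField.smul_def, smul_eq_mul, hybσ]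
      have h4 : ∀ i, aeval tb ((P i).map r) / (aeval tb (Q.map r) * σb) *
          (σb * coeffMap r (x i)) =
          (aeval tb (Q.map r))⁻¹ * (aeval tb ((P i).map r) * coeffMap r (x i)) := by
        intro i
        field_simp
      simp_rw [h4]
      rw [← Finset.mul_sum, ← h2, inv_mul_cancel₀ hQ0]
    rw [h3]
    exact Submodule.sum_mem _ fun i _ =>
      Submodule.smul_mem _ _ (Submodule.subset_span ⟨i, rfl⟩)
  have htabb : ∀ j l, yb j * yb l = ∑ i, evalAdjoin r tb (c j l i) • yb i := by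
    intro j l
    have h3 := congrArg (coeffMap r) (htab j l)
    rw [map_mul, map_sum] at h3
    refine h3.trans (Finset.sum_congr rfl fun i _ => ?_)
    rw [IntermediateField.smul_def, smul_eq_mul, coe_evalAdjoin, map_mul, redDVR_coeffMap_aeval]
  have h4 := Fermat.Agent.INJ.map_det_tableTrace_ne_zero (evalAdjoin r tb) yb hli h1 c htabb
    (fun z hz => isSeparable_of_theta ℓ kd.transc hθ hz)
  intro h0
  apply h4
  apply Subtype.ext
  rw [coe_evalAdjoin, h0, map_zero]
  rfl

/-- **B-I1, hypothesis (a)**: key data give a good basis of `↥F` over `E(t)`. -/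
theorem GaussKD.tsGoodBasis [WfDvdMonoid A₀] (kd : GaussKD r F t₀ x) {π : A₀}
    (hπ0 : π ≠ 0) (hπ : ¬ IsUnit π) (hr : ∀ a, r a = 0 → π ∣ a) (hrπ : r π = 0)
    (ℓ : ℕ) [Fact ℓ.Prime] [CharP k ℓ] [PerfectRing k ℓ]
    (hθ : thetaFun (coeffMap r t₀) ≠ 0)
    [Algebra A₀ F] [IsScalarTower A₀ E F] :
    TSGoodBasis (A₀ := A₀) (E := E) (Lf := F) π
      (⟨coeffMap (algebraMap A₀ E) t₀, kd.t_mem⟩ : F) := by
  classical
  obtain ⟨s, c, hs, htab⟩ := kd.exists_table hπ0 hπ hr
  have hinj : Function.Injective (coeffMap (algebraMap A₀ E)) :=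
    coeffMap_inj_of_injective _ (IsFractionRing.injective A₀ E)
  set t : LaurentSeries E := coeffMap (algebraMap A₀ E) t₀ with ht
  have hsΛ : aeval t₀ s ≠ 0 := by
    intro h0
    have := congrArg (coeffMap r) h0
    rw [redDVR_coeffMap_aeval, map_zero] at this
    exact hs (transcendental_iff.mp kd.transc _ this)
  set σ : LaurentSeries E := coeffMap (algebraMap A₀ E) (aeval t₀ s) with hσ
  have hσ0 : σ ≠ 0 := fun h0 => hsΛ (hinj (by rw [← hσ, h0, map_zero]))
  have hmemP : ∀ P : E[X], aeval t P ∈ E⟮t⟯ := fun P =>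
    IntermediateField.algebra_adjoin_le_adjoin _ _ (Polynomial.aeval_mem_adjoin_singleton _ _)
  have hσmem : σ ∈ E⟮t⟯ := by
    rw [hσ, redDVR_coeffMap_aeval]
    exact hmemP _
  have hKF : E⟮t⟯ ≤ F := adjoin_simple_le_iff.mpr kd.t_mem
  set y : Fin n → LaurentSeries E := fun i => coeffMap (algebraMap A₀ E) (aeval t₀ s * x i)
    with hy
  have hyσ : ∀ i, y i = σ * coeffMap (algebraMap A₀ E) (x i) := fun i => by
    simp only [hy, map_mul]
    rfl
  have hyF : ∀ i, y i ∈ F := fun i => by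
    rw [hyσ]; exact mul_mem (hKF hσmem) (kd.mem i)
  have hindx := redDVR_indep (E := E) r π hπ0 hπ hr x t₀ kd.transc kd.indep
  have hind : ∀ c : Fin n → LaurentSeries E, (∀ i, c i ∈ E⟮t⟯) → ∑ i, c i * y i = 0 →
      ∀ i, c i = 0 := by
    intro c hc hsum i
    have h1 := hindx (fun i => c i * σ) (fun i => mul_mem (hc i) hσmem) (by
      rw [← hsum]
      refine Finset.sum_congr rfl fun i _ => ?_
      rw [hyσ]; ring) i
    exact (mul_eq_zero.mp h1).resolve_right hσ0
  have hspan : ∀ f ∈ F, ∃ c : Fin n → LaurentSeries E, (∀ i, c i ∈ E⟮t⟯) ∧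
      f = ∑ i, c i * y i := by
    intro f hf
    obtain ⟨c, hc, hfc⟩ := kd.span f hf
    refine ⟨fun i => c i / σ, fun i => div_mem (hc i) hσmem, ?_⟩
    rw [hfc]
    refine Finset.sum_congr rfl fun i _ => ?_
    rw [hyσ]
    field_simp
  obtain ⟨hli, hsp⟩ := pack_basis F kd.t_mem y hyF hind hspan
  set t' : F := ⟨t, kd.t_mem⟩ with ht'
  set b : Fin n → F := fun i => (⟨y i, hyF i⟩ : F) with hb
  set B : Module.Basis (Fin n) E⟮t'⟯ F := Module.Basis.mk hli hsp.ge with hB
  have hBb : ⇑B = b := Module.Basis.coe_mk hli hsp.ge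
  -- the evaluation `φ`
  have hφ : ∀ P : A₀[X], ((evalAdjoin (algebraMap A₀ E) t' P : E⟮t'⟯) : F) =
      aeval t' (P.map (algebraMap A₀ E)) := fun P => coe_evalAdjoin _ _ _
  have hφ' : ∀ P : A₀[X], (((evalAdjoin (algebraMap A₀ E) t' P : E⟮t'⟯) : F) : LaurentSeries E) =
      coeffMap (algebraMap A₀ E) (aeval t₀ P) := by
    intro P
    rw [hφ, redDVR_coeffMap_aeval]
    have : F.val (aeval t' (P.map (algebraMap A₀ E))) = aeval (F.val t') (P.map (algebraMap A₀ E)) :=
      (aeval_algHom_apply F.val t' _).symm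
    exact this
  have htabF : ∀ j l, b j * b l = ∑ i, evalAdjoin (algebraMap A₀ E) t' (c j l i) • b i := by
    intro j l
    apply F.val.injective
    rw [map_mul, map_sum]
    have h3 := congrArg (coeffMap (algebraMap A₀ E)) (htab j l)
    rw [map_mul, map_sum] at h3
    refine h3.trans (Finset.sum_congr rfl fun i _ => ?_)
    rw [IntermediateField.smul_def, smul_eq_mul]
    have h4 : coeffMap (algebraMap A₀ E) (aeval t₀ (c j l i) * (aeval t₀ s * x i)) =
        coeffMap (algebraMap A₀ E) (aeval t₀ (c j l i)) * y i := by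
      rw [map_mul]
    rw [h4, ← hφ']
    rfl
  have htabB : ∀ j l, B j * B l = ∑ i, evalAdjoin (algebraMap A₀ E) t' (c j l i) • B i := by
    intro j l
    rw [hBb]
    exact htabF j l
  have haev : ∀ P : A₀[X], aeval t' (P.map (algebraMap A₀ E)) = aeval t' P :=
    fun P => aeval_map_algebraMap E t' P
  refine ⟨n, b, (tableTrace c).det, hli, hsp, ?_, ?_, ?_⟩
  · -- integrality
    intro i
    refine isIntegral_of_table (R := Algebra.adjoin A₀ {t'}) b
      (fun j l i => ⟨aeval t' (c j l i), Polynomial.aeval_mem_adjoin_singleton A₀ t'⟩) ?_ i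
    intro j l
    rw [htabF j l]
    refine Finset.sum_congr rfl fun i _ => ?_
    rw [IntermediateField.smul_def, smul_eq_mul, Subalgebra.smul_def, smul_eq_mul, hφ, haev]
  · -- the discriminant is prime to `π`
    intro hdvd
    apply kd.map_det_tableTrace_ne_zero hπ0 hπ hr ℓ hθ hs htab
    obtain ⟨d', hd'⟩ := hdvd
    rw [hd', Polynomial.map_mul, Polynomial.map_C, hrπ, map_zero, zero_mul]
  · -- the discriminant
    rw [← hBb, discr_eq_map_det_of_table (evalAdjoin (algebraMap A₀ E) t') B c htabB]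
    show ((evalAdjoin (algebraMap A₀ E) t' (tableTrace c).det : E⟮t'⟯) : F) = _
    rw [hφ, haev]

end Good

end Fermat.Agent.INJ
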