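import Mathlib
import Fermat.Agent.S28.KeyDataJ
import Fermat.Agent.S28.RedDVR
import Fermat.Agent.INJ.GaussGood

/-!
# INJ B-I1: the key data of `F_N = E(j(q^d) : d ∣ N)` over the `j`-line, for a general base

`A₀` a domain with well-founded divisibility, `E = Frac A₀`, `r : A₀ →+* k`, `ker r ⊆ (π)`,
`N ≠ 0` in `k`.

* `exists_gaussKD_j` : `ψ(N)` monomials `x i` in the `j(q^d)` with
  `GaussKD r (modularFunctionFieldFullC E N) (jqModC A₀) x`.
* `tsGoodBasis_j` : hypothesis `(a)` of the tame specialization theorem for `Lf = F_N`, `t = j`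
  (`k` perfect of characteristic `ℓ`).
-/

set_option autoImplicit false

noncomputable section

namespace Fermat.Agent.INJ

open ModularCurve Polynomial IntermediateField Fermat.Agent.S28 Fermat.Agent.S28.Deriv

section JLine

universe u

variable {A₀ E : Type u} {k : Type*} [CommRing A₀] [IsDomain A₀] [WfDvdMonoid A₀] [Field E]
  [Algebra A₀ E] [IsFractionRing A₀ E] [Field k] (r : A₀ →+* k) (π : A₀)

/-- Monomials in the generators lie in the function field. -/
theorem coeffMap_mem_full_of_mem_closure (K : Type*) [Field K] (N : ℕ) {z : LaurentSeries ℤ}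
    (hz : z ∈ Submonoid.closure (gensZ N)) :
    coeffMap (Int.castRingHom K) z ∈ modularFunctionFieldFullC K N := by
  induction hz using Submonoid.closure_induction with
  | mem z hz =>
    apply IntermediateField.subset_adjoin
    rw [← coeffMap_image_gensZ]
    exact ⟨z, hz, rfl⟩
  | one => rw [map_one]; exact one_mem _
  | mul a b _ _ ha hb => rw [map_mul]; exact mul_mem ha hb

/-- **KD over the `j`-line** for a general base. -/
theorem exists_gaussKD_j (hπ0 : π ≠ 0) (hπ : ¬ IsUnit π) (hr : ∀ a, r a = 0 → π ∣ a)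
    (N : ℕ) [NeZero N] (hN : (N : k) ≠ 0) :
    ∃ x : Fin (dedekindPsi N) → LaurentSeries A₀,
      GaussKD r (modularFunctionFieldFullC E N) (jqModC A₀) x := by
  obtain ⟨x, hx, hli⟩ := exists_monomials_full (k := k) N (primeHyp_of_dvd k N hN)
  have hliE := redDVR_linearIndependent_jq_int (E := E) r π hπ0 hπ hr x hli
  have hk : coeffMap r (jqModC A₀) = jqModC k := coeffMap_jqModC _
  have hE : coeffMap (algebraMap A₀ E) (jqModC A₀) = jqModC E := coeffMap_jqModC _
  have hxk : ∀ i, coeffMap r (coeffMap (Int.castRingHom A₀) (x i)) =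
      coeffMap (Int.castRingHom k) (x i) := fun i => by
    rw [coeffMap_coeffMap]
    exact coeffMap_congr (RingHom.ext_int _ _) _
  have hxE : ∀ i, coeffMap (algebraMap A₀ E) (coeffMap (Int.castRingHom A₀) (x i)) =
      coeffMap (Int.castRingHom E) (x i) := fun i => by
    rw [coeffMap_coeffMap]
    exact coeffMap_congr (RingHom.ext_int _ _) _
  have hm : ∀ i, coeffMap (Int.castRingHom E) (x i) ∈ modularFunctionFieldFullC E N :=
    fun i => coeffMap_mem_full_of_mem_closure E N (hx i)
  refine ⟨fun i => coeffMap (Int.castRingHom A₀) (x i), ⟨?_, ?_, ?_, ?_, ?_⟩⟩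
  · rw [hE]; exact jqModC_mem_full E N
  · intro i; rw [hxE]; exact hm i
  · intro f hf
    have hfin := UB.finrank_full_le E (NeZero.ne N)
      (fun r hr _ => @ub_modEq E _ r ⟨hr.ne_zero⟩ hr)
    obtain ⟨c, hc, hfc⟩ := exists_coeffs_of_linearIndependent (UB.K0 E)
      (modularFunctionFieldFullC E N) (UB.K0_le_full E N) hfin.1 hfin.2
      (fun i => coeffMap (Int.castRingHom E) (x i)) hm hliE f hf
    refine ⟨c, fun i => ?_, ?_⟩
    · rw [hE]; exact hc i
    · rw [hfc]
      refine Finset.sum_congr rfl fun i _ => ?_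
      rw [hxE]
  · intro c hc hsum
    rw [hk] at hc
    have h0 := Fintype.linearIndependent_iff.mp hli (fun i => ⟨c i, hc i⟩) (by
      rw [← hsum]
      refine Finset.sum_congr rfl fun i _ => ?_
      rw [hxk]
      rfl)
    intro i
    exact congrArg Subtype.val (h0 i)
  · rw [hk]; exact kdj_transcendental_jqModC k

/-- `θ j ≠ 0` in every characteristic. -/
theorem thetaFun_jqModC_ne_zero (K : Type*) [Field K] : thetaFun (jqModC K) ≠ 0 := by
  intro h0
  have h1 := congrArg (fun z : LaurentSeries K => z.coeff (-1)) h0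
  simp only [thetaFun_coeff, HahnSeries.coeff_zero, coeff_jqModC_neg_one] at h1
  simp at h1

/-- **B-I1 over the `j`-line**: hypothesis `(a)` of the tame specialization theorem for
`Lf = E(j(q^d) : d ∣ N)` and `t = j`. -/
theorem tsGoodBasis_j (hπ0 : π ≠ 0) (hπ : ¬ IsUnit π) (hr : ∀ a, r a = 0 → π ∣ a)
    (hrπ : r π = 0) (ℓ : ℕ) [Fact ℓ.Prime] [CharP k ℓ] [PerfectRing k ℓ]
    (N : ℕ) [NeZero N] (hN : (N : k) ≠ 0)
    [Algebra A₀ (modularFunctionFieldFullC E N)]
    [IsScalarTower A₀ E (modularFunctionFieldFullC E N)] :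
    TSGoodBasis (A₀ := A₀) (E := E) (Lf := modularFunctionFieldFullC E N) π
      (⟨jqModC E, jqModC_mem_full E N⟩ : modularFunctionFieldFullC E N) := by
  obtain ⟨x, kd⟩ := exists_gaussKD_j (E := E) r π hπ0 hπ hr N hN
  have hk : coeffMap r (jqModC A₀) = jqModC k := coeffMap_jqModC _
  have h := kd.tsGoodBasis hπ0 hπ hr hrπ ℓ (by rw [hk]; exact thetaFun_jqModC_ne_zero k)
  have hE : (⟨coeffMap (algebraMap A₀ E) (jqModC A₀), kd.t_mem⟩ : modularFunctionFieldFullC E N)
      = ⟨jqModC E, jqModC_mem_full E N⟩ := Subtype.ext (coeffMap_jqModC _)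
  rwa [hE] at h

end JLine

end Fermat.Agent.INJ
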