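import Mathlib
import Fermat.Agent.S28.KeyDataJ
import Fermat.Agent.S28.RedDVR
import Fermat.Agent.INJ.GaussLevel
import Fermat.Agent.INJ.HMDegree
import Fermat.Agent.INJ.Hauptmodul

/-!
# INJ B-I1: key data over the line of a Hauptmodul (general coordinate)

`t₀ ∈ ℤ((q))` a coordinate with `K(t) = F_{N₀}(K)` for `K = E` and `K = k`
(`F_N(K) = K(j(q^d) : d ∣ N)`), `N₀ ∣ M`, `M ≠ 0` in `k`.

* `exists_gaussKD_of_adjoin_eq` : there are `n` monomials `x i` in the `j(q^d)`, `d ∣ M`, with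
  `GaussKD r (F_M(E)) t₀ x`  (`n = [F_M : F_{N₀}]`).
* `tsGoodBasis_of_adjoin_eq` : hypothesis `(a)` of the tame specialization theorem for
  `Lf = F_M(E)` and the coordinate `t`.
-/

set_option autoImplicit false

noncomputable section

namespace Fermat.Agent.INJ

open ModularCurve Polynomial IntermediateField Fermat.Agent.S28 Fermat.Agent.S28.Deriv Cardinal

section Abstract

variable {K L : Type*} [Field K] [Field L] [Algebra K L]

theorem finiteDimensional_of_relrank_lt (A B : IntermediateField K L) (h : A ≤ B)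
    (hfin : A.relrank B < ℵ₀) : FiniteDimensional A (extendScalars h) := by
  rw [relrank_eq_rank_of_le h] at hfin
  exact Module.rank_lt_aleph0_iff.mp hfin

end Abstract

section Count

variable (K : Type*) [Field K]

/-- `[F_M : F_{N₀}] · ψ(N₀) = ψ(M)` and the degree is finite. -/
theorem relfinrank_full_full {N₀ M : ℕ} [NeZero N₀] [NeZero M] (hdvd : N₀ ∣ M)
    (hM : (M : K) ≠ 0) :
    dedekindPsi N₀ * (modularFunctionFieldFullC K N₀).relfinrank (modularFunctionFieldFullC K M)
      = dedekindPsi M := by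
  have hN₀ : (N₀ : K) ≠ 0 := by
    intro h0
    obtain ⟨c, rfl⟩ := hdvd
    rw [Nat.cast_mul, h0, zero_mul] at hM
    exact hM rfl
  have h1 := relfinrank_mul_relfinrank (UB.K0_le_full K N₀) (UB.full_mono K hdvd)
  have h2 := relfinrank_full_eq_dedekindPsi K N₀ hN₀
  have h3 := relfinrank_full_eq_dedekindPsi K M hM
  rw [UB.K0] at h1
  rw [h2, h3] at h1
  exact h1

theorem dedekindPsi_pos' {M : ℕ} [NeZero M] (hM : (M : K) ≠ 0) : 0 < dedekindPsi M := by
  rw [← relfinrank_full_eq_dedekindPsi K M hM]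
  have h := relrank_full_lt_aleph0_of_ne_zero K M hM
  rw [relfinrank_eq_toNat_relrank]
  rw [Nat.pos_iff_ne_zero, Ne, toNat_eq_zero]
  push Not
  refine ⟨?_, h⟩
  have hle : K⟮jqModC K⟯ ≤ modularFunctionFieldFullC K M := UB.K0_le_full K M
  rw [relrank_eq_rank_of_le hle]
  exact rank_pos.ne'

theorem relfinrank_full_full_pos {N₀ M : ℕ} [NeZero N₀] [NeZero M] (hdvd : N₀ ∣ M)
    (hM : (M : K) ≠ 0) :
    0 < (modularFunctionFieldFullC K N₀).relfinrank (modularFunctionFieldFullC K M) := by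
  have h1 := relfinrank_full_full K hdvd hM
  have h2 := dedekindPsi_pos' K hM
  rcases Nat.eq_zero_or_pos
    ((modularFunctionFieldFullC K N₀).relfinrank (modularFunctionFieldFullC K M)) with h | h
  · rw [h, mul_zero] at h1; omega
  · exact h

theorem relrank_full_full_lt {N₀ M : ℕ} [NeZero N₀] [NeZero M] (hdvd : N₀ ∣ M)
    (hM : (M : K) ≠ 0) :
    (modularFunctionFieldFullC K N₀).relrank (modularFunctionFieldFullC K M) < ℵ₀ := by
  have h := relfinrank_full_full_pos K hdvd hM
  rw [relfinrank_eq_toNat_relrank] at h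
  by_contra hge
  rw [not_lt] at hge
  rw [toNat_apply_of_aleph0_le hge] at h
  exact lt_irrefl _ h

end Count

section General

universe u

variable {A₀ E : Type u} {k : Type*} [CommRing A₀] [IsDomain A₀] [WfDvdMonoid A₀] [Field E]
  [Algebra A₀ E] [IsFractionRing A₀ E] [Field k] (r : A₀ →+* k) (π : A₀)

/-- **KD over the line of a coordinate `t` with `K(t) = F_{N₀}(K)`**, at level `M`, `N₀ ∣ M`. -/
theorem exists_gaussKD_of_adjoin_eq (hπ0 : π ≠ 0) (hπ : ¬ IsUnit π) (hr : ∀ a, r a = 0 → π ∣ a)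
    {N₀ M : ℕ} [NeZero N₀] [NeZero M] (hdvd : N₀ ∣ M) (hME : (M : E) ≠ 0) (hMk : (M : k) ≠ 0)
    (t₀ : LaurentSeries ℤ)
    (hE : E⟮coeffMap (Int.castRingHom E) t₀⟯ = modularFunctionFieldFullC E N₀)
    (hk : k⟮coeffMap (Int.castRingHom k) t₀⟯ = modularFunctionFieldFullC k N₀)
    (htr : Transcendental k (coeffMap (Int.castRingHom k) t₀)) :
    ∃ (n : ℕ) (x : Fin n → LaurentSeries A₀),
      GaussKD r (modularFunctionFieldFullC E M) (coeffMap (Int.castRingHom A₀) t₀) x ∧
      ∀ i, coeffMap r (x i) ∈ modularFunctionFieldFullC k M := by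
  classical
  set n := (modularFunctionFieldFullC k N₀).relfinrank (modularFunctionFieldFullC k M) with hn
  have hnE : (modularFunctionFieldFullC E N₀).relfinrank (modularFunctionFieldFullC E M) = n := by
    have h1 := relfinrank_full_full E hdvd hME
    have h2 := relfinrank_full_full k hdvd hMk
    have hN₀k : (N₀ : k) ≠ 0 := by
      intro h0
      obtain ⟨c, rfl⟩ := hdvd
      rw [Nat.cast_mul, h0, zero_mul] at hMk
      exact hMk rfl
    have h3 := dedekindPsi_pos' k hN₀k
    rw [← h2] at h1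
    exact Nat.eq_of_mul_eq_mul_left h3 h1
  -- monomials over `k`
  have hfin := relrank_full_full_lt k hdvd hMk
  have hle : modularFunctionFieldFullC k N₀ ≤ adjoin k (divisorExpansionsC k M) :=
    UB.full_mono k hdvd
  have hcard : (n : Cardinal) ≤
      (modularFunctionFieldFullC k N₀).relrank (adjoin k (divisorExpansionsC k M)) := by
    rw [hn, relfinrank_eq_toNat_relrank]
    exact (cast_toNat_of_lt_aleph0 hfin).le
  have hint : ∀ z ∈ divisorExpansionsC k M, IsIntegral (modularFunctionFieldFullC k N₀) z :=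
    fun z hz => isIntegral_of_relrank_lt _ _ (UB.full_mono k hdvd) hfin
      (IntermediateField.subset_adjoin k _ hz)
  obtain ⟨m, hm, hli⟩ := exists_monomials_linearIndependent (modularFunctionFieldFullC k N₀)
    (divisorExpansionsC k M) hint hle n hcard
  have hcl : ∀ i, ∃ w ∈ Submonoid.closure (gensZ M), coeffMap (Int.castRingHom k) w = m i := by
    intro i
    have h1 := hm i
    rw [← coeffMap_image_gensZ, ← MonoidHom.map_mclosure] at h1
    exact h1
  choose x hx hxm using hcl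
  rw [← hk] at hli
  -- notation
  have hkt : coeffMap r (coeffMap (Int.castRingHom A₀) t₀) = coeffMap (Int.castRingHom k) t₀ := by
    rw [coeffMap_coeffMap]
    exact coeffMap_congr (RingHom.ext_int _ _) _
  have hEt : coeffMap (algebraMap A₀ E) (coeffMap (Int.castRingHom A₀) t₀) =
      coeffMap (Int.castRingHom E) t₀ := by
    rw [coeffMap_coeffMap]
    exact coeffMap_congr (RingHom.ext_int _ _) _
  have hxk : ∀ i, coeffMap r (coeffMap (Int.castRingHom A₀) (x i)) = m i := fun i => by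
    rw [coeffMap_coeffMap, ← hxm i]
    exact coeffMap_congr (RingHom.ext_int _ _) _
  have hxE : ∀ i, coeffMap (algebraMap A₀ E) (coeffMap (Int.castRingHom A₀) (x i)) =
      coeffMap (Int.castRingHom E) (x i) := fun i => by
    rw [coeffMap_coeffMap]
    exact coeffMap_congr (RingHom.ext_int _ _) _
  have hmE : ∀ i, coeffMap (Int.castRingHom E) (x i) ∈ modularFunctionFieldFullC E M :=
    fun i => coeffMap_mem_full_of_mem_closure E M (hx i)
  -- independence of the reductions, membership form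
  have hind : ∀ c : Fin n → LaurentSeries k,
      (∀ i, c i ∈ k⟮coeffMap r (coeffMap (Int.castRingHom A₀) t₀)⟯) →
      ∑ i, c i * coeffMap r (coeffMap (Int.castRingHom A₀) (x i)) = 0 → ∀ i, c i = 0 := by
    intro c hc hsum i
    rw [hkt] at hc
    have h0 := Fintype.linearIndependent_iff.mp hli (fun i => ⟨c i, hc i⟩) (by
      rw [← hsum]
      refine Finset.sum_congr rfl fun i _ => ?_
      rw [hxk, IntermediateField.smul_def, smul_eq_mul]) i
    exact congrArg Subtype.val h0
  have htr' : Transcendental k (coeffMap r (coeffMap (Int.castRingHom A₀) t₀)) := by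
    rw [hkt]; exact htr
  have hindE := redDVR_indep (E := E) r π hπ0 hπ hr
    (fun i => coeffMap (Int.castRingHom A₀) (x i)) (coeffMap (Int.castRingHom A₀) t₀) htr' hind
  have hliE : LinearIndependent E⟮coeffMap (Int.castRingHom E) t₀⟯
      (fun i => coeffMap (Int.castRingHom E) (x i)) := by
    rw [Fintype.linearIndependent_iff]
    intro g hg i
    have h1 := hindE (fun i => ((g i : E⟮coeffMap (Int.castRingHom E) t₀⟯) : LaurentSeries E))
      (fun i => by rw [hEt]; exact (g i).2)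
      (by
        rw [← hg]
        refine Finset.sum_congr rfl fun i _ => ?_
        rw [hxE, IntermediateField.smul_def, smul_eq_mul]) i
    exact Subtype.ext h1
  have hEF : E⟮coeffMap (Int.castRingHom E) t₀⟯ ≤ modularFunctionFieldFullC E M := by
    rw [hE]; exact UB.full_mono E hdvd
  have hfinE : E⟮coeffMap (Int.castRingHom E) t₀⟯.relrank (modularFunctionFieldFullC E M) < ℵ₀ := by
    rw [hE]; exact relrank_full_full_lt E hdvd hME
  have hfd : FiniteDimensional E⟮coeffMap (Int.castRingHom E) t₀⟯ (extendScalars hEF) :=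
    finiteDimensional_of_relrank_lt _ _ hEF hfinE
  have hfr : Module.finrank E⟮coeffMap (Int.castRingHom E) t₀⟯ (extendScalars hEF) ≤ n := by
    rw [← relfinrank_eq_finrank_of_le hEF, hE, hnE]
  refine ⟨n, fun i => coeffMap (Int.castRingHom A₀) (x i), ⟨?_, ?_, ?_, hind, htr'⟩, ?_⟩
  · rw [hEt]
    exact hEF (IntermediateField.mem_adjoin_simple_self E _)
  · intro i; rw [hxE]; exact hmE i
  · intro f hf
    obtain ⟨c, hc, hfc⟩ := exists_coeffs_of_linearIndependent E⟮coeffMap (Int.castRingHom E) t₀⟯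
      (modularFunctionFieldFullC E M) hEF hfd hfr
      (fun i => coeffMap (Int.castRingHom E) (x i)) hmE hliE f hf
    refine ⟨c, fun i => ?_, ?_⟩
    · rw [hEt]; exact hc i
    · rw [hfc]
      refine Finset.sum_congr rfl fun i _ => ?_
      rw [hxE]
  · intro i
    rw [hxk, ← hxm i]
    exact coeffMap_mem_full_of_mem_closure k M (hx i)

end General

section Squeeze

variable (K : Type*) [Field K]

theorem dedekindPsi_prime' {p : ℕ} (hp : p.Prime) : dedekindPsi p = p + 1 := by
  rw [dedekindPsi, hp.divisors, Finset.sum_filter,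
    Finset.sum_pair hp.one_lt.ne, if_pos squarefree_one, if_pos hp.squarefree, Nat.div_one,
    Nat.div_self hp.pos]

/-- **Degree squeeze**: if `j · h^e = P₁(h)` with `P₁` monic of degree `p + 1 > e` and
`j(q^p) · h = P_p(h)`, `h ≠ 0`, `p ≠ 0` in `K`, then `K(h) = F_p(K)`. -/
theorem adjoin_eq_full_of_rel {p : ℕ} (hp : p.Prime) [NeZero p] (hpK : (p : K) ≠ 0)
    (h : LaurentSeries K) (h0 : h ≠ 0) (P₁ Pp : K[X]) (hP₁ : P₁.Monic)
    (hdeg : P₁.natDegree = p + 1) (e : ℕ) (he : e < p + 1)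
    (hj : jqModC K * h ^ e = aeval h P₁) (hjp : jqNModC K p * h = aeval h Pp) :
    K⟮h⟯ = modularFunctionFieldFullC K p := by
  set A : IntermediateField K (LaurentSeries K) := K⟮jqModC K⟯ with hA
  have hjA : jqModC K ∈ A := IntermediateField.mem_adjoin_simple_self K _
  set jA : A := ⟨jqModC K, hjA⟩ with hjAdef
  have hAB : A ≤ modularFunctionFieldFullC K p := UB.K0_le_full K p
  have hrel : relfinrank A (modularFunctionFieldFullC K p) = p + 1 := by
    rw [hA, relfinrank_full_eq_dedekindPsi K p hpK, dedekindPsi_prime' hp]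
  set P : Polynomial A := P₁.map (algebraMap K A) - C jA * X ^ e with hP
  have hm1 : (P₁.map (algebraMap K A)).Monic := hP₁.map _
  have hdeg1 : (P₁.map (algebraMap K A)).natDegree = p + 1 := by
    rw [natDegree_map, hdeg]
  have hdeg2 : (C jA * X ^ e : Polynomial A).natDegree < p + 1 := by
    calc (C jA * X ^ e : Polynomial A).natDegree ≤ e := by
          refine (natDegree_C_mul_le _ _).trans ?_
          rw [natDegree_X_pow]
      _ < p + 1 := he
  have hPm : P.Monic := by
    refine Monic.sub_of_left hm1 ?_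
    rw [degree_eq_natDegree hm1.ne_zero, hdeg1]
    exact lt_of_le_of_lt degree_le_natDegree (by exact_mod_cast hdeg2)
  have hPdeg : P.natDegree = p + 1 := by
    rw [hP, natDegree_sub_eq_left_of_natDegree_lt (by rw [hdeg1]; exact hdeg2), hdeg1]
  have hroot : aeval h P = 0 := by
    simp only [hP, map_sub, map_mul, map_pow, aeval_X, aeval_C]
    rw [aeval_map_algebraMap]
    have h2 : (algebraMap A (LaurentSeries K)) jA = jqModC K := rfl
    rw [h2, ← hj, sub_self]
  have hmemC : h ∈ (IntermediateField.adjoin A {h}).restrictScalars K :=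
    IntermediateField.mem_adjoin_simple_self A _
  have hgen : modularFunctionFieldFullC K p ≤ (IntermediateField.adjoin A {h}).restrictScalars K := by
    rw [modularFunctionFieldFullC, IntermediateField.adjoin_le_iff]
    rintro z ⟨d, hd0, hd, rfl⟩
    rcases (Nat.dvd_prime hp).mp hd with rfl | rfl
    · rw [qExpand_one_apply]
      exact (IntermediateField.adjoin A {h}).algebraMap_mem jA
    · have h3 : qExpand K d (jqModC K) = aeval h Pp / h := by
        rw [eq_div_iff h0, ← hjp]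
        rfl
      rw [h3]
      refine div_mem ?_ hmemC
      exact Deriv.aeval_mem_of_mem _ hmemC Pp
  have hmem : h ∈ modularFunctionFieldFullC K p :=
    hmMem_of_degree A (modularFunctionFieldFullC K p) hAB h (p + 1) (Nat.succ_pos p) hrel P hPm
      hPdeg hroot hgen
  apply le_antisymm
  · rw [IntermediateField.adjoin_simple_le_iff]; exact hmem
  · rw [modularFunctionFieldFullC, IntermediateField.adjoin_le_iff]
    have hhmem : h ∈ K⟮h⟯ := IntermediateField.mem_adjoin_simple_self K h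
    rintro z ⟨d, hd0, hd, rfl⟩
    rcases (Nat.dvd_prime hp).mp hd with rfl | rfl
    · rw [qExpand_one_apply]
      have h3 : jqModC K = aeval h P₁ / h ^ e := by
        rw [eq_div_iff (pow_ne_zero _ h0), hj]
      rw [h3]
      exact div_mem (Deriv.aeval_mem_of_mem _ hhmem P₁) (pow_mem hhmem e)
    · have h3 : qExpand K d (jqModC K) = aeval h Pp / h := by
        rw [eq_div_iff h0, ← hjp]
        rfl
      rw [h3]
      exact div_mem (Deriv.aeval_mem_of_mem _ hhmem Pp) hhmem

end Squeeze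

section Haupt

variable (K : Type*) [Field K]

theorem hm_unit_ne_zero {u : PowerSeries ℤ} (hu : PowerSeries.constantCoeff u = 1) :
    HahnSeries.single (-1 : ℤ) (1 : K) *
      HahnSeries.ofPowerSeries ℤ K (u.map (Int.castRingHom K)) ≠ 0 := by
  refine mul_ne_zero (HahnSeries.single_ne_zero one_ne_zero) ?_
  intro h0
  have h1 : u.map (Int.castRingHom K) = 0 :=
    HahnSeries.ofPowerSeries_injective (by rw [h0, map_zero])
  have h2 := congrArg PowerSeries.constantCoeff h1
  rw [← PowerSeries.coeff_zero_eq_constantCoeff_apply, PowerSeries.coeff_map,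
    PowerSeries.coeff_zero_eq_constantCoeff_apply, hu] at h2
  simp at h2

theorem hm2_ne_zero' : hm2 K ≠ 0 := by
  rw [hm2_eq]; exact hm_unit_ne_zero K constantCoeff_hm2U

theorem hm3_ne_zero' : hm3 K ≠ 0 := by
  rw [hm3_eq]; exact hm_unit_ne_zero K constantCoeff_hm3U

/-- `K(h₂) = F_2(K)` if `2 ≠ 0` in `K`. -/
theorem adjoin_hm2_eq (h2 : ((2 : ℕ) : K) ≠ 0) :
    K⟮hm2 K⟯ = modularFunctionFieldFullC K 2 := by
  refine adjoin_eq_full_of_rel K Nat.prime_two h2 (hm2 K) (hm2_ne_zero' K)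
    ((X + C 256) ^ 3) ((X + C 16) ^ 3) ((monic_X_add_C _).pow 3) ?_ 2 (by norm_num) ?_ ?_
  · rw [natDegree_pow, natDegree_X_add_C]
  · rw [hm2_j]
    simp only [map_pow, map_add, aeval_X, aeval_C]
    rw [map_ofNat]
  · rw [hm2_j2]
    simp only [map_pow, map_add, aeval_X, aeval_C]
    rw [map_ofNat]

/-- `K(h₃) = F_3(K)` if `3 ≠ 0` in `K`. -/
theorem adjoin_hm3_eq (h3 : ((3 : ℕ) : K) ≠ 0) :
    K⟮hm3 K⟯ = modularFunctionFieldFullC K 3 := by
  refine adjoin_eq_full_of_rel K Nat.prime_three h3 (hm3 K) (hm3_ne_zero' K)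
    ((X + C 27) * (X + C 243) ^ 3) ((X + C 27) * (X + C 3) ^ 3)
    ((monic_X_add_C _).mul ((monic_X_add_C _).pow 3)) ?_ 3 (by norm_num) ?_ ?_
  · rw [((monic_X_add_C (27 : K))).natDegree_mul ((monic_X_add_C (243 : K)).pow 3),
      natDegree_pow, natDegree_X_add_C, natDegree_X_add_C]
  · rw [hm3_j]
    simp only [map_mul, map_pow, map_add, aeval_X, aeval_C]
    rw [map_ofNat, map_ofNat]
  · rw [hm3_j3]
    simp only [map_mul, map_pow, map_add, aeval_X, aeval_C]
    rw [map_ofNat, map_ofNat]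

/-- A coordinate generating a field that contains `j` is transcendental. -/
theorem transcendental_of_jqModC_mem {t : LaurentSeries K} (hj : jqModC K ∈ K⟮t⟯) :
    Transcendental K t := by
  intro halg
  have h1 : Algebra.IsAlgebraic K K⟮t⟯ :=
    IntermediateField.isAlgebraic_adjoin_simple halg.isIntegral
  have h2 : IsAlgebraic K (⟨jqModC K, hj⟩ : K⟮t⟯) := Algebra.IsAlgebraic.isAlgebraic _
  have h3 : IsAlgebraic K (jqModC K) := by
    have := h2.algebraMap (A := LaurentSeries K)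
    exact this
  exact kdj_transcendental_jqModC K h3

/-- If `j · h^e = P(h)` then `θ h ≠ 0`. -/
theorem thetaFun_ne_zero_of_rel {h : LaurentSeries K} (h0 : h ≠ 0) (P : K[X]) (e : ℕ)
    (hj : jqModC K * h ^ e = aeval h P) : thetaFun h ≠ 0 := by
  intro hθ
  have h1 := congrArg thetaFun hj
  rw [thetaFun_mul, thetaFun_pow, thetaFun_aeval, hθ, mul_zero, mul_zero, mul_zero,
    zero_add] at h1
  rcases mul_eq_zero.mp h1 with h2 | h2
  · exact pow_ne_zero _ h0 h2
  · exact thetaFun_jqModC_ne_zero K h2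

theorem thetaFun_hm2_ne_zero : thetaFun (hm2 K) ≠ 0 := by
  refine thetaFun_ne_zero_of_rel K (hm2_ne_zero' K) ((X + C 256) ^ 3) 2 ?_
  rw [hm2_j]
  simp only [map_pow, map_add, aeval_X, aeval_C]
  rw [map_ofNat]

theorem thetaFun_hm3_ne_zero : thetaFun (hm3 K) ≠ 0 := by
  refine thetaFun_ne_zero_of_rel K (hm3_ne_zero' K) ((X + C 27) * (X + C 243) ^ 3) 3 ?_
  rw [hm3_j]
  simp only [map_mul, map_pow, map_add, aeval_X, aeval_C]
  rw [map_ofNat, map_ofNat]

end Haupt

section Final

universe u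

variable {A₀ E : Type u} {k : Type*} [CommRing A₀] [IsDomain A₀] [WfDvdMonoid A₀] [Field E]
  [Algebra A₀ E] [IsFractionRing A₀ E] [Field k] (r : A₀ →+* k) (π : A₀)

/-- **B-I1 over the line of a general coordinate**: hypothesis `(a)` of the tame specialization
theorem for `Lf = F_M(E)` and a coordinate `t` with `K(t) = F_{N₀}(K)`, `N₀ ∣ M`. -/
theorem tsGoodBasis_of_adjoin_eq (hπ0 : π ≠ 0) (hπ : ¬ IsUnit π) (hr : ∀ a, r a = 0 → π ∣ a)
    (hrπ : r π = 0) (ℓ : ℕ) [Fact ℓ.Prime] [CharP k ℓ] [PerfectRing k ℓ]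
    {N₀ M : ℕ} [NeZero N₀] [NeZero M] (hdvd : N₀ ∣ M) (hME : (M : E) ≠ 0) (hMk : (M : k) ≠ 0)
    (t₀ : LaurentSeries ℤ)
    (hE : E⟮coeffMap (Int.castRingHom E) t₀⟯ = modularFunctionFieldFullC E N₀)
    (hk : k⟮coeffMap (Int.castRingHom k) t₀⟯ = modularFunctionFieldFullC k N₀)
    (htr : Transcendental k (coeffMap (Int.castRingHom k) t₀))
    (hθ : thetaFun (coeffMap (Int.castRingHom k) t₀) ≠ 0)
    [Algebra A₀ (modularFunctionFieldFullC E M)]
    [IsScalarTower A₀ E (modularFunctionFieldFullC E M)]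
    (ht : coeffMap (Int.castRingHom E) t₀ ∈ modularFunctionFieldFullC E M) :
    TSGoodBasis (A₀ := A₀) (E := E) (Lf := modularFunctionFieldFullC E M) π
      (⟨coeffMap (Int.castRingHom E) t₀, ht⟩ : modularFunctionFieldFullC E M) := by
  obtain ⟨n, x, kd, -⟩ := exists_gaussKD_of_adjoin_eq (E := E) r π hπ0 hπ hr hdvd hME hMk t₀
    hE hk htr
  have hkt : coeffMap r (coeffMap (Int.castRingHom A₀) t₀) = coeffMap (Int.castRingHom k) t₀ := by
    rw [coeffMap_coeffMap]
    exact coeffMap_congr (RingHom.ext_int _ _) _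
  have hEt : coeffMap (algebraMap A₀ E) (coeffMap (Int.castRingHom A₀) t₀) =
      coeffMap (Int.castRingHom E) t₀ := by
    rw [coeffMap_coeffMap]
    exact coeffMap_congr (RingHom.ext_int _ _) _
  have h := kd.tsGoodBasis hπ0 hπ hr hrπ ℓ (by rw [hkt]; exact hθ)
  have hE' : (⟨coeffMap (algebraMap A₀ E) (coeffMap (Int.castRingHom A₀) t₀), kd.t_mem⟩ :
      modularFunctionFieldFullC E M) = ⟨coeffMap (Int.castRingHom E) t₀, ht⟩ := Subtype.ext hEt
  rwa [hE'] at h

theorem natCast_ne_zero_of_dvd (K : Type*) [Field K] {N₀ M : ℕ} (hdvd : N₀ ∣ M)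
    (hM : (M : K) ≠ 0) : (N₀ : K) ≠ 0 := by
  intro h0
  obtain ⟨c, rfl⟩ := hdvd
  rw [Nat.cast_mul, h0, zero_mul] at hM
  exact hM rfl

theorem hm2_mem_full (K : Type*) [Field K] {M : ℕ} [NeZero M] (h2 : 2 ∣ M) (hM : (M : K) ≠ 0) :
    hm2 K ∈ modularFunctionFieldFullC K M := by
  have h := adjoin_hm2_eq K (natCast_ne_zero_of_dvd K h2 hM)
  exact UB.full_mono K h2 (h ▸ IntermediateField.mem_adjoin_simple_self K (hm2 K))

theorem hm3_mem_full (K : Type*) [Field K] {M : ℕ} [NeZero M] (h3 : 3 ∣ M) (hM : (M : K) ≠ 0) :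
    hm3 K ∈ modularFunctionFieldFullC K M := by
  have h := adjoin_hm3_eq K (natCast_ne_zero_of_dvd K h3 hM)
  exact UB.full_mono K h3 (h ▸ IntermediateField.mem_adjoin_simple_self K (hm3 K))

/-- **B-I1 over the `X₀(2)`-line** (used for `ℓ = 3`). -/
theorem tsGoodBasis_hm2 (hπ0 : π ≠ 0) (hπ : ¬ IsUnit π) (hr : ∀ a, r a = 0 → π ∣ a)
    (hrπ : r π = 0) (ℓ : ℕ) [Fact ℓ.Prime] [CharP k ℓ] [PerfectRing k ℓ]
    {M : ℕ} [NeZero M] (h2 : 2 ∣ M) (hME : (M : E) ≠ 0) (hMk : (M : k) ≠ 0)
    [Algebra A₀ (modularFunctionFieldFullC E M)]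
    [IsScalarTower A₀ E (modularFunctionFieldFullC E M)] :
    TSGoodBasis (A₀ := A₀) (E := E) (Lf := modularFunctionFieldFullC E M) π
      (⟨hm2 E, hm2_mem_full E h2 hME⟩ : modularFunctionFieldFullC E M) := by
  have hkeq := adjoin_hm2_eq k (natCast_ne_zero_of_dvd k h2 hMk)
  have hjk : jqModC k ∈ k⟮hm2 k⟯ := by
    rw [hkeq]; exact jqModC_mem_full k 2
  exact tsGoodBasis_of_adjoin_eq (E := E) r π hπ0 hπ hr hrπ ℓ h2 hME hMk hm2Z
    (adjoin_hm2_eq E (natCast_ne_zero_of_dvd E h2 hME)) hkeq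
    (transcendental_of_jqModC_mem k hjk)
    (thetaFun_hm2_ne_zero k)
    (hm2_mem_full E h2 hME)

/-- **B-I1 over the `X₀(3)`-line** (used for `ℓ = 2`). -/
theorem tsGoodBasis_hm3 (hπ0 : π ≠ 0) (hπ : ¬ IsUnit π) (hr : ∀ a, r a = 0 → π ∣ a)
    (hrπ : r π = 0) (ℓ : ℕ) [Fact ℓ.Prime] [CharP k ℓ] [PerfectRing k ℓ]
    {M : ℕ} [NeZero M] (h3 : 3 ∣ M) (hME : (M : E) ≠ 0) (hMk : (M : k) ≠ 0)
    [Algebra A₀ (modularFunctionFieldFullC E M)]
    [IsScalarTower A₀ E (modularFunctionFieldFullC E M)] :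
    TSGoodBasis (A₀ := A₀) (E := E) (Lf := modularFunctionFieldFullC E M) π
      (⟨hm3 E, hm3_mem_full E h3 hME⟩ : modularFunctionFieldFullC E M) := by
  have hkeq := adjoin_hm3_eq k (natCast_ne_zero_of_dvd k h3 hMk)
  have hjk : jqModC k ∈ k⟮hm3 k⟯ := by
    rw [hkeq]; exact jqModC_mem_full k 3
  exact tsGoodBasis_of_adjoin_eq (E := E) r π hπ0 hπ hr hrπ ℓ h3 hME hMk hm3Z
    (adjoin_hm3_eq E (natCast_ne_zero_of_dvd E h3 hME)) hkeq
    (transcendental_of_jqModC_mem k hjk)
    (thetaFun_hm3_ne_zero k)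
    (hm3_mem_full E h3 hME)

end Final

end Fermat.Agent.INJ
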