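import Fermat.Agent.INJ.AbhyankarDVR
import Fermat.Agent.S24.PlaceBasic
import Fermat.Agent.S24.PlaceOfValuation

/-!
# INJ piece A4a (Place form) — Abhyankar's lemma for the prelude's places

`E` a field of characteristic `0`, `L/E` and `L'/L` field extensions, `L' = L(s)` with
`s ^ e = τ ∈ L`.

* `Fermat.Agent.INJ.AbhP.exists_place_restrict` (Br0): a place of `L'/E` restricts to a place of
  `L/E` (with a ramification index `ε > 0`) as soon as `L'/L` is algebraic.
* `Fermat.Agent.INJ.AbhP.place_ord_root_eq_one` (Br1, Abhyankar): if `ord_P τ ∣ e` for every place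
  `P` of `L` with `ord_P τ > 0`, then `ord_{P'} s = 1` at every place `P'` of `L'` with
  `ord_{P'} s > 0`.
* `Fermat.Agent.INJ.AbhP.exists_place_restrict_unramified` (Br2): at a place `P'` with
  `ord_{P'} s = 0` the restriction `P` to `L` satisfies `ord_{P'} = ord_P` on `L`.
-/

set_option autoImplicit false

open AlgebraicCurve WithZero Polynomial

namespace Fermat.Agent.INJ.AbhP

open Fermat.Agent.S24 Fermat.Agent.INJ.Abh

variable {E L L' : Type*} [Field E] [Field L] [Field L'] [Algebra E L] [Algebra E L']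
  [Algebra L L'] [IsScalarTower E L L']

theorem adic_eq_exp (P' : Place E L') {x : L'} (hx : x ≠ 0) :
    P'.adicValuation x = exp (-(P'.ord x)) :=
  PlaceAux.adicValuation_eq_exp_neg_ord P' hx

/-- Constants are units at every place. -/
theorem adic_const (P' : Place E L') {a : E} (ha : a ≠ 0) :
    P'.adicValuation (algebraMap E L' a) = 1 := by
  have h1 : P'.adicValuation (algebraMap E L' a) ≤ 1 :=
    (PlaceAux.mem_iff_adicValuation_le_one P' _).mp (P'.algebraMap_mem' a)
  have h2 : P'.adicValuation (algebraMap E L' a⁻¹) ≤ 1 :=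
    (PlaceAux.mem_iff_adicValuation_le_one P' _).mp (P'.algebraMap_mem' a⁻¹)
  rw [map_inv₀, map_inv₀] at h2
  have h0 : P'.adicValuation (algebraMap E L' a) ≠ 0 :=
    P'.adicValuation_ne_zero (by simpa using ha)
  have h3 : 1 ≤ P'.adicValuation (algebraMap E L' a) := by
    rwa [inv_le_one₀ (zero_lt_iff.mpr h0)] at h2
  exact le_antisymm h1 h3

/-- There is an element of order `1` at every place. -/
theorem exists_ord_eq_one (P' : Place E L') : ∃ ϖ : L', ϖ ≠ 0 ∧ P'.ord ϖ = 1 := by
  obtain ⟨π, hπ⟩ := IsDiscreteValuationRing.exists_irreducible P'.toValuationSubring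
  refine ⟨(π : L'), ?_, P'.ord_coe_irreducible hπ⟩
  simpa [ne_eq, ZeroMemClass.coe_eq_zero] using hπ.ne_zero

/-- (Br0) Restriction of a place along an algebraic extension. -/
theorem exists_place_restrict [Algebra.IsAlgebraic L L'] (P' : Place E L') :
    ∃ (P : Place E L) (ε : ℤ), 0 < ε ∧
      ∀ y : L, y ≠ 0 → P'.ord (algebraMap L L' y) = ε * P.ord y := by
  classical
  set v : Valuation L ℤᵐ⁰ := P'.adicValuation.comap (algebraMap L L') with hv
  have hK : ∀ a : E, v (algebraMap E L a) ≤ 1 := by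
    intro a
    show P'.adicValuation (algebraMap L L' (algebraMap E L a)) ≤ 1
    rw [← IsScalarTower.algebraMap_apply]
    exact (PlaceAux.mem_iff_adicValuation_le_one P' _).mp (P'.algebraMap_mem' a)
  -- nontriviality: a uniformiser of `P'` is algebraic over `L`
  have hx : ∃ x : L, x ≠ 0 ∧ v x < 1 := by
    by_contra hcon
    push Not at hcon
    have htriv : ∀ x : L, x ≠ 0 → P'.adicValuation (algebraMap L L' x) = 1 := by
      intro x hx0
      have h1 : 1 ≤ v x := hcon x hx0
      have h2 : 1 ≤ v x⁻¹ := hcon x⁻¹ (inv_ne_zero hx0)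
      rw [map_inv₀] at h2
      have h0 : v x ≠ 0 := (Valuation.ne_zero_iff v).mpr hx0
      have h3 : v x ≤ 1 := by
        rwa [one_le_inv₀ (zero_lt_iff.mpr h0)] at h2
      exact le_antisymm h3 h1
    obtain ⟨ϖ, hϖ0, hϖ⟩ := exists_ord_eq_one P'
    have hvϖ : P'.adicValuation ϖ = exp (-1 : ℤ) := by rw [adic_eq_exp P' hϖ0, hϖ]
    have halg : IsAlgebraic L ϖ := Algebra.IsAlgebraic.isAlgebraic ϖ
    have hint : IsIntegral L ϖ := halg.isIntegral
    set g := minpoly L ϖ with hg
    have hg0 : g.coeff 0 ≠ 0 := minpoly.coeff_zero_ne_zero hint hϖ0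
    have hsum : ∑ i ∈ Finset.range (g.natDegree + 1), algebraMap L L' (g.coeff i) * ϖ ^ i = 0 := by
      have := minpoly.aeval L ϖ
      rw [Polynomial.aeval_eq_sum_range] at this
      simpa [Algebra.smul_def] using this
    have hdist : ∀ i ∈ Finset.range (g.natDegree + 1), ∀ j ∈ Finset.range (g.natDegree + 1),
        algebraMap L L' (g.coeff i) * ϖ ^ i ≠ 0 → algebraMap L L' (g.coeff j) * ϖ ^ j ≠ 0 →
        P'.adicValuation (algebraMap L L' (g.coeff i) * ϖ ^ i) =
          P'.adicValuation (algebraMap L L' (g.coeff j) * ϖ ^ j) → i = j := by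
      intro i _ j _ hi hj hij
      have hci : g.coeff i ≠ 0 := by
        intro h; apply hi; rw [h, map_zero, zero_mul]
      have hcj : g.coeff j ≠ 0 := by
        intro h; apply hj; rw [h, map_zero, zero_mul]
      rw [map_mul, map_mul, htriv _ hci, htriv _ hcj, one_mul, one_mul, map_pow, map_pow, hvϖ,
        ← exp_nsmul, ← exp_nsmul, exp_inj] at hij
      simp only [nsmul_eq_mul] at hij
      have : (i : ℤ) = j := by linarith
      exact_mod_cast this
    rcases val_sum_distinct P'.adicValuation _ _ hdist with ⟨_, hall⟩ | ⟨j, _, hj0, hjv⟩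
    · have := hall 0 (Finset.mem_range.mpr (Nat.succ_pos _))
      rw [pow_zero, mul_one] at this
      exact hg0 (by simpa using this)
    · rw [hsum, map_zero] at hjv
      exact hj0 ((Valuation.zero_iff _).mp hjv.symm)
  obtain ⟨P, e₀, he₀, _, hord⟩ := exists_place_of_valuation (K := E) v hK hx
  refine ⟨P, e₀, he₀, fun y hy => ?_⟩
  have := hord y hy
  rw [← this]
  rfl


/-- `L' = L(s)` with `s` a root of `X^e - τ` is algebraic over `L`. -/
theorem isAlgebraic_of_adjoin_root (τ : L) (s : L') (e : ℕ) (he : e ≠ 0)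
    (hs : s ^ e = algebraMap L L' τ) (hgen : IntermediateField.adjoin L {s} = ⊤) :
    Algebra.IsAlgebraic L L' ∧ Algebra.adjoin L {s} = ⊤ := by
  have hint : IsIntegral L s := by
    refine ⟨X ^ e - C τ, monic_X_pow_sub_C τ he, ?_⟩
    simp [hs]
  have h1 : Algebra.adjoin L {s} = ⊤ := by
    have := IntermediateField.adjoin_simple_toSubalgebra_of_isAlgebraic hint.isAlgebraic
    rw [← this, hgen]
    rfl
  refine ⟨⟨fun x => ?_⟩, h1⟩
  have hx : x ∈ Algebra.adjoin L {s} := by rw [h1]; exact Algebra.mem_top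
  have : IsIntegral L x := by
    refine IsIntegral.of_mem_of_fg (Algebra.adjoin L {s}) ?_ x hx
    exact hint.fg_adjoin_singleton
  exact this.isAlgebraic

/-- (Br1) **Abhyankar's lemma for places.**  `L' = L(s)`, `s ^ e = τ`, and `ord_P τ ∣ e` at every
place `P` of `L/E` with `ord_P τ > 0` (`E` of characteristic `0`).  Then `ord_{P'} s = 1` at
every place `P'` of `L'/E` with `ord_{P'} s > 0`. -/
theorem place_ord_root_eq_one [CharZero E] (τ : L) (s : L') (e : ℕ) (he : e ≠ 0)
    (hs : s ^ e = algebraMap L L' τ) (hgen : IntermediateField.adjoin L {s} = ⊤)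
    (hdvd : ∀ P : Place E L, 0 < P.ord τ → P.ord τ ∣ (e : ℤ))
    (P' : Place E L') (hP' : 0 < P'.ord s) : P'.ord s = 1 := by
  classical
  have : Algebra.IsAlgebraic L L' := (isAlgebraic_of_adjoin_root τ s e he hs hgen).1
  obtain ⟨P, ε, hε, hres⟩ := exists_place_restrict (E := E) (L := L) P'
  have hs0 : s ≠ 0 := by
    rintro rfl
    simp at hP'
  have hτ0 : τ ≠ 0 := by
    rintro rfl
    rw [map_zero] at hs
    exact hs0 (pow_eq_zero_iff he |>.mp hs)
  have hφ : ∀ y : L, y ≠ 0 → algebraMap L L' y ≠ 0 := fun y hy => by simpa using hy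
  -- `ord_{P'} τ = e * ord_{P'} s = ε * ord_P τ`
  have hordτ : (e : ℤ) * P'.ord s = ε * P.ord τ := by
    rw [← hres τ hτ0, ← hs, ← zpow_natCast, P'.ord_zpow]
  have hkpos : 0 < P.ord τ := by
    have h1 : 0 < (e : ℤ) * P'.ord s := mul_pos (by exact_mod_cast Nat.pos_of_ne_zero he) hP'
    rw [hordτ] at h1
    exact (mul_pos_iff_of_pos_left hε).mp h1
  obtain ⟨k, hk⟩ : ∃ k : ℕ, P.ord τ = k := ⟨(P.ord τ).toNat, (Int.toNat_of_nonneg hkpos.le).symm⟩
  have hk0 : k ≠ 0 := by
    rintro rfl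
    rw [hk] at hkpos
    simp at hkpos
  have hke : k ∣ e := by
    have := hdvd P hkpos
    rw [hk] at this
    exact_mod_cast this
  obtain ⟨u, hu0, hu⟩ := exists_ord_eq_one P
  obtain ⟨ϖ, hϖ0, hϖ⟩ := exists_ord_eq_one P'
  set v := P'.adicValuation with hv
  have hvL : ∀ y : L, y ≠ 0 → v (algebraMap L L' y) = exp (-(ε * P.ord y)) := by
    intro y hy
    rw [hv, adic_eq_exp P' (hφ y hy), hres y hy]
  have hvu : v (algebraMap L L' u) = exp (-ε) := by rw [hvL u hu0, hu, mul_one]
  have hu1 : v (algebraMap L L' u) < 1 := by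
    rw [hvu, ← exp_zero, exp_lt_exp]
    omega
  have hunif : ∀ a : L, a ≠ 0 → ∃ n : ℤ, v (algebraMap L L' a) = v (algebraMap L L' u) ^ n := by
    intro a ha
    refine ⟨P.ord a, ?_⟩
    rw [hvL a ha, hvu, ← exp_zsmul, smul_eq_mul]
    congr 1
    ring
  have hτv : v (algebraMap L L' τ) = v (algebraMap L L' u) ^ k := by
    rw [hvL τ hτ0, hvu, hk, ← exp_nsmul, nsmul_eq_mul]
    congr 1
    ring
  have hkv : v (k : L') = 1 := by
    have h1 : (k : L') = algebraMap E L' (k : E) := by simp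
    rw [h1]
    exact adic_const P' (by exact_mod_cast hk0)
  have hvϖ : v ϖ = exp (-1 : ℤ) := by rw [hv, adic_eq_exp P' hϖ0, hϖ]
  have hfin := abhyankar_uniformizer v u τ hu0 hu1 hunif s e k hke he hs hτv hkv hk0 hgen ϖ hvϖ
  rw [hv, adic_eq_exp P' hs0, exp_inj] at hfin
  omega

/-- (Br2) **Unramified base change.**  `L' = L(s)`, `s ^ e = τ ≠ 0` (`E` of characteristic `0`).
At a place `P'` of `L'/E` with `ord_{P'} s = 0` the restriction `P` of `P'` to `L` is unramified
in `L'`: `ord_{P'} y = ord_P y` for all `y ∈ L`. -/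
theorem exists_place_restrict_unramified [CharZero E] (τ : L) (s : L') (e : ℕ) (he : e ≠ 0)
    (hs : s ^ e = algebraMap L L' τ) (hs0 : s ≠ 0)
    (hgen : IntermediateField.adjoin L {s} = ⊤)
    (P' : Place E L') (hP' : P'.ord s = 0) :
    ∃ P : Place E L, ∀ y : L, P'.ord (algebraMap L L' y) = P.ord y := by
  classical
  obtain ⟨halg, hadj⟩ := isAlgebraic_of_adjoin_root τ s e he hs hgen
  obtain ⟨P, ε, hε, hres⟩ := exists_place_restrict (E := E) (L := L) P'
  have hτ0 : τ ≠ 0 := by
    rintro rfl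
    rw [map_zero] at hs
    exact hs0 (pow_eq_zero_iff he |>.mp hs)
  have hφ : ∀ y : L, y ≠ 0 → algebraMap L L' y ≠ 0 := fun y hy => by simpa using hy
  obtain ⟨u, hu0, hu⟩ := exists_ord_eq_one P
  obtain ⟨ϖ, hϖ0, hϖ⟩ := exists_ord_eq_one P'
  set v := P'.adicValuation with hv
  have hvL : ∀ y : L, y ≠ 0 → v (algebraMap L L' y) = exp (-(ε * P.ord y)) := by
    intro y hy
    rw [hv, adic_eq_exp P' (hφ y hy), hres y hy]
  have hvu : v (algebraMap L L' u) = exp (-ε) := by rw [hvL u hu0, hu, mul_one]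
  have hu1 : v (algebraMap L L' u) < 1 := by
    rw [hvu, ← exp_zero, exp_lt_exp]
    omega
  have hunif : ∀ a : L, a ≠ 0 → ∃ n : ℤ, v (algebraMap L L' a) = v (algebraMap L L' u) ^ n := by
    intro a ha
    refine ⟨P.ord a, ?_⟩
    rw [hvL a ha, hvu, ← exp_zsmul, smul_eq_mul]
    congr 1
    ring
  have hvs : v s = 1 := by rw [hv, adic_eq_exp P' hs0, hP', neg_zero, exp_zero]
  have hω : v (algebraMap L L' τ) = 1 := by rw [← hs, map_pow, hvs, one_pow]
  have hkv : v (e : L') = 1 := by
    have h1 : (e : L') = algebraMap E L' (e : E) := by simp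
    rw [h1]
    exact adic_const P' (by exact_mod_cast he)
  have hvϖ : v ϖ = exp (-1 : ℤ) := by rw [hv, adic_eq_exp P' hϖ0, hϖ]
  -- `ϖ` is a polynomial in `s`
  have hϖmem : ϖ ∈ Algebra.adjoin L {s} := by rw [hadj]; exact Algebra.mem_top
  rw [Algebra.adjoin_singleton_eq_range_aeval] at hϖmem
  obtain ⟨Q, hQ⟩ := hϖmem
  have hQ' : aeval s Q = ϖ := hQ
  obtain ⟨n, hn⟩ := unitKummer_value v u τ hu0 hu1 hunif s e hs hω hkv Q (hQ' ▸ hϖ0)
  rw [hQ', hvϖ, hvu, ← exp_zsmul, exp_inj, smul_eq_mul] at hn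
  have hε1 : ε = 1 := by
    have h1 : ε ∣ 1 := ⟨n, by rw [mul_comm]; linear_combination -hn⟩
    exact Int.eq_one_of_dvd_one hε.le h1
  refine ⟨P, fun y => ?_⟩
  rcases eq_or_ne y 0 with rfl | hy
  · simp
  · rw [hres y hy, hε1, one_mul]


/-- **Hypothesis (b) of Part A passes from `(L, t)` to `(L(s), s)`, `s ^ e = t - c₀`.**
If `L/E(t)` is unramified at the places where `t` is finite and no `t - c` (`c ∈ Σ`) vanishes,
and the ramification indices over `t = c₀` divide `e`, then `L(s)/E(s)` is unramified at the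
places where `s` is finite and no `t - c` (`c ∈ Σ`, `c ≠ c₀`) vanishes — in particular over
`s = 0`. -/
theorem unramified_base_change [CharZero E] (t : L) (c₀ : E) (S : Finset E)
    (s : L') (e : ℕ) (he : e ≠ 0) (hs0 : s ≠ 0)
    (hs : s ^ e = algebraMap L L' (t - algebraMap E L c₀))
    (hgen : IntermediateField.adjoin L {s} = ⊤)
    (hb : ∀ P : Place E L, 0 ≤ P.ord t → (∀ c ∈ S, P.ord (t - algebraMap E L c) = 0) →
      ∃ g : E[X], P.ord (aeval t g) = 1)
    (hram : ∀ P : Place E L, 0 < P.ord (t - algebraMap E L c₀) →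
      P.ord (t - algebraMap E L c₀) ∣ (e : ℤ))
    (P' : Place E L') (hP' : 0 ≤ P'.ord s)
    (hS : ∀ c ∈ S, c ≠ c₀ → P'.ord (s ^ e - algebraMap E L' (c - c₀)) = 0) :
    ∃ g' : E[X], P'.ord (aeval s g') = 1 := by
  classical
  rcases hP'.lt_or_eq with hpos | hzero
  · exact ⟨X, by rw [aeval_X]; exact place_ord_root_eq_one _ s e he hs hgen hram P' hpos⟩
  · obtain ⟨P, hP⟩ := exists_place_restrict_unramified (E := E) _ s e he hs hs0 hgen P' hzero.symm
    have hφt : algebraMap L L' t = s ^ e + algebraMap E L' c₀ := by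
      rw [hs, map_sub, ← IsScalarTower.algebraMap_apply]
      ring
    have hsmem : s ∈ P'.toValuationSubring := PlaceAux.mem_of_ord_nonneg P' hP'
    have ht : 0 ≤ P.ord t := by
      rw [← hP]
      rcases eq_or_ne (algebraMap L L' t) 0 with h0 | h0
      · rw [h0]; simp
      · rw [PlaceAux.ord_nonneg_iff P' h0, hφt]
        exact add_mem (pow_mem hsmem e) (P'.algebraMap_mem' c₀)
    have hall : ∀ c ∈ S, P.ord (t - algebraMap E L c) = 0 := by
      intro c hc
      rw [← hP]
      by_cases hcc : c = c₀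
      · rw [hcc, ← hs, ← zpow_natCast, P'.ord_zpow, ← hzero, mul_zero]
      · have := hS c hc hcc
        rw [map_sub, ← IsScalarTower.algebraMap_apply, hφt]
        rw [map_sub] at this
        rw [← this]
        congr 1
        ring
    obtain ⟨g, hg⟩ := hb P ht hall
    refine ⟨g.comp (X ^ e + C c₀), ?_⟩
    rw [← hg, ← hP]
    congr 1
    rw [Polynomial.aeval_comp, map_add, map_pow, aeval_X, aeval_C,
      ← hφt, ← Polynomial.aeval_algebraMap_apply]

end Fermat.Agent.INJ.AbhP
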