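import Mathlib

/-!
# (INJ) — descent of `p`-th powers along a finite extension of degree prime to `p`

If `L/K` is a finite field extension of degree `n` prime to `p` and `u ∈ K` is a `p`-th power in
`L`, then `u` is a `p`-th power in `K` (take norms: `N(h)^p = u^n`, then Bézout).
-/

set_option autoImplicit false

namespace Fermat.Agent.INJ

/-- **Norm descent.** -/
theorem descent_pow {K L : Type*} [Field K] [Field L] [Algebra K L] [FiniteDimensional K L]
    {p : ℕ} (hp : Nat.Coprime (Module.finrank K L) p) (u : K) (h : L)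
    (hu : algebraMap K L u = h ^ p) : ∃ g : K, u = g ^ p := by
  by_cases hu0 : u = 0
  · subst hu0
    by_cases hp0 : p = 0
    · subst hp0
      rw [map_zero, pow_zero] at hu
      exact absurd hu zero_ne_one
    · exact ⟨0, (zero_pow hp0).symm⟩
  have hn : Algebra.norm K h ^ p = u ^ Module.finrank K L := by
    rw [← map_pow, ← hu, Algebra.norm_algebraMap]
  -- Bézout: `n * a + p * b = 1`
  have hgcd : (Module.finrank K L : ℤ) * Nat.gcdA (Module.finrank K L) p +
      (p : ℤ) * Nat.gcdB (Module.finrank K L) p = 1 := by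
    have := Nat.gcd_eq_gcd_ab (Module.finrank K L) p
    rw [hp.gcd_eq_one] at this
    exact_mod_cast this.symm
  set a : ℤ := Nat.gcdA (Module.finrank K L) p
  set b : ℤ := Nat.gcdB (Module.finrank K L) p
  refine ⟨Algebra.norm K h ^ a * u ^ b, ?_⟩
  have h1 : u ^ ((Module.finrank K L : ℤ) * a) = (Algebra.norm K h ^ a) ^ p := by
    rw [zpow_mul, zpow_natCast, ← hn, ← zpow_natCast, ← zpow_mul, mul_comm, zpow_mul, zpow_natCast]
  have h2 : u ^ ((p : ℤ) * b) = (u ^ b) ^ p := by
    rw [mul_comm, zpow_mul, zpow_natCast]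
  calc u = u ^ (1 : ℤ) := (zpow_one u).symm
    _ = u ^ ((Module.finrank K L : ℤ) * a + (p : ℤ) * b) := by rw [hgcd]
    _ = (Algebra.norm K h ^ a) ^ p * (u ^ b) ^ p := by rw [zpow_add₀ hu0, h1, h2]
    _ = (Algebra.norm K h ^ a * u ^ b) ^ p := (mul_pow _ _ _).symm

/-- **Norm descent**, for a tower of intermediate fields `K ≤ L` of a field `Ω` over `k`. -/
theorem descent_pow_intermediate {k Ω : Type*} [Field k] [Field Ω] [Algebra k Ω]
    (K L : IntermediateField k Ω) (hKL : K ≤ L)
    [FiniteDimensional K (IntermediateField.extendScalars hKL)]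
    {p : ℕ} (hp : Nat.Coprime (Module.finrank K (IntermediateField.extendScalars hKL)) p)
    (u h : Ω) (huK : u ∈ K) (hhL : h ∈ L) (hu : u = h ^ p) : ∃ g ∈ K, u = g ^ p := by
  have hh' : h ∈ IntermediateField.extendScalars hKL := hhL
  obtain ⟨g, hg⟩ := descent_pow (K := K) (L := IntermediateField.extendScalars hKL) hp
    ⟨u, huK⟩ ⟨h, hh'⟩ (by
      apply Subtype.ext
      simpa using hu)
  refine ⟨g, g.2, ?_⟩
  have := congrArg Subtype.val hg
  simpa using this

end Fermat.Agent.INJ
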