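import Fermat.Agent.INJ.Stmt
import Fermat.Agent.INJ.Descent
import Fermat.Agent.INJ.AbhyankarPlace
import Fermat.Agent.ES.G2.HeckeDeg

/-!
# (INJ) DESCENT-LEVEL: descent of `StmtINJ` along `F_N ⊆ F_{N'}`

`F_N = modularFunctionFieldBar N ⊆ ℚ̄((q))`.  If `F_N ⊆ F_{N'}` has finite degree prime to `p`,
then `StmtINJ N' ℓ p → StmtINJ N ℓ p`:

* a place of `F_{N'}` restricts to a place of `F_N` (`AbhP.exists_place_restrict`), so the
  divisor hypothesis at level `N` gives the divisor hypothesis at level `N'`;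
* `w = Y₁ / Y₂ ∈ F_N` is then a `p`-th power in `F_{N'}`, hence in `F_N` by the norm
  (`descent_pow_intermediate`).

Instances: `N' = N * ℓ'` for a prime `ℓ' ∤ N` (degree `ℓ' + 1`), in particular
`N' = lcm 2 N` for `p ≠ 3` and `N' = lcm 3 N` for `p ≠ 2` — the auxiliary levels of the
Hauptmodul lines of `X₀(2)` (`ℓ = 3`) and `X₀(3)` (`ℓ = 2`).
-/

set_option autoImplicit false

namespace Fermat.Agent.INJ

open ModularCurve AlgebraicCurve IntermediateField

/-- the coefficientwise inclusion `A((q)) → ℚ̄((q))` is injective -/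
theorem dl_coeffMap_subtype_ne_zero (A : ValuationSubring (AlgebraicClosure ℚ))
    {Y : LaurentSeries A} (hY : coeffMap (IsLocalRing.residue A) Y ≠ 0) :
    coeffMap A.subtype Y ≠ 0 := by
  intro h0
  apply hY
  have hY0 : Y = 0 := by
    ext k
    have h1 := congrArg (fun z : LaurentSeries (AlgebraicClosure ℚ) => z.coeff k) h0
    simp only [coeffMap_coeff, HahnSeries.coeff_zero] at h1
    rw [HahnSeries.coeff_zero]
    simpa using h1
  rw [hY0, map_zero]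

/-- Finite-dimensionality of `extendScalars` from `relfinrank ≠ 0`. -/
theorem dl_finite_extendScalars {k Ω : Type*} [Field k] [Field Ω] [Algebra k Ω]
    {K L : IntermediateField k Ω} (hle : K ≤ L) (hfin : K.relfinrank L ≠ 0) :
    FiniteDimensional K (IntermediateField.extendScalars hle) := by
  have h1 : K.relrank L < Cardinal.aleph0 := by
    by_contra hge
    exact hfin (by
      rw [relfinrank_eq_toNat_relrank, Cardinal.toNat_eq_zero]
      exact Or.inr (not_lt.mp hge))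
  rw [relrank_eq_rank_of_le hle] at h1
  exact Module.rank_lt_aleph0_iff.mp h1

/-- Norm descent for intermediate fields, in terms of `relfinrank`. -/
theorem dl_descent_pow {k Ω : Type*} [Field k] [Field Ω] [Algebra k Ω]
    {K L : IntermediateField k Ω} (hle : K ≤ L) (hfin : K.relfinrank L ≠ 0)
    {p : ℕ} (hcop : Nat.Coprime (K.relfinrank L) p)
    (u h : Ω) (huK : u ∈ K) (hhL : h ∈ L) (hu : u = h ^ p) : ∃ g ∈ K, u = g ^ p := by
  have hrk : Module.finrank K (IntermediateField.extendScalars hle) = K.relfinrank L :=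
    (IntermediateField.relfinrank_eq_finrank_of_le hle).symm
  have hfd : FiniteDimensional K (IntermediateField.extendScalars hle) :=
    dl_finite_extendScalars hle hfin
  exact descent_pow_intermediate K L hle (p := p) (by rw [hrk]; exact hcop) u h huK hhL hu

/-- Restriction of places for intermediate fields `K ≤ L` of finite relative degree. -/
theorem dl_place_restrict {k Ω : Type*} [Field k] [Field Ω] [Algebra k Ω]
    {K L : IntermediateField k Ω} (hle : K ≤ L) (hfin : K.relfinrank L ≠ 0)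
    (P' : Place k L) :
    ∃ (P : Place k K) (ε : ℤ), 0 < ε ∧
      ∀ (y : Ω) (hy : y ∈ K), y ≠ 0 → P'.ord (⟨y, hle hy⟩ : L) = ε * P.ord (⟨y, hy⟩ : K) := by
  let alg : Algebra K L := (IntermediateField.inclusion hle).toRingHom.toAlgebra
  have htower : IsScalarTower k K L := IsScalarTower.of_algebraMap_eq (fun _ => rfl)
  have hfd : FiniteDimensional K L := Fermat.Agent.ES.G2.hdeg_finite_inclusion hle hfin
  obtain ⟨P, ε, hε, hP⟩ := AbhP.exists_place_restrict (E := k) (L := K) (L' := L) P'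
  refine ⟨P, ε, hε, fun y hy hy0 => ?_⟩
  have e1 := hP ⟨y, hy⟩ (fun h0 => hy0 (congrArg Subtype.val h0))
  have a1 : algebraMap K L ⟨y, hy⟩ = ⟨y, hle hy⟩ := rfl
  rw [a1] at e1
  exact e1

/-- **DESCENT-LEVEL**, generic form. -/
theorem stmtINJ_descent_of_le (N N' ℓ p : ℕ)
    (hle : modularFunctionFieldBar N ≤ modularFunctionFieldBar N')
    (hfin : (modularFunctionFieldBar N).relfinrank (modularFunctionFieldBar N') ≠ 0)
    (hcop : Nat.Coprime ((modularFunctionFieldBar N).relfinrank (modularFunctionFieldBar N')) p)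
    (h : StmtINJ N' ℓ p) : StmtINJ N ℓ p := by
  intro A hA Y₁ Y₂ h₁ h₂ hred hne hpl
  have h₁' : coeffMap A.subtype Y₁ ∈ modularFunctionFieldBar N' := hle h₁
  have h₂' : coeffMap A.subtype Y₂ ∈ modularFunctionFieldBar N' := hle h₂
  have hy₂ : coeffMap A.subtype Y₂ ≠ 0 := dl_coeffMap_subtype_ne_zero A hne
  have hy₁ : coeffMap A.subtype Y₁ ≠ 0 := dl_coeffMap_subtype_ne_zero A (by rw [hred]; exact hne)
  obtain ⟨h', hh'⟩ := h A hA Y₁ Y₂ h₁' h₂' hred hne (fun P' => by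
    obtain ⟨P, ε, -, hP⟩ := dl_place_restrict hle hfin P'
    rw [hP _ h₁ hy₁, hP _ h₂ hy₂, ← mul_sub]
    exact Dvd.dvd.mul_left (hpl P) ε)
  -- `u = Y₁ / Y₂` is a `p`-th power in `F_{N'}`
  have hval : (h' : LaurentSeries (AlgebraicClosure ℚ)) ^ p * coeffMap A.subtype Y₂
      = coeffMap A.subtype Y₁ := by
    have := congrArg Subtype.val hh'
    simpa using this
  have hu : coeffMap A.subtype Y₁ * (coeffMap A.subtype Y₂)⁻¹
      = (h' : LaurentSeries (AlgebraicClosure ℚ)) ^ p := by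
    rw [← hval, mul_assoc, mul_inv_cancel₀ hy₂, mul_one]
  obtain ⟨g, hg, hug⟩ := dl_descent_pow hle hfin hcop
    (coeffMap A.subtype Y₁ * (coeffMap A.subtype Y₂)⁻¹) (h' : LaurentSeries (AlgebraicClosure ℚ))
    (mul_mem h₁ (inv_mem h₂)) h'.2 hu
  refine ⟨⟨g, hg⟩, ?_⟩
  apply Subtype.ext
  show g ^ p * coeffMap A.subtype Y₂ = coeffMap A.subtype Y₁
  rw [← hug, mul_assoc, inv_mul_cancel₀ hy₂, mul_one]

/-- **DESCENT-LEVEL** along `N ∣ N * ℓ'`, `ℓ'` a prime not dividing `N`, `p` prime to `ℓ' + 1`. -/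
theorem stmtINJ_descent_mul_prime (N ℓ' ℓ p : ℕ) (hN : N ≠ 0) (hℓ' : ℓ'.Prime) (hℓ'N : ¬ ℓ' ∣ N)
    (hcop : Nat.Coprime (ℓ' + 1) p) (h : StmtINJ (N * ℓ') ℓ p) : StmtINJ N ℓ p := by
  have : NeZero N := ⟨hN⟩
  have : NeZero ℓ' := ⟨hℓ'.ne_zero⟩
  have hdeg := Fermat.Agent.ES.G2.hdeg_relfinrank N ℓ' hℓ' hℓ'N
  refine stmtINJ_descent_of_le N (N * ℓ') ℓ p (Fermat.Agent.ES.G2.hdeg_bar_le N ℓ') ?_ ?_ h
  · rw [hdeg]; exact Nat.succ_ne_zero ℓ'
  · rw [hdeg]; exact hcop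

/-- **DESCENT-LEVEL** along `N ∣ lcm ℓ' N`, `ℓ'` prime, `p` prime to `ℓ' + 1`. -/
theorem stmtINJ_descent_lcm (N ℓ' ℓ p : ℕ) (hN : N ≠ 0) (hℓ' : ℓ'.Prime)
    (hcop : Nat.Coprime (ℓ' + 1) p) (h : StmtINJ (Nat.lcm ℓ' N) ℓ p) : StmtINJ N ℓ p := by
  by_cases hd : ℓ' ∣ N
  · rwa [Nat.lcm_eq_right hd] at h
  · have hc : Nat.Coprime ℓ' N := (Nat.Prime.coprime_iff_not_dvd hℓ').mpr hd
    rw [hc.lcm_eq_mul, Nat.mul_comm] at h
    exact stmtINJ_descent_mul_prime N ℓ' ℓ p hN hℓ' hd hcop h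

/-- **DESCENT-LEVEL for `ℓ = 3`**: the auxiliary level `lcm 2 N` (Hauptmodul line of `X₀(2)`). -/
theorem stmtINJ_descent_three (N p : ℕ) (hN : N ≠ 0) (hp : p.Prime) (hp3 : 3 ≠ p)
    (h : StmtINJ (Nat.lcm 2 N) 3 p) : StmtINJ N 3 p := by
  refine stmtINJ_descent_lcm N 2 3 p hN Nat.prime_two ?_ h
  exact (Nat.coprime_primes Nat.prime_three hp).mpr hp3

/-- **DESCENT-LEVEL for `ℓ = 2`**: the auxiliary level `lcm 3 N` (Hauptmodul line of `X₀(3)`). -/
theorem stmtINJ_descent_two (N p : ℕ) (hN : N ≠ 0) (hp : p.Prime) (hp2 : 2 ≠ p)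
    (h : StmtINJ (Nat.lcm 3 N) 2 p) : StmtINJ N 2 p := by
  refine stmtINJ_descent_lcm N 3 2 p hN Nat.prime_three ?_ h
  have h2 : Nat.Coprime 2 p := (Nat.coprime_primes Nat.prime_two hp).mpr hp2
  have : (3 + 1 : ℕ) = 2 ^ 2 := by norm_num
  rw [this]
  exact Nat.Coprime.pow_left 2 h2

/-- The auxiliary levels are prime to `ℓ`. -/
theorem dl_not_dvd_lcm_two {N : ℕ} (h3 : ¬ 3 ∣ N) : ¬ 3 ∣ Nat.lcm 2 N := by
  intro h
  have h1 : Nat.lcm 2 N ∣ 2 * N := Nat.lcm_dvd_mul 2 N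
  have h2 : 3 ∣ 2 * N := dvd_trans h h1
  rcases (Nat.Prime.dvd_mul Nat.prime_three).mp h2 with h2 | h2
  · exact absurd h2 (by norm_num)
  · exact h3 h2

theorem dl_not_dvd_lcm_three {N : ℕ} (h2 : ¬ 2 ∣ N) : ¬ 2 ∣ Nat.lcm 3 N := by
  intro h
  have h1 : Nat.lcm 3 N ∣ 3 * N := Nat.lcm_dvd_mul 3 N
  have h3 : 2 ∣ 3 * N := dvd_trans h h1
  rcases (Nat.Prime.dvd_mul Nat.prime_two).mp h3 with h3 | h3
  · exact absurd h3 (by norm_num)
  · exact h2 h3

end Fermat.Agent.INJ
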