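import Mathlib

/-!
# (INJ) B-glue, piece K2: a proper valuation subring of a number field is a DVR

`nf_isDiscreteValuationRing` : `K` a number field, `V ≠ ⊤` a valuation subring of `K`; then `V` is
a discrete valuation ring (it is the localization of `𝓞 K` at the prime `𝔪_V ∩ 𝓞 K`).

Application: `A ⊂ ℚ̄` a valuation ring over `ℓ`, `K₀ ⊂ ℚ̄` a number field; `A₀ := A ∩ K₀`
(`ValuationSubring.comap`) is a DVR with fraction field `K₀`.
-/

set_option autoImplicit false

open IsDedekindDomain NumberField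

namespace Fermat.Agent.INJ

variable {K : Type*} [Field K] [NumberField K]

omit [NumberField K] in
/-- the ring of integers lies in every valuation subring -/
theorem nf_ringOfIntegers_mem (V : ValuationSubring K) (x : 𝓞 K) : (x : K) ∈ V := by
  have hx : IsIntegral ℤ (x : K) := x.2
  have hx' : IsIntegral V (x : K) := hx.tower_top
  obtain ⟨y, hy⟩ := IsIntegrallyClosed.isIntegral_iff.mp hx'
  rw [← hy]
  exact y.2

/-- the localization of `𝓞 K` at a nonzero prime, as a valuation subring, is a DVR -/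
theorem nf_isDiscreteValuationRing_atPrime (v : HeightOneSpectrum (𝓞 K)) :
    IsDiscreteValuationRing (HeightOneSpectrum.valuationSubringAtPrime K v) := by
  have : IsLocalization.AtPrime (HeightOneSpectrum.valuationSubringAtPrime K v) v.asIdeal :=
    inferInstance
  exact IsLocalization.AtPrime.isDiscreteValuationRing_of_dedekind_domain (𝓞 K) (P := v.asIdeal)
    v.ne_bot _

/-- A proper valuation subring of a number field is a discrete valuation ring. -/
theorem nf_isDiscreteValuationRing (V : ValuationSubring K) (hV : V ≠ ⊤) :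
    IsDiscreteValuationRing V := by
  classical
  -- the inclusion `𝓞 K → V`
  let f : 𝓞 K →+* V :=
    (algebraMap (𝓞 K) K).codRestrict V.toSubring (fun x => nf_ringOfIntegers_mem V x)
  have hf : ∀ x : 𝓞 K, ((f x : V) : K) = (x : K) := fun x => rfl
  let 𝔭 : Ideal (𝓞 K) := (IsLocalRing.maximalIdeal V).comap f
  have h𝔭prime : 𝔭.IsPrime := Ideal.comap_isPrime f _
  have hmem : ∀ x : 𝓞 K, x ∈ 𝔭 ↔ ¬ IsUnit (f x) := by
    intro x
    show f x ∈ IsLocalRing.maximalIdeal V ↔ _
    rw [IsLocalRing.mem_maximalIdeal, mem_nonunits_iff]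
  have h𝔭ne : 𝔭 ≠ ⊥ := by
    intro hbot
    apply hV
    rw [eq_top_iff]
    intro x _
    obtain ⟨a, b, hb, rfl⟩ := IsFractionRing.div_surjective (A := 𝓞 K) x
    have hb0 : b ≠ 0 := nonZeroDivisors.ne_zero hb
    have hbu : IsUnit (f b) := by
      by_contra hnu
      have : b ∈ 𝔭 := (hmem b).mpr hnu
      rw [hbot] at this
      exact hb0 (by simpa using this)
    obtain ⟨u, hu⟩ := hbu
    have hinv : ((↑(u⁻¹) : V) : K) = (algebraMap (𝓞 K) K b)⁻¹ := by
      have h1 : ((u : V) : K) * ((↑(u⁻¹) : V) : K) = 1 := by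
        rw [← V.coe_mul, Units.mul_inv]; rfl
      rw [hu] at h1
      have h2 : ((f b : V) : K) = algebraMap (𝓞 K) K b := rfl
      rw [h2] at h1
      exact eq_inv_of_mul_eq_one_right h1
    rw [div_eq_mul_inv, ← hinv]
    exact V.mul_mem _ _ (nf_ringOfIntegers_mem V a) (↑(u⁻¹) : V).2
  obtain ⟨v, hv⟩ : ∃ v : HeightOneSpectrum (𝓞 K), v.asIdeal = 𝔭 := ⟨⟨𝔭, h𝔭prime, h𝔭ne⟩, rfl⟩
  -- the localization is contained in `V`
  have hle : HeightOneSpectrum.valuationSubringAtPrime K v ≤ V := by
    rintro x ⟨a, s, hs, rfl⟩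
    have hsu : IsUnit (f s) := by
      by_contra hnu
      apply hs
      show s ∈ v.asIdeal
      rw [hv]
      exact (hmem s).mpr hnu
    obtain ⟨u, hu⟩ := hsu
    have hinv : ((↑(u⁻¹) : V) : K) = (algebraMap (𝓞 K) K s)⁻¹ := by
      have h1 : ((u : V) : K) * ((↑(u⁻¹) : V) : K) = 1 := by
        rw [← V.coe_mul, Units.mul_inv]; rfl
      rw [hu] at h1
      have h2 : ((f s : V) : K) = algebraMap (𝓞 K) K s := rfl
      rw [h2] at h1
      exact eq_inv_of_mul_eq_one_right h1
    rw [← hinv]
    exact V.mul_mem _ _ (nf_ringOfIntegers_mem V a) (↑(u⁻¹) : V).2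
  have heq : HeightOneSpectrum.valuationSubringAtPrime K v = V :=
    ValuationSubring.eq_of_le_of_ne_top _ hle hV
  have hdvr : IsDiscreteValuationRing (HeightOneSpectrum.valuationSubringAtPrime K v) :=
    nf_isDiscreteValuationRing_atPrime v
  rw [← heq]
  exact hdvr

/-- `A ∩ K₀` for a valuation ring `A` of an extension `L` of the number field `K₀`, when some
nonzero `x ∈ K₀` is a non-unit of `A`, is a discrete valuation ring. -/
theorem nf_isDiscreteValuationRing_comap {L : Type*} [Field L] [Algebra K L]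
    (A : ValuationSubring L) {x : K} (hx0 : x ≠ 0) (hx : algebraMap K L x ∈ A.nonunits) :
    IsDiscreteValuationRing (A.comap (algebraMap K L)) := by
  apply nf_isDiscreteValuationRing
  intro htop
  have h1 : x⁻¹ ∈ A.comap (algebraMap K L) := by rw [htop]; trivial
  have h2 : (algebraMap K L x)⁻¹ ∈ A := by
    have := (ValuationSubring.mem_comap).mp h1
    rwa [map_inv₀] at this
  have hx0' : algebraMap K L x ≠ 0 := by
    intro h
    exact hx0 ((map_eq_zero (algebraMap K L)).mp h)
  rcases (ValuationSubring.mem_nonunits_iff_or (A := A)).mp hx with h | h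
  · exact hx0' h
  · exact h h2

end Fermat.Agent.INJ
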