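import Fermat.Agent.INJ.NumField
import Fermat.Prelude.Def_FLTPrelim_Ramification

/-!
# (INJ): the number-field form of the statement

`K₀ ⊂ ℚ̄` a number field, `A ⊂ ℚ̄` a valuation ring over `ℓ`, `A₀ = A ∩ K₀` (`nfSub A K₀`,
a discrete valuation ring by `nf_isDiscreteValuationRing_comap`), `nfRes A K₀ : A₀ → k(A)` the
reduction, `F = F_N(K₀) = modularFunctionFieldFullC K₀ N ⊂ K₀((q))`.

`StmtInjNF N ℓ p`: if `Y₁ Y₂ ∈ A₀((q))` have images in `F`, equal nonzero reductions, the divisor of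
`w = Y₁ / Y₂` (places of `F / K₀`) is divisible by `p`, `K₀ ∋ ζ_p, ζ_{6N}` and `h ∈ K₀((q))`
satisfies `h ^ p = w`, then `h ∈ F`.

* Layer 1 (`INJ/InjDescent.lean`): `StmtInjNF N ℓ p → StmtINJ N ℓ p`.
* Layer 2 (`INJ/InjCore.lean`, `INJ/Inj.lean`): `StmtInjNF N ℓ p` from the tame specialization
  theorem.
-/

set_option autoImplicit false

namespace Fermat.Agent.INJ

open ModularCurve AlgebraicCurve

/-- `A₀ = A ∩ K₀`, a valuation subring of the number field `K₀`. -/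
noncomputable abbrev nfSub (A : ValuationSubring NfQb) (K₀ : IntermediateField ℚ NfQb) :
    ValuationSubring K₀ :=
  A.comap (algebraMap K₀ NfQb)

/-- the inclusion `A ∩ K₀ → A` -/
noncomputable def nfSubIncl (A : ValuationSubring NfQb) (K₀ : IntermediateField ℚ NfQb) :
    nfSub A K₀ →+* A where
  toFun x := ⟨algebraMap K₀ NfQb (x : K₀), x.2⟩
  map_one' := Subtype.ext (map_one _)
  map_mul' x y := Subtype.ext (map_mul _ _ _)
  map_zero' := Subtype.ext (map_zero _)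
  map_add' x y := Subtype.ext (map_add _ _ _)

@[simp] theorem coe_nfSubIncl (A : ValuationSubring NfQb) (K₀ : IntermediateField ℚ NfQb)
    (x : nfSub A K₀) : ((nfSubIncl A K₀ x : A) : NfQb) = algebraMap K₀ NfQb (x : K₀) := rfl

/-- the reduction `A ∩ K₀ → k(A)` -/
noncomputable def nfRes (A : ValuationSubring NfQb) (K₀ : IntermediateField ℚ NfQb) :
    nfSub A K₀ →+* IsLocalRing.ResidueField A :=
  (IsLocalRing.residue A).comp (nfSubIncl A K₀)

theorem nfRes_apply (A : ValuationSubring NfQb) (K₀ : IntermediateField ℚ NfQb)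
    (x : nfSub A K₀) : nfRes A K₀ x = IsLocalRing.residue A (nfSubIncl A K₀ x) := rfl

/-- **(INJ), number-field form.** -/
def StmtInjNF (N ℓ p : ℕ) : Prop :=
  ∀ A : ValuationSubring NfQb, A.LiesOverPrime ℓ →
  ∀ K₀ : IntermediateField ℚ NfQb, FiniteDimensional ℚ K₀ →
    (∃ ζ : K₀, IsPrimitiveRoot ζ p) → (∃ ζ : K₀, IsPrimitiveRoot ζ (6 * N)) →
    ∀ (Y₁ Y₂ : LaurentSeries (nfSub A K₀)) (h : LaurentSeries K₀)
      (h₁ : coeffMap (algebraMap (nfSub A K₀) K₀) Y₁ ∈ modularFunctionFieldFullC K₀ N)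
      (h₂ : coeffMap (algebraMap (nfSub A K₀) K₀) Y₂ ∈ modularFunctionFieldFullC K₀ N),
      coeffMap (nfRes A K₀) Y₁ = coeffMap (nfRes A K₀) Y₂ →
      coeffMap (nfRes A K₀) Y₂ ≠ 0 →
      h ^ p * coeffMap (algebraMap (nfSub A K₀) K₀) Y₂
        = coeffMap (algebraMap (nfSub A K₀) K₀) Y₁ →
      (∀ Q : Place K₀ (modularFunctionFieldFullC K₀ N),
        (p : ℤ) ∣ Q.ord (⟨_, h₁⟩ : modularFunctionFieldFullC K₀ N)
          - Q.ord (⟨_, h₂⟩ : modularFunctionFieldFullC K₀ N)) →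
      h ∈ modularFunctionFieldFullC K₀ N

end Fermat.Agent.INJ
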