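/-
INJ piece BG-basis (helper11): a good basis of `F` gives a good basis of a Kummer extension
`Lf = F(H)`, `H ^ p = W ∈ F`.

Main results (namespace `Fermat.Agent.INJ.BGBasis`):
* `trace_pow_add`    : `Tr_{L/F} (H ^ (k + l)) = p, p * W, 0`  (`k + l = 0`, `= p`, else), `k, l < p`;
* `discr_kummer`     : for a basis `b` of `F / K`,
    `discr K (b_i • H ^ k) = ± p ^ (n p) * (discr K b) ^ p * (N_{F/K} W) ^ (p - 1)`;
* `tsGoodBasis_kummer` : `TSGoodBasis π t` for `F`  ⟹  `TSGoodBasis π (algebraMap F Lf t)` for `Lf`.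
-/
import Fermat.Agent.INJ.TSStmt
import Mathlib

set_option autoImplicit false

namespace Fermat.Agent.INJ.BGBasis

open Polynomial IntermediateField Module

section KummerTrace

variable {F L : Type*} [Field F] [Field L] [Algebra F L]

/-- powers of a generator are linearly independent -/
lemma linearIndependent_pow_of_gen {p : ℕ} (hp : 0 < p) (H : L)
    (hdeg : Module.finrank F L = p) (hgen : F⟮H⟯ = ⊤) :
    LinearIndependent F (fun i : Fin p => H ^ (i : ℕ)) := by
  have : FiniteDimensional F L := Module.finite_of_finrank_pos (by omega)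
  have hint : IsIntegral F H := IsIntegral.of_finite F H
  have h1 : (minpoly F H).natDegree = p := by
    rw [← IntermediateField.adjoin.finrank hint, hgen, IntermediateField.finrank_top', hdeg]
  have h2 := linearIndependent_pow (K := F) H
  have h3 := h2.comp (Fin.cast h1.symm) (Fin.cast_injective _)
  exact h3

/-- the Kummer basis `1, H, …, H^(p-1)` -/
noncomputable def kBasis {p : ℕ} (hp : 0 < p) (H : L)
    (hdeg : Module.finrank F L = p) (hgen : F⟮H⟯ = ⊤) : Basis (Fin p) F L :=
  haveI : Nonempty (Fin p) := ⟨⟨0, hp⟩⟩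
  basisOfLinearIndependentOfCardEqFinrank (linearIndependent_pow_of_gen hp H hdeg hgen)
    (by simp [hdeg])

@[simp] lemma kBasis_apply {p : ℕ} (hp : 0 < p) (H : L)
    (hdeg : Module.finrank F L = p) (hgen : F⟮H⟯ = ⊤) (i : Fin p) :
    kBasis hp H hdeg hgen i = H ^ (i : ℕ) := by
  simp [kBasis]

lemma trace_pow_eq_zero {p : ℕ} (hp : 0 < p) (H : L) (W : F)
    (hHW : H ^ p = algebraMap F L W)
    (hdeg : Module.finrank F L = p) (hgen : F⟮H⟯ = ⊤) (m : ℕ) (hm0 : 0 < m) (hmp : m < p) :
    Algebra.trace F L (H ^ m) = 0 := by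
  classical
  rw [Algebra.trace_eq_matrix_trace (kBasis hp H hdeg hgen), Matrix.trace]
  apply Finset.sum_eq_zero
  intro j _
  rw [Matrix.diag_apply, Algebra.leftMulMatrix_eq_repr_mul, kBasis_apply, ← pow_add]
  by_cases hlt : m + (j : ℕ) < p
  · have : H ^ (m + (j : ℕ)) = kBasis hp H hdeg hgen ⟨m + j, hlt⟩ := by simp
    rw [this, Basis.repr_self, Finsupp.single_apply, if_neg]
    intro h
    have := congrArg Fin.val h
    simp at this
    omega
  · have h2 : m + (j : ℕ) - p < p := by omega
    have : H ^ (m + (j : ℕ)) = W • kBasis hp H hdeg hgen ⟨m + j - p, h2⟩ := by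
      rw [kBasis_apply, Algebra.smul_def, ← hHW, ← pow_add]
      congr 1
      simp only
      omega
    rw [this, map_smul, Basis.repr_self, Finsupp.smul_apply, Finsupp.single_apply, if_neg,
      smul_zero]
    intro h
    have := congrArg Fin.val h
    simp at this
    omega

/-- the traces of the powers `H ^ (k + l)`, `k, l < p` -/
lemma trace_pow_add {p : ℕ} (hp : 0 < p) (H : L) (W : F)
    (hHW : H ^ p = algebraMap F L W)
    (hdeg : Module.finrank F L = p) (hgen : F⟮H⟯ = ⊤) (k l : ℕ) (hk : k < p) (hl : l < p) :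
    Algebra.trace F L (H ^ (k + l)) =
      if k + l = 0 then (p : F) else if k + l = p then (p : F) * W else 0 := by
  split_ifs with h0 h1
  · rw [h0, pow_zero, ← map_one (algebraMap F L), Algebra.trace_algebraMap, hdeg]
    simp
  · rw [h1, hHW, Algebra.trace_algebraMap, hdeg]
    simp
  · by_cases hlt : k + l < p
    · exact trace_pow_eq_zero hp H W hHW hdeg hgen _ (by omega) hlt
    · have h2 : k + l = p + (k + l - p) := by omega
      rw [h2, pow_add, hHW, ← Algebra.smul_def, map_smul,
        trace_pow_eq_zero hp H W hHW hdeg hgen _ (by omega) (by omega), smul_zero]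

end KummerTrace


section Gram

open Matrix

variable {K F L : Type*} [Field K] [Field F] [Field L] [Algebra K F] [Algebra F L] [Algebra K L]
  [IsScalarTower K F L]

/-- the involution `k ↦ -k mod p` on `Fin p` -/
def negFin (p : ℕ) (hp : 0 < p) : Equiv.Perm (Fin p) where
  toFun k := ⟨(p - (k : ℕ)) % p, Nat.mod_lt _ hp⟩
  invFun k := ⟨(p - (k : ℕ)) % p, Nat.mod_lt _ hp⟩
  left_inv k := by
    apply Fin.ext
    simp only
    have hk := k.2
    rcases Nat.eq_zero_or_pos (k : ℕ) with h0 | h0
    · simp [h0]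
    · rw [Nat.mod_eq_of_lt (by omega : p - (k : ℕ) < p)]
      rw [Nat.mod_eq_of_lt (by omega)]
      omega
  right_inv k := by
    apply Fin.ext
    simp only
    have hk := k.2
    rcases Nat.eq_zero_or_pos (k : ℕ) with h0 | h0
    · simp [h0]
    · rw [Nat.mod_eq_of_lt (by omega : p - (k : ℕ) < p)]
      rw [Nat.mod_eq_of_lt (by omega)]
      omega

lemma negFin_eq_iff {p : ℕ} (hp : 0 < p) (k l : Fin p) :
    negFin p hp k = l ↔ ((k : ℕ) + l = 0 ∨ (k : ℕ) + l = p) := by
  have hk := k.2
  have hl := l.2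
  rw [Fin.ext_iff]
  change (p - (k : ℕ)) % p = (l : ℕ) ↔ _
  rcases Nat.eq_zero_or_pos (k : ℕ) with h0 | h0
  · simp only [h0, Nat.sub_zero, Nat.mod_self, zero_add]
    omega
  · rw [Nat.mod_eq_of_lt (by omega : p - (k : ℕ) < p)]
    omega

variable {n : ℕ} (b : Basis (Fin n) K F)

/-- `(T * M) i j = Tr (b i * b j * W)`. -/
lemma traceMatrix_mul_leftMulMatrix (W : F) (i j : Fin n) :
    (Algebra.traceMatrix K b * Algebra.leftMulMatrix b W) i j =
      Algebra.trace K F (b i * b j * W) := by
  rw [Matrix.mul_apply]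
  have h1 : b i * b j * W = ∑ a, (Algebra.leftMulMatrix b W a j) • (b i * b a) := by
    rw [mul_assoc, mul_comm (b j) W, ← b.sum_repr (W * b j), Finset.mul_sum]
    refine Finset.sum_congr rfl fun a _ => ?_
    rw [Algebra.leftMulMatrix_eq_repr_mul, mul_smul_comm]
  rw [h1, map_sum]
  refine Finset.sum_congr rfl fun a _ => ?_
  rw [map_smul, Algebra.traceMatrix_apply, Algebra.traceForm_apply, smul_eq_mul, mul_comm]


/-- the diagonal blocks -/
noncomputable def dBlock (W : F) (p : ℕ) (l : Fin p) : Matrix (Fin n) (Fin n) K :=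
  if (l : ℕ) = 0 then 1 else Algebra.leftMulMatrix b W

/-- the permutation of the index set -/
def sigmaPerm (n p : ℕ) (hp : 0 < p) : Equiv.Perm (Fin n × Fin p) :=
  (Equiv.refl (Fin n)).prodCongr (negFin p hp)

lemma traceMatrix_kummer_apply {p : ℕ} (hp : 0 < p) (H : L) (W : F)
    (hHW : H ^ p = algebraMap F L W)
    (hdeg : Module.finrank F L = p) (hgen : F⟮H⟯ = ⊤) (i j : Fin n) (k l : Fin p) :
    Algebra.traceMatrix K (b.smulTower (kBasis hp H hdeg hgen)) (i, k) (j, l) =
      if (k : ℕ) + l = 0 then (p : K) * Algebra.trace K F (b i * b j)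
      else if (k : ℕ) + l = p then (p : K) * Algebra.trace K F (b i * b j * W) else 0 := by
  rw [Algebra.traceMatrix_apply, Algebra.traceForm_apply, Basis.smulTower_apply,
    Basis.smulTower_apply, smul_mul_smul_comm, kBasis_apply, kBasis_apply, ← pow_add,
    ← Algebra.trace_trace_of_basis b (kBasis hp H hdeg hgen), map_smul,
    trace_pow_add hp H W hHW hdeg hgen _ _ k.2 l.2]
  split_ifs with h0 h1
  · rw [smul_eq_mul, mul_comm, ← nsmul_eq_mul, map_nsmul, nsmul_eq_mul]
  · rw [smul_eq_mul, mul_comm ((p : F)) W, ← mul_assoc, mul_comm, ← nsmul_eq_mul, map_nsmul,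
      nsmul_eq_mul]
  · simp

lemma nMatrix_apply {p : ℕ} (hp : 0 < p) (W : F) (a j : Fin n) (e l : Fin p) :
    ((p : K) • (Matrix.blockDiagonal (dBlock b W p)).submatrix (sigmaPerm n p hp) id) (a, e) (j, l)
      = if negFin p hp e = l then (p : K) * dBlock b W p l a j else 0 := by
  simp only [Matrix.smul_apply, Matrix.submatrix_apply, id_eq, sigmaPerm, Equiv.prodCongr_apply,
    Equiv.coe_refl, Prod.map_apply, Matrix.blockDiagonal_apply, smul_eq_mul, mul_ite, mul_zero]
  by_cases h : negFin p hp e = l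
  · simp [h]
  · simp [h]

lemma traceMatrix_kummer_eq {p : ℕ} (hp : 0 < p) (H : L) (W : F)
    (hHW : H ^ p = algebraMap F L W)
    (hdeg : Module.finrank F L = p) (hgen : F⟮H⟯ = ⊤) :
    Algebra.traceMatrix K (b.smulTower (kBasis hp H hdeg hgen)) =
      (Matrix.kroneckerMap (· * ·) (Algebra.traceMatrix K b) (1 : Matrix (Fin p) (Fin p) K)) *
        ((p : K) • (Matrix.blockDiagonal (dBlock b W p)).submatrix (sigmaPerm n p hp) id) := by
  classical
  ext ⟨i, k⟩ ⟨j, l⟩
  rw [traceMatrix_kummer_apply b hp H W hHW hdeg hgen, Matrix.mul_apply, Fintype.sum_prod_type]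
  have hsum : ∀ a : Fin n, ∑ e : Fin p,
      (Matrix.kroneckerMap (· * ·) (Algebra.traceMatrix K b) (1 : Matrix (Fin p) (Fin p) K))
        (i, k) (a, e) *
      ((p : K) • (Matrix.blockDiagonal (dBlock b W p)).submatrix (sigmaPerm n p hp) id)
        (a, e) (j, l) =
      Algebra.traceMatrix K b i a *
        (if negFin p hp k = l then (p : K) * dBlock b W p l a j else 0) := by
    intro a
    rw [Finset.sum_eq_single k]
    · rw [nMatrix_apply, Matrix.kroneckerMap_apply, Matrix.one_apply_eq, mul_one]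
    · intro e _ hek
      rw [Matrix.kroneckerMap_apply, Matrix.one_apply_ne (Ne.symm hek), mul_zero, zero_mul]
    · intro h
      exact absurd (Finset.mem_univ k) h
  rw [Finset.sum_congr rfl (fun a _ => hsum a)]
  by_cases hτ : negFin p hp k = l
  · simp only [hτ, if_true]
    have hcase := (negFin_eq_iff hp k l).1 hτ
    by_cases h0 : (k : ℕ) + l = 0
    · have hl0 : (l : ℕ) = 0 := by omega
      rw [if_pos h0]
      have hD : dBlock b W p l = 1 := by simp [dBlock, hl0]
      rw [hD]
      simp only [Matrix.one_apply, mul_ite, mul_one, mul_zero, Finset.sum_ite_eq',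
        Finset.mem_univ, if_true]
      rw [Algebra.traceMatrix_apply, Algebra.traceForm_apply, mul_comm]
    · have hp' : (k : ℕ) + l = p := by omega
      have hl0 : (l : ℕ) ≠ 0 := by
        have := k.2
        omega
      rw [if_neg h0, if_pos hp']
      have hD : dBlock b W p l = Algebra.leftMulMatrix b W := by simp [dBlock, hl0]
      rw [hD, ← traceMatrix_mul_leftMulMatrix, Matrix.mul_apply, Finset.mul_sum]
      refine Finset.sum_congr rfl fun a _ => ?_
      ring
  · have hcase : ¬ ((k : ℕ) + l = 0 ∨ (k : ℕ) + l = p) := fun h => hτ ((negFin_eq_iff hp k l).2 h)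
    rw [not_or] at hcase
    simp only [hτ, if_false, mul_zero, Finset.sum_const_zero, hcase.1, hcase.2]

theorem discr_kummer {p : ℕ} (hp : 0 < p) (H : L) (W : F)
    (hHW : H ^ p = algebraMap F L W)
    (hdeg : Module.finrank F L = p) (hgen : F⟮H⟯ = ⊤) :
    Algebra.discr K (b.smulTower (kBasis hp H hdeg hgen)) =
      (((Equiv.Perm.sign (sigmaPerm n p hp) : ℤˣ) : ℤ) : K) * (p : K) ^ (n * p) *
        (Algebra.discr K b) ^ p * (Algebra.norm K W) ^ (p - 1) := by
  classical
  rw [Algebra.discr_def, traceMatrix_kummer_eq b hp H W hHW hdeg hgen, Matrix.det_mul,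
    Matrix.det_kronecker, Matrix.det_smul, Matrix.det_permute, Matrix.det_blockDiagonal,
    Matrix.det_one, one_pow, mul_one, Fintype.card_fin, Fintype.card_prod, Fintype.card_fin,
    Fintype.card_fin, ← Algebra.discr_def]
  have hprod : ∏ l : Fin p, (dBlock b W p l).det = (Algebra.norm K W) ^ (p - 1) := by
    obtain ⟨q, rfl⟩ : ∃ q, p = q + 1 := ⟨p - 1, by omega⟩
    rw [Fin.prod_univ_succ]
    simp only [dBlock, Fin.val_zero, if_true, Matrix.det_one, one_mul, Fin.val_succ,
      Nat.succ_ne_zero, if_false, Nat.add_sub_cancel, Finset.prod_const, Finset.card_univ,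
      Fintype.card_fin]
    rw [Algebra.norm_eq_matrix_det b]
  rw [hprod]
  ring

end Gram

section Transfer

variable {K K' V : Type*} [Field K] [Field K'] [AddCommGroup V] [Module K V] [Module K' V]

lemma linearIndependent_of_ringEquiv (e : K ≃+* K') (he : ∀ (x : K) (v : V), x • v = e x • v)
    {ι : Type*} (v : ι → V) (h : LinearIndependent K v) : LinearIndependent K' v := by
  rw [linearIndependent_iff'] at h ⊢
  intro s g hg i hi
  have h1 : ∑ j ∈ s, (e.symm (g j)) • v j = 0 := by
    rw [← hg]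
    refine Finset.sum_congr rfl fun j _ => ?_
    rw [he, RingEquiv.apply_symm_apply]
  have := h s (fun j => e.symm (g j)) h1 i hi
  simpa using this

lemma span_eq_top_of_ringEquiv (e : K ≃+* K') (he : ∀ (x : K) (v : V), x • v = e x • v)
    (S : Set V) (h : Submodule.span K S = ⊤) : Submodule.span K' S = ⊤ := by
  have key : ∀ v, v ∈ Submodule.span K S → v ∈ Submodule.span K' S := by
    intro v hv
    induction hv using Submodule.span_induction with
    | mem x hx => exact Submodule.subset_span hx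
    | zero => exact Submodule.zero_mem _
    | add x y _ _ hx hy => exact Submodule.add_mem _ hx hy
    | smul a x _ hx =>
      rw [he]
      exact Submodule.smul_mem _ _ hx
  rw [eq_top_iff]
  intro v _
  exact key v (by rw [h]; trivial)

lemma discr_of_ringEquiv {L : Type*} [Field L] [Algebra K L] [Algebra K' L] (e : K ≃+* K')
    (he : (algebraMap K' L).comp (e : K →+* K') = algebraMap K L)
    {ι : Type*} [Fintype ι] [DecidableEq ι] (v : ι → L) :
    e (Algebra.discr K v) = Algebra.discr K' v := by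
  rw [Algebra.discr_def, Algebra.discr_def]
  have : (e : K →+* K') (Algebra.traceMatrix K v).det = _ := RingHom.map_det _ _
  rw [RingHom.coe_coe] at this
  rw [this]
  congr 1
  ext i j
  simp only [RingHom.mapMatrix_apply, Matrix.map_apply, Algebra.traceMatrix_apply,
    Algebra.traceForm_apply, RingHom.coe_coe]
  exact Algebra.trace_eq_of_ringEquiv e he _

end Transfer

section Integral

variable {A₀ F Lf : Type*} [CommRing A₀] [Field F] [Field Lf] [Algebra A₀ F] [Algebra A₀ Lf]
  [Algebra F Lf] [IsScalarTower A₀ F Lf]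

lemma isIntegral_adjoin_map (t x : F) (h : IsIntegral (Algebra.adjoin A₀ {t}) x) :
    IsIntegral (Algebra.adjoin A₀ {algebraMap F Lf t}) (algebraMap F Lf x) := by
  let f : F →ₐ[A₀] Lf := IsScalarTower.toAlgHom A₀ F Lf
  have hmap : (Algebra.adjoin A₀ {t}).map f = Algebra.adjoin A₀ {algebraMap F Lf t} := by
    rw [AlgHom.map_adjoin, Set.image_singleton]
    rfl
  let φ : Algebra.adjoin A₀ {t} →+* Algebra.adjoin A₀ {algebraMap F Lf t} :=
    { toFun := fun y => ⟨f y, by rw [← hmap]; exact ⟨y, y.2, rfl⟩⟩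
      map_one' := by ext; simp
      map_mul' := fun a b => by ext; simp
      map_zero' := by ext; simp
      map_add' := fun a b => by ext; simp }
  exact IsIntegral.map_of_comp_eq φ (algebraMap F Lf) (by ext y; rfl) h

end Integral

section Main

universe u

variable {A₀ E F Lf : Type u} [CommRing A₀] [Field E] [Algebra A₀ E]
  [Field F] [Algebra E F] [Algebra A₀ F]
  [Field Lf] [Algebra E Lf] [Algebra A₀ Lf]
  [Algebra F Lf] [IsScalarTower E F Lf] [IsScalarTower A₀ F Lf]

/-- the identification of `E(t) ⊂ F` with `E(t) ⊂ Lf` -/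
noncomputable def adjoinEquiv (t : F) : E⟮t⟯ ≃+* E⟮algebraMap F Lf t⟯ :=
  ((IntermediateField.equivMap E⟮t⟯ (IsScalarTower.toAlgHom E F Lf)).trans
    (IntermediateField.equivOfEq (by
      rw [IntermediateField.adjoin_map, Set.image_singleton]
      rfl))).toRingEquiv

lemma adjoinEquiv_coe (t : F) (x : E⟮t⟯) :
    ((adjoinEquiv (Lf := Lf) t x : E⟮algebraMap F Lf t⟯) : Lf) = algebraMap F Lf (x : F) := rfl

theorem tsGoodBasis_kummer [IsDomain A₀] (π : A₀) (hπ : Prime π) (t : F) {p : ℕ} (hp : 0 < p)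
    (hpπ : ¬ π ∣ (p : A₀)) (H : Lf) (W : F) (hHW : H ^ p = algebraMap F Lf W)
    (hW : IsIntegral (Algebra.adjoin A₀ {t}) W)
    (hdeg : Module.finrank F Lf = p) (hgen : F⟮H⟯ = ⊤)
    (nW : A₀[X]) (hnW : ¬ C π ∣ nW)
    (hnorm : algebraMap E⟮t⟯ F (Algebra.norm E⟮t⟯ W) = aeval t nW)
    (hF : TSGoodBasis (E := E) (Lf := F) π t) :
    TSGoodBasis (E := E) (Lf := Lf) π (algebraMap F Lf t) := by
  classical
  obtain ⟨n, b, d, hli, hspan, hint, hd, hdisc⟩ := hF
  let bK : Basis (Fin n) E⟮t⟯ F := Basis.mk hli hspan.ge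
  have hbK : ⇑bK = b := Basis.coe_mk _ _
  let BB : Basis (Fin (n * p)) E⟮t⟯ Lf :=
    (bK.smulTower (kBasis hp H hdeg hgen)).reindex finProdFinEquiv
  have hBB : ∀ x, BB x = algebraMap F Lf (b (finProdFinEquiv.symm x).1) *
      H ^ ((finProdFinEquiv.symm x).2 : ℕ) := by
    intro x
    simp only [BB, Basis.reindex_apply, Basis.smulTower_apply, kBasis_apply, hbK,
      Algebra.smul_def]
  let e := adjoinEquiv (E := E) (Lf := Lf) t
  have he : ∀ (x : E⟮t⟯) (v : Lf), x • v = e x • v := by
    intro x v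
    rw [Algebra.smul_def, Algebra.smul_def]
    rfl
  have he' : (algebraMap E⟮algebraMap F Lf t⟯ Lf).comp (e : E⟮t⟯ →+* E⟮algebraMap F Lf t⟯) =
      algebraMap E⟮t⟯ Lf := by
    ext x
    rfl
  -- the sign
  let ε : ℤ := ((Equiv.Perm.sign (sigmaPerm n p hp) : ℤˣ) : ℤ)
  refine ⟨n * p, BB, C ((ε : ℤ) : A₀) * C (p : A₀) ^ (n * p) * d ^ p * nW ^ (p - 1), ?_, ?_, ?_,
    ?_, ?_⟩
  · exact linearIndependent_of_ringEquiv e he _ BB.linearIndependent
  · exact span_eq_top_of_ringEquiv e he _ BB.span_eq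
  · intro x
    rw [hBB]
    refine IsIntegral.mul (isIntegral_adjoin_map t _ (hint _)) (IsIntegral.pow ?_ _)
    refine IsIntegral.of_pow hp ?_
    rw [hHW]
    exact isIntegral_adjoin_map t W hW
  · have hCπ : Prime (C π : A₀[X]) := (Polynomial.prime_C_iff).2 hπ
    intro hdvd
    have hε : IsUnit (C ((ε : ℤ) : A₀) : A₀[X]) :=
      ((Units.isUnit (Equiv.Perm.sign (sigmaPerm n p hp))).map (Int.castRingHom A₀)).map C
    rcases hCπ.dvd_or_dvd hdvd with h1 | h1
    · rcases hCπ.dvd_or_dvd h1 with h2 | h2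
      · rcases hCπ.dvd_or_dvd h2 with h3 | h3
        · exact hCπ.not_isUnit (isUnit_of_dvd_unit h3 hε)
        · have := hCπ.dvd_of_dvd_pow h3
          rw [Polynomial.C_dvd_iff_dvd_coeff] at this
          have h4 := this 0
          rw [Polynomial.coeff_C_zero] at h4
          exact hpπ h4
      · exact hd (hCπ.dvd_of_dvd_pow h2)
    · exact hnW (hCπ.dvd_of_dvd_pow h1)
  · -- the discriminant
    have h1 : Algebra.discr E⟮t⟯ (⇑BB) =
        Algebra.discr E⟮t⟯ (⇑(bK.smulTower (kBasis hp H hdeg hgen))) := by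
      have := Algebra.discr_reindex E⟮t⟯ (bK.smulTower (kBasis hp H hdeg hgen)) finProdFinEquiv
      rw [← this]
      congr 1
      exact Basis.coe_reindex _ _
    rw [← discr_of_ringEquiv e he' (⇑BB), h1, discr_kummer bK hp H W hHW hdeg hgen]
    have h2 : ∀ z : E⟮t⟯, algebraMap E⟮algebraMap F Lf t⟯ Lf (e z) =
        algebraMap F Lf (algebraMap E⟮t⟯ F z) := fun z => adjoinEquiv_coe t z
    rw [h2]
    simp only [map_mul, map_pow, map_intCast, map_natCast, hbK, hdisc, hnorm]
    rw [Polynomial.aeval_algebraMap_apply, Polynomial.aeval_algebraMap_apply]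

end Main

end Fermat.Agent.INJ.BGBasis
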