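import Mathlib

/-!
# (INJ) glue piece T1: basics of the chart ring `R = A₀[τ]`, `τ` transcendental

Setting: `A₀` a DVR with fraction field `E` (char 0), `Lf ⊇ E` a field, `τ : Lf` transcendental
over `E`, `R := Algebra.adjoin A₀ {τ}`.

* (1) `chartEquiv hτ : A₀[X] ≃ₐ[A₀] R`, `chartEquiv_X`, `chartEquiv_C`, `chartEquiv_coe`.
* (2) `chart_ufm`, `chart_isIntegrallyClosed`, `chart_isNoetherianRing`, `chart_prime`,
      `chart_quotient_isPrincipalIdealRing`.
* (3) `chart_isFractionRing` (for `E⟮τ⟯`), `chart_finite`, `chart_closure_isNoetherianRing`.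
* (6) `chart_exists_pow_mul_integral`.
-/

set_option autoImplicit false
set_option linter.style.haveILetI false
set_option linter.unusedSectionVars false

namespace Fermat.Agent.INJ

open Polynomial

section ChartBasics

variable {A₀ E Lf : Type*} [CommRing A₀] [IsDomain A₀] [IsDiscreteValuationRing A₀]
  [Field E] [Algebra A₀ E] [IsFractionRing A₀ E] [CharZero E]
  [Field Lf] [Algebra E Lf] [Algebra A₀ Lf] [IsScalarTower A₀ E Lf]
  {π : A₀} {τ : Lf}

theorem chart_transcendental (hτ : Transcendental E τ) : Transcendental A₀ τ :=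
  hτ.restrictScalars (IsFractionRing.injective A₀ E)

theorem chart_aeval_injective (hτ : Transcendental E τ) :
    Function.Injective (aeval (R := A₀) τ) :=
  transcendental_iff_injective.mp (chart_transcendental hτ)

/-- (1) `A₀[X] ≃ₐ[A₀] A₀[τ]`. -/
noncomputable def chartEquiv (hτ : Transcendental E τ) :
    A₀[X] ≃ₐ[A₀] ↥(Algebra.adjoin A₀ {τ}) :=
  (AlgEquiv.ofInjective (aeval (R := A₀) τ) (chart_aeval_injective hτ)).trans
    (Subalgebra.equivOfEq _ _ (Algebra.adjoin_singleton_eq_range_aeval A₀ τ).symm)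

theorem chartEquiv_coe (hτ : Transcendental E τ) (f : A₀[X]) :
    ((chartEquiv hτ f : ↥(Algebra.adjoin A₀ {τ})) : Lf) = aeval τ f := rfl

@[simp] theorem chartEquiv_X (hτ : Transcendental E τ) :
    ((chartEquiv hτ X : ↥(Algebra.adjoin A₀ {τ})) : Lf) = τ := by
  rw [chartEquiv_coe, aeval_X]

theorem chartEquiv_C (hτ : Transcendental E τ) (a : A₀) :
    chartEquiv hτ (C a) = algebraMap A₀ ↥(Algebra.adjoin A₀ {τ}) a := by
  rw [← Polynomial.algebraMap_eq, AlgEquiv.commutes]

/-- (2a) -/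
theorem chart_ufm (hτ : Transcendental E τ) :
    UniqueFactorizationMonoid ↥(Algebra.adjoin A₀ {τ}) :=
  (chartEquiv hτ).toMulEquiv.uniqueFactorizationMonoid inferInstance

/-- (2b) -/
theorem chart_isIntegrallyClosed (hτ : Transcendental E τ) :
    IsIntegrallyClosed ↥(Algebra.adjoin A₀ {τ}) :=
  IsIntegrallyClosed.of_equiv (chartEquiv hτ).toRingEquiv

/-- (2c) -/
theorem chart_isNoetherianRing (hτ : Transcendental E τ) :
    IsNoetherianRing ↥(Algebra.adjoin A₀ {τ}) :=
  isNoetherianRing_of_ringEquiv A₀[X] (chartEquiv hτ).toRingEquiv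

/-- (2d) -/
theorem chart_prime (hτ : Transcendental E τ) (hπ : Irreducible π) :
    Prime (algebraMap A₀ ↥(Algebra.adjoin A₀ {τ}) π) := by
  have h1 : Prime π := hπ.prime
  have h2 : Prime (C π : A₀[X]) := Polynomial.prime_C_iff.mpr h1
  have h3 := (MulEquiv.prime_iff (chartEquiv hτ).toMulEquiv).mpr h2
  rw [← chartEquiv_C hτ]
  exact h3

/-- (2e) `R ⧸ π ≃ (A₀ ⧸ π)[X]` is a principal ideal ring. -/
theorem chart_quotient_isPrincipalIdealRing (hτ : Transcendental E τ) (hπ : Irreducible π) :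
    IsPrincipalIdealRing (↥(Algebra.adjoin A₀ {τ}) ⧸
      Ideal.span {algebraMap A₀ ↥(Algebra.adjoin A₀ {τ}) π}) := by
  haveI hmax : (Ideal.span {π} : Ideal A₀).IsMaximal := by
    rw [← hπ.maximalIdeal_eq]
    infer_instance
  letI : Field (A₀ ⧸ (Ideal.span {π} : Ideal A₀)) := Ideal.Quotient.field _
  -- `(A₀ ⧸ π)[X] ≃ A₀[X] ⧸ (C π)`
  let e1 := Ideal.polynomialQuotientEquivQuotientPolynomial (Ideal.span {π} : Ideal A₀)
  have hmap : Ideal.span {algebraMap A₀ ↥(Algebra.adjoin A₀ {τ}) π} =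
      Ideal.map (((chartEquiv hτ).toRingEquiv :
          A₀[X] ≃+* ↥(Algebra.adjoin A₀ {τ})) : A₀[X] →+* ↥(Algebra.adjoin A₀ {τ}))
        (Ideal.map C (Ideal.span {π} : Ideal A₀)) := by
    rw [Ideal.map_span, Ideal.map_span, Set.image_singleton, Set.image_singleton]
    congr 2
    exact (chartEquiv_C hτ π).symm
  let e2 := Ideal.quotientEquiv (Ideal.map C (Ideal.span {π} : Ideal A₀))
    (Ideal.span {algebraMap A₀ ↥(Algebra.adjoin A₀ {τ}) π}) (chartEquiv hτ).toRingEquiv hmap
  exact IsPrincipalIdealRing.of_surjective (e1.trans e2).toRingHom (e1.trans e2).surjective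

end ChartBasics

end Fermat.Agent.INJ
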