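/-
INJ / Part A, piece A2 (generic commutative algebra, no modular forms, no valuations).

Setting (as in A1, `TorsionFree.lean`): `R` an integrally closed domain, `K = Frac R`, `L / K` a
finite separable field extension, `C = integralClosure R L`, `π ∈ R` a prime element.

Hypothesis (a) of the INJ plan, in discriminant form (helper36's shape):
`GoodBasis π b` : `b` is a `K`-basis of `L`, integral over `R`, whose discriminant is an element
of `R` not divisible by `π`.

Results:
* `GoodBasis.isRadical`               : `π C` is a radical ideal (`C / π C` is reduced);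
* `GoodBasis.traceForm_nondegenerate` : for every field `k` with `ker (R → k) = (π)` the trace
  form of `k ⊗[R] C` is nondegenerate (the generic fibre of `C / π C` is etale), and
  `fibreBasis` is the basis `1 ⊗ b_i`; `GoodBasis.finrank_fibre`;
* tools: `exists_trace_eq_pi_mul` (trace of an element nilpotent mod `π` is divisible by `π`),
  `det_smul_eq_sum_coordR` (Cramer: `d • C ⊆ ⊕ R b_i`), `trace_one_tmul`.
-/
import Mathlib
import Fermat.Agent.INJ.TorsionFree

set_option autoImplicit false
set_option linter.unusedSectionVars false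
set_option linter.style.haveILetI false

open Polynomial Module

namespace Fermat.Agent.INJ.Comp

variable {R K L : Type*} [CommRing R] [IsDomain R] [IsIntegrallyClosed R]
  [Field K] [Algebra R K] [IsFractionRing R K]
  [Field L] [Algebra R L] [Algebra K L] [IsScalarTower R K L] [Module.IsTorsionFree R L]


/-- Hypothesis (a): a `K`-basis of `L`, integral over `R`, with discriminant not divisible by
`π`. -/
def GoodBasis (π : R) {n : ℕ} (b : Basis (Fin n) K L) : Prop :=
  (∀ i, IsIntegral R (b i)) ∧ ∃ d : R, ¬ π ∣ d ∧ algebraMap R K d = Algebra.discr K b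

/-- The trace of an integral element comes from `R`. -/
theorem exists_trace_eq [FiniteDimensional K L] {x : L} (hx : IsIntegral R x) :
    ∃ r : R, algebraMap R K r = Algebra.trace K L x :=
  IsIntegrallyClosed.isIntegral_iff.1 (Algebra.isIntegral_trace hx)

section Cramer

variable {n : ℕ} (b : Basis (Fin n) K L)

/-- Cramer's rule for the trace form: `disc • coordinates = adjugate(T) *ᵥ traces`. -/
theorem discr_smul_equivFun (z : L) :
    Algebra.discr K b • b.equivFun z =
      (Algebra.traceMatrix K b).adjugate.mulVec (fun i => Algebra.trace K L (z * b i)) := by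
  rw [← Algebra.traceMatrix_of_basis_mulVec b z, Matrix.mulVec_mulVec, Matrix.adjugate_mul,
    Matrix.smul_mulVec, Matrix.one_mulVec, Algebra.discr_def]

/-- The `R`-valued trace matrix of an integral basis. -/
noncomputable def traceMatrixR (hb : ∀ i, IsIntegral R (b i)) : Matrix (Fin n) (Fin n) R :=
  haveI : FiniteDimensional K L := Module.Finite.of_basis b
  fun i j => (exists_trace_eq (K := K) ((hb i).mul (hb j))).choose

theorem map_traceMatrixR (hb : ∀ i, IsIntegral R (b i)) :
    (traceMatrixR b hb).map (algebraMap R K) = Algebra.traceMatrix K b := by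
  haveI : FiniteDimensional K L := Module.Finite.of_basis b
  ext i j
  rw [Matrix.map_apply, Algebra.traceMatrix_apply, Algebra.traceForm_apply]
  exact (exists_trace_eq (K := K) ((hb i).mul (hb j))).choose_spec

theorem map_det_traceMatrixR (hb : ∀ i, IsIntegral R (b i)) :
    algebraMap R K (traceMatrixR b hb).det = Algebra.discr K b := by
  rw [Algebra.discr_def, ← map_traceMatrixR b hb, RingHom.map_det]
  rfl

/-- Integral Cramer: if `z` is integral with `Tr(z b_i) = τ_i ∈ R`, then
`disc · (coordinate of z at i) = (adj(T_R) *ᵥ τ)_i`. -/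
theorem discr_smul_equivFun_eq (hb : ∀ i, IsIntegral R (b i)) (z : L) (τ : Fin n → R)
    (hτ : ∀ i, algebraMap R K (τ i) = Algebra.trace K L (z * b i)) (i : Fin n) :
    Algebra.discr K b * b.equivFun z i =
      algebraMap R K (((traceMatrixR b hb).adjugate.mulVec τ) i) := by
  have h := congrFun (discr_smul_equivFun b z) i
  rw [Pi.smul_apply, smul_eq_mul] at h
  rw [h, ← map_traceMatrixR b hb]
  have h1 : ((traceMatrixR b hb).map (algebraMap R K)).adjugate =
      ((traceMatrixR b hb).adjugate).map (algebraMap R K) := by
    have := RingHom.map_adjugate (algebraMap R K) (traceMatrixR b hb)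
    simpa [RingHom.mapMatrix_apply] using this.symm
  rw [h1]
  simp only [Matrix.mulVec, dotProduct, Matrix.map_apply, map_sum, map_mul, hτ]

end Cramer

/-- If `z` is integral and `z ^ (m+1) ∈ π C`, then `Tr(z) ∈ π R`. -/
theorem exists_trace_eq_pi_mul [FiniteDimensional K L] [Algebra.IsSeparable K L] {π : R}
    (hπ : Prime π) {z c : L} (hz : IsIntegral R z) (hc : IsIntegral R c) {m : ℕ}
    (hzm : z ^ (m + 1) = π • c) :
    ∃ t : R, algebraMap R K (π * t) = Algebra.trace K L z := by
  classical
  obtain ⟨T, hT⟩ : ∃ r : R, algebraMap R K r = Algebra.trace K L z :=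
    IsIntegrallyClosed.isIntegral_iff.1 (Algebra.isIntegral_trace hz)
  let E := AlgebraicClosure K
  let CE := integralClosure R E
  have hint : ∀ σ : L →ₐ[K] E, IsIntegral R (σ z) := fun σ => hz.map (σ.restrictScalars R)
  have hintc : ∀ σ : L →ₐ[K] E, IsIntegral R (σ c) := fun σ => hc.map (σ.restrictScalars R)
  let u : (L →ₐ[K] E) → CE := fun σ => ⟨σ z, hint σ⟩
  have hsum : ((∑ σ : L →ₐ[K] E, u σ : CE) : E) = algebraMap K E (Algebra.trace K L z) := by
    rw [trace_eq_sum_embeddings E]
    simp [u]
  have hmem : (∑ σ : L →ₐ[K] E, u σ) ^ ((Finset.univ : Finset (L →ₐ[K] E)).card * m + 1) ∈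
      Ideal.span {algebraMap R CE π} := by
    have h1 := Ideal.sum_pow_mem_span_pow (Finset.univ : Finset (L →ₐ[K] E)) u m
    refine (Ideal.span_le.2 ?_) h1
    rintro _ ⟨σ, -, rfl⟩
    refine Ideal.mem_span_singleton.2 ⟨⟨σ c, hintc σ⟩, Subtype.ext ?_⟩
    show (σ z) ^ (m + 1) = algebraMap R E π * σ c
    rw [← map_pow, hzm, Algebra.smul_def, map_mul]
    congr 1
    exact (σ.restrictScalars R).commutes π
  obtain ⟨e, he⟩ := Ideal.mem_span_singleton.1 hmem
  set N := (Finset.univ : Finset (L →ₐ[K] E)).card * m + 1 with hN
  have he' : algebraMap K E (algebraMap R K (T ^ N)) = algebraMap R E π * (e : E) := by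
    have := congrArg (Subtype.val) he
    simp only [SubmonoidClass.coe_pow, hsum, Subalgebra.coe_mul, Subalgebra.coe_algebraMap] at this
    rw [map_pow, map_pow, hT]
    exact this
  have hπK : algebraMap R K π ≠ 0 := by
    intro h0
    exact hπ.ne_zero (FaithfulSMul.algebraMap_injective R K (by rw [h0, map_zero]))
  have heK : (e : E) = algebraMap K E (algebraMap R K (T ^ N) / algebraMap R K π) := by
    have hπE : algebraMap R E π ≠ 0 := by
      rw [IsScalarTower.algebraMap_apply R K E]
      exact (map_ne_zero_iff _ (algebraMap K E).injective).2 hπK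
    rw [map_div₀, he', ← IsScalarTower.algebraMap_apply R K E, mul_div_cancel_left₀ _ hπE]
  have hint2 : IsIntegral R (algebraMap R K (T ^ N) / algebraMap R K π) := by
    have : IsIntegral R (algebraMap K E (algebraMap R K (T ^ N) / algebraMap R K π)) := by
      rw [← heK]; exact e.2
    exact (isIntegral_algebraMap_iff (algebraMap K E).injective).1 this
  obtain ⟨r, hr⟩ := IsIntegrallyClosed.isIntegral_iff.1 hint2
  have hdvd : π ∣ T ^ N := by
    refine ⟨r, FaithfulSMul.algebraMap_injective R K ?_⟩
    rw [map_mul, hr, mul_div_cancel₀ _ hπK]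
  obtain ⟨t, ht⟩ := hπ.dvd_of_dvd_pow hdvd
  exact ⟨t, by rw [← ht, hT]⟩

section Radical

variable {n : ℕ} {b : Basis (Fin n) K L} {π : R}

/-- For integral `y`, `d • y` lies in the `R`-span of the basis; if moreover all `Tr(y b_i)` are
divisible by `π`, the coefficients are divisible by `π`. -/
theorem discr_smul_eq_sum (hb : ∀ i, IsIntegral R (b i)) (y : L) (τ : Fin n → R)
    (hτ : ∀ i, algebraMap R K (τ i) = Algebra.trace K L (y * b i)) :
    (traceMatrixR b hb).det • y = ∑ i, ((traceMatrixR b hb).adjugate.mulVec τ) i • b i := by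
  conv_lhs => rw [← b.sum_equivFun y]
  rw [Finset.smul_sum]
  refine Finset.sum_congr rfl fun i _ => ?_
  rw [← IsScalarTower.algebraMap_smul K ((traceMatrixR b hb).det), map_det_traceMatrixR, smul_smul,
    discr_smul_equivFun_eq b hb y τ hτ i, IsScalarTower.algebraMap_smul]

/-- A2-1: under hypothesis (a), `C / π C` is reduced (`C` the integral closure of `R` in `L`). -/
theorem GoodBasis.isRadical [Algebra.IsSeparable K L] (hπ : Prime π) (hb : GoodBasis π b) :
    (Ideal.span {algebraMap R (integralClosure R L) π}).IsRadical := by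
  classical
  haveI : FiniteDimensional K L := Module.Finite.of_basis b
  obtain ⟨hint, d, hd, hdisc⟩ := hb
  have hdet : (traceMatrixR b hint).det = d :=
    FaithfulSMul.algebraMap_injective R K (by rw [map_det_traceMatrixR, hdisc])
  intro y hy
  obtain ⟨m, hm⟩ := hy
  have hm1 : y ^ (m + 1) ∈ Ideal.span {algebraMap R (integralClosure R L) π} := by
    rw [pow_succ]; exact Ideal.mul_mem_right _ _ hm
  obtain ⟨c, hc⟩ := Ideal.mem_span_singleton.1 hm1
  have hcL : (y : L) ^ (m + 1) = π • (c : L) := by
    have := congrArg Subtype.val hc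
    simpa [Algebra.smul_def] using this
  -- traces of `y b_j` are divisible by `π`
  have htr : ∀ j, ∃ t : R, algebraMap R K (π * t) = Algebra.trace K L ((y : L) * b j) := by
    intro j
    refine exists_trace_eq_pi_mul hπ (y.2.mul (hint j)) (hc := c.2.mul ((hint j).pow (m + 1)))
      (m := m) ?_
    rw [mul_pow, hcL, smul_mul_assoc]
  choose t ht using htr
  have h1 := discr_smul_eq_sum hint (y : L) (fun j => π * t j) ht
  rw [hdet] at h1
  have h2 : (traceMatrixR b hint).adjugate.mulVec (fun j => π * t j) =
      π • (traceMatrixR b hint).adjugate.mulVec t := by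
    rw [← Matrix.mulVec_smul]; rfl
  rw [h2] at h1
  -- the element `c' = ∑ ρ'_i b_i`
  let c' : integralClosure R L :=
    ∑ i, ((traceMatrixR b hint).adjugate.mulVec t) i • (⟨b i, hint i⟩ : integralClosure R L)
  have h3 : d • y = algebraMap R (integralClosure R L) π * c' := by
    apply Subtype.ext
    rw [Subalgebra.coe_smul, h1, Subalgebra.coe_mul, Subalgebra.coe_algebraMap]
    simp only [c', AddSubmonoidClass.coe_finsetSum, Pi.smul_apply,
      smul_eq_mul, Finset.mul_sum, Algebra.smul_def, map_mul]
    refine Finset.sum_congr rfl fun i _ => ?_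
    rw [Subalgebra.coe_mul, Subalgebra.coe_algebraMap, mul_assoc]
  have hdπ : d ∉ Ideal.span {π} := fun h => hd (Ideal.mem_span_singleton.1 h)
  exact Fermat.Agent.INJ.mem_span_of_smul_mem_span hπ hdπ y
    (Ideal.mem_span_singleton.2 ⟨c', h3⟩)

end Radical

section Fibre

open TensorProduct

variable {n : ℕ}

/-- `disc · (i-th coordinate of an integral element)` comes from `R`. -/
theorem exists_coord (b : Basis (Fin n) K L) (hint : ∀ i, IsIntegral R (b i)) (c : L) (hc : IsIntegral R c) (i : Fin n) :
    ∃ r : R, algebraMap R K r = Algebra.discr K b * b.equivFun c i := by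
  haveI : FiniteDimensional K L := Module.Finite.of_basis b
  choose τ hτ using fun j => exists_trace_eq (K := K) (hc.mul (hint j))
  exact ⟨_, (discr_smul_equivFun_eq b hint c τ hτ i).symm⟩

/-- the `R`-valued scaled coordinates of an element of the integral closure -/
noncomputable def coordR (b : Basis (Fin n) K L) (hint : ∀ i, IsIntegral R (b i)) (c : integralClosure R L) (i : Fin n) : R :=
  (exists_coord b hint (c : L) c.2 i).choose

theorem coordR_spec (b : Basis (Fin n) K L) (hint : ∀ i, IsIntegral R (b i)) (c : integralClosure R L) (i : Fin n) :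
    algebraMap R K (coordR b hint c i) = Algebra.discr K b * b.equivFun (c : L) i :=
  (exists_coord b hint (c : L) c.2 i).choose_spec

theorem coordR_add (b : Basis (Fin n) K L) (hint : ∀ i, IsIntegral R (b i)) (c c' : integralClosure R L) (i : Fin n) :
    coordR b hint (c + c') i = coordR b hint c i + coordR b hint c' i := by
  apply FaithfulSMul.algebraMap_injective R K
  rw [map_add, coordR_spec, coordR_spec, coordR_spec, Subalgebra.coe_add, map_add, Pi.add_apply,
    mul_add]

theorem coordR_smul (b : Basis (Fin n) K L) (hint : ∀ i, IsIntegral R (b i)) (r : R) (c : integralClosure R L) (i : Fin n) :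
    coordR b hint (r • c) i = r * coordR b hint c i := by
  apply FaithfulSMul.algebraMap_injective R K
  rw [map_mul, coordR_spec, coordR_spec, Subalgebra.coe_smul,
    ← IsScalarTower.algebraMap_smul K r (c : L), map_smul, Pi.smul_apply, smul_eq_mul]
  ring

/-- the basis vectors as elements of the integral closure -/
noncomputable def basisC (b : Basis (Fin n) K L) (hint : ∀ i, IsIntegral R (b i)) (i : Fin n) :
    integralClosure R L := ⟨b i, hint i⟩

theorem coordR_basisC (b : Basis (Fin n) K L) (hint : ∀ i, IsIntegral R (b i)) (l i : Fin n) :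
    coordR b hint (basisC b hint l) i = if i = l then (traceMatrixR b hint).det else 0 := by
  apply FaithfulSMul.algebraMap_injective R K
  rw [coordR_spec]
  show Algebra.discr K b * b.equivFun (b l) i = _
  rw [Basis.equivFun_self]
  by_cases h : i = l
  · rw [if_pos h.symm, if_pos h, mul_one, map_det_traceMatrixR]
  · rw [if_neg (fun h' => h h'.symm), if_neg h, mul_zero, map_zero]

theorem det_smul_eq_sum_coordR (b : Basis (Fin n) K L) (hint : ∀ i, IsIntegral R (b i)) (c : integralClosure R L) :
    (traceMatrixR b hint).det • c = ∑ i, coordR b hint c i • basisC b hint i := by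
  apply Subtype.ext
  rw [Subalgebra.coe_smul, AddSubmonoidClass.coe_finsetSum]
  conv_lhs => rw [← b.sum_equivFun (c : L)]
  rw [Finset.smul_sum]
  refine Finset.sum_congr rfl fun i _ => ?_
  rw [Subalgebra.coe_smul, ← IsScalarTower.algebraMap_smul K ((traceMatrixR b hint).det),
    map_det_traceMatrixR, smul_smul, ← coordR_spec b hint c i, IsScalarTower.algebraMap_smul]
  rfl

/-- `d · Tr(c) = ∑_l (l-th scaled coordinate of c b_l)`. -/
theorem sum_coordR_mul (b : Basis (Fin n) K L) (hint : ∀ i, IsIntegral R (b i)) (c : integralClosure R L) (T : R)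
    (hT : algebraMap R K T = Algebra.trace K L (c : L)) :
    ∑ l, coordR b hint (c * basisC b hint l) l = (traceMatrixR b hint).det * T := by
  classical
  apply FaithfulSMul.algebraMap_injective R K
  rw [map_sum, map_mul, hT, map_det_traceMatrixR, Algebra.trace_eq_matrix_trace b, Matrix.trace,
    Finset.mul_sum]
  refine Finset.sum_congr rfl fun l _ => ?_
  rw [coordR_spec, Matrix.diag_apply, Algebra.leftMulMatrix_eq_repr_mul]
  rfl

variable (k : Type*) [Field k] [Algebra R k]

/-- the reduction of the coordinates, as an `R`-linear map `C → k^n` -/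
noncomputable def coordRed (b : Basis (Fin n) K L) (hint : ∀ i, IsIntegral R (b i)) : integralClosure R L →ₗ[R] (Fin n → k) where
  toFun c := fun i => (algebraMap R k (traceMatrixR b hint).det)⁻¹ * algebraMap R k (coordR b hint c i)
  map_add' c c' := by
    ext i
    simp only [coordR_add, map_add, mul_add, Pi.add_apply]
  map_smul' r c := by
    ext i
    simp only [RingHom.id_apply, Pi.smul_apply]
    rw [coordR_smul, map_mul, Algebra.smul_def]
    ring

variable {k}

theorem coordRed_basisC (b : Basis (Fin n) K L) (hint : ∀ i, IsIntegral R (b i)) (hd : algebraMap R k (traceMatrixR b hint).det ≠ 0) (l : Fin n) :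
    coordRed k b hint (basisC b hint l) = Pi.single l 1 := by
  ext i
  show (algebraMap R k (traceMatrixR b hint).det)⁻¹ * algebraMap R k (coordR b hint _ i) = _
  rw [coordR_basisC]
  by_cases h : i = l
  · rw [if_pos h, h, Pi.single_eq_same, inv_mul_cancel₀ hd]
  · rw [if_neg h, map_zero, mul_zero, Pi.single_eq_of_ne h]

/-- the family `1 ⊗ b_i` in the generic fibre -/
noncomputable def fibreFamily (b : Basis (Fin n) K L) (hint : ∀ i, IsIntegral R (b i)) (i : Fin n) : k ⊗[R] (integralClosure R L) :=
  (1 : k) ⊗ₜ[R] basisC b hint i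

theorem fibreFamily_linearIndependent (b : Basis (Fin n) K L) (hint : ∀ i, IsIntegral R (b i)) (hd : algebraMap R k (traceMatrixR b hint).det ≠ 0) :
    LinearIndependent k (fibreFamily (k := k) b hint) := by
  classical
  refine LinearIndependent.of_comp ((coordRed k b hint).liftBaseChange k) ?_
  have : ((coordRed k b hint).liftBaseChange k) ∘ fibreFamily (k := k) b hint =
      fun l => Pi.single l (1 : k) := by
    funext l
    simp only [Function.comp_apply, fibreFamily, LinearMap.liftBaseChange_tmul, one_smul]
    exact coordRed_basisC b hint hd l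
  rw [this]
  have h2 := (Pi.basisFun k (Fin n)).linearIndependent
  convert h2 using 1
  funext l
  simp

theorem one_tmul_mem_span (b : Basis (Fin n) K L) (hint : ∀ i, IsIntegral R (b i)) (hd : algebraMap R k (traceMatrixR b hint).det ≠ 0)
    (c : integralClosure R L) :
    (1 : k) ⊗ₜ[R] c ∈ Submodule.span k (Set.range (fibreFamily (k := k) b hint)) := by
  have h1 : algebraMap R k (traceMatrixR b hint).det • ((1 : k) ⊗ₜ[R] c) =
      ∑ i, algebraMap R k (coordR b hint c i) • fibreFamily (k := k) b hint i := by
    calc algebraMap R k (traceMatrixR b hint).det • ((1 : k) ⊗ₜ[R] c)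
        = ((traceMatrixR b hint).det • (1 : k)) ⊗ₜ[R] c := by
          rw [TensorProduct.smul_tmul', smul_eq_mul, mul_one, Algebra.smul_def, mul_one]
      _ = (1 : k) ⊗ₜ[R] ((traceMatrixR b hint).det • c) := TensorProduct.smul_tmul _ _ _
      _ = _ := by
          rw [det_smul_eq_sum_coordR b hint c, TensorProduct.tmul_sum]
          refine Finset.sum_congr rfl fun i _ => ?_
          rw [fibreFamily, TensorProduct.smul_tmul', smul_eq_mul, mul_one,
            ← TensorProduct.smul_tmul, Algebra.smul_def, mul_one]
  have h2 : (1 : k) ⊗ₜ[R] c = (algebraMap R k (traceMatrixR b hint).det)⁻¹ •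
      ∑ i, algebraMap R k (coordR b hint c i) • fibreFamily (k := k) b hint i := by
    rw [← h1, smul_smul, inv_mul_cancel₀ hd, one_smul]
  rw [h2]
  refine Submodule.smul_mem _ _ (Submodule.sum_mem _ fun i _ => Submodule.smul_mem _ _ ?_)
  exact Submodule.subset_span ⟨i, rfl⟩

theorem fibreFamily_span (b : Basis (Fin n) K L) (hint : ∀ i, IsIntegral R (b i)) (hd : algebraMap R k (traceMatrixR b hint).det ≠ 0) :
    ⊤ ≤ Submodule.span k (Set.range (fibreFamily (k := k) b hint)) := by
  rintro x -
  induction x using TensorProduct.induction_on with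
  | zero => exact Submodule.zero_mem _
  | tmul a c =>
    have : a ⊗ₜ[R] c = a • ((1 : k) ⊗ₜ[R] c) := by
      rw [TensorProduct.smul_tmul', smul_eq_mul, mul_one]
    rw [this]
    exact Submodule.smul_mem _ _ (one_tmul_mem_span b hint hd c)
  | add x y hx hy => exact Submodule.add_mem _ hx hy

/-- the basis `1 ⊗ b_i` of the generic fibre `k ⊗ C` -/
noncomputable def fibreBasis (b : Basis (Fin n) K L) (hint : ∀ i, IsIntegral R (b i)) (hd : algebraMap R k (traceMatrixR b hint).det ≠ 0) :
    Basis (Fin n) k (k ⊗[R] (integralClosure R L)) :=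
  Basis.mk (fibreFamily_linearIndependent b hint hd) (fibreFamily_span b hint hd)

theorem fibreBasis_apply (b : Basis (Fin n) K L) (hint : ∀ i, IsIntegral R (b i)) (hd : algebraMap R k (traceMatrixR b hint).det ≠ 0) (i : Fin n) :
    fibreBasis b hint hd i = (1 : k) ⊗ₜ[R] basisC b hint i := by
  rw [fibreBasis, Basis.mk_apply]; rfl

theorem fibreBasis_repr (b : Basis (Fin n) K L) (hint : ∀ i, IsIntegral R (b i)) (hd : algebraMap R k (traceMatrixR b hint).det ≠ 0)
    (x : k ⊗[R] (integralClosure R L)) (i : Fin n) :
    (fibreBasis b hint hd).repr x i = (coordRed k b hint).liftBaseChange k x i := by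
  classical
  have h : ((fibreBasis b hint hd).equivFun : k ⊗[R] (integralClosure R L) →ₗ[k] (Fin n → k)) =
      (coordRed k b hint).liftBaseChange k := by
    refine (fibreBasis b hint hd).ext fun l => ?_
    funext i
    rw [LinearEquiv.coe_coe, Basis.equivFun_apply, Basis.repr_self, fibreBasis_apply,
      LinearMap.liftBaseChange_tmul, one_smul, coordRed_basisC b hint hd l, Finsupp.single_apply,
      Pi.single_apply]
    simp [eq_comm]
  have := congrArg (fun f => f x i) h
  simpa using this

theorem trace_one_tmul (b : Basis (Fin n) K L) (hint : ∀ i, IsIntegral R (b i))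
    (hd : algebraMap R k (traceMatrixR b hint).det ≠ 0) (c : integralClosure R L) (T : R)
    (hT : algebraMap R K T = Algebra.trace K L (c : L)) :
    Algebra.trace k (k ⊗[R] (integralClosure R L)) ((1 : k) ⊗ₜ[R] c) = algebraMap R k T := by
  classical
  rw [Algebra.trace_eq_matrix_trace (fibreBasis b hint hd), Matrix.trace]
  have h1 : ∀ l, Matrix.diag (Algebra.leftMulMatrix (fibreBasis b hint hd) ((1 : k) ⊗ₜ[R] c)) l =
      (algebraMap R k (traceMatrixR b hint).det)⁻¹ *
        algebraMap R k (coordR b hint (c * basisC b hint l) l) := by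
    intro l
    rw [Matrix.diag_apply, Algebra.leftMulMatrix_eq_repr_mul, fibreBasis_repr, fibreBasis_apply,
      Algebra.TensorProduct.tmul_mul_tmul, mul_one, LinearMap.liftBaseChange_tmul, one_smul]
    rfl
  rw [Finset.sum_congr rfl fun l _ => h1 l, ← Finset.mul_sum, ← map_sum,
    sum_coordR_mul b hint c T hT, map_mul, ← mul_assoc, inv_mul_cancel₀ hd, one_mul]

/-- A2-2: under hypothesis (a), the generic fibre `k ⊗ C` of `C / π C` (`k` a field with
`ker (R → k) = (π)`, e.g. `k = Frac (R / π)`) has nondegenerate trace form, with basis `1 ⊗ b_i`. -/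
theorem GoodBasis.traceForm_nondegenerate {π : R} {b : Basis (Fin n) K L} (hb : GoodBasis π b)
    (k : Type*) [Field k] [Algebra R k]
    (hk : RingHom.ker (algebraMap R k) = Ideal.span {π}) :
    (Algebra.traceForm k (k ⊗[R] (integralClosure R L))).Nondegenerate := by
  classical
  obtain ⟨hint, d, hd, hdisc⟩ := hb
  have hdet : (traceMatrixR b hint).det = d :=
    FaithfulSMul.algebraMap_injective R K (by rw [map_det_traceMatrixR, hdisc])
  have hdk : algebraMap R k (traceMatrixR b hint).det ≠ 0 := by
    rw [hdet]
    intro h0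
    have : d ∈ RingHom.ker (algebraMap R k) := h0
    rw [hk] at this
    exact hd (Ideal.mem_span_singleton.1 this)
  refine LinearMap.BilinForm.nondegenerate_of_det_ne_zero _ (fibreBasis b hint hdk) ?_
  rw [← Algebra.traceMatrix_of_basis]
  have hM : Algebra.traceMatrix k (fibreBasis b hint hdk) =
      (algebraMap R k).mapMatrix (traceMatrixR b hint) := by
    ext i j
    rw [Algebra.traceMatrix_apply, Algebra.traceForm_apply, fibreBasis_apply, fibreBasis_apply,
      Algebra.TensorProduct.tmul_mul_tmul, mul_one, RingHom.mapMatrix_apply, Matrix.map_apply]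
    refine trace_one_tmul b hint hdk _ _ ?_
    have := congrFun (congrFun (map_traceMatrixR b hint) i) j
    rw [Matrix.map_apply, Algebra.traceMatrix_apply, Algebra.traceForm_apply] at this
    exact this
  rw [hM, ← RingHom.map_det]
  exact hdk

/-- the generic fibre has dimension `n = [L : K]` -/
theorem GoodBasis.finrank_fibre {π : R} {b : Basis (Fin n) K L} (hb : GoodBasis π b)
    (k : Type*) [Field k] [Algebra R k]
    (hk : RingHom.ker (algebraMap R k) = Ideal.span {π}) :
    Module.finrank k (k ⊗[R] (integralClosure R L)) = n := by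
  obtain ⟨hint, d, hd, hdisc⟩ := hb
  have hdet : (traceMatrixR b hint).det = d :=
    FaithfulSMul.algebraMap_injective R K (by rw [map_det_traceMatrixR, hdisc])
  have hdk : algebraMap R k (traceMatrixR b hint).det ≠ 0 := by
    rw [hdet]
    intro h0
    have : d ∈ RingHom.ker (algebraMap R k) := h0
    rw [hk] at this
    exact hd (Ideal.mem_span_singleton.1 this)
  rw [Module.finrank_eq_card_basis (fibreBasis b hint hdk), Fintype.card_fin]

end Fibre

end Fermat.Agent.INJ.Comp
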