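/-
INJ / Part A, glue piece T1 (4)+(5) (helper29): from the statement-level hypothesis `(a)`
(`TSGoodBasis π τ`, a basis over the intermediate field `E⟮τ⟯`, `INJ/TSStmt.lean`) to the shape
used by A2/A3 (`Comp.GoodBasis`, a basis over `FractionRing R`, `R = Algebra.adjoin A₀ {τ}`,
`Lf` an algebra over `FractionRing R` through `FractionRing.liftAlgebra`).

* `exists_basis_fractionRing` : generic change of model of the fraction field (same basis vectors,
  same discriminant);
* `isFractionRing_adjoinSimple` : `E⟮τ⟯` is the fraction field of `A₀[τ]`;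
* `finiteDimensional_fractionRing`, `isSeparable_fractionRing` : item (4);
* `exists_goodBasis_of_TSGoodBasis` : item (5).
-/
import Mathlib
import Fermat.Agent.INJ.Components
import Fermat.Agent.INJ.TSStmt

set_option autoImplicit false
set_option linter.unusedSectionVars false
set_option linter.style.haveILetI false

open Polynomial Module IntermediateField

namespace Fermat.Agent.INJ.ChartGB

section Generic

variable {R K₁ L : Type*} [CommRing R] [IsDomain R] [Field K₁] [Algebra R K₁] [IsFractionRing R K₁]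
  [Field L] [Algebra R L] [Algebra K₁ L] [IsScalarTower R K₁ L] [FaithfulSMul R L]

/-- the canonical isomorphism `Frac R ≃ K₁` is compatible with the maps to `L` -/
theorem algebraMap_comp_algEquiv :
    letI := FractionRing.liftAlgebra R L
    (algebraMap K₁ L).comp ((FractionRing.algEquiv R K₁ : FractionRing R ≃ₐ[R] K₁) : FractionRing R →+* K₁) =
      algebraMap (FractionRing R) L := by
  letI := FractionRing.liftAlgebra R L
  refine IsLocalization.ringHom_ext (nonZeroDivisors R) ?_
  ext r
  simp only [RingHom.coe_comp, Function.comp_apply, RingHom.coe_coe, AlgEquiv.commutes]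
  rw [← IsScalarTower.algebraMap_apply R K₁ L, ← IsScalarTower.algebraMap_apply R (FractionRing R) L]

theorem algebraMap_algEquiv (x : FractionRing R) :
    letI := FractionRing.liftAlgebra R L
    algebraMap K₁ L (FractionRing.algEquiv R K₁ x) = algebraMap (FractionRing R) L x := by
  letI := FractionRing.liftAlgebra R L
  have := congrArg (fun f => f x) (algebraMap_comp_algEquiv (R := R) (K₁ := K₁) (L := L))
  simpa using this

/-- A basis over `K₁ = Frac R` (any model) is a basis over `FractionRing R`, with the same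
discriminant. -/
theorem exists_basis_fractionRing {n : ℕ} (b : Fin n → L)
    (hli : LinearIndependent K₁ b) (hsp : Submodule.span K₁ (Set.range b) = ⊤) :
    letI := FractionRing.liftAlgebra R L
    ∃ B : Basis (Fin n) (FractionRing R) L, (∀ i, B i = b i) ∧
      algebraMap (FractionRing R) L (Algebra.discr (FractionRing R) B) =
        algebraMap K₁ L (Algebra.discr K₁ b) := by
  classical
  letI := FractionRing.liftAlgebra R L
  set e : FractionRing R ≃ₐ[R] K₁ := FractionRing.algEquiv R K₁ with he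
  have hsmul : ∀ (c : K₁) (y : L), (e.symm c) • y = c • y := by
    intro c y
    rw [Algebra.smul_def, Algebra.smul_def, ← algebraMap_algEquiv (K₁ := K₁) (e.symm c)]
    simp [he]
  have hliR : LinearIndependent R b :=
    hli.restrict_scalars (by
      have := FaithfulSMul.algebraMap_injective R K₁
      simpa [Algebra.smul_def] using this)
  have hliK : LinearIndependent (FractionRing R) b :=
    (LinearIndependent.iff_fractionRing (R := R) (K := FractionRing R)).1 hliR
  have hspK : ⊤ ≤ Submodule.span (FractionRing R) (Set.range b) := by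
    rintro x -
    have hx : x ∈ Submodule.span K₁ (Set.range b) := by rw [hsp]; trivial
    obtain ⟨c, rfl⟩ := (Submodule.mem_span_range_iff_exists_fun K₁).1 hx
    refine Submodule.sum_mem _ fun i _ => ?_
    rw [← hsmul]
    exact Submodule.smul_mem _ _ (Submodule.subset_span ⟨i, rfl⟩)
  refine ⟨Basis.mk hliK hspK, fun i => by rw [Basis.mk_apply], ?_⟩
  have hB : ⇑(Basis.mk hliK hspK) = b := by funext i; rw [Basis.mk_apply]
  rw [hB, ← algebraMap_algEquiv (K₁ := K₁), ← he]
  congr 1
  rw [Algebra.discr_def, Algebra.discr_def]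
  have : (e : FractionRing R →+* K₁) (Algebra.traceMatrix (FractionRing R) b).det =
      ((e : FractionRing R →+* K₁).mapMatrix (Algebra.traceMatrix (FractionRing R) b)).det :=
    RingHom.map_det _ _
  rw [show e (Algebra.traceMatrix (FractionRing R) b).det =
    (e : FractionRing R →+* K₁) (Algebra.traceMatrix (FractionRing R) b).det from rfl, this]
  congr 1
  ext i j
  rw [RingHom.mapMatrix_apply, Matrix.map_apply, Algebra.traceMatrix_apply,
    Algebra.traceMatrix_apply, Algebra.traceForm_apply, Algebra.traceForm_apply]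
  exact Algebra.trace_eq_of_ringEquiv e.toRingEquiv
    (algebraMap_comp_algEquiv (R := R) (K₁ := K₁) (L := L)) _

end Generic

section Chart

universe u

variable {A₀ E Lf : Type u} [CommRing A₀] [IsDomain A₀] [Field E] [Algebra A₀ E]
  [IsFractionRing A₀ E] [Field Lf] [Algebra E Lf] [Algebra A₀ Lf] [IsScalarTower A₀ E Lf]

theorem mem_adjoinSimple_of_mem_adjoin (τ : Lf) {x : Lf} (hx : x ∈ Algebra.adjoin A₀ {τ}) :
    x ∈ E⟮τ⟯ := by
  induction hx using Algebra.adjoin_induction with
  | mem x hx =>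
    rw [Set.mem_singleton_iff] at hx
    rw [hx]
    exact mem_adjoin_simple_self E τ
  | algebraMap r =>
    rw [IsScalarTower.algebraMap_apply A₀ E Lf]
    exact E⟮τ⟯.algebraMap_mem _
  | add x y _ _ hx hy => exact E⟮τ⟯.add_mem hx hy
  | mul x y _ _ hx hy => exact E⟮τ⟯.mul_mem hx hy

/-- the inclusion `A₀[τ] → E(τ)` -/
noncomputable def chartIncl (τ : Lf) : ↥(Algebra.adjoin A₀ {τ}) →+* E⟮τ⟯ where
  toFun x := ⟨x.1, mem_adjoinSimple_of_mem_adjoin τ x.2⟩
  map_one' := rfl
  map_mul' _ _ := rfl
  map_zero' := rfl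
  map_add' _ _ := rfl

theorem chartIncl_injective (τ : Lf) : Function.Injective (chartIncl (A₀ := A₀) (E := E) τ) := by
  intro x y h
  apply Subtype.ext
  exact congrArg (fun z : E⟮τ⟯ => (z : Lf)) h

/-- every element of `E(τ)` is a quotient of two elements of `A₀[τ]` -/
theorem exists_div_eq (τ : Lf) (z : E⟮τ⟯) :
    ∃ x y : ↥(Algebra.adjoin A₀ {τ}),
      z = chartIncl (A₀ := A₀) (E := E) τ x / chartIncl (A₀ := A₀) (E := E) τ y := by
  obtain ⟨r, s, hrs⟩ := (mem_adjoin_simple_iff E (z : Lf)).1 z.2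
  obtain ⟨br, hbr, hr⟩ := IsLocalization.integerNormalization_spec (nonZeroDivisors A₀) r
  obtain ⟨bs, hbs, hs⟩ := IsLocalization.integerNormalization_spec (nonZeroDivisors A₀) s
  set r' := IsLocalization.integerNormalization (nonZeroDivisors A₀) r with hr'
  set s' := IsLocalization.integerNormalization (nonZeroDivisors A₀) s with hs'
  have hbr0 : algebraMap A₀ Lf br ≠ 0 := by
    rw [IsScalarTower.algebraMap_apply A₀ E Lf]
    refine (map_ne_zero_iff _ (algebraMap E Lf).injective).2 ?_
    exact (map_ne_zero_iff _ (IsFractionRing.injective A₀ E)).2 (nonZeroDivisors.ne_zero hbr)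
  have hbs0 : algebraMap A₀ Lf bs ≠ 0 := by
    rw [IsScalarTower.algebraMap_apply A₀ E Lf]
    refine (map_ne_zero_iff _ (algebraMap E Lf).injective).2 ?_
    exact (map_ne_zero_iff _ (IsFractionRing.injective A₀ E)).2 (nonZeroDivisors.ne_zero hbs)
  have har : aeval τ r' = algebraMap A₀ Lf br * aeval τ r := by
    rw [← aeval_map_algebraMap E τ r', hr, ← IsScalarTower.algebraMap_smul E br r, map_smul,
      Algebra.smul_def, ← IsScalarTower.algebraMap_apply]
  have has : aeval τ s' = algebraMap A₀ Lf bs * aeval τ s := by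
    rw [← aeval_map_algebraMap E τ s', hs, ← IsScalarTower.algebraMap_smul E bs s, map_smul,
      Algebra.smul_def, ← IsScalarTower.algebraMap_apply]
  have hmem : ∀ f : A₀[X], aeval τ f ∈ Algebra.adjoin A₀ {τ} := fun f => by
    rw [Algebra.adjoin_singleton_eq_range_aeval]; exact ⟨f, rfl⟩
  refine ⟨⟨algebraMap A₀ Lf bs * aeval τ r',
      Subalgebra.mul_mem _ (Subalgebra.algebraMap_mem _ _) (hmem r')⟩,
    ⟨algebraMap A₀ Lf br * aeval τ s',
      Subalgebra.mul_mem _ (Subalgebra.algebraMap_mem _ _) (hmem s')⟩, ?_⟩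
  apply Subtype.ext
  show (z : Lf) = (algebraMap A₀ Lf bs * aeval τ r') / (algebraMap A₀ Lf br * aeval τ s')
  rw [hrs, har, has]
  by_cases hs0 : aeval τ s = 0
  · simp [hs0]
  · field_simp

/-- `E(τ)` is the fraction field of `A₀[τ]` (for the algebra structure `chartIncl`). -/
theorem isFractionRing_adjoinSimple (τ : Lf) :
    letI : Algebra ↥(Algebra.adjoin A₀ {τ}) E⟮τ⟯ := (chartIncl (A₀ := A₀) (E := E) τ).toAlgebra
    IsFractionRing ↥(Algebra.adjoin A₀ {τ}) E⟮τ⟯ := by
  letI : Algebra ↥(Algebra.adjoin A₀ {τ}) E⟮τ⟯ := (chartIncl (A₀ := A₀) (E := E) τ).toAlgebra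
  haveI : FaithfulSMul ↥(Algebra.adjoin A₀ {τ}) E⟮τ⟯ :=
    (faithfulSMul_iff_algebraMap_injective _ _).2 (chartIncl_injective τ)
  exact IsFractionRing.of_field _ _ (exists_div_eq τ)

/-- (4): `Lf` is finite-dimensional over `FractionRing A₀[τ]`. -/
theorem finiteDimensional_fractionRing (τ : Lf) [FiniteDimensional E⟮τ⟯ Lf] :
    letI := FractionRing.liftAlgebra ↥(Algebra.adjoin A₀ {τ}) Lf
    FiniteDimensional (FractionRing ↥(Algebra.adjoin A₀ {τ})) Lf := by
  letI := FractionRing.liftAlgebra ↥(Algebra.adjoin A₀ {τ}) Lf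
  letI : Algebra ↥(Algebra.adjoin A₀ {τ}) E⟮τ⟯ := (chartIncl (A₀ := A₀) (E := E) τ).toAlgebra
  haveI : IsScalarTower ↥(Algebra.adjoin A₀ {τ}) E⟮τ⟯ Lf :=
    IsScalarTower.of_algebraMap_eq (fun _ => rfl)
  haveI := isFractionRing_adjoinSimple (A₀ := A₀) (E := E) τ
  let b₀ := Module.finBasis E⟮τ⟯ Lf
  obtain ⟨B, -, -⟩ := exists_basis_fractionRing (R := ↥(Algebra.adjoin A₀ {τ})) (K₁ := E⟮τ⟯)
    (b₀ : Fin _ → Lf) b₀.linearIndependent b₀.span_eq
  exact Module.Finite.of_basis B

/-- in characteristic `0` the extension `Lf / FractionRing A₀[τ]` is separable -/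
theorem isSeparable_fractionRing [CharZero E] (τ : Lf) [FiniteDimensional E⟮τ⟯ Lf] :
    letI := FractionRing.liftAlgebra ↥(Algebra.adjoin A₀ {τ}) Lf
    Algebra.IsSeparable (FractionRing ↥(Algebra.adjoin A₀ {τ})) Lf := by
  letI := FractionRing.liftAlgebra ↥(Algebra.adjoin A₀ {τ}) Lf
  haveI := finiteDimensional_fractionRing (A₀ := A₀) (E := E) τ
  haveI : CharZero Lf := charZero_of_injective_algebraMap (algebraMap E Lf).injective
  haveI : CharZero (FractionRing ↥(Algebra.adjoin A₀ {τ})) :=
    (RingHom.charZero_iff (algebraMap (FractionRing ↥(Algebra.adjoin A₀ {τ})) Lf).injective).2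
      inferInstance
  infer_instance

/-- (5): hypothesis `(a)` of the tame specialization theorem (`TSGoodBasis`, over `E(τ)`) gives
a `Comp.GoodBasis` over `FractionRing A₀[τ]` (the shape of A2, `Components.lean`). -/
theorem exists_goodBasis_of_TSGoodBasis (τ : Lf) (hτ : Transcendental E τ)
    [IsIntegrallyClosed ↥(Algebra.adjoin A₀ {τ})] (π : A₀) (h : TSGoodBasis (E := E) π τ) :
    letI := FractionRing.liftAlgebra ↥(Algebra.adjoin A₀ {τ}) Lf
    ∃ (n : ℕ) (b : Basis (Fin n) (FractionRing ↥(Algebra.adjoin A₀ {τ})) Lf),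
      Comp.GoodBasis (algebraMap A₀ ↥(Algebra.adjoin A₀ {τ}) π) b := by
  letI := FractionRing.liftAlgebra ↥(Algebra.adjoin A₀ {τ}) Lf
  letI : Algebra ↥(Algebra.adjoin A₀ {τ}) E⟮τ⟯ := (chartIncl (A₀ := A₀) (E := E) τ).toAlgebra
  haveI : IsScalarTower ↥(Algebra.adjoin A₀ {τ}) E⟮τ⟯ Lf :=
    IsScalarTower.of_algebraMap_eq (fun _ => rfl)
  haveI := isFractionRing_adjoinSimple (A₀ := A₀) (E := E) τ
  obtain ⟨n, b, d, hli, hsp, hint, hd, hdisc⟩ := h
  obtain ⟨B, hB, hBd⟩ := exists_basis_fractionRing (R := ↥(Algebra.adjoin A₀ {τ})) (K₁ := E⟮τ⟯)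
    b hli hsp
  have hmem : ∀ f : A₀[X], aeval τ f ∈ Algebra.adjoin A₀ {τ} := fun f => by
    rw [Algebra.adjoin_singleton_eq_range_aeval]; exact ⟨f, rfl⟩
  have hτ' : Transcendental A₀ τ := hτ.restrictScalars (IsFractionRing.injective A₀ E)
  refine ⟨n, B, fun i => by rw [hB i]; exact hint i, ⟨aeval τ d, hmem d⟩, ?_, ?_⟩
  · rintro ⟨r, hr⟩
    obtain ⟨g, hg⟩ : ∃ g : A₀[X], aeval τ g = (r : Lf) := by
      have h0 : (r : Lf) ∈ (aeval τ : A₀[X] →ₐ[A₀] Lf).range := by
        rw [← Algebra.adjoin_singleton_eq_range_aeval]; exact r.2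
      exact h0
    have h1 : aeval τ d = aeval τ (C π * g) := by
      have := congrArg Subtype.val hr
      rw [map_mul, aeval_C, hg]
      exact this
    have h2 : d = C π * g := (transcendental_iff_injective.1 hτ') h1
    exact hd ⟨g, h2⟩
  · apply (algebraMap (FractionRing ↥(Algebra.adjoin A₀ {τ})) Lf).injective
    rw [hBd, hdisc, ← IsScalarTower.algebraMap_apply]
    rfl

end Chart

end Fermat.Agent.INJ.ChartGB
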