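import Fermat.Agent.INJ.GaussRep
import Fermat.Agent.INJ.BGIntCore
import Fermat.Agent.INJ.ChartBasics
import Fermat.Agent.INJ.ChartGoodBasis

/-!
# INJ B-glue, piece BG-int: integrality of Gauss-integral elements, norms of Gauss units

Setting: key data `kd : GaussKD r F t₀ x` (helper25, `INJ/GaussRep.lean`) for `F ⊆ E((q))`, and a
field `Lf` (chart setting: `[Algebra E Lf] [Algebra A Lf] [IsScalarTower A E Lf]`) with an
`E`-embedding `e : Lf →ₐ[E] E((q))` whose image contains `F`, `τ : Lf` with `e τ = t`.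
(Typical use: `Lf = ↥F` or `Lf = ↥(F(h))`, `e` the inclusion.)

* `bgInt_map_aeval` : `e (aeval τ P) = coeffMap ι (aeval t₀ P)`;
* `bgInt_exists_mul_isIntegral` **(ii)** : for `y ∈ F` in the Gauss ring there is `g ∈ A[X]` with
  `ḡ ≠ 0` and `g(τ) · y` integral over `A[τ]`;
* `bgInt_norm_of_inv` (generic chart lemma) and `bgInt_norm` **(iii)** : for `x ∈ F` integral over
  `A[τ]` with nonzero Gauss reduction, `N_{Lf/E(τ)}(x) = n(τ)` with `π ∤ n`;
* `bgInt_exists_pow_mul_isIntegral` : integral over `E[τ]` ⇒ `π ^ m * z` integral over `A[τ]`;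
* `bgInt_isIntegral_of_gauss` **(i)** : `z ∈ F` in the Gauss ring and integral over `E[τ]` ⇒
  integral over `A[τ]`.
-/

set_option autoImplicit false
set_option linter.unusedSectionVars false
set_option linter.style.haveILetI false

noncomputable section

namespace Fermat.Agent.INJ

open Polynomial ModularCurve IntermediateField Fermat.Agent.S28

section Bridge

variable {A E : Type*} [CommRing A] [Field E] [Algebra A E]
variable {Lf : Type*} [Field Lf] [Algebra E Lf] [Algebra A Lf] [IsScalarTower A E Lf]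
  (e : Lf →ₐ[E] LaurentSeries E)

theorem bgInt_map_aeval {t₀ : LaurentSeries A} {τ : Lf}
    (hτ : e τ = coeffMap (algebraMap A E) t₀) (P : A[X]) :
    e (aeval τ P) = coeffMap (algebraMap A E) (aeval t₀ P) := by
  rw [redDVR_coeffMap_aeval, ← hτ, ← aeval_map_algebraMap E τ P,
    ← Polynomial.aeval_algHom_apply]

end Bridge

section Two

variable {A E k : Type*} [CommRing A] [IsDomain A] [Field E] [Algebra A E] [IsFractionRing A E]
  [Field k] {r : A →+* k}
  {F : IntermediateField E (LaurentSeries E)} {t₀ : LaurentSeries A} {n : ℕ}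
  {x : Fin n → LaurentSeries A}
variable {Lf : Type*} [Field Lf] [Algebra E Lf] [Algebra A Lf] [IsScalarTower A E Lf]
  (e : Lf →ₐ[E] LaurentSeries E)

/-- **BG-int (ii).**  Every element of `F` in the Gauss ring becomes integral over `A[τ]` after
multiplication by some `g(τ)`, `g ∈ A[X]` with nonzero reduction. -/
theorem bgInt_exists_mul_isIntegral [WfDvdMonoid A] (kd : GaussKD r F t₀ x) {π : A}
    (hπ0 : π ≠ 0) (hπ : ¬ IsUnit π) (hr : ∀ a, r a = 0 → π ∣ a)
    (hF : ∀ f ∈ F, ∃ z : Lf, e z = f) {τ : Lf} (hτ : e τ = coeffMap (algebraMap A E) t₀)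
    (y : Lf) (hy : e y ∈ F) (hyg : e y ∈ gaussRing (algebraMap A E) r) :
    ∃ g : A[X], g.map r ≠ 0 ∧ IsIntegral (Algebra.adjoin A {τ}) (aeval τ g * y) := by
  classical
  have hinj : Function.Injective e := e.toRingHom.injective
  obtain ⟨s, c, hs, htab⟩ := kd.exists_table hπ0 hπ hr
  obtain ⟨Q, P, hQ, hrep, -⟩ := kd.exists_rep hπ0 hπ hr hy hyg
  choose X hX using fun i => hF _ (kd.mem i)
  set Y : Fin n → Lf := fun i => aeval τ s * X i with hY
  have heY : ∀ i, e (Y i) = coeffMap (algebraMap A E) (aeval t₀ s * x i) := by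
    intro i
    rw [hY, map_mul, bgInt_map_aeval e hτ, hX, map_mul]
  have heYc : ∀ (d : A[X]) (i : Fin n), e (aeval τ d * Y i) =
      coeffMap (algebraMap A E) (aeval t₀ d * (aeval t₀ s * x i)) := by
    intro d i
    rw [map_mul e, bgInt_map_aeval e hτ, heY, ← map_mul (coeffMap (algebraMap A E))]
  have hYtab : ∀ j l, ∃ d : Fin n → A[X], Y j * Y l = ∑ i, aeval τ (d i) * Y i := by
    intro j l
    refine ⟨c j l, hinj ?_⟩
    rw [map_mul e, heY, heY, ← map_mul (coeffMap (algebraMap A E)), htab j l, map_sum, map_sum]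
    exact Finset.sum_congr rfl fun i _ => (heYc _ i).symm
  have hz : aeval τ (s * Q) * y = ∑ i, aeval τ (P i) * Y i := by
    apply hinj
    rw [map_mul e, bgInt_map_aeval e hτ, map_sum]
    simp_rw [heYc]
    have h2 : ∀ i, coeffMap (algebraMap A E) (aeval t₀ (P i) * (aeval t₀ s * x i)) =
        coeffMap (algebraMap A E) (aeval t₀ s) *
          coeffMap (algebraMap A E) (aeval t₀ (P i) * x i) := by
      intro i
      rw [← map_mul (coeffMap (algebraMap A E))]
      congr 1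
      ring
    simp_rw [h2]
    rw [← Finset.mul_sum, ← hrep, map_mul (aeval t₀) s Q,
      map_mul (coeffMap (algebraMap A E))]
    ring
  refine ⟨s * Q, ?_, ?_⟩
  · rw [Polynomial.map_mul]
    exact mul_ne_zero hs hQ
  · by_cases hYne : ∃ i, Y i ≠ 0
    · exact bgInt_isIntegral_of_table τ Y hYne hYtab _ ⟨P, hz⟩
    · push Not at hYne
      rw [hz]
      simp only [hYne, mul_zero, Finset.sum_const_zero]
      exact isIntegral_zero

end Two

section Norm

open ChartGB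

universe u

variable {A₀ E Lf : Type u} [CommRing A₀] [IsDomain A₀] [IsDiscreteValuationRing A₀]
  [Field E] [Algebra A₀ E] [IsFractionRing A₀ E] [CharZero E]
  [Field Lf] [Algebra E Lf] [Algebra A₀ Lf] [IsScalarTower A₀ E Lf]
  {π : A₀} {τ : Lf}

/-- an element of `E(τ)` whose image in `Lf` is integral over `A₀[τ]` is `P(τ)`, `P ∈ A₀[X]` -/
theorem bgInt_exists_aeval_of_isIntegral (hτ : Transcendental E τ) (z : E⟮τ⟯)
    (hz : IsIntegral (Algebra.adjoin A₀ {τ}) (algebraMap E⟮τ⟯ Lf z)) :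
    ∃ P : A₀[X], algebraMap E⟮τ⟯ Lf z = aeval τ P := by
  letI : Algebra ↥(Algebra.adjoin A₀ {τ}) E⟮τ⟯ := (chartIncl (A₀ := A₀) (E := E) τ).toAlgebra
  haveI : IsScalarTower ↥(Algebra.adjoin A₀ {τ}) E⟮τ⟯ Lf :=
    IsScalarTower.of_algebraMap_eq (fun _ => rfl)
  haveI := isFractionRing_adjoinSimple (A₀ := A₀) (E := E) τ
  haveI := chart_isIntegrallyClosed (A₀ := A₀) (E := E) hτ
  have hz' : IsIntegral (↥(Algebra.adjoin A₀ {τ})) z :=
    (isIntegral_algebraMap_iff (algebraMap E⟮τ⟯ Lf).injective).mp hz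
  obtain ⟨ρ, hρ⟩ := IsIntegrallyClosed.isIntegral_iff.mp hz'
  have hρmem : (ρ : Lf) ∈ (aeval (R := A₀) τ).range := by
    rw [← Algebra.adjoin_singleton_eq_range_aeval]
    exact ρ.2
  obtain ⟨P, hP⟩ := hρmem
  refine ⟨P, ?_⟩
  rw [← hρ]
  exact hP.symm

/-- **Norm of a unit of the special fibre (generic chart lemma).**  If `x` and `g(τ) x⁻¹` are
integral over `A₀[τ]` with `π ∤ g`, then `N_{Lf/E(τ)} x = n(τ)` with `π ∤ n`. -/
theorem bgInt_norm_of_inv (hτ : Transcendental E τ) (hπ : Irreducible π) (x : Lf) (hx0 : x ≠ 0)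
    (hx : IsIntegral (Algebra.adjoin A₀ {τ}) x) (g : A₀[X]) (hg : ¬ C π ∣ g)
    (hginv : IsIntegral (Algebra.adjoin A₀ {τ}) (aeval τ g * x⁻¹)) :
    ∃ n : A₀[X], ¬ C π ∣ n ∧ algebraMap E⟮τ⟯ Lf (Algebra.norm E⟮τ⟯ x) = aeval τ n := by
  letI : Algebra ↥(Algebra.adjoin A₀ {τ}) E⟮τ⟯ := (chartIncl (A₀ := A₀) (E := E) τ).toAlgebra
  haveI : IsScalarTower ↥(Algebra.adjoin A₀ {τ}) E⟮τ⟯ Lf :=
    IsScalarTower.of_algebraMap_eq (fun _ => rfl)
  have h1 : IsIntegral (↥(Algebra.adjoin A₀ {τ})) (Algebra.norm E⟮τ⟯ x) :=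
    Algebra.isIntegral_norm E⟮τ⟯ hx
  have h2 : IsIntegral (↥(Algebra.adjoin A₀ {τ})) (Algebra.norm E⟮τ⟯ (aeval τ g * x⁻¹)) :=
    Algebra.isIntegral_norm E⟮τ⟯ hginv
  obtain ⟨n, hn⟩ := bgInt_exists_aeval_of_isIntegral hτ _
    ((isIntegral_algebraMap_iff (algebraMap E⟮τ⟯ Lf).injective).mpr h1)
  obtain ⟨m, hm⟩ := bgInt_exists_aeval_of_isIntegral hτ _
    ((isIntegral_algebraMap_iff (algebraMap E⟮τ⟯ Lf).injective).mpr h2)
  refine ⟨n, ?_, hn⟩
  -- `g(τ)` as an element of `E(τ)`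
  have hgmem : aeval τ g ∈ E⟮τ⟯ :=
    mem_adjoinSimple_of_mem_adjoin (A₀ := A₀) (E := E) τ (by
      rw [Algebra.adjoin_singleton_eq_range_aeval]; exact ⟨g, rfl⟩)
  have hprod : Algebra.norm E⟮τ⟯ x * Algebra.norm E⟮τ⟯ (aeval τ g * x⁻¹) =
      (⟨aeval τ g, hgmem⟩ : E⟮τ⟯) ^ Module.finrank E⟮τ⟯ Lf := by
    rw [← map_mul, ← Algebra.norm_algebraMap (S := Lf)]
    congr 1
    rw [mul_comm (aeval τ g), ← mul_assoc, mul_inv_cancel₀ hx0, one_mul]
    rfl
  have hprod' : aeval τ (n * m) = aeval τ (g ^ Module.finrank E⟮τ⟯ Lf) := by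
    rw [map_mul, map_pow, ← hn, ← hm, ← map_mul, hprod, map_pow]
    rfl
  have heq : n * m = g ^ Module.finrank E⟮τ⟯ Lf := chart_aeval_injective hτ hprod'
  have hCπ : Prime (C π : A₀[X]) := Polynomial.prime_C_iff.mpr hπ.prime
  intro hdvd
  apply hg
  have : C π ∣ g ^ Module.finrank E⟮τ⟯ Lf := by
    rw [← heq]; exact Dvd.dvd.mul_right hdvd m
  exact hCπ.dvd_of_dvd_pow this

end Norm

section Three

universe u

variable {A E k : Type u} [CommRing A] [IsDomain A] [IsDiscreteValuationRing A]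
  [Field E] [Algebra A E] [IsFractionRing A E] [CharZero E]
  [Field k] {r : A →+* k}
  {F : IntermediateField E (LaurentSeries E)} {t₀ : LaurentSeries A} {n : ℕ}
  {x : Fin n → LaurentSeries A}
variable {Lf : Type u} [Field Lf] [Algebra E Lf] [Algebra A Lf] [IsScalarTower A E Lf]
  (e : Lf →ₐ[E] LaurentSeries E)

theorem bgInt_not_C_dvd_of_map_ne_zero {π : A} (hrπ : r π = 0) {g : A[X]} (hg : g.map r ≠ 0) :
    ¬ C π ∣ g := by
  rintro ⟨g', rfl⟩
  apply hg
  rw [Polynomial.map_mul, Polynomial.map_C, hrπ, map_zero, zero_mul]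

theorem bgInt_map_ne_zero_of_not_C_dvd {π : A} (hr : ∀ a, r a = 0 → π ∣ a) {g : A[X]}
    (hg : ¬ C π ∣ g) : g.map r ≠ 0 := by
  intro h0
  obtain ⟨g', rfl⟩ := exists_eq_C_mul_of_map_eq_zero hr h0
  exact hg (dvd_mul_right _ _)

/-- **BG-int (iii).**  An element of `F` integral over `A[τ]` with nonzero Gauss reduction has
norm `n(τ)` over `E(τ)`, with `n ∈ A[X]` of nonzero reduction. -/
theorem bgInt_norm (kd : GaussKD r F t₀ x) {π : A} (hπ : Irreducible π) (hrπ : r π = 0)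
    (hr : ∀ a, r a = 0 → π ∣ a)
    (hF : ∀ f ∈ F, ∃ z : Lf, e z = f) {τ : Lf} (hτ : e τ = coeffMap (algebraMap A E) t₀)
    (hτtr : Transcendental E τ)
    (z : Lf) (hzF : e z ∈ F) (hzg : e z ∈ gaussRing (algebraMap A E) r)
    (hred : gaussRed r (IsFractionRing.injective A E) ⟨e z, hzg⟩ ≠ 0)
    (hint : IsIntegral (Algebra.adjoin A {τ}) z) :
    ∃ m : A[X], m.map r ≠ 0 ∧ ¬ C π ∣ m ∧
      algebraMap E⟮τ⟯ Lf (Algebra.norm E⟮τ⟯ z) = aeval τ m := by
  have hz0 : z ≠ 0 := by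
    rintro rfl
    apply hred
    have : (⟨e 0, hzg⟩ : gaussRing (algebraMap A E) r) = 0 := Subtype.ext (map_zero e)
    rw [this, map_zero]
  have hinvg : e z⁻¹ ∈ gaussRing (algebraMap A E) r := by
    rw [map_inv₀]
    exact inv_mem_gaussRing r (IsFractionRing.injective A E) ⟨e z, hzg⟩ hred
  have hinvF : e z⁻¹ ∈ F := by
    rw [map_inv₀]
    exact F.inv_mem hzF
  obtain ⟨g, hg, hgint⟩ := bgInt_exists_mul_isIntegral e kd hπ.ne_zero hπ.not_isUnit hr hF hτ
    z⁻¹ hinvF hinvg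
  obtain ⟨m, hm, hnorm⟩ := bgInt_norm_of_inv hτtr hπ z hz0 hint g
    (bgInt_not_C_dvd_of_map_ne_zero hrπ hg) hgint
  exact ⟨m, bgInt_map_ne_zero_of_not_C_dvd hr hm, hm, hnorm⟩

end Three

section One

universe u

variable {A E k : Type u} [CommRing A] [IsDomain A] [IsDiscreteValuationRing A]
  [Field E] [Algebra A E] [IsFractionRing A E] [CharZero E]
  [Field k] {r : A →+* k}
  {F : IntermediateField E (LaurentSeries E)} {t₀ : LaurentSeries A} {n : ℕ}
  {x : Fin n → LaurentSeries A}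
variable {Lf : Type u} [Field Lf] [Algebra E Lf] [Algebra A Lf] [IsScalarTower A E Lf]
  (e : Lf →ₐ[E] LaurentSeries E)

/-- every element of `E` is `a / π ^ m` with `a ∈ A` -/
theorem bgInt_exists_pow_mul_eq_algebraMap {π : A} (hπ : Irreducible π) (c : E) :
    ∃ (m : ℕ) (a : A), algebraMap A E π ^ m * c = algebraMap A E a := by
  obtain ⟨a, b, hb, rfl⟩ := IsFractionRing.div_surjective (A := A) c
  have hb0 : b ≠ 0 := nonZeroDivisors.ne_zero hb
  obtain ⟨m, u, hu⟩ := IsDiscreteValuationRing.eq_unit_mul_pow_irreducible hb0 hπ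
  refine ⟨m, a * ((u⁻¹ : Aˣ) : A), ?_⟩
  have hbE : algebraMap A E b ≠ 0 := by
    intro h0
    exact hb0 (IsFractionRing.injective A E (by rw [h0, map_zero]))
  rw [mul_div_assoc', eq_comm, eq_div_iff hbE, ← map_pow, ← map_mul, ← map_mul]
  congr 1
  rw [hu]
  have : ((u⁻¹ : Aˣ) : A) * (u : A) = 1 := Units.inv_mul u
  calc a * ((u⁻¹ : Aˣ) : A) * ((u : A) * π ^ m)
      = a * (((u⁻¹ : Aˣ) : A) * (u : A)) * π ^ m := by ring
    _ = π ^ m * a := by rw [this]; ring

/-- every element of `E[τ]` is `b / π ^ m` with `b ∈ A[τ]` -/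
theorem bgInt_exists_pow_mul_mem_adjoin {π : A} (hπ : Irreducible π) (τ : Lf) (b : Lf)
    (hb : b ∈ Algebra.adjoin E {τ}) :
    ∃ m : ℕ, algebraMap A Lf π ^ m * b ∈ Algebra.adjoin A {τ} := by
  induction hb using Algebra.adjoin_induction with
  | mem y hy =>
    refine ⟨0, ?_⟩
    rw [pow_zero, one_mul]
    exact Algebra.subset_adjoin hy
  | algebraMap c =>
    obtain ⟨m, a, ha⟩ := bgInt_exists_pow_mul_eq_algebraMap hπ c
    refine ⟨m, ?_⟩
    have : algebraMap A Lf π ^ m * algebraMap E Lf c = algebraMap A Lf a := by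
      rw [IsScalarTower.algebraMap_apply A E Lf, IsScalarTower.algebraMap_apply A E Lf a,
        ← map_pow, ← map_mul, ha]
    rw [this]
    exact Subalgebra.algebraMap_mem _ a
  | add y z _ _ hy hz =>
    obtain ⟨m₁, h₁⟩ := hy
    obtain ⟨m₂, h₂⟩ := hz
    refine ⟨m₁ + m₂, ?_⟩
    have : algebraMap A Lf π ^ (m₁ + m₂) * (y + z) =
        algebraMap A Lf π ^ m₂ * (algebraMap A Lf π ^ m₁ * y) +
          algebraMap A Lf π ^ m₁ * (algebraMap A Lf π ^ m₂ * z) := by
      rw [pow_add]; ring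
    rw [this]
    exact add_mem (mul_mem (pow_mem (Subalgebra.algebraMap_mem _ π) _) h₁)
      (mul_mem (pow_mem (Subalgebra.algebraMap_mem _ π) _) h₂)
  | mul y z _ _ hy hz =>
    obtain ⟨m₁, h₁⟩ := hy
    obtain ⟨m₂, h₂⟩ := hz
    refine ⟨m₁ + m₂, ?_⟩
    have : algebraMap A Lf π ^ (m₁ + m₂) * (y * z) =
        (algebraMap A Lf π ^ m₁ * y) * (algebraMap A Lf π ^ m₂ * z) := by
      rw [pow_add]; ring
    rw [this]
    exact mul_mem h₁ h₂

/-- an element integral over `E[τ]` becomes integral over `A[τ]` after multiplication by a power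
of `π` -/
theorem bgInt_exists_pow_mul_isIntegral {π : A} (hπ : Irreducible π) (τ : Lf) (z : Lf)
    (hz : IsIntegral (Algebra.adjoin E {τ}) z) :
    ∃ m : ℕ, IsIntegral (Algebra.adjoin A {τ}) (algebraMap A Lf π ^ m * z) := by
  refine bgInt_exists_pow_mul_isIntegral_of_coeff (R := ↥(Algebra.adjoin A {τ}))
    (B := ↥(Algebra.adjoin E {τ})) (algebraMap A Lf π) ?_ ?_ z hz
  · have : algebraMap A Lf π = algebraMap (↥(Algebra.adjoin A {τ})) Lf
        (algebraMap A (↥(Algebra.adjoin A {τ})) π) := rfl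
    rw [this]
    exact isIntegral_algebraMap
  · intro b
    obtain ⟨m, hm⟩ := bgInt_exists_pow_mul_mem_adjoin hπ τ (b : Lf) b.2
    refine ⟨m, ?_⟩
    have : algebraMap A Lf π ^ m * algebraMap (↥(Algebra.adjoin E {τ})) Lf b =
        algebraMap (↥(Algebra.adjoin A {τ})) Lf ⟨_, hm⟩ := rfl
    rw [this]
    exact isIntegral_algebraMap

/-- **BG-int (i).**  An element of `F` in the Gauss ring which is integral over `E[τ]` is integral
over `A[τ]`. -/
theorem bgInt_isIntegral_of_gauss (kd : GaussKD r F t₀ x) {π : A} (hπ : Irreducible π)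
    (hrπ : r π = 0) (hr : ∀ a, r a = 0 → π ∣ a)
    (hF : ∀ f ∈ F, ∃ z : Lf, e z = f) {τ : Lf} (hτ : e τ = coeffMap (algebraMap A E) t₀)
    (hτtr : Transcendental E τ)
    (z : Lf) (hzF : e z ∈ F) (hzg : e z ∈ gaussRing (algebraMap A E) r)
    (hint : IsIntegral (Algebra.adjoin E {τ}) z) :
    IsIntegral (Algebra.adjoin A {τ}) z := by
  obtain ⟨g, hg, hgz⟩ := bgInt_exists_mul_isIntegral e kd hπ.ne_zero hπ.not_isUnit hr hF hτ
    z hzF hzg
  obtain ⟨m, hm⟩ := bgInt_exists_pow_mul_isIntegral hπ τ z hint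
  haveI := chart_isIntegrallyClosed (A₀ := A) (E := E) hτtr
  have hprime := chart_prime (A₀ := A) (E := E) (π := π) hτtr hπ
  have hgnd : ¬ algebraMap A ↥(Algebra.adjoin A {τ}) π ∣ chartEquiv hτtr g := by
    rw [← chartEquiv_C hτtr]
    intro hdvd
    apply bgInt_not_C_dvd_of_map_ne_zero hrπ hg
    have := map_dvd (chartEquiv hτtr).symm hdvd
    simpa using this
  refine bgInt_isIntegral_of_mul_of_pow_mul hprime hgnd z ?_ m ?_
  · exact hgz
  · exact hm

end One

end Fermat.Agent.INJ
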