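/-
INJ / Part B glue, piece BG-aut (helper29): the Kummer automorphism.

`Lf = F(h)`, `h ^ p = w ∈ F`, `ζ ∈ F` a primitive `p`-th root of unity, `p` prime, `w` not a `p`-th
power in `F`.  Then `Lf / F` is the splitting field of the irreducible polynomial `X ^ p - w`,
of degree `p`, and there is `σ ∈ Aut(Lf / F)` with `σ h = ζ h`.
(Mathlib: `X_pow_sub_C_irreducible_of_prime`, `autEquivZmod`.)
-/
import Mathlib

set_option autoImplicit false
set_option linter.unusedSectionVars false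
set_option linter.style.haveILetI false

open Polynomial IntermediateField

namespace Fermat.Agent.INJ

section BGAut

variable {F Lf : Type*} [Field F] [Field Lf] [Algebra F Lf]

/-- `Lf = F(h)` with `h ^ p = w ∈ F`, `ζ ∈ F` a primitive `p`-th root of unity: `Lf` is a
splitting field of `X ^ p - w`. -/
theorem bg_isSplittingField {p : ℕ} (hp : 0 < p) {ζ : F} (hζ : IsPrimitiveRoot ζ p) {w : F}
    {h : Lf} (hh : h ^ p = algebraMap F Lf w) (htop : F⟮h⟯ = ⊤) :
    IsSplittingField F Lf (X ^ p - C w) := by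
  have halg : IsAlgebraic F h := by
    refine ⟨X ^ p - C w, X_pow_sub_C_ne_zero hp w, ?_⟩
    rw [aeval_def, eval₂_sub, eval₂_X_pow, eval₂_C, hh, sub_self]
  constructor
  · rw [Polynomial.map_sub, Polynomial.map_pow, Polynomial.map_C, Polynomial.map_X]
    exact X_pow_sub_C_splits_of_isPrimitiveRoot
      (hζ.map_of_injective (algebraMap F Lf).injective) hh
  · rw [eq_top_iff, ← IntermediateField.top_toSubalgebra, ← htop,
      IntermediateField.adjoin_simple_toSubalgebra_of_isAlgebraic halg]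
    apply Algebra.adjoin_mono
    rw [Set.singleton_subset_iff, mem_rootSet_of_ne (X_pow_sub_C_ne_zero hp w),
      aeval_def, eval₂_sub, eval₂_X_pow, eval₂_C, hh, sub_self]

/-- **BG-aut**: `Lf = F(h)`, `h ^ p = w ∈ F`, `ζ ∈ F` a primitive `p`-th root of unity (`p` prime),
`w` not a `p`-th power in `F`. Then there is an `F`-automorphism `σ` of `Lf` with `σ h = ζ • h`. -/
theorem bg_aut {p : ℕ} (hp : p.Prime) {ζ : F} (hζ : IsPrimitiveRoot ζ p) {w : F}
    {h : Lf} (hh : h ^ p = algebraMap F Lf w) (htop : F⟮h⟯ = ⊤) (hw : ∀ y : F, y ^ p ≠ w) :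
    ∃ σ : Lf ≃ₐ[F] Lf, σ h = ζ • h := by
  haveI : NeZero p := ⟨hp.ne_zero⟩
  have H : Irreducible (X ^ p - C w) := X_pow_sub_C_irreducible_of_prime hp hw
  haveI := bg_isSplittingField hp.pos hζ hh htop
  refine ⟨(autEquivZmod H Lf hζ).symm (Multiplicative.ofAdd ((1 : ℕ) : ZMod p)), ?_⟩
  rw [autEquivZmod_symm_apply_natCast H Lf hh hζ 1, pow_one]

/-- BG-aut, multiplicative form and as a ring automorphism (the shape consumed by `bg_contra`). -/
theorem bg_aut' {p : ℕ} (hp : p.Prime) {ζ : F} (hζ : IsPrimitiveRoot ζ p) {w : F}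
    {h : Lf} (hh : h ^ p = algebraMap F Lf w) (htop : F⟮h⟯ = ⊤) (hw : ∀ y : F, y ^ p ≠ w) :
    ∃ σ : Lf ≃+* Lf, (∀ x : F, σ (algebraMap F Lf x) = algebraMap F Lf x) ∧
      σ h = algebraMap F Lf ζ * h := by
  obtain ⟨σ, hσ⟩ := bg_aut hp hζ hh htop hw
  exact ⟨σ.toRingEquiv, fun x => σ.commutes x, by
    show σ h = _
    rw [hσ, Algebra.smul_def]⟩

/-- the degree of a Kummer extension of prime degree -/
theorem bg_finrank {p : ℕ} (hp : p.Prime) {ζ : F} (hζ : IsPrimitiveRoot ζ p) {w : F}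
    {h : Lf} (hh : h ^ p = algebraMap F Lf w) (htop : F⟮h⟯ = ⊤) (hw : ∀ y : F, y ^ p ≠ w) :
    Module.finrank F Lf = p := by
  have H : Irreducible (X ^ p - C w) := X_pow_sub_C_irreducible_of_prime hp hw
  haveI := bg_isSplittingField hp.pos hζ hh htop
  exact finrank_of_isSplittingField_X_pow_sub_C ⟨ζ, (mem_primitiveRoots hp.pos).2 hζ⟩ H Lf

end BGAut

end Fermat.Agent.INJ
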