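import Fermat.Agent.INJ.BGContra
import Fermat.Agent.INJ.TSStmt

/-!
# (INJ) B-glue: the end game from the tame specialization theorem

`endGame` : in the situation of `TameSpecStmt` (`Lf / E(t)`, `C₁` the integral closure of
`A₀[t]` in `Lf`), let `σ` be an automorphism of `Lf` over `A₀[t]`, `h ∈ Lf` with `σ h = ζ h`,
`ζ ∈ A₀` a `p`-th root of unity with `ζ - 1 ∈ A₀ˣ`, and `h ^ p ≡ 1` modulo `π` up to denominators
prime to `π` fixed by `σ`.  Then the hypotheses of `TameSpecStmt` cannot all hold.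
-/

set_option autoImplicit false

namespace Fermat.Agent.INJ

open Polynomial IntermediateField AlgebraicCurve

section Convert

variable {A₀ Lf : Type*} [CommRing A₀] [Field Lf] [Algebra A₀ Lf]

/-- a prime element of a subalgebra, in the element form of `BGContra.lean` -/
theorem bgPrime_of_prime (C : Subalgebra A₀ Lf) (π : A₀)
    (h : Prime (algebraMap A₀ C π)) :
    BgPrime C.toSubring (algebraMap A₀ Lf π) := by
  constructor
  · rintro ⟨z, hz, hz'⟩
    apply h.not_unit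
    refine isUnit_iff_exists_inv.mpr ⟨⟨z, hz⟩, ?_⟩
    apply Subtype.ext
    exact hz'.symm
  · rintro x hx y hy ⟨z, hz, hz'⟩
    have hd : algebraMap A₀ C π ∣ (⟨x, hx⟩ : C) * ⟨y, hy⟩ :=
      ⟨⟨z, hz⟩, Subtype.ext hz'⟩
    rcases h.dvd_or_dvd hd with ⟨w, hw⟩ | ⟨w, hw⟩
    · exact Or.inl ⟨w.1, w.2, congrArg Subtype.val hw⟩
    · exact Or.inr ⟨w.1, w.2, congrArg Subtype.val hw⟩

end Convert

section EndGame

variable {A₀ Lf : Type*} [CommRing A₀] [Field Lf] [Algebra A₀ Lf]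

/-- **End game.** `π` prime in the integral closure `C₁` of `A₀[t]` in `Lf` is incompatible with a
Kummer element `h`, `σ h = ζ h`, `h ^ p ≡ 1 mod π`. -/
theorem endGame (π : A₀) (t : Lf)
    (hprime : Prime (algebraMap A₀ (integralClosure (Algebra.adjoin A₀ {t}) Lf) π))
    (σ : Lf ≃+* Lf) (hσA : ∀ a : A₀, σ (algebraMap A₀ Lf a) = algebraMap A₀ Lf a)
    (hσt : σ t = t)
    {p : ℕ} (ζ u : A₀) (hζu : (ζ - 1) * u = 1)
    {s b c h : Lf}
    (hsC : IsIntegral (Algebra.adjoin A₀ {t}) s) (hbC : IsIntegral (Algebra.adjoin A₀ {t}) b)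
    (hcC : IsIntegral (Algebra.adjoin A₀ {t}) c)
    (hσs : σ s = s)
    (hs : ¬ ∃ z : Lf, IsIntegral (Algebra.adjoin A₀ {t}) z ∧ s = algebraMap A₀ Lf π * z)
    (hb : ¬ ∃ z : Lf, IsIntegral (Algebra.adjoin A₀ {t}) z ∧ b = algebraMap A₀ Lf π * z)
    (hshC : IsIntegral (Algebra.adjoin A₀ {t}) (s * h))
    (hσh : σ h = algebraMap A₀ Lf ζ * h)
    (hprod : ∏ i ∈ Finset.range p, (h - algebraMap A₀ Lf ζ ^ i) = h ^ p - 1)
    (hw : (h ^ p - 1) * b = algebraMap A₀ Lf π * c) : False := by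
  set R := Algebra.adjoin A₀ {t} with hR
  set C₁ := integralClosure R Lf with hC₁
  -- `C₁` as a subalgebra over `A₀`
  let C : Subalgebra A₀ Lf := C₁.restrictScalars A₀
  have hmemC : ∀ x : Lf, x ∈ C ↔ IsIntegral R x := fun x => Iff.rfl
  have hprime' : Prime (algebraMap A₀ C π) := by
    have e : (algebraMap A₀ C π : C) = algebraMap A₀ C₁ π := rfl
    have : (Prime (algebraMap A₀ C π : C)) = Prime (algebraMap A₀ C₁ π : C₁) := rfl
    rw [this]
    exact hprime
  have hbg := bgPrime_of_prime C π hprime'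
  -- `σ` preserves `C`
  have hσR : ∀ x ∈ R, σ x = x := by
    intro x hx
    induction hx using Algebra.adjoin_induction with
    | mem x hx =>
        rw [Set.mem_singleton_iff] at hx
        rw [hx, hσt]
    | algebraMap a => exact hσA a
    | add x y _ _ hx hy => rw [map_add, hx, hy]
    | mul x y _ _ hx hy => rw [map_mul, hx, hy]
  have hσC : ∀ x ∈ C.toSubring, σ x ∈ C.toSubring := by
    intro x hx
    have hx' : IsIntegral R x := hx
    obtain ⟨P, hP, hPx⟩ := hx'
    refine ⟨P, hP, ?_⟩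
    have h1 : Polynomial.eval₂ (algebraMap R Lf) (σ x) P
        = σ (Polynomial.eval₂ (algebraMap R Lf) x P) := by
      rw [Polynomial.eval₂_eq_sum_range, Polynomial.eval₂_eq_sum_range, map_sum]
      refine Finset.sum_congr rfl fun i _ => ?_
      rw [map_mul, map_pow]
      congr 1
      exact (hσR _ (P.coeff i).2).symm
    rw [h1, hPx, map_zero]
  have hζC : algebraMap A₀ Lf ζ ∈ C.toSubring := C.algebraMap_mem ζ
  have hζ1 : ¬ BgDvd C.toSubring (algebraMap A₀ Lf π) (algebraMap A₀ Lf ζ - 1) := by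
    rintro ⟨z, hz, hz'⟩
    apply hbg.not_unit
    refine ⟨z * algebraMap A₀ Lf u, C.toSubring.mul_mem hz (C.algebraMap_mem u), ?_⟩
    have : (algebraMap A₀ Lf ζ - 1) * algebraMap A₀ Lf u = 1 := by
      rw [← map_one (algebraMap A₀ Lf), ← map_sub, ← map_mul, hζu]
    rw [← this, hz']
    ring
  exact bg_contra C.toSubring hbg σ hσC (hσA π) hζC hζ1 hsC hbC hcC hσs (hσA ζ)
    (fun ⟨z, hz, hz'⟩ => hs ⟨z, hz, hz'⟩) (fun ⟨z, hz, hz'⟩ => hb ⟨z, hz, hz'⟩)
    hshC hσh hprod hw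

end EndGame

end Fermat.Agent.INJ
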