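import Fermat.Agent.INJ.TSStmt
import Fermat.Agent.INJ.GaussRep
import Fermat.Agent.INJ.Concrete

/-!
# (INJ) B-glue: the statement of the line-independent core

`A₀` a discrete valuation ring, `E = Frac A₀` of characteristic `0`, `r : A₀ → k` with kernel
`(π)`, `F = modularFunctionFieldFullC E N ⊂ E((q))` with Gauss key data `kd` for a coordinate `t₀`
of order `-1`, `Y₁ ≡ Y₂ ≢ 0 mod π` in `A₀((q))` with images in `F`, `h ∈ E((q))` with
`h ^ p = Y₁ / Y₂`, `h ∉ F`.  If `F` satisfies `(a)` and `Lf = F(h) = kumField E N h` satisfies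
finiteness, `(b)`, `(b')` of the tame specialization theorem (for the coordinate `t₀`), we get a
contradiction.

`InjCoreStmt` is proved in `INJ/InjCore.lean` (`injCore : TameSpecStmt.{0} → InjCoreStmt`); the
instantiations for the three lines (`j`, `hm2`, `hm3`) prove `InjCoreStmt → StmtInjNF N ℓ p`.
-/

set_option autoImplicit false

namespace Fermat.Agent.INJ

open Polynomial ModularCurve IntermediateField AlgebraicCurve

/-- The line-independent core of (INJ), as a statement. -/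
def InjCoreStmt : Prop :=
  ∀ {A₀ E k : Type} [CommRing A₀] [IsDomain A₀] [IsDiscreteValuationRing A₀]
    [Field E] [Algebra A₀ E] [IsFractionRing A₀ E] [CharZero E]
    [Field k] (r : A₀ →+* k) (N : ℕ) (h : LaurentSeries E)
    {π : A₀} (_ : Irreducible π) (_ : r π = 0) (_ : ∀ a, r a = 0 → π ∣ a)
    {t₀ : LaurentSeries A₀} {n : ℕ} {x : Fin n → LaurentSeries A₀}
    (kd : GaussKD r (modularFunctionFieldFullC E N) t₀ x)
    (_ : (coeffMap (algebraMap A₀ E) t₀).order = -1)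
    {p : ℕ} (_ : p.Prime) (_ : ¬ π ∣ (p : A₀))
    (ζ u : A₀) (_ : IsPrimitiveRoot ζ p) (_ : (ζ - 1) * u = 1)
    (Y₁ Y₂ : LaurentSeries A₀)
    (_ : coeffMap (algebraMap A₀ E) Y₁ ∈ modularFunctionFieldFullC E N)
    (_ : coeffMap (algebraMap A₀ E) Y₂ ∈ modularFunctionFieldFullC E N)
    (_ : coeffMap r Y₁ = coeffMap r Y₂) (_ : coeffMap r Y₂ ≠ 0)
    (_ : h ^ p * coeffMap (algebraMap A₀ E) Y₂ = coeffMap (algebraMap A₀ E) Y₁)
    (_ : h ∉ modularFunctionFieldFullC E N)
    (_ : ∀ [Algebra A₀ (modularFunctionFieldFullC E N)]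
      [IsScalarTower A₀ E (modularFunctionFieldFullC E N)],
      TSGoodBasis (A₀ := A₀) (E := E) (Lf := modularFunctionFieldFullC E N) π
        ⟨coeffMap (algebraMap A₀ E) t₀, kd.t_mem⟩)
    (_ : FiniteDimensional
      E⟮(⟨coeffMap (algebraMap A₀ E) t₀, le_kumField E N h kd.t_mem⟩ : kumField E N h)⟯
      (kumField E N h))
    (S : Finset A₀) (_ : ∀ c ∈ S, ∀ c' ∈ S, c ≠ c' → ¬ π ∣ c - c')
    (e : ℕ) (_ : IsUnit (e : A₀)) (_ : ∃ ζ : A₀, IsPrimitiveRoot ζ e)
    (_ : ∀ [Algebra A₀ (kumField E N h)] [IsScalarTower A₀ E (kumField E N h)],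
      TSUnramified (A₀ := A₀) (E := E) (Lf := kumField E N h)
        ⟨coeffMap (algebraMap A₀ E) t₀, le_kumField E N h kd.t_mem⟩ S ∧
      TSTame (A₀ := A₀) (E := E) (Lf := kumField E N h)
        ⟨coeffMap (algebraMap A₀ E) t₀, le_kumField E N h kd.t_mem⟩ S e),
    False

end Fermat.Agent.INJ
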