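import Fermat.Agent.INJ.AbhyankarPlace

/-!
# INJ piece B2-kum — Kummer extensions by a `p`-th root of an element with divisor in `p·Div`
are unramified everywhere

`E` a field of characteristic `0`, `L/E` a field extension, `L' = L(h)` with `h ^ p = u ∈ L`,
`u ≠ 0`.  If `p ∣ ord_P u` at the places `P` of `L/E`, then every place `P'` of `L'/E` restricts
to a place `P` of `L/E` which is unramified in `L'`: `ord_{P'} y = ord_P y` for all `y ∈ L`.

* `Fermat.Agent.INJ.KumU.exists_place_restrict_kummer` : the statement for one place `P'`, with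
  the divisibility hypothesis for all places of `L`.
* `Fermat.Agent.INJ.KumU.exists_place_restrict_kummer'` : the same with the divisibility
  hypothesis only at the restriction of `P'` (stated through any pair `(P, ε)` as produced by
  `AbhP.exists_place_restrict`).
* `Fermat.Agent.INJ.KumU.ord_root` : `p * ord_{P'} h = ord_P u`.
-/

set_option autoImplicit false

open AlgebraicCurve WithZero Polynomial

namespace Fermat.Agent.INJ.KumU

open Fermat.Agent.S24 Fermat.Agent.INJ.Abh Fermat.Agent.INJ.AbhP

variable {E L L' : Type*} [Field E] [Field L] [Field L'] [Algebra E L] [Algebra E L']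
  [Algebra L L'] [IsScalarTower E L L']

/-- `adjoin L {h * c} = adjoin L {h}` for a nonzero `c ∈ L`. -/
theorem adjoin_mul_base (h : L') (c : L) (hc : c ≠ 0)
    (hgen : IntermediateField.adjoin L {h} = ⊤) :
    IntermediateField.adjoin L {h * algebraMap L L' c} = ⊤ := by
  rw [eq_top_iff, ← hgen, IntermediateField.adjoin_le_iff]
  rintro x (rfl : x = h)
  have h1 : x * algebraMap L L' c ∈ IntermediateField.adjoin L {x * algebraMap L L' c} :=
    IntermediateField.mem_adjoin_simple_self L _
  have h2 : algebraMap L L' c⁻¹ ∈ IntermediateField.adjoin L {x * algebraMap L L' c} :=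
    IntermediateField.algebraMap_mem _ _
  have h3 := mul_mem h1 h2
  have hc' : algebraMap L L' c ≠ 0 := by simpa using hc
  rwa [map_inv₀, mul_assoc, mul_inv_cancel₀ hc', mul_one] at h3

/-- The version with the divisibility hypothesis at the restriction of `P'` only. -/
theorem exists_place_restrict_kummer' [CharZero E] (u : L) (h : L') (p : ℕ) (hp : p ≠ 0)
    (hh : h ^ p = algebraMap L L' u) (hh0 : h ≠ 0)
    (hgen : IntermediateField.adjoin L {h} = ⊤)
    (P' : Place E L') (P : Place E L) (ε : ℤ)
    (hres : ∀ y : L, y ≠ 0 → P'.ord (algebraMap L L' y) = ε * P.ord y)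
    (hdiv : (p : ℤ) ∣ P.ord u) :
    ∃ Q : Place E L, ∀ y : L, P'.ord (algebraMap L L' y) = Q.ord y := by
  classical
  obtain ⟨k, hk⟩ := hdiv
  obtain ⟨ϖ, hϖ0, hϖ⟩ := exists_ord_eq_one P
  have hu0 : u ≠ 0 := by
    rintro rfl
    rw [map_zero] at hh
    exact hh0 (pow_eq_zero_iff hp |>.mp hh)
  have hpZ : (p : ℤ) ≠ 0 := by exact_mod_cast hp
  -- the normalising constant `c = ϖ^(-k)`
  set c : L := ϖ ^ (-k) with hc
  have hc0 : c ≠ 0 := zpow_ne_zero _ hϖ0
  have hc' : algebraMap L L' c ≠ 0 := by simpa using hc0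
  set s : L' := h * algebraMap L L' c with hs
  have hs0 : s ≠ 0 := mul_ne_zero hh0 hc'
  have hspow : s ^ p = algebraMap L L' (u * c ^ p) := by
    rw [hs, mul_pow, hh, map_mul, map_pow]
  have hgen' : IntermediateField.adjoin L {s} = ⊤ := adjoin_mul_base h c hc0 hgen
  -- orders
  have hordh : (p : ℤ) * P'.ord h = ε * ((p : ℤ) * k) := by
    have h1 : P'.ord (h ^ p) = (p : ℤ) * P'.ord h := by
      rw [← zpow_natCast, P'.ord_zpow]
    rw [← h1, hh, hres u hu0, hk]
  have hordh' : P'.ord h = ε * k := by
    have : (p : ℤ) * P'.ord h = (p : ℤ) * (ε * k) := by rw [hordh]; ring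
    exact mul_left_cancel₀ hpZ this
  have hordc : P'.ord (algebraMap L L' c) = ε * (-k) := by
    rw [hres c hc0, hc, P.ord_zpow, hϖ, mul_one]
  have hords : P'.ord s = 0 := by
    rw [hs, P'.ord_mul hh0 hc', hordh', hordc]
    ring
  exact exists_place_restrict_unramified (E := E) (u * c ^ p) s p hp hspow hs0 hgen' P' hords

/-- (B2-kum) **Kummer extensions by a `p`-th root of `u` with `div u ∈ p·Div` are unramified.**
`L' = L(h)`, `h ^ p = u ≠ 0`, `p ∣ ord_P u` for every place `P` of `L/E` (`E` of
characteristic `0`).  Then every place `P'` of `L'/E` lies over a place `P` of `L/E` with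
`ord_{P'} y = ord_P y` for all `y ∈ L`. -/
theorem exists_place_restrict_kummer [CharZero E] (u : L) (h : L') (p : ℕ) (hp : p ≠ 0)
    (hh : h ^ p = algebraMap L L' u) (hh0 : h ≠ 0)
    (hgen : IntermediateField.adjoin L {h} = ⊤)
    (hdiv : ∀ P : Place E L, (p : ℤ) ∣ P.ord u)
    (P' : Place E L') :
    ∃ P : Place E L, ∀ y : L, P'.ord (algebraMap L L' y) = P.ord y := by
  classical
  obtain ⟨halg, -⟩ := isAlgebraic_of_adjoin_root u h p hp hh hgen
  obtain ⟨P, ε, -, hres⟩ := exists_place_restrict (E := E) (L := L) P'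
  exact exists_place_restrict_kummer' u h p hp hh hh0 hgen P' P ε hres (hdiv P)

omit [IsScalarTower E L L'] in
/-- In the situation of `exists_place_restrict_kummer`: `p * ord_{P'} h = ord_P u` for the place
`P` below `P'`. -/
theorem ord_root (u : L) (h : L') (p : ℕ)
    (hh : h ^ p = algebraMap L L' u)
    (P' : Place E L') (P : Place E L)
    (hP : ∀ y : L, P'.ord (algebraMap L L' y) = P.ord y) :
    (p : ℤ) * P'.ord h = P.ord u := by
  rw [← hP u, ← hh, ← zpow_natCast, P'.ord_zpow]

end Fermat.Agent.INJ.KumU
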