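import Mathlib.RingTheory.Noetherian.Basic
import Mathlib.RingTheory.Ideal.Maximal
import Mathlib.RingTheory.Ideal.Quotient.Basic
import Mathlib.Tactic

/-!
# (INJ) piece A5, abstract part: "locally a domain" + Zariski connectedness ⇒ `π` is prime

`LocDomain C p` : the ring `C / p` is locally a domain, in the ideal-free form
`p ∣ x * y → ∃ u v, u + v = 1 ∧ p ∣ u * x ∧ p ∣ v * y` (`Ann x̄ + Ann ȳ = 1` whenever `x̄ ȳ = 0`).
`LocDomainAt C p m` : the same at one maximal ideal `m` (this is the shape of the conclusion of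
A3's `pi_locally_prime`).  `locDomain_of_forall_maximal` passes from the second to the first.

`prime_of_locDomain` : two charts `C₁, C₂ → B` of a curve over a base in which `p` is the
uniformizer; if both special fibres are locally domains and every compatible pair of idempotents
modulo `p` is trivial, then `p` is a prime element of `C₁` (the special fibre is integral).
-/

set_option autoImplicit false

namespace Fermat.Agent.INJ

variable {C : Type*} [CommRing C]

/-- `C / p` is locally a domain (ideal-free form). -/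
def LocDomain (C : Type*) [CommRing C] (p : C) : Prop :=
  ∀ x y : C, p ∣ x * y → ∃ u v : C, u + v = 1 ∧ p ∣ u * x ∧ p ∣ v * y

/-- `C / p` is a domain locally at the ideal `m`. -/
def LocDomainAt (C : Type*) [CommRing C] (p : C) (m : Ideal C) : Prop :=
  ∀ x y : C, p ∣ x * y → ∃ u : C, u ∉ m ∧ (p ∣ u * x ∨ p ∣ u * y)

/-- Local-to-global for one pair: if at every maximal ideal `m ∋ p` some `u ∉ m` kills `x` or `y`
modulo `p`, then `Ann x̄ + Ann ȳ = 1`. -/
theorem locDomain_pair_of_forall_maximal {p x y : C}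
    (h : ∀ m : Ideal C, m.IsMaximal → p ∈ m → ∃ u : C, u ∉ m ∧ (p ∣ u * x ∨ p ∣ u * y)) :
    ∃ u v : C, u + v = 1 ∧ p ∣ u * x ∧ p ∣ v * y := by
  -- the ideals `Ann x̄`, `Ann ȳ`
  let I : Ideal C :=
    { carrier := {u | p ∣ u * x}
      add_mem' := fun {a b} ha hb => by
        simp only [Set.mem_ofPred_eq] at ha hb ⊢
        rw [add_mul]; exact dvd_add ha hb
      zero_mem' := by simp
      smul_mem' := fun c a ha => by
        simp only [Set.mem_ofPred_eq, smul_eq_mul] at ha ⊢
        rw [mul_assoc]; exact Dvd.dvd.mul_left ha c }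
  let J : Ideal C :=
    { carrier := {u | p ∣ u * y}
      add_mem' := fun {a b} ha hb => by
        simp only [Set.mem_ofPred_eq] at ha hb ⊢
        rw [add_mul]; exact dvd_add ha hb
      zero_mem' := by simp
      smul_mem' := fun c a ha => by
        simp only [Set.mem_ofPred_eq, smul_eq_mul] at ha ⊢
        rw [mul_assoc]; exact Dvd.dvd.mul_left ha c }
  have hpI : p ∈ I := show p ∣ p * x from dvd_mul_right p x
  have htop : I ⊔ J = ⊤ := by
    by_contra hne
    obtain ⟨m, hm, hle⟩ := Ideal.exists_le_maximal _ hne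
    obtain ⟨u, hu, hux | huy⟩ := h m hm (hle (Ideal.mem_sup_left hpI))
    · exact hu (hle (Ideal.mem_sup_left hux))
    · exact hu (hle (Ideal.mem_sup_right huy))
  have h1 : (1 : C) ∈ I ⊔ J := by rw [htop]; trivial
  obtain ⟨u, hu, v, hv, huv⟩ := Submodule.mem_sup.mp h1
  exact ⟨u, v, huv, hu, hv⟩

/-- If `C / p` is a domain locally at every maximal ideal containing `p`, then `LocDomain C p`. -/
theorem locDomain_of_forall_maximal {p : C}
    (h : ∀ m : Ideal C, m.IsMaximal → p ∈ m → LocDomainAt C p m) : LocDomain C p :=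
  fun x y hxy => locDomain_pair_of_forall_maximal (fun m hm hpm => h m hm hpm x y hxy)

/-- A ring which is locally a domain modulo `p` is reduced modulo `p`. -/
theorem LocDomain.dvd_of_dvd_sq {p : C} (h : LocDomain C p) {x : C} (hx : p ∣ x * x) : p ∣ x := by
  obtain ⟨u, v, huv, hu, hv⟩ := h x x hx
  have : x = u * x + v * x := by rw [← add_mul, huv, one_mul]
  rw [this]; exact dvd_add hu hv

/-- Key step: in a Noetherian ring which is locally a domain modulo `p`, the annihilator of `x̄` is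
generated by an idempotent modulo `p`. -/
theorem LocDomain.exists_idem [IsNoetherianRing C] {p : C} (h : LocDomain C p) (x : C) :
    ∃ ε V : C, ε + V = 1 ∧ p ∣ V * x ∧ (∀ u : C, p ∣ u * x → p ∣ ε * u) := by
  let I : Ideal C :=
    { carrier := {u | p ∣ u * x}
      add_mem' := fun {a b} ha hb => by
        simp only [Set.mem_ofPred_eq] at ha hb ⊢
        rw [add_mul]; exact dvd_add ha hb
      zero_mem' := by simp
      smul_mem' := fun c a ha => by
        simp only [Set.mem_ofPred_eq, smul_eq_mul] at ha ⊢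
        rw [mul_assoc]; exact Dvd.dvd.mul_left ha c }
  have hmemI : ∀ u, u ∈ I ↔ p ∣ u * x := fun u => Iff.rfl
  -- `K` = elements killed (mod `p`) by some `ε` with `1 - ε ∈ I`
  obtain ⟨s, hs⟩ : I.FG := IsNoetherian.noetherian I
  -- induction over the finite generating set
  have key : ∀ t : Finset C, (∀ z ∈ t, z ∈ I) →
      ∃ ε V : C, ε + V = 1 ∧ V ∈ I ∧ ∀ z ∈ t, p ∣ ε * z := by
    classical
    intro t
    induction t using Finset.induction_on with
    | empty =>
      intro _
      exact ⟨1, 0, by ring, I.zero_mem, by simp⟩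
    | insert a t _ ih =>
      intro ht
      obtain ⟨ε, V, hεV, hV, hε⟩ := ih (fun z hz => ht z (Finset.mem_insert_of_mem hz))
      have ha : p ∣ a * x := (hmemI a).mp (ht a (Finset.mem_insert_self a t))
      obtain ⟨u, v, huv, hu, hv⟩ := h a x ha
      refine ⟨ε * u, V + ε * v, ?_, ?_, ?_⟩
      · calc ε * u + (V + ε * v) = ε * (u + v) + V := by ring
          _ = 1 := by rw [huv, mul_one, hεV]
      · exact I.add_mem hV (I.mul_mem_left ε ((hmemI v).mpr hv))
      · intro z hz
        rcases Finset.mem_insert.mp hz with rfl | hz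
        · rw [mul_assoc]; exact Dvd.dvd.mul_left hu ε
        · have := hε z hz
          have e : ε * u * z = u * (ε * z) := by ring
          rw [e]; exact Dvd.dvd.mul_left this u
  obtain ⟨ε, V, hεV, hV, hε⟩ := key s (fun z hz => by
    rw [← hs]; exact Ideal.subset_span hz)
  refine ⟨ε, V, hεV, (hmemI V).mp hV, ?_⟩
  intro u hu
  have huI : u ∈ Ideal.span (s : Set C) := by rw [hs]; exact (hmemI u).mpr hu
  -- the set of `u` with `p ∣ ε * u` is an ideal containing `s`
  refine Submodule.span_induction (p := fun u _ => p ∣ ε * u) ?_ ?_ ?_ ?_ huI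
  · intro z hz; exact hε z hz
  · simp
  · intro a b _ _ ha hb; rw [mul_add]; exact dvd_add ha hb
  · intro c a _ ha
    rw [smul_eq_mul]
    have e : ε * (c * a) = c * (ε * a) := by ring
    rw [e]; exact Dvd.dvd.mul_left ha c

end Fermat.Agent.INJ

namespace Fermat.Agent.INJ

/-- **A5, abstract form.**  Two charts `i₁ : C₁ → B`, `i₂ : C₂ → B` (`B` = functions on the
overlap), `p₁, p₂, p` the uniformizer in the three rings.  Assume
* `C₁`, `C₂` are `p`-saturated in `B` (`hsat₁`, `hsat₂`);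
* `B = C₂[1/σ]` and `σ` is a non-zero-divisor on `B / p` (`hσ`, `hσreg`);
* the special fibre of `C₁` is locally a domain, and that of `C₂` is a domain locally at the
  maximal ideals containing `σ` ("the points at infinity") (`hloc₁`, `hloc₂`);
* Zariski connectedness (`hconn`, the conclusion of A6): a pair of idempotents modulo `p` on the
  two charts which agree on the overlap is trivial.
Then the special fibre of the first chart is integral: `p₁ ∣ x * y → p₁ ∣ x ∨ p₁ ∣ y`. -/
theorem dvd_or_dvd_of_locDomain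
    {C₁ C₂ B : Type*} [CommRing C₁] [CommRing C₂] [CommRing B] [IsNoetherianRing C₁]
    (i₁ : C₁ →+* B) (i₂ : C₂ →+* B) (p₁ : C₁) (p₂ : C₂) (p : B)
    (hp₁ : i₁ p₁ = p) (hp₂ : i₂ p₂ = p)
    (hsat₂ : ∀ x : C₂, p ∣ i₂ x → p₂ ∣ x)
    (σ : C₂) (hσ : ∀ b : B, ∃ (k : ℕ) (z : C₂), i₂ σ ^ k * b = i₂ z)
    (hσreg : ∀ b : B, p ∣ i₂ σ * b → p ∣ b)
    (hloc₁ : LocDomain C₁ p₁)
    (hloc₂ : ∀ m : Ideal C₂, m.IsMaximal → p₂ ∈ m → σ ∈ m → LocDomainAt C₂ p₂ m)
    (hconn : ∀ (e₁ : C₁) (e₂ : C₂), p₁ ∣ e₁ * e₁ - e₁ → p₂ ∣ e₂ * e₂ - e₂ → p ∣ i₁ e₁ - i₂ e₂ →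
      p₁ ∣ e₁ ∨ p₁ ∣ e₁ - 1)
    {x y : C₁} (hxy : p₁ ∣ x * y) : p₁ ∣ x ∨ p₁ ∣ y := by
  -- the idempotent generating `Ann x̄`
  obtain ⟨ε, V, hεV, hVx, hε⟩ := hloc₁.exists_idem x
  have hεid : p₁ ∣ ε * ε - ε := by
    have h1 : p₁ ∣ ε * V := hε V hVx
    have : ε * ε - ε = - (ε * V) := by
      have hV : V = 1 - ε := by rw [← hεV]; ring
      rw [hV]; ring
    rw [this]; exact (dvd_neg).mpr h1
  -- powers of `σ` are regular modulo `p`
  have hσpow : ∀ (k : ℕ) (b : B), p ∣ i₂ σ ^ k * b → p ∣ b := by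
    intro k
    induction k with
    | zero => intro b hb; simpa using hb
    | succ k ih =>
      intro b hb
      apply ih
      apply hσreg
      have : i₂ σ * (i₂ σ ^ k * b) = i₂ σ ^ (k + 1) * b := by ring
      rw [this]; exact hb
  -- extend `ε` to the second chart
  obtain ⟨k, z, hz⟩ := hσ (i₁ ε)
  have hpB : p ∣ i₁ (ε * ε - ε) := by
    rw [← hp₁]; exact map_dvd i₁ hεid
  have hz2 : p₂ ∣ z * (z - σ ^ k) := by
    apply hsat₂
    have : i₂ (z * (z - σ ^ k)) = i₂ σ ^ k * (i₂ σ ^ k * i₁ (ε * ε - ε)) := by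
      simp only [map_mul, map_sub, map_pow, ← hz]; ring
    rw [this]
    exact Dvd.dvd.mul_left (Dvd.dvd.mul_left hpB _) _
  obtain ⟨u', v', huv', hu', hv'⟩ :
      ∃ u' v' : C₂, u' + v' = 1 ∧ p₂ ∣ u' * z ∧ p₂ ∣ v' * (z - σ ^ k) := by
    refine locDomain_pair_of_forall_maximal (fun m hm hpm => ?_)
    by_cases hσm : σ ∈ m
    · exact hloc₂ m hm hpm hσm z (z - σ ^ k) hz2
    · -- away from `σ = 0` the statement is automatic
      have hσk : σ ^ k ∉ m := fun h => hσm (hm.isPrime.mem_of_pow_mem k h)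
      by_cases hzm : z ∈ m
      · refine ⟨σ ^ k - z, fun h => hσk ?_, Or.inl ?_⟩
        · have : σ ^ k = (σ ^ k - z) + z := by ring
          rw [this]; exact m.add_mem h hzm
        · have : (σ ^ k - z) * z = - (z * (z - σ ^ k)) := by ring
          rw [this]; exact (dvd_neg).mpr hz2
      · exact ⟨z, hzm, Or.inr hz2⟩
  -- `e₂ := v'`
  have hσe₂ : p₂ ∣ σ ^ k * v' - z := by
    have : σ ^ k * v' - z = - (v' * (z - σ ^ k)) - u' * z := by
      have hu : u' = 1 - v' := by rw [← huv']; ring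
      rw [hu]; ring
    rw [this]; exact dvd_sub ((dvd_neg).mpr hv') hu'
  have hcomp : p ∣ i₁ ε - i₂ v' := by
    apply hσpow k
    have : i₂ σ ^ k * (i₁ ε - i₂ v') = - i₂ (σ ^ k * v' - z) := by
      simp only [map_mul, map_sub, map_pow, ← hz]; ring
    rw [this, ← hp₂]
    exact (dvd_neg).mpr (map_dvd i₂ hσe₂)
  have he₂id : p₂ ∣ v' * v' - v' := by
    apply hsat₂
    obtain ⟨c, hc⟩ := hcomp
    obtain ⟨d, hd⟩ := hpB
    have hv'eq : i₂ v' = i₁ ε - p * c := by rw [← hc]; ring
    have : i₂ (v' * v' - v') = p * (d - 2 * i₁ ε * c + p * c * c + c) := by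
      simp only [map_mul, map_sub] at hd ⊢
      rw [hv'eq]
      have hd' : i₁ ε * i₁ ε = i₁ ε + p * d := by rw [← hd]; ring
      calc (i₁ ε - p * c) * (i₁ ε - p * c) - (i₁ ε - p * c)
          = i₁ ε * i₁ ε - i₁ ε - 2 * p * c * i₁ ε + p * c * (p * c) + p * c := by ring
        _ = p * (d - 2 * i₁ ε * c + p * c * c + c) := by rw [hd']; ring
    rw [this]; exact dvd_mul_right _ _
  -- Zariski connectedness
  rcases hconn ε v' hεid he₂id hcomp with h0 | h1
  · -- `ε ≡ 0`: `1 ≡ V ∈ Ann x̄`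
    left
    have : x = ε * x + V * x := by rw [← add_mul, hεV, one_mul]
    rw [this]; exact dvd_add (Dvd.dvd.mul_right h0 x) hVx
  · -- `ε ≡ 1`: `Ann x̄ ≡ 0`, and `y ∈ Ann x̄`
    right
    have hy : p₁ ∣ ε * y := hε y (by rw [mul_comm]; exact hxy)
    have : y = ε * y - (ε - 1) * y := by ring
    rw [this]; exact dvd_sub hy (Dvd.dvd.mul_right h1 y)

end Fermat.Agent.INJ
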