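import Mathlib
import Fermat.Agent.INJ.LocDomain

/-!
# INJ piece A3, last step: closed fibre reduced ⇒ `π` is locally prime

`R` Noetherian, `π ∈ R` with `R / π` a principal ideal ring, `C` a finite `R`-algebra which is
torsion-free modulo `π` (`htf`, = A1), `n ∋ π` a maximal ideal of `R` whose closed fibre `C / n C`
is reduced (`hred`, = the conclusion of `closedFibre_reduced`).  Then for every maximal ideal
`m ⊇ n C` of `C` the ring `(C / π)_m` is a domain (a DVR or a field), in the element form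
`LocDomainAt C (algebraMap R C π) m`.
-/

set_option autoImplicit false

namespace Fermat.Agent.INJ

section LocalAlgebra

/-- A Noetherian local ring whose maximal ideal is generated by a regular element is a domain. -/
theorem isDomain_of_maximalIdeal_eq_span_of_regular {T : Type*} [CommRing T] [IsNoetherianRing T]
    [IsLocalRing T] (γ : T) (hγ : IsLocalRing.maximalIdeal T = Ideal.span {γ})
    (hreg : ∀ x : T, γ * x = 0 → x = 0) : IsDomain T := by
  have hpowreg : ∀ (k : ℕ) (x : T), γ ^ k * x = 0 → x = 0 := by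
    intro k
    induction k with
    | zero => intro x hx; simpa using hx
    | succ k ih =>
      intro x hx
      apply ih
      apply hreg
      rw [← mul_assoc, ← pow_succ']
      exact hx
  have hne : IsLocalRing.maximalIdeal T ≠ ⊤ := Ideal.IsPrime.ne_top inferInstance
  have hkrull := Ideal.iInf_pow_eq_bot_of_isLocalRing (IsLocalRing.maximalIdeal T) hne
  -- every nonzero element is `γ ^ k * unit`
  have key : ∀ x : T, x ≠ 0 → ∃ (k : ℕ) (a : T), IsUnit a ∧ x = γ ^ k * a := by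
    intro x hx
    have hex : ∃ k : ℕ, x ∉ IsLocalRing.maximalIdeal T ^ k := by
      by_contra hcon
      push Not at hcon
      apply hx
      have : x ∈ ⨅ i : ℕ, IsLocalRing.maximalIdeal T ^ i := by
        rw [Ideal.mem_iInf]; exact hcon
      rw [hkrull] at this
      exact this
    classical
    let k := Nat.find hex
    have hk : x ∉ IsLocalRing.maximalIdeal T ^ k := Nat.find_spec hex
    have hk0 : k ≠ 0 := by
      intro h0
      rw [h0, pow_zero, Ideal.one_eq_top] at hk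
      exact hk trivial
    obtain ⟨j, hj⟩ := Nat.exists_eq_succ_of_ne_zero hk0
    have hjmem : x ∈ IsLocalRing.maximalIdeal T ^ j := by
      by_contra hcon
      have := Nat.find_min' hex hcon
      omega
    rw [hγ, Ideal.span_singleton_pow, Ideal.mem_span_singleton] at hjmem
    obtain ⟨a, ha⟩ := hjmem
    refine ⟨j, a, ?_, ha⟩
    by_contra hau
    have ham : a ∈ IsLocalRing.maximalIdeal T := (IsLocalRing.mem_maximalIdeal a).mpr hau
    rw [hγ, Ideal.mem_span_singleton] at ham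
    obtain ⟨c, hc⟩ := ham
    apply hk
    rw [hj, hγ, Ideal.span_singleton_pow, Ideal.mem_span_singleton]
    exact ⟨c, by rw [ha, hc, pow_succ]; ring⟩
  haveI : NoZeroDivisors T := by
    refine ⟨fun {x y} hxy => ?_⟩
    by_contra hcon
    push Not at hcon
    obtain ⟨k, a, ha, rfl⟩ := key x hcon.1
    obtain ⟨l, b, hb, rfl⟩ := key y hcon.2
    have h1 : γ ^ (k + l) * (a * b) = 0 := by
      rw [← hxy, pow_add]; ring
    have h2 := hpowreg _ _ h1
    have h3 : IsUnit (a * b) := ha.mul hb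
    rw [h2] at h3
    exact not_isUnit_zero h3
  exact NoZeroDivisors.to_isDomain T

/-- In a ring `C`, the image of a maximal ideal `m ⊇ I` in `C / I` is maximal, and membership can
be tested upstairs. -/
theorem mem_map_mk_iff {C : Type*} [CommRing C] (I m : Ideal C) (hIm : I ≤ m) (u : C) :
    Ideal.Quotient.mk I u ∈ m.map (Ideal.Quotient.mk I) ↔ u ∈ m := by
  rw [Ideal.mem_map_iff_of_surjective _ Ideal.Quotient.mk_surjective]
  constructor
  · rintro ⟨v, hv, hvu⟩
    have h1 : v - u ∈ I := Ideal.Quotient.eq.mp hvu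
    have h2 : u = v - (v - u) := by ring
    rw [h2]
    exact m.sub_mem hv (hIm h1)
  · intro hu
    exact ⟨u, hu, rfl⟩

theorem isMaximal_map_mk {C : Type*} [CommRing C] (I m : Ideal C) [hmax : m.IsMaximal]
    (hIm : I ≤ m) : (m.map (Ideal.Quotient.mk I)).IsMaximal := by
  rcases Ideal.map_eq_top_or_isMaximal_of_surjective (Ideal.Quotient.mk I)
    Ideal.Quotient.mk_surjective hmax with h | h
  · exfalso
    have h1 : Ideal.Quotient.mk I (1 : C) ∈ m.map (Ideal.Quotient.mk I) := by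
      rw [h]; trivial
    exact hmax.ne_top ((Ideal.eq_top_iff_one m).mpr ((mem_map_mk_iff I m hIm 1).mp h1))
  · exact h

end LocalAlgebra

section Main

variable {R : Type*} {C : Type*} [CommRing R] [CommRing C] [Algebra R C] [Module.Finite R C]

/-- In the reduced (Artinian) closed fibre `C / n C`, the maximal ideal `m` is locally zero. -/
theorem exists_notMem_mul_mem_of_reduced (n : Ideal R) [n.IsMaximal]
    (hred : ∀ x : C, x ^ 2 ∈ n.map (algebraMap R C) → x ∈ n.map (algebraMap R C))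
    (m : Ideal C) [m.IsMaximal] (hm : n.map (algebraMap R C) ≤ m) (x : C) (hx : x ∈ m) :
    ∃ u : C, u ∉ m ∧ u * x ∈ n.map (algebraMap R C) := by
  set I : Ideal C := n.map (algebraMap R C) with hI
  letI : Field (R ⧸ n) := Ideal.Quotient.field n
  haveI : Module.Finite R (C ⧸ I) := inferInstance
  haveI : Module.Finite (R ⧸ n) (C ⧸ I) := Module.Finite.of_restrictScalars_finite R _ _
  haveI : IsArtinianRing (C ⧸ I) := IsArtinianRing.of_finite (R ⧸ n) (C ⧸ I)
  haveI : IsReduced (C ⧸ I) := by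
    rw [isReduced_iff_pow_one_lt 2 (by norm_num)]
    intro X hX
    obtain ⟨x, rfl⟩ := Ideal.Quotient.mk_surjective X
    rw [← map_pow, Ideal.Quotient.eq_zero_iff_mem] at hX
    rw [Ideal.Quotient.eq_zero_iff_mem]
    exact hred x hX
  haveI hmax : (m.map (Ideal.Quotient.mk I)).IsMaximal := isMaximal_map_mk I m hm
  let T := Localization.AtPrime (m.map (Ideal.Quotient.mk I))
  haveI : IsArtinianRing T := inferInstance
  haveI : IsReduced T := inferInstance
  have hfield : IsField T := IsArtinianRing.isField_of_isReduced_of_isLocalRing T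
  have hbot : IsLocalRing.maximalIdeal T = ⊥ := IsLocalRing.isField_iff_maximalIdeal_eq.mp hfield
  have hxm : algebraMap (C ⧸ I) T (Ideal.Quotient.mk I x) ∈ IsLocalRing.maximalIdeal T :=
    (IsLocalization.AtPrime.to_map_mem_maximal_iff T (m.map (Ideal.Quotient.mk I)) _).mpr
      ((mem_map_mk_iff I m hm x).mpr hx)
  rw [hbot, Ideal.mem_bot,
    IsLocalization.map_eq_zero_iff (m.map (Ideal.Quotient.mk I)).primeCompl] at hxm
  obtain ⟨⟨U, hU⟩, hUx⟩ := hxm
  obtain ⟨u, rfl⟩ := Ideal.Quotient.mk_surjective U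
  refine ⟨u, fun hu => hU ((mem_map_mk_iff I m hm u).mpr hu), ?_⟩
  rw [← Ideal.Quotient.eq_zero_iff_mem, map_mul]
  exact hUx

/-- **A3, last step.**  Closed fibre reduced `⇒` `π` is locally prime at every maximal ideal of
`C` over the closed point `n`. -/
theorem locDomainAt_of_closedFibre_reduced [IsNoetherianRing R]
    {π : R} [IsPrincipalIdealRing (R ⧸ Ideal.span {π})]
    (htf : ∀ f : R, ¬ π ∣ f → ∀ x : C, algebraMap R C π ∣ f • x → algebraMap R C π ∣ x)
    (n : Ideal R) [n.IsMaximal] (hπn : π ∈ n)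
    (hred : ∀ x : C, x ^ 2 ∈ n.map (algebraMap R C) → x ∈ n.map (algebraMap R C))
    (m : Ideal C) [m.IsMaximal] (hm : n.map (algebraMap R C) ≤ m) :
    LocDomainAt C (algebraMap R C π) m := by
  -- Step 1: `n = (π, g)`
  have hπle : Ideal.span {π} ≤ n := (Ideal.span_singleton_le_iff_mem _).mpr hπn
  obtain ⟨g, hgn, hg⟩ : ∃ g : R, g ∈ n ∧ ∀ x ∈ n, ∃ a b : R, x = π * a + g * b := by
    have hprinc : (n.map (Ideal.Quotient.mk (Ideal.span {π}))).IsPrincipal :=
      IsPrincipalIdealRing.principal _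
    obtain ⟨G, hG⟩ := hprinc
    obtain ⟨g, rfl⟩ := Ideal.Quotient.mk_surjective G
    have hgn : g ∈ n := by
      apply (mem_map_mk_iff (Ideal.span {π}) n hπle g).mp
      rw [hG]
      exact Submodule.mem_span_singleton_self _
    refine ⟨g, hgn, fun x hx => ?_⟩
    have hx' : Ideal.Quotient.mk (Ideal.span {π}) x ∈
        n.map (Ideal.Quotient.mk (Ideal.span {π})) := Ideal.mem_map_of_mem _ hx
    rw [hG, Submodule.mem_span_singleton] at hx'
    obtain ⟨B, hB⟩ := hx'
    obtain ⟨b, rfl⟩ := Ideal.Quotient.mk_surjective B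
    rw [smul_eq_mul, ← map_mul] at hB
    have h1 : x - b * g ∈ Ideal.span {π} := Ideal.Quotient.eq.mp hB.symm
    obtain ⟨a, ha⟩ := Ideal.mem_span_singleton.mp h1
    exact ⟨a, b, by rw [← ha]; ring⟩
  set ϖ : C := algebraMap R C π with hϖ
  set γ₀ : C := algebraMap R C g with hγ₀
  have hϖm : ϖ ∈ m := hm (Ideal.mem_map_of_mem _ hπn)
  have hγ₀m : γ₀ ∈ m := hm (Ideal.mem_map_of_mem _ hgn)
  have hϖle : Ideal.span {ϖ} ≤ m := (Ideal.span_singleton_le_iff_mem _).mpr hϖm
  -- Step 2: `n C = (ϖ, γ₀)`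
  have hnC : ∀ z ∈ n.map (algebraMap R C), ∃ c₁ c₂ : C, z = ϖ * c₁ + γ₀ * c₂ := by
    intro z hz
    refine Submodule.span_induction (p := fun z _ => ∃ c₁ c₂ : C, z = ϖ * c₁ + γ₀ * c₂)
      ?_ ?_ ?_ ?_ hz
    · rintro _ ⟨x, hx, rfl⟩
      obtain ⟨a, b, rfl⟩ := hg x hx
      exact ⟨algebraMap R C a, algebraMap R C b, by simp [hϖ, hγ₀]⟩
    · exact ⟨0, 0, by simp⟩
    · rintro _ _ _ _ ⟨a₁, a₂, rfl⟩ ⟨b₁, b₂, rfl⟩
      exact ⟨a₁ + b₁, a₂ + b₂, by ring⟩
    · rintro c _ _ ⟨a₁, a₂, rfl⟩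
      exact ⟨c * a₁, c * a₂, by rw [smul_eq_mul]; ring⟩
  -- Step 3: the local ring `T = (C / ϖ)_m`
  haveI : IsNoetherianRing C := IsNoetherianRing.of_finite R C
  haveI hmax : (m.map (Ideal.Quotient.mk (Ideal.span {ϖ}))).IsMaximal :=
    isMaximal_map_mk _ m hϖle
  let T := Localization.AtPrime (m.map (Ideal.Quotient.mk (Ideal.span {ϖ})))
  haveI : IsNoetherianRing T :=
    IsLocalization.isNoetherianRing (m.map (Ideal.Quotient.mk (Ideal.span {ϖ}))).primeCompl T
      inferInstance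
  let ι : C →+* T := (algebraMap (C ⧸ Ideal.span {ϖ}) T).comp (Ideal.Quotient.mk (Ideal.span {ϖ}))
  have hιunit : ∀ u : C, u ∉ m → IsUnit (ι u) := by
    intro u hu
    exact IsLocalization.map_units T
      (⟨Ideal.Quotient.mk (Ideal.span {ϖ}) u, fun h => hu ((mem_map_mk_iff _ m hϖle u).mp h)⟩ :
        (m.map (Ideal.Quotient.mk (Ideal.span {ϖ}))).primeCompl)
  have hιzero : ∀ x : C, ι x = 0 ↔ ∃ u : C, u ∉ m ∧ ϖ ∣ u * x := by
    intro x
    show algebraMap (C ⧸ Ideal.span {ϖ}) T (Ideal.Quotient.mk (Ideal.span {ϖ}) x) = 0 ↔ _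
    rw [IsLocalization.map_eq_zero_iff (m.map (Ideal.Quotient.mk (Ideal.span {ϖ}))).primeCompl]
    constructor
    · rintro ⟨⟨U, hU⟩, hUx⟩
      obtain ⟨u, rfl⟩ := Ideal.Quotient.mk_surjective U
      refine ⟨u, fun hu => hU ((mem_map_mk_iff _ m hϖle u).mpr hu), ?_⟩
      rw [← Ideal.mem_span_singleton, ← Ideal.Quotient.eq_zero_iff_mem, map_mul]
      exact hUx
    · rintro ⟨u, hu, hux⟩
      refine ⟨⟨Ideal.Quotient.mk _ u, fun h => hu ((mem_map_mk_iff _ m hϖle u).mp h)⟩, ?_⟩
      show Ideal.Quotient.mk (Ideal.span {ϖ}) u * Ideal.Quotient.mk (Ideal.span {ϖ}) x = 0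
      rw [← map_mul, Ideal.Quotient.eq_zero_iff_mem, Ideal.mem_span_singleton]
      exact hux
  have hιsurj : ∀ z : T, ∃ (x s : C), s ∉ m ∧ z * ι s = ι x := by
    intro z
    obtain ⟨X, ⟨S, hS⟩, rfl⟩ :=
      IsLocalization.exists_mk'_eq (m.map (Ideal.Quotient.mk (Ideal.span {ϖ}))).primeCompl z
    obtain ⟨x, rfl⟩ := Ideal.Quotient.mk_surjective X
    obtain ⟨s, rfl⟩ := Ideal.Quotient.mk_surjective S
    refine ⟨x, s, fun hs => hS ((mem_map_mk_iff _ m hϖle s).mpr hs), ?_⟩
    exact IsLocalization.mk'_spec T _ _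
  have hιmem : ∀ x : C, ι x ∈ IsLocalRing.maximalIdeal T ↔ x ∈ m := by
    intro x
    show algebraMap (C ⧸ Ideal.span {ϖ}) T (Ideal.Quotient.mk (Ideal.span {ϖ}) x) ∈ _ ↔ _
    rw [IsLocalization.AtPrime.to_map_mem_maximal_iff T
      (m.map (Ideal.Quotient.mk (Ideal.span {ϖ})))]
    exact mem_map_mk_iff _ m hϖle x
  have hιϖ : ι ϖ = 0 := by
    show algebraMap (C ⧸ Ideal.span {ϖ}) T (Ideal.Quotient.mk (Ideal.span {ϖ}) ϖ) = 0
    rw [Ideal.Quotient.eq_zero_iff_mem.mpr (Ideal.mem_span_singleton_self ϖ), map_zero]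
  -- Step 4: the maximal ideal of `T` is generated by `γ = ι γ₀`
  have hγ : IsLocalRing.maximalIdeal T = Ideal.span {ι γ₀} := by
    apply le_antisymm
    · intro z hz
      obtain ⟨x, s, hs, hzs⟩ := hιsurj z
      have hxm : x ∈ m := by
        rw [← hιmem, ← hzs]
        exact Ideal.mul_mem_right _ _ hz
      obtain ⟨u, hu, hux⟩ := exists_notMem_mul_mem_of_reduced n hred m hm x hxm
      obtain ⟨c₁, c₂, hc⟩ := hnC _ hux
      rw [Ideal.mem_span_singleton]
      have h1 : ι γ₀ ∣ z * (ι s * ι u) := by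
        refine ⟨ι c₂, ?_⟩
        calc z * (ι s * ι u) = ι (u * x) := by rw [← mul_assoc, hzs, map_mul]; ring
          _ = ι γ₀ * ι c₂ := by rw [hc, map_add, map_mul, map_mul, hιϖ]; ring
      exact (IsUnit.dvd_mul_right ((hιunit s hs).mul (hιunit u hu))).mp h1
    · rw [Ideal.span_singleton_le_iff_mem, hιmem]
      exact hγ₀m
  -- Step 5: `T` is a domain
  have hdom : IsDomain T := by
    by_cases hπg : π ∣ g
    · -- degenerate case: `n = (π)`, `T` is a field
      have h0 : ι γ₀ = 0 := by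
        obtain ⟨a, ha⟩ := hπg
        have : γ₀ = ϖ * algebraMap R C a := by rw [hγ₀, hϖ, ha, map_mul]
        rw [this, map_mul, hιϖ, zero_mul]
      rw [h0, Ideal.span_singleton_eq_bot.mpr rfl] at hγ
      exact (IsLocalRing.isField_iff_maximalIdeal_eq.mpr hγ).isDomain
    · apply isDomain_of_maximalIdeal_eq_span_of_regular (ι γ₀) hγ
      intro z hz
      obtain ⟨x, s, hs, hzs⟩ := hιsurj z
      have h1 : ι (γ₀ * x) = 0 := by
        rw [map_mul, ← hzs, ← mul_assoc, hz, zero_mul]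
      obtain ⟨u, hu, hux⟩ := (hιzero _).mp h1
      have h2 : ϖ ∣ g • (u * x) := by
        rw [Algebra.smul_def]
        have : algebraMap R C g * (u * x) = u * (γ₀ * x) := by rw [hγ₀]; ring
        rw [this]; exact hux
      have h3 : ϖ ∣ u * x := htf g hπg _ h2
      have h4 : ι x = 0 := (hιzero x).mpr ⟨u, hu, h3⟩
      have h5 : z * ι s = 0 := by rw [hzs, h4]
      exact (IsUnit.mul_left_eq_zero (hιunit s hs)).mp h5
  -- Step 6: conclusion
  intro x y hxy
  have h1 : ι x * ι y = 0 := by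
    rw [← map_mul]
    exact (hιzero _).mpr ⟨1, fun h => (Ideal.IsMaximal.ne_top inferInstance)
      ((Ideal.eq_top_iff_one m).mpr h), by rw [one_mul]; exact hxy⟩
  rcases mul_eq_zero.mp h1 with h | h
  · obtain ⟨u, hu, hux⟩ := (hιzero x).mp h
    exact ⟨u, hu, Or.inl hux⟩
  · obtain ⟨u, hu, huy⟩ := (hιzero y).mp h
    exact ⟨u, hu, Or.inr huy⟩

end Main

end Fermat.Agent.INJ
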