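import Fermat.Agent.INJ.Disc
import Fermat.Agent.INJ.DiscLocal

/-!
# INJ piece A3: `pi_locally_prime`

Assembly of helper91's `closedFibre_reduced` (`Disc.lean`) with
`locDomainAt_of_closedFibre_reduced` (`DiscLocal.lean`): under the hypotheses of A3, at every
maximal ideal `m` of `C` over the closed point `n` of the special fibre, `C / π` is locally a
domain: `LocDomainAt C (algebraMap R C π) m`, i.e.
`∀ x y, π ∣ x * y → ∃ u ∉ m, π ∣ u * x ∨ π ∣ u * y`.
-/

set_option autoImplicit false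

namespace Fermat.Agent.INJ

open Module TensorProduct

universe u v w

/-- **A3, local primeness of `π`.**  Same hypotheses as `closedFibre_reduced`. -/
theorem pi_locally_prime
    {R : Type u} {C : Type v} [CommRing R] [IsDomain R] [UniqueFactorizationMonoid R]
    [CommRing C] [Algebra R C] [Module.Finite R C] [IsNoetherianRing R]
    {π : R} (hπ : Prime π) [IsPrincipalIdealRing (R ⧸ Ideal.span {π})]
    (hreg : ∀ x : C, algebraMap R C π * x = 0 → x = 0)
    (htf : ∀ f : R, ¬ π ∣ f → ∀ x : C, algebraMap R C π ∣ f • x → algebraMap R C π ∣ x)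
    (k : Type w) [Field k] [Algebra R k] (hk : RingHom.ker (algebraMap R k) = Ideal.span {π})
    (hgen : (Algebra.traceForm k (k ⊗[R] C)).Nondegenerate)
    (n : Ideal R) [n.IsMaximal] (hπn : π ∈ n)
    (hunr : ∀ f : R, Prime f → f ∈ n → ¬ Associated f π →
        (∀ m : ℕ, m ≠ 0 → ¬ f ∣ (m : R)) ∧
        ∀ x : C, algebraMap R C f ∣ x ^ 2 → ∃ a : R, ¬ f ∣ a ∧ algebraMap R C f ∣ a • x)
    (m : Ideal C) [m.IsMaximal] (hm : n.map (algebraMap R C) ≤ m) :
    LocDomainAt C (algebraMap R C π) m :=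
  locDomainAt_of_closedFibre_reduced htf n hπn
    (closedFibre_reduced hπ hreg htf k hk hgen n hπn hunr) m hm

/-- The same, unfolded (exactly the shape announced in helper91's note). -/
theorem pi_locally_prime'
    {R : Type u} {C : Type v} [CommRing R] [IsDomain R] [UniqueFactorizationMonoid R]
    [CommRing C] [Algebra R C] [Module.Finite R C] [IsNoetherianRing R]
    {π : R} (hπ : Prime π) [IsPrincipalIdealRing (R ⧸ Ideal.span {π})]
    (hreg : ∀ x : C, algebraMap R C π * x = 0 → x = 0)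
    (htf : ∀ f : R, ¬ π ∣ f → ∀ x : C, algebraMap R C π ∣ f • x → algebraMap R C π ∣ x)
    (k : Type w) [Field k] [Algebra R k] (hk : RingHom.ker (algebraMap R k) = Ideal.span {π})
    (hgen : (Algebra.traceForm k (k ⊗[R] C)).Nondegenerate)
    (n : Ideal R) [n.IsMaximal] (hπn : π ∈ n)
    (hunr : ∀ f : R, Prime f → f ∈ n → ¬ Associated f π →
        (∀ m : ℕ, m ≠ 0 → ¬ f ∣ (m : R)) ∧
        ∀ x : C, algebraMap R C f ∣ x ^ 2 → ∃ a : R, ¬ f ∣ a ∧ algebraMap R C f ∣ a • x)
    (m : Ideal C) [m.IsMaximal] (hm : n.map (algebraMap R C) ≤ m) :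
    ∀ x y : C, algebraMap R C π ∣ x * y →
      ∃ u : C, u ∉ m ∧ (algebraMap R C π ∣ u * x ∨ algebraMap R C π ∣ u * y) :=
  pi_locally_prime hπ hreg htf k hk hgen n hπn hunr m hm

end Fermat.Agent.INJ
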