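import Fermat.Agent.S24.PolyClosure
import Fermat.Agent.S24.PlaceDict

/-!
# (INJ) glue piece T2: bridge "places → ring form" of unramifiedness

`A₀` a DVR with uniformizer `π`, `E = Frac A₀` of characteristic `0`, `Lf / E(τ)` finite,
`R = A₀[τ] = Algebra.adjoin A₀ {τ}`, `C = integralClosure R Lf`.
If `f ∈ R` has order `≤ 1` at every place `P` of `Lf / E` with `0 ≤ ord_P τ`, then the fibre of
`C[1/π]` over `f` is reduced, in the elementwise form used by A3 (`hunr` of `INJ/Disc.lean`):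
`f ∣ x ^ 2` in `C`  ⇒  `f ∣ π ^ k • x` in `C` for some `k`.
-/

set_option autoImplicit false
set_option linter.style.haveILetI false
set_option linter.unusedSectionVars false

namespace Fermat.Agent.INJ

open AlgebraicCurve IntermediateField Polynomial Fermat.Agent.S24

section S1

variable {E Lf : Type*} [Field E] [CharZero E] [Field Lf] [Algebra E Lf]

/-- An element lying in the valuation ring of every place with `0 ≤ ord τ` is integral over
`E[τ]`. -/
theorem isIntegral_of_forall_place (τ : Lf) (hτ : Transcendental E τ)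
    [FiniteDimensional E⟮τ⟯ Lf]
    (z : Lf) (hz : ∀ P : Place E Lf, 0 ≤ P.ord τ → z ∈ P.toValuationSubring) :
    letI := polyAlgebra (K := E) τ
    IsIntegral E[X] z := by
  letI := polyAlgebra (K := E) τ
  obtain ⟨hDed, hFrac, -⟩ := intClosure_facts (K := E) τ hτ
  haveI := hDed
  haveI := hFrac
  have hK : ∀ a : E, ∃ r : intClosure (K := E) τ,
      algebraMap (intClosure (K := E) τ) Lf r = algebraMap E Lf a := by
    intro a
    refine ⟨algebraMap E[X] (intClosure (K := E) τ) (C a), ?_⟩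
    rw [← IsScalarTower.algebraMap_apply E[X] (intClosure (K := E) τ) Lf,
      polyAlgebra_algebraMap_apply, aeval_C]
  have hτ0 : τ ≠ 0 := fun h => hτ (h ▸ isAlgebraic_zero)
  have hτB : ∀ w : IsDedekindDomain.HeightOneSpectrum (intClosure (K := E) τ),
      w.valuation Lf τ ≤ 1 := by
    intro w
    have : algebraMap (intClosure (K := E) τ) Lf (algebraMap E[X] (intClosure (K := E) τ) X) = τ := by
      rw [← IsScalarTower.algebraMap_apply E[X] (intClosure (K := E) τ) Lf,
        polyAlgebra_algebraMap_apply, aeval_X]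
    have h := w.valuation_le_one (K := Lf) (algebraMap E[X] (intClosure (K := E) τ) X)
    exact le_of_eq_of_le (congrArg (w.valuation Lf) this.symm) h
  have h := IsDedekindDomain.HeightOneSpectrum.mem_integers_of_valuation_le_one
    (R := intClosure (K := E) τ) Lf z (fun w => by
      have h1 : 0 ≤ (placeOfPrime (K := E) hK w).ord τ := by
        rw [PlaceAux.ord_nonneg_iff _ hτ0, placeOfPrime_toValuationSubring,
          Valuation.mem_valuationSubring_iff]
        exact hτB w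
      have := hz (placeOfPrime (K := E) hK w) h1
      rwa [placeOfPrime_toValuationSubring, Valuation.mem_valuationSubring_iff] at this)
  obtain ⟨r, hr⟩ := h
  rw [← hr]
  exact r.2

end S1

end Fermat.Agent.INJ

namespace Fermat.Agent.INJ

open AlgebraicCurve IntermediateField Polynomial Fermat.Agent.S24

section S2

variable {A₀ E Lf : Type*} [CommRing A₀] [IsDomain A₀] [IsDiscreteValuationRing A₀]
  [Field E] [Algebra A₀ E] [IsFractionRing A₀ E]
  [Field Lf] [Algebra E Lf] [Algebra A₀ Lf] [IsScalarTower A₀ E Lf]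

/-- integrality over `A₀[X]` (acting through `X ↦ τ`) is integrality over `A₀[τ]` -/
theorem isIntegral_adjoin_of_isIntegral_poly (τ w : Lf)
    (hw : letI : Algebra A₀[X] Lf := (Polynomial.aeval (R := A₀) τ).toRingHom.toAlgebra
      IsIntegral A₀[X] w) :
    IsIntegral (Algebra.adjoin A₀ {τ}) w := by
  letI iA : Algebra A₀[X] Lf := (Polynomial.aeval (R := A₀) τ).toRingHom.toAlgebra
  obtain ⟨p, hp, hpw⟩ := hw
  have hmem : ∀ g : A₀[X], aeval τ g ∈ Algebra.adjoin A₀ {τ} := fun g => by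
    rw [Algebra.adjoin_singleton_eq_range_aeval]
    exact ⟨g, rfl⟩
  let φ : A₀[X] →+* Algebra.adjoin A₀ {τ} :=
    (Polynomial.aeval (R := A₀) τ).toRingHom.codRestrict (Algebra.adjoin A₀ {τ}).toSubring hmem
  refine ⟨p.map φ, hp.map φ, ?_⟩
  rw [Polynomial.eval₂_map]
  exact hpw

/-- **Clearing denominators**: an element integral over `E[τ]` becomes integral over `A₀[τ]`
after multiplication by a power of `π`. -/
theorem exists_pow_mul_isIntegral {π : A₀} (hπ : Irreducible π) (τ z : Lf)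
    (hz : letI := polyAlgebra (K := E) τ
      IsIntegral E[X] z) :
    ∃ k : ℕ, IsIntegral (Algebra.adjoin A₀ {τ}) (algebraMap A₀ Lf π ^ k * z) := by
  letI iE : Algebra E[X] Lf := polyAlgebra (K := E) τ
  letI iA : Algebra A₀[X] Lf := (Polynomial.aeval (R := A₀) τ).toRingHom.toAlgebra
  letI iAE : Algebra A₀[X] E[X] := Polynomial.algebra A₀ E
  haveI : IsScalarTower A₀[X] E[X] Lf := IsScalarTower.of_algebraMap_eq fun p => by
    change aeval τ p = aeval τ (p.map (algebraMap A₀ E))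
    rw [aeval_map_algebraMap]
  haveI : IsLocalization ((nonZeroDivisors A₀).map (C : A₀ →+* A₀[X])) E[X] :=
    Polynomial.isLocalization (nonZeroDivisors A₀) E
  obtain ⟨⟨m, hm⟩, hmz⟩ := IsIntegral.exists_multiple_integral_of_isLocalization
    ((nonZeroDivisors A₀).map (C : A₀ →+* A₀[X])) z hz
  obtain ⟨a, ha, rfl⟩ := hm
  have ha0 : a ≠ 0 := nonZeroDivisors.ne_zero ha
  obtain ⟨k, hk⟩ := IsDiscreteValuationRing.associated_pow_irreducible ha0 hπ
  obtain ⟨u, hu⟩ := hk
  refine ⟨k, isIntegral_adjoin_of_isIntegral_poly τ _ ?_⟩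
  have h1 : algebraMap A₀ Lf π ^ k * z = algebraMap A₀[X] Lf (C (u : A₀)) * ((C a : A₀[X]) • z) := by
    change _ = aeval τ (C (u : A₀)) * (aeval τ (C a) * z)
    rw [aeval_C, aeval_C, ← mul_assoc, ← map_mul, mul_comm (u : A₀) a, hu, map_pow]
  rw [h1]
  exact IsIntegral.mul isIntegral_algebraMap hmz

end S2

end Fermat.Agent.INJ

namespace Fermat.Agent.INJ

open AlgebraicCurve IntermediateField Polynomial Fermat.Agent.S24

section S3

variable {A₀ E Lf : Type*} [CommRing A₀]
  [Field E] [Algebra A₀ E]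
  [Field Lf] [Algebra E Lf] [Algebra A₀ Lf] [IsScalarTower A₀ E Lf]

/-- `A₀[τ]` lies in the valuation ring of every place with `0 ≤ ord τ`. -/
theorem adjoin_le_place (τ : Lf) (P : Place E Lf) (hP : 0 ≤ P.ord τ) :
    ∀ r ∈ Algebra.adjoin A₀ {τ}, r ∈ P.toValuationSubring := by
  intro r hr
  induction hr using Algebra.adjoin_induction with
  | mem x hx =>
    rw [Set.mem_singleton_iff] at hx
    rw [hx]
    exact PlaceAux.mem_of_ord_nonneg P hP
  | algebraMap a =>
    rw [IsScalarTower.algebraMap_apply A₀ E Lf]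
    exact P.algebraMap_mem' _
  | add x y _ _ hx hy => exact P.toValuationSubring.add_mem _ _ hx hy
  | mul x y _ _ hx hy => exact P.toValuationSubring.mul_mem _ _ hx hy

/-- elements integral over `A₀[τ]` lie in the valuation ring of every place with `0 ≤ ord τ` -/
theorem mem_place_of_isIntegral (τ : Lf) (P : Place E Lf) (hP : 0 ≤ P.ord τ) {x : Lf}
    (hx : IsIntegral (Algebra.adjoin A₀ {τ}) x) : x ∈ P.toValuationSubring := by
  obtain ⟨p, hp, hpx⟩ := hx
  let ι : Algebra.adjoin A₀ {τ} →+* P.toValuationSubring :=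
    (algebraMap (Algebra.adjoin A₀ {τ}) Lf).codRestrict P.toValuationSubring.toSubring
      (fun r => adjoin_le_place τ P hP r.1 r.2)
  have hint : IsIntegral P.toValuationSubring x := by
    refine ⟨p.map ι, hp.map ι, ?_⟩
    rw [Polynomial.eval₂_map]
    exact hpx
  obtain ⟨y, hy⟩ := (IsIntegrallyClosed.isIntegral_iff (R := P.toValuationSubring) (K := Lf)).mp hint
  rw [← hy]
  exact y.2

end S3

section core

variable {A₀ E Lf : Type*} [CommRing A₀] [IsDomain A₀] [IsDiscreteValuationRing A₀]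
  [Field E] [Algebra A₀ E] [IsFractionRing A₀ E] [CharZero E]
  [Field Lf] [Algebra E Lf] [Algebra A₀ Lf] [IsScalarTower A₀ E Lf]

/-- **T2, core (elements of `Lf`).** -/
theorem place_bridge_core {π : A₀} (hπ : Irreducible π) (τ : Lf) (hτ : Transcendental E τ)
    [FiniteDimensional E⟮τ⟯ Lf] {f : Lf} (hfR : f ∈ Algebra.adjoin A₀ {τ})
    (hf : ∀ P : Place E Lf, 0 ≤ P.ord τ → 0 < P.ord f → P.ord f = 1)
    {x y : Lf} (hx : IsIntegral (Algebra.adjoin A₀ {τ}) x)
    (hy : IsIntegral (Algebra.adjoin A₀ {τ}) y) (hxy : x ^ 2 = f * y) :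
    ∃ (k : ℕ) (w : Lf), IsIntegral (Algebra.adjoin A₀ {τ}) w ∧
      algebraMap A₀ Lf π ^ k * x = f * w := by
  by_cases hx0 : x = 0
  · exact ⟨0, 0, isIntegral_zero, by rw [hx0]; simp⟩
  have hf0 : f ≠ 0 := fun h => by
    rw [h, zero_mul] at hxy
    exact hx0 (pow_eq_zero_iff (by norm_num) |>.mp hxy)
  have hy0 : y ≠ 0 := fun h => by
    rw [h, mul_zero] at hxy
    exact hx0 (pow_eq_zero_iff (by norm_num) |>.mp hxy)
  -- `z = x / f` lies in every valuation ring
  have hz : ∀ P : Place E Lf, 0 ≤ P.ord τ → x / f ∈ P.toValuationSubring := by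
    intro P hP
    have hxP : 0 ≤ P.ord x :=
      (PlaceAux.ord_nonneg_iff P hx0).mpr (mem_place_of_isIntegral τ P hP hx)
    have hyP : 0 ≤ P.ord y :=
      (PlaceAux.ord_nonneg_iff P hy0).mpr (mem_place_of_isIntegral τ P hP hy)
    have hfP : 0 ≤ P.ord f :=
      (PlaceAux.ord_nonneg_iff P hf0).mpr (adjoin_le_place τ P hP f hfR)
    have h2 : 2 * P.ord x = P.ord f + P.ord y := by
      have := congrArg P.ord hxy
      rw [pow_two, Place.ord_mul P hx0 hx0, Place.ord_mul P hf0 hy0] at this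
      omega
    have hord : 0 ≤ P.ord (x / f) := by
      rw [div_eq_mul_inv, Place.ord_mul P hx0 (inv_ne_zero hf0), Place.ord_inv]
      rcases hfP.eq_or_lt with h0 | hpos
      · omega
      · have := hf P hP hpos
        omega
    exact PlaceAux.mem_of_ord_nonneg P hord
  have hzint := isIntegral_of_forall_place τ hτ (x / f) hz
  obtain ⟨k, hk⟩ := exists_pow_mul_isIntegral hπ τ (x / f) hzint
  refine ⟨k, _, hk, ?_⟩
  field_simp

end core

end Fermat.Agent.INJ

namespace Fermat.Agent.INJ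

open AlgebraicCurve IntermediateField Polynomial Fermat.Agent.S24

section wrapper

variable {A₀ E Lf : Type*} [CommRing A₀] [IsDomain A₀] [IsDiscreteValuationRing A₀]
  [Field E] [Algebra A₀ E] [IsFractionRing A₀ E] [CharZero E]
  [Field Lf] [Algebra E Lf] [Algebra A₀ Lf] [IsScalarTower A₀ E Lf]

/-- **T2 (bridge places → ring form).**  `R = A₀[τ]`, `C = integralClosure R Lf`, `f ∈ R` with
order `≤ 1` at every place `P` with `0 ≤ ord_P τ`.  Then `f ∣ x ^ 2` in `C` implies
`f ∣ π ^ k • x` in `C` for some `k`. -/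
theorem place_bridge {π : A₀} (hπ : Irreducible π) (τ : Lf) (hτ : Transcendental E τ)
    [FiniteDimensional E⟮τ⟯ Lf] (f : Algebra.adjoin A₀ {τ})
    (hf : ∀ P : Place E Lf, 0 ≤ P.ord τ → 0 < P.ord (f : Lf) → P.ord (f : Lf) = 1)
    (x : integralClosure (Algebra.adjoin A₀ {τ}) Lf)
    (hx : algebraMap (Algebra.adjoin A₀ {τ}) (integralClosure (Algebra.adjoin A₀ {τ}) Lf) f
      ∣ x ^ 2) :
    ∃ k : ℕ, algebraMap (Algebra.adjoin A₀ {τ}) (integralClosure (Algebra.adjoin A₀ {τ}) Lf) f ∣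
      (algebraMap A₀ (Algebra.adjoin A₀ {τ}) π ^ k) • x := by
  obtain ⟨y, hy⟩ := hx
  have hxy : (x : Lf) ^ 2 = (f : Lf) * (y : Lf) := by
    have := congrArg (Subtype.val) hy
    simpa using this
  obtain ⟨k, w, hw, hkw⟩ := place_bridge_core hπ τ hτ f.2 hf x.2 y.2 hxy
  refine ⟨k, ⟨w, hw⟩, Subtype.ext ?_⟩
  have h1 : (((algebraMap A₀ (Algebra.adjoin A₀ {τ}) π ^ k) • x :
      integralClosure (Algebra.adjoin A₀ {τ}) Lf) : Lf) = algebraMap A₀ Lf π ^ k * (x : Lf) := by
    rw [Algebra.smul_def]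
    simp only [map_pow, MulMemClass.coe_mul, SubmonoidClass.coe_pow]
    rfl
  rw [h1, hkw]
  rfl

/-- **T2 in the exact shape of `hunr` of A3** (`INJ/Disc.lean`), for one prime `f` of `R`. -/
theorem hunr_of_places {π : A₀} (hπ : Irreducible π) (τ : Lf) (hτ : Transcendental E τ)
    [FiniteDimensional E⟮τ⟯ Lf]
    (hπR : Irreducible (algebraMap A₀ (Algebra.adjoin A₀ {τ}) π))
    (f : Algebra.adjoin A₀ {τ}) (hfp : Prime f)
    (hfπ : ¬ Associated f (algebraMap A₀ (Algebra.adjoin A₀ {τ}) π))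
    (hf : ∀ P : Place E Lf, 0 ≤ P.ord τ → 0 < P.ord (f : Lf) → P.ord (f : Lf) = 1) :
    (∀ m : ℕ, m ≠ 0 → ¬ f ∣ (m : Algebra.adjoin A₀ {τ})) ∧
    ∀ x : integralClosure (Algebra.adjoin A₀ {τ}) Lf,
      algebraMap (Algebra.adjoin A₀ {τ}) (integralClosure (Algebra.adjoin A₀ {τ}) Lf) f ∣ x ^ 2 →
      ∃ a : Algebra.adjoin A₀ {τ}, ¬ f ∣ a ∧
        algebraMap (Algebra.adjoin A₀ {τ}) (integralClosure (Algebra.adjoin A₀ {τ}) Lf) f ∣
          a • x := by
  have hfπ' : ¬ f ∣ algebraMap A₀ (Algebra.adjoin A₀ {τ}) π := by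
    rintro ⟨c, hc⟩
    rcases hπR.isUnit_or_isUnit hc with h | h
    · exact hfp.not_unit h
    · exact hfπ ⟨h.unit, by rw [hc]; rfl⟩
  have hpow : ∀ k : ℕ, ¬ f ∣ algebraMap A₀ (Algebra.adjoin A₀ {τ}) π ^ k := fun k h =>
    hfπ' (hfp.dvd_of_dvd_pow h)
  haveI : CharZero A₀ := (algebraMap A₀ E).charZero
  refine ⟨fun m hm hdvd => ?_, fun x hx => ?_⟩
  · have hm0 : (m : A₀) ≠ 0 := Nat.cast_ne_zero.mpr hm
    obtain ⟨k, hk⟩ := IsDiscreteValuationRing.associated_pow_irreducible hm0 hπ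
    obtain ⟨u, hu⟩ := hk.symm
    apply hpow k
    have h1 : (m : Algebra.adjoin A₀ {τ}) = algebraMap A₀ (Algebra.adjoin A₀ {τ}) (m : A₀) := by
      rw [map_natCast]
    rw [h1, ← hu, map_mul, map_pow] at hdvd
    have hunit : IsUnit (algebraMap A₀ (Algebra.adjoin A₀ {τ}) (u : A₀)) := u.isUnit.map _
    exact (hunit.dvd_mul_right).mp hdvd
  · obtain ⟨k, hk⟩ := place_bridge hπ τ hτ f hf x hx
    exact ⟨_, hpow k, hk⟩

end wrapper

end Fermat.Agent.INJ
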