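import Fermat.Agent.INJ.TSPlan
import Fermat.Agent.INJ.ChartBasics
import Fermat.Agent.INJ.ChartGoodBasis
import Fermat.Agent.INJ.PlaceBridge
import Fermat.Agent.INJ.PiLocallyPrime

/-!
# (INJ) Part A, T3: `NGoodStmt`

Normality of the special fibre at a point over which `Lf` is unramified: instantiate
`pi_locally_prime` (A3) at `R = A₀[τ]`, `C = integralClosure R Lf`, `n = m ∩ R`, with

* ring-theoretic facts on `R` from `ChartBasics.lean` (helper2),
* `htf` = A1 (`TorsionFree.lean`, helper81),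
* `hgen` = A2 (`Components.lean` + `ChartGoodBasis.lean`, helper29),
* `hunr` = T2 (`PlaceBridge.lean`, helper91).
-/

set_option autoImplicit false

namespace Fermat.Agent.INJ

open Polynomial IntermediateField AlgebraicCurve

universe u

/-- **T3.**  `NGoodStmt` holds. -/
theorem nGoodStmt : NGoodStmt.{u} := by
  intro A₀ E Lf _ _ _ _ _ _ _ _ _ _ _ π hπ τ hτ _ hgb m hmax hπm hpl
  haveI := hmax
  -- the base ring `R = A₀[τ]`
  haveI hufm := chart_ufm (A₀ := A₀) (E := E) (τ := τ) hτ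
  haveI hic := chart_isIntegrallyClosed (A₀ := A₀) (E := E) (τ := τ) hτ
  haveI hnoeth := chart_isNoetherianRing (A₀ := A₀) (E := E) (τ := τ) hτ
  have hπR : Prime (algebraMap A₀ ↥(Algebra.adjoin A₀ {τ}) π) := chart_prime hτ hπ
  haveI hpir := chart_quotient_isPrincipalIdealRing (A₀ := A₀) (E := E) (τ := τ) hτ hπ
  -- the fraction field
  letI := FractionRing.liftAlgebra ↥(Algebra.adjoin A₀ {τ}) Lf
  haveI hfd := ChartGB.finiteDimensional_fractionRing (A₀ := A₀) (E := E) τ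
  haveI hsep := ChartGB.isSeparable_fractionRing (A₀ := A₀) (E := E) τ
  haveI hfin : Module.Finite ↥(Algebra.adjoin A₀ {τ})
      ↥(integralClosure ↥(Algebra.adjoin A₀ {τ}) Lf) :=
    IsIntegralClosure.finite ↥(Algebra.adjoin A₀ {τ}) (FractionRing ↥(Algebra.adjoin A₀ {τ})) Lf
      ↥(integralClosure ↥(Algebra.adjoin A₀ {τ}) Lf)
  -- `π` is regular on `C`
  have hπC0 : algebraMap ↥(Algebra.adjoin A₀ {τ}) ↥(integralClosure ↥(Algebra.adjoin A₀ {τ}) Lf)
      (algebraMap A₀ ↥(Algebra.adjoin A₀ {τ}) π) ≠ 0 := by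
    intro h0
    have := FaithfulSMul.algebraMap_injective ↥(Algebra.adjoin A₀ {τ})
      ↥(integralClosure ↥(Algebra.adjoin A₀ {τ}) Lf) (h0.trans (map_zero _).symm)
    exact hπR.ne_zero this
  have hreg : ∀ x : ↥(integralClosure ↥(Algebra.adjoin A₀ {τ}) Lf),
      algebraMap ↥(Algebra.adjoin A₀ {τ}) ↥(integralClosure ↥(Algebra.adjoin A₀ {τ}) Lf)
        (algebraMap A₀ ↥(Algebra.adjoin A₀ {τ}) π) * x = 0 → x = 0 := by
    intro x hx
    rcases mul_eq_zero.mp hx with h | h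
    · exact absurd h hπC0
    · exact h
  -- A1
  have htf : ∀ f : ↥(Algebra.adjoin A₀ {τ}), ¬ algebraMap A₀ ↥(Algebra.adjoin A₀ {τ}) π ∣ f →
      ∀ x : ↥(integralClosure ↥(Algebra.adjoin A₀ {τ}) Lf),
        algebraMap ↥(Algebra.adjoin A₀ {τ}) ↥(integralClosure ↥(Algebra.adjoin A₀ {τ}) Lf)
          (algebraMap A₀ ↥(Algebra.adjoin A₀ {τ}) π) ∣ f • x →
        algebraMap ↥(Algebra.adjoin A₀ {τ}) ↥(integralClosure ↥(Algebra.adjoin A₀ {τ}) Lf)
          (algebraMap A₀ ↥(Algebra.adjoin A₀ {τ}) π) ∣ x :=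
    fun f hf x hx => integralClosure_dvd_of_dvd_smul hπR hf x hx
  -- A2: generic trace form
  haveI hprime : (Ideal.span {algebraMap A₀ ↥(Algebra.adjoin A₀ {τ}) π}).IsPrime :=
    (Ideal.span_singleton_prime hπR.ne_zero).mpr hπR
  obtain ⟨N, b, hb⟩ := ChartGB.exists_goodBasis_of_TSGoodBasis (A₀ := A₀) (E := E) τ hτ π hgb
  have hk := fractionRing_quotient_ker
    (Ideal.span {algebraMap A₀ ↥(Algebra.adjoin A₀ {τ}) π})
  have hgen := Comp.GoodBasis.traceForm_nondegenerate hb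
    (FractionRing (↥(Algebra.adjoin A₀ {τ}) ⧸
      Ideal.span {algebraMap A₀ ↥(Algebra.adjoin A₀ {τ}) π})) hk
  -- the closed point `n = m ∩ R`
  haveI hnmax : (m.comap (algebraMap ↥(Algebra.adjoin A₀ {τ})
      ↥(integralClosure ↥(Algebra.adjoin A₀ {τ}) Lf))).IsMaximal :=
    Ideal.isMaximal_comap_of_isIntegral_of_isMaximal m
  have htower : algebraMap A₀ ↥(integralClosure ↥(Algebra.adjoin A₀ {τ}) Lf) π =
      algebraMap ↥(Algebra.adjoin A₀ {τ}) ↥(integralClosure ↥(Algebra.adjoin A₀ {τ}) Lf)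
        (algebraMap A₀ ↥(Algebra.adjoin A₀ {τ}) π) :=
    IsScalarTower.algebraMap_apply A₀ ↥(Algebra.adjoin A₀ {τ})
      ↥(integralClosure ↥(Algebra.adjoin A₀ {τ}) Lf) π
  have hπn : algebraMap A₀ ↥(Algebra.adjoin A₀ {τ}) π ∈
      m.comap (algebraMap ↥(Algebra.adjoin A₀ {τ})
        ↥(integralClosure ↥(Algebra.adjoin A₀ {τ}) Lf)) := by
    rw [Ideal.mem_comap, ← htower]
    exact hπm
  -- T2: the fibres at the height-one primes through `n`
  have hunr : ∀ f : ↥(Algebra.adjoin A₀ {τ}), Prime f →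
      f ∈ m.comap (algebraMap ↥(Algebra.adjoin A₀ {τ})
        ↥(integralClosure ↥(Algebra.adjoin A₀ {τ}) Lf)) →
      ¬ Associated f (algebraMap A₀ ↥(Algebra.adjoin A₀ {τ}) π) →
      (∀ k : ℕ, k ≠ 0 → ¬ f ∣ (k : ↥(Algebra.adjoin A₀ {τ}))) ∧
      ∀ x : ↥(integralClosure ↥(Algebra.adjoin A₀ {τ}) Lf),
        algebraMap ↥(Algebra.adjoin A₀ {τ}) ↥(integralClosure ↥(Algebra.adjoin A₀ {τ}) Lf) f
          ∣ x ^ 2 →
        ∃ a : ↥(Algebra.adjoin A₀ {τ}), ¬ f ∣ a ∧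
          algebraMap ↥(Algebra.adjoin A₀ {τ}) ↥(integralClosure ↥(Algebra.adjoin A₀ {τ}) Lf) f
            ∣ a • x := by
    intro f hfp hfn hfπ
    exact hunr_of_places hπ τ hτ hπR.irreducible f hfp hfπ
      (fun P _ hpos => hpl P f hfp.irreducible (Ideal.mem_comap.mp hfn) hpos)
  have key := pi_locally_prime hπR hreg htf _ hk hgen
    (m.comap (algebraMap ↥(Algebra.adjoin A₀ {τ})
      ↥(integralClosure ↥(Algebra.adjoin A₀ {τ}) Lf))) hπn hunr m Ideal.map_comap_le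
  rw [htower]
  exact key

end Fermat.Agent.INJ
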