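/-
INJ / Part A, piece A4b (generic commutative algebra): invariants under a finite group.

* `inv_exists_of_fixed`, `inv_dvd_descends`, `inv_exists_avg`: for a finite Galois extension `L'/L`
  and a ring `R → L`, the integral closure `C` of `R` in `L` is the ring of invariants of the
  integral closure `C'` of `R` in `L'`, `C ∩ π C' = π C`, and if `|G|` is invertible in `R`
  every `G`-invariant class of `C' / π C'` comes from `C`  (so `C / π C = (C' / π C')^G`).
* `isInvariant_of_surjective`: invariants pass to equivariant quotients when `|G|` is invertible.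
* `DomainAt`: "the localisation at `P` is a domain", stated elementwise, with
  `domainAt_iff_isDomain_localization`.
* `domainAt_under`: if `A = B^G` and `B` is locally a domain at the prime `Q`, then `A` is locally
  a domain at `Q ∩ A`.
-/
import Mathlib.RingTheory.Invariant.Basic
import Mathlib.FieldTheory.Galois.Basic
import Mathlib.RingTheory.Localization.AtPrime.Basic
import Mathlib.RingTheory.IntegralClosure.IsIntegral.Basic
import Mathlib.RingTheory.Ideal.Quotient.Operations

set_option autoImplicit false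
set_option linter.unusedVariables false
set_option linter.unusedSectionVars false

open scoped Pointwise

namespace Fermat.Agent.INJ

section Galois

variable {R L L' : Type*} [CommRing R] [Field L] [Field L'] [Algebra R L] [Algebra R L']
  [Algebra L L'] [IsScalarTower R L L'] [FiniteDimensional L L'] [IsGalois L L']

/-- `C = (C')^G`: an element of `L'` that is integral over `R` and fixed by `Gal(L'/L)` comes from
an element of `L` integral over `R`. -/
theorem inv_exists_of_fixed {c' : L'} (hc' : IsIntegral R c')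
    (hfix : ∀ g : L' ≃ₐ[L] L', g c' = c') :
    ∃ c : L, IsIntegral R c ∧ algebraMap L L' c = c' := by
  obtain ⟨c, rfl⟩ := (IsGalois.mem_range_algebraMap_iff_fixed (F := L) (E := L') c').mpr hfix
  exact ⟨c, (isIntegral_algebraMap_iff (algebraMap L L').injective).mp hc', rfl⟩

omit [FiniteDimensional L L'] [IsGalois L L'] in
/-- `C ∩ π C' = π C`. -/
theorem inv_dvd_descends {π : R} {c : L} (hc : IsIntegral R c) {d' : L'} (hd' : IsIntegral R d')
    (h : algebraMap L L' c = π • d') : ∃ d : L, IsIntegral R d ∧ c = π • d := by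
  by_cases hπ : algebraMap R L π = 0
  · refine ⟨0, isIntegral_zero, ?_⟩
    have h0 : algebraMap L L' c = 0 := by
      rw [h, Algebra.smul_def, IsScalarTower.algebraMap_apply R L L', hπ, map_zero, zero_mul]
    rw [smul_zero]
    exact (algebraMap L L').injective (by rw [h0, map_zero])
  · have hd : algebraMap L L' ((algebraMap R L π)⁻¹ * c) = d' := by
      rw [map_mul, h, Algebra.smul_def, IsScalarTower.algebraMap_apply R L L', map_inv₀,
        inv_mul_cancel_left₀]
      exact fun h0 => hπ ((algebraMap L L').injective (by rw [h0, map_zero]))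
    refine ⟨(algebraMap R L π)⁻¹ * c, ?_, ?_⟩
    · exact (isIntegral_algebraMap_iff (algebraMap L L').injective).mp (hd ▸ hd')
    · rw [Algebra.smul_def, mul_inv_cancel_left₀ hπ]

/-- Averaging: if `|G|` is invertible in `R`, every element of `C'` that is `G`-invariant
modulo `π C'` is congruent modulo `π C'` to an element of `C`. -/
theorem inv_exists_avg {u : R} (hu : u * (Nat.card (L' ≃ₐ[L] L') : R) = 1) {π : R} {y' : L'}
    (hy' : IsIntegral R y')
    (hinv : ∀ g : L' ≃ₐ[L] L', ∃ d' : L', IsIntegral R d' ∧ g y' - y' = π • d') :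
    ∃ c : L, IsIntegral R c ∧ ∃ d' : L', IsIntegral R d' ∧ algebraMap L L' c - y' = π • d' := by
  classical
  choose d hd hdy using hinv
  have hint : ∀ g : L' ≃ₐ[L] L', IsIntegral R (g y') := fun g =>
    hy'.map ((g : L' →ₐ[L] L').restrictScalars R)
  set s : L' := u • ∑ g : L' ≃ₐ[L] L', g y' with hs
  have hsint : IsIntegral R s :=
    (IsIntegral.sum _ fun g _ => hint g).smul u
  have hsfix : ∀ g : L' ≃ₐ[L] L', g s = s := by
    intro g
    have hgu : g (u • ∑ h : L' ≃ₐ[L] L', h y') = u • g (∑ h : L' ≃ₐ[L] L', h y') :=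
      map_smul ((g : L' →ₐ[L] L').restrictScalars R) u _
    rw [hs, hgu, map_sum]
    congr 1
    exact Fintype.sum_bijective (fun h => g * h) (Group.mulLeft_bijective g) _ _ (fun h => rfl)
  obtain ⟨c, hc, hcs⟩ := inv_exists_of_fixed hsint hsfix
  refine ⟨c, hc, u • ∑ g : L' ≃ₐ[L] L', d g, (IsIntegral.sum _ fun g _ => hd g).smul u, ?_⟩
  have hy : u • ∑ _g : L' ≃ₐ[L] L', y' = y' := by
    rw [Finset.sum_const, Finset.card_univ, ← Nat.card_eq_fintype_card, ← Nat.cast_smul_eq_nsmul R,
      smul_smul, hu, one_smul]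
  have hsub : s - y' = u • ∑ g : L' ≃ₐ[L] L', (g y' - y') := by
    rw [Finset.sum_sub_distrib, smul_sub, hy]
  rw [hcs, hsub, smul_comm π u, Finset.smul_sum (r := π)]
  congr 1
  exact Finset.sum_congr rfl fun g _ => hdy g

end Galois

section Quotient

variable (A B G : Type*) [CommRing A] [CommRing B] [Algebra A B] [Group G] [Finite G]
  [MulSemiringAction G B] [Algebra.IsInvariant A B G]
variable (A' B' : Type*) [CommRing A'] [CommRing B'] [Algebra A' B'] [MulSemiringAction G B']

/-- Invariants pass to equivariant quotients when `|G|` is invertible. -/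
theorem isInvariant_of_surjective (qA : A →+* A') (qB : B →+* B')
    (hq : ∀ a : A, qB (algebraMap A B a) = algebraMap A' B' (qA a))
    (hsurj : Function.Surjective qB) (hequiv : ∀ (g : G) (b : B), qB (g • b) = g • qB b)
    {u : A} (hu : u * (Nat.card G : A) = 1) :
    Algebra.IsInvariant A' B' G := by
  classical
  cases nonempty_fintype G
  refine ⟨fun b' hb' => ?_⟩
  obtain ⟨b, rfl⟩ := hsurj b'
  set s : B := algebraMap A B u * ∑ g : G, g • b with hs
  have hsfix : ∀ g : G, g • s = s := by
    intro g
    rw [hs, smul_mul', Finset.smul_sum]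
    have h1 : ∑ h : G, g • h • b = ∑ h : G, h • b :=
      Fintype.sum_bijective (fun h => g * h) (Group.mulLeft_bijective g) _ _
        (fun h => by rw [mul_smul])
    rw [h1]
    -- `g • algebraMap u`: use that `algebraMap u * Σ` is determined after multiplying by `|G|`
    have h2 : g • (algebraMap A B u) = algebraMap A B u := by
      -- `algebraMap u` is the inverse of `|G|` in `B`, and `g` fixes `|G|`
      have hinv : algebraMap A B u * (Nat.card G : B) = 1 := by
        have := congrArg (algebraMap A B) hu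
        simpa using this
      have hnat : g • (Nat.card G : B) = (Nat.card G : B) :=
        map_natCast (MulSemiringAction.toRingHom G B g) _
      have hg : g • (algebraMap A B u) * (Nat.card G : B) = 1 := by
        have : g • (algebraMap A B u * (Nat.card G : B)) = 1 := by rw [hinv, smul_one]
        rwa [smul_mul', hnat] at this
      calc g • (algebraMap A B u)
          = g • (algebraMap A B u) * (algebraMap A B u * (Nat.card G : B)) := by
            rw [hinv, mul_one]
        _ = (g • (algebraMap A B u) * (Nat.card G : B)) * algebraMap A B u := by ring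
        _ = algebraMap A B u := by rw [hg, one_mul]
    rw [h2]
  obtain ⟨a, ha⟩ := Algebra.IsInvariant.isInvariant (A := A) (G := G) s hsfix
  refine ⟨qA a, ?_⟩
  rw [← hq, ha, hs, map_mul, map_sum]
  have h3 : ∀ g : G, qB (g • b) = qB b := fun g => by rw [hequiv, hb']
  rw [Finset.sum_congr rfl fun g _ => h3 g, Finset.sum_const, Finset.card_univ,
    ← Nat.card_eq_fintype_card, nsmul_eq_mul, ← mul_assoc]
  have h4 : qB (algebraMap A B u) * (Nat.card G : B') = 1 := by
    have := congrArg (fun x => qB (algebraMap A B x)) hu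
    simpa using this
  rw [h4, one_mul]

end Quotient

section DomainAt

variable {A : Type*} [CommRing A]

/-- "The localisation of `A` at the prime `P` is a domain", stated elementwise. -/
def DomainAt (P : Ideal A) : Prop :=
  ∀ x y : A, x * y = 0 → (∃ s : A, s ∉ P ∧ s * x = 0) ∨ (∃ s : A, s ∉ P ∧ s * y = 0)

theorem domainAt_iff_isDomain_localization (P : Ideal A) [P.IsPrime] :
    DomainAt P ↔ IsDomain (Localization.AtPrime P) := by
  constructor
  · intro h
    have : NoZeroDivisors (Localization.AtPrime P) := by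
      refine ⟨fun {a b} hab => ?_⟩
      obtain ⟨⟨x, s⟩, rfl⟩ := IsLocalization.mk'_surjective P.primeCompl a
      obtain ⟨⟨y, t⟩, rfl⟩ := IsLocalization.mk'_surjective P.primeCompl b
      simp only at hab ⊢
      rw [← IsLocalization.mk'_mul, IsLocalization.mk'_eq_zero_iff] at hab
      obtain ⟨m, hm⟩ := hab
      have hm' : (m * x) * y = 0 := by rw [mul_assoc]; exact hm
      rcases h _ _ hm' with ⟨r, hr, hrx⟩ | ⟨r, hr, hry⟩
      · left
        rw [IsLocalization.mk'_eq_zero_iff]
        exact ⟨⟨r * m, P.primeCompl.mul_mem hr m.2⟩, by simpa [mul_assoc] using hrx⟩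
      · right
        rw [IsLocalization.mk'_eq_zero_iff]
        exact ⟨⟨r, hr⟩, hry⟩
    exact NoZeroDivisors.to_isDomain _
  · intro h x y hxy
    have h0 : algebraMap A (Localization.AtPrime P) x * algebraMap A (Localization.AtPrime P) y
        = 0 := by rw [← map_mul, hxy, map_zero]
    rcases mul_eq_zero.mp h0 with h1 | h1
    · left
      obtain ⟨m, hm⟩ := (IsLocalization.map_eq_zero_iff P.primeCompl _ x).mp h1
      exact ⟨m, m.2, hm⟩
    · right
      obtain ⟨m, hm⟩ := (IsLocalization.map_eq_zero_iff P.primeCompl _ y).mp h1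
      exact ⟨m, m.2, hm⟩

variable {B : Type*} [CommRing B] [Algebra A B]

/-- `DomainAt` is invariant under the group action. -/
theorem domainAt_smul {G : Type*} [Group G] [MulSemiringAction G B]
    (Q : Ideal B) (g : G) (h : DomainAt Q) : DomainAt (g • Q) := by
  intro x y hxy
  have hxy' : (g⁻¹ • x) * (g⁻¹ • y) = 0 := by rw [← smul_mul', hxy, smul_zero]
  rcases h _ _ hxy' with ⟨s, hs, hsx⟩ | ⟨s, hs, hsy⟩
  · left
    refine ⟨g • s, fun hmem => hs (Ideal.smul_mem_pointwise_smul_iff.mp hmem), ?_⟩
    have := congrArg (fun z => g • z) hsx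
    simpa [smul_mul'] using this
  · right
    refine ⟨g • s, fun hmem => hs (Ideal.smul_mem_pointwise_smul_iff.mp hmem), ?_⟩
    have := congrArg (fun z => g • z) hsy
    simpa [smul_mul'] using this

/-- **Local domain property descends to invariants.** -/
theorem domainAt_under (G : Type*) [Group G] [Finite G] [MulSemiringAction G B]
    [SMulCommClass G A B] [Algebra.IsInvariant A B G]
    (hinj : Function.Injective (algebraMap A B)) (Q : Ideal B) [Q.IsPrime]
    (h : DomainAt Q) : DomainAt (Q.under A) := by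
  classical
  cases nonempty_fintype G
  -- one-sided statement
  have key : ∀ x : A, (∃ s : B, s ∉ Q ∧ s * algebraMap A B x = 0) →
      ∃ a : A, a ∉ Q.under A ∧ a * x = 0 := by
    rintro x ⟨s, hs, hsx⟩
    -- the annihilator ideal of `x` in `B`
    let I : Ideal B := Ideal.span {algebraMap A B x} |>.annihilator
    have hI : ∀ t : B, t ∈ I ↔ t * algebraMap A B x = 0 := fun t => by
      simp only [I, Submodule.mem_annihilator_span_singleton, smul_eq_mul]
    have hIg : ∀ (g : G) (t : B), t ∈ I → g • t ∈ I := by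
      intro g t ht
      rw [hI] at ht ⊢
      have := congrArg (fun z => g • z) ht
      simpa [smul_mul', smul_algebraMap] using this
    -- `I` is not contained in any conjugate of `Q`
    have hnot : ¬ ((I : Set B) ⊆ ⋃ g ∈ ((Finset.univ : Finset G) : Set G), ((g • Q : Ideal B) : Set B)) := by
      rw [Ideal.subset_union_prime (1 : G) (1 : G)
        (fun g _ _ _ => Ideal.IsPrime.smul (I := Q) g)]
      rintro ⟨g, -, hg⟩
      have h1 : g • s ∈ I := hIg g s ((hI s).mpr hsx)
      exact hs (Ideal.smul_mem_pointwise_smul_iff.mp (hg h1))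
    obtain ⟨t, htI, htQ⟩ := Set.not_subset.mp hnot
    have htQ' : ∀ g : G, t ∉ g • Q := fun g hmem =>
      htQ (Set.mem_biUnion (Finset.mem_coe.mpr (Finset.mem_univ g)) hmem)
    -- the norm of `t`
    obtain ⟨a, ha⟩ := Algebra.IsInvariant.isInvariant (A := A) (G := G)
      (∏ g : G, g • t) (Finset.smul_prod_perm t)
    refine ⟨a, ?_, ?_⟩
    · intro haQ
      have : ∏ g : G, g • t ∈ Q := by rw [← ha]; exact haQ
      obtain ⟨g, -, hg⟩ := (Ideal.IsPrime.prod_mem_iff (p := Q)).mp this
      exact htQ' g⁻¹ (Ideal.mem_inv_pointwise_smul_iff.mpr hg)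
    · apply hinj
      rw [map_mul, map_zero, ha]
      have hmem : ∏ g : G, g • t ∈ I := by
        rw [← Finset.mul_prod_erase Finset.univ _ (Finset.mem_univ (1 : G)), one_smul]
        exact I.mul_mem_right _ htI
      exact (hI _).mp hmem
  intro x y hxy
  have hxy' : algebraMap A B x * algebraMap A B y = 0 := by rw [← map_mul, hxy, map_zero]
  rcases h _ _ hxy' with hx | hy
  · exact Or.inl (key x hx)
  · exact Or.inr (key y hy)

/-- Every prime of `A = B^G` lies under a prime of `B`; so if `B` is locally a domain at every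
prime over `P`, then `A` is locally a domain at `P`. -/
theorem domainAt_of_forall_over (G : Type*) [Group G] [Finite G] [MulSemiringAction G B]
    [SMulCommClass G A B] [Algebra.IsInvariant A B G]
    (hinj : Function.Injective (algebraMap A B)) (P : Ideal A) [P.IsPrime]
    (h : ∀ Q : Ideal B, Q.IsPrime → Q.under A = P → DomainAt Q) : DomainAt P := by
  have hint : Algebra.IsIntegral A B := Algebra.IsInvariant.isIntegral A B G
  have hker : Ideal.comap (algebraMap A B) (⊥ : Ideal B) ≤ P := by
    intro x hx
    have hx0 : algebraMap A B x = 0 := hx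
    have : x = 0 := hinj (by rw [hx0, map_zero])
    rw [this]
    exact P.zero_mem
  obtain ⟨Q, -, hQ, hQP⟩ := Ideal.exists_ideal_over_prime_of_isIntegral P (⊥ : Ideal B) hker
  have hQP' : Q.under A = P := hQP
  have := domainAt_under G hinj Q (h Q hQ hQP')
  rwa [hQP'] at this

end DomainAt

section ElementForm

variable {C C' : Type*} [CommRing C] [CommRing C'] [Algebra C C']

/-- Element form of `DomainAt` for a quotient `C / π`: "`π` is locally prime at `m`". -/
def PiLocallyPrimeAt (π : C) (m : Ideal C) : Prop :=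
  ∀ x y : C, π ∣ x * y → ∃ u : C, u ∉ m ∧ (π ∣ u * x ∨ π ∣ u * y)

/-- One-sided form: if `π ∣ s * x` in `C'` with `s ∉ m'`, then `π ∣ a * x` in `C = (C')^G` for some
`a ∈ C`, `a ∉ m' ∩ C`.  (No invertibility of `|G|` is needed, only `C ∩ π C' = π C`.) -/
theorem exists_dvd_mul_under (G : Type*) [Group G] [Finite G] [MulSemiringAction G C']
    [SMulCommClass G C C'] [Algebra.IsInvariant C C' G] (π : C)
    (hdesc : ∀ c : C, algebraMap C C' π ∣ algebraMap C C' c → π ∣ c)
    (m' : Ideal C') [m'.IsPrime] (x : C)
    (hx : ∃ s : C', s ∉ m' ∧ algebraMap C C' π ∣ s * algebraMap C C' x) :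
    ∃ a : C, a ∉ m'.under C ∧ π ∣ a * x := by
  classical
  cases nonempty_fintype G
  obtain ⟨s, hs, hsx⟩ := hx
  -- the ideal of all `t` with `π ∣ t * x`
  let I : Ideal C' :=
    { carrier := {t | algebraMap C C' π ∣ t * algebraMap C C' x}
      add_mem' := fun {a b} ha hb => by
        show _ ∣ (a + b) * _
        rw [add_mul]
        exact dvd_add ha hb
      zero_mem' := by
        show algebraMap C C' π ∣ (0 : C') * algebraMap C C' x
        rw [zero_mul]
        exact dvd_zero _
      smul_mem' := fun c a ha => by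
        show _ ∣ (c • a) * _
        rw [smul_eq_mul, mul_assoc]
        exact Dvd.dvd.mul_left ha c }
  have hI : ∀ t : C', t ∈ I ↔ algebraMap C C' π ∣ t * algebraMap C C' x := fun t => Iff.rfl
  have hIg : ∀ (g : G) (t : C'), t ∈ I → g • t ∈ I := by
    intro g t ht
    rw [hI] at ht ⊢
    obtain ⟨d, hd⟩ := ht
    refine ⟨g • d, ?_⟩
    have := congrArg (fun z => g • z) hd
    simpa [smul_mul', smul_algebraMap] using this
  have hnot : ¬ ((I : Set C') ⊆
      ⋃ g ∈ ((Finset.univ : Finset G) : Set G), ((g • m' : Ideal C') : Set C')) := by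
    rw [Ideal.subset_union_prime (1 : G) (1 : G)
      (fun g _ _ _ => Ideal.IsPrime.smul (I := m') g)]
    rintro ⟨g, -, hg⟩
    have h1 : g • s ∈ I := hIg g s ((hI s).mpr hsx)
    exact hs (Ideal.smul_mem_pointwise_smul_iff.mp (hg h1))
  obtain ⟨t, htI, htQ⟩ := Set.not_subset.mp hnot
  have htQ' : ∀ g : G, t ∉ g • m' := fun g hmem =>
    htQ (Set.mem_biUnion (Finset.mem_coe.mpr (Finset.mem_univ g)) hmem)
  obtain ⟨a, ha⟩ := Algebra.IsInvariant.isInvariant (A := C) (G := G)
    (∏ g : G, g • t) (Finset.smul_prod_perm t)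
  refine ⟨a, ?_, ?_⟩
  · intro haQ
    have : ∏ g : G, g • t ∈ m' := by rw [← ha]; exact haQ
    obtain ⟨g, -, hg⟩ := (Ideal.IsPrime.prod_mem_iff (p := m')).mp this
    exact htQ' g⁻¹ (Ideal.mem_inv_pointwise_smul_iff.mpr hg)
  · apply hdesc
    rw [map_mul, ha]
    have hmem : ∏ g : G, g • t ∈ I := by
      rw [← Finset.mul_prod_erase Finset.univ _ (Finset.mem_univ (1 : G)), one_smul]
      exact I.mul_mem_right _ htI
    exact (hI _).mp hmem

/-- **Local primeness of `π` descends to invariants** (element form, matching A3's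
`pi_locally_prime`). -/
theorem piLocallyPrimeAt_under (G : Type*) [Group G] [Finite G] [MulSemiringAction G C']
    [SMulCommClass G C C'] [Algebra.IsInvariant C C' G] (π : C)
    (hdesc : ∀ c : C, algebraMap C C' π ∣ algebraMap C C' c → π ∣ c)
    (m' : Ideal C') [m'.IsPrime] (h : PiLocallyPrimeAt (algebraMap C C' π) m') :
    PiLocallyPrimeAt π (m'.under C) := by
  intro x y hxy
  have hxy' : algebraMap C C' π ∣ algebraMap C C' x * algebraMap C C' y := by
    rw [← map_mul]
    exact map_dvd (algebraMap C C') hxy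
  obtain ⟨u, hu, hux | huy⟩ := h _ _ hxy'
  · obtain ⟨a, ha, hax⟩ := exists_dvd_mul_under G π hdesc m' x ⟨u, hu, hux⟩
    exact ⟨a, ha, Or.inl hax⟩
  · obtain ⟨a, ha, hay⟩ := exists_dvd_mul_under G π hdesc m' y ⟨u, hu, huy⟩
    exact ⟨a, ha, Or.inr hay⟩

/-- `PiLocallyPrimeAt π m` is `DomainAt` for the image of `m` in `C / π`. -/
theorem piLocallyPrimeAt_iff_domainAt (π : C) (m : Ideal C) (hπ : π ∈ m) :
    PiLocallyPrimeAt π m ↔
      DomainAt (m.map (Ideal.Quotient.mk (Ideal.span {π}))) := by
  have hmem : ∀ u : C, Ideal.Quotient.mk (Ideal.span {π}) u ∈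
      m.map (Ideal.Quotient.mk (Ideal.span {π})) ↔ u ∈ m := by
    intro u
    rw [Ideal.mem_map_iff_of_surjective _ Ideal.Quotient.mk_surjective]
    constructor
    · rintro ⟨v, hv, hvu⟩
      have : v - u ∈ Ideal.span {π} := Ideal.Quotient.eq.mp hvu
      obtain ⟨d, hd⟩ := Ideal.mem_span_singleton.mp this
      have : u = v - π * d := by rw [← hd]; ring
      rw [this]
      exact m.sub_mem hv (m.mul_mem_right _ hπ)
    · intro hu
      exact ⟨u, hu, rfl⟩
  have hz : ∀ u : C, Ideal.Quotient.mk (Ideal.span {π}) u = 0 ↔ π ∣ u := fun u => by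
    rw [Ideal.Quotient.eq_zero_iff_mem, Ideal.mem_span_singleton]
  constructor
  · intro h X Y hXY
    obtain ⟨x, rfl⟩ := Ideal.Quotient.mk_surjective X
    obtain ⟨y, rfl⟩ := Ideal.Quotient.mk_surjective Y
    rw [← map_mul, hz] at hXY
    obtain ⟨u, hu, hux | huy⟩ := h x y hXY
    · exact Or.inl ⟨Ideal.Quotient.mk _ u, fun hu' => hu ((hmem u).mp hu'), by
        rw [← map_mul, hz]; exact hux⟩
    · exact Or.inr ⟨Ideal.Quotient.mk _ u, fun hu' => hu ((hmem u).mp hu'), by
        rw [← map_mul, hz]; exact huy⟩
  · intro h x y hxy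
    have hXY : Ideal.Quotient.mk (Ideal.span {π}) x * Ideal.Quotient.mk (Ideal.span {π}) y = 0 := by
      rw [← map_mul, hz]; exact hxy
    rcases h _ _ hXY with ⟨U, hU, hUx⟩ | ⟨U, hU, hUy⟩
    · obtain ⟨u, rfl⟩ := Ideal.Quotient.mk_surjective U
      refine ⟨u, fun hu => hU ((hmem u).mpr hu), Or.inl ?_⟩
      rwa [← map_mul, hz] at hUx
    · obtain ⟨u, rfl⟩ := Ideal.Quotient.mk_surjective U
      refine ⟨u, fun hu => hU ((hmem u).mpr hu), Or.inr ?_⟩
      rwa [← map_mul, hz] at hUy

end ElementForm

end Fermat.Agent.INJ
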