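import Mathlib
import Fermat.Agent.INJ.Invariants
import Fermat.Agent.INJ.LocDomain

/-!
# (INJ) Part A, T4c: descent of local primeness of `π` along the Kummer cover `s ^ e = τ - c`

`R = A₀[τ] ⊂ Lf`, `R' = A₀[s] ⊂ L'`, `L' / Lf` finite Galois, `s ^ e = τ - c`;
`C`, `C'` the integral closures of `R` in `Lf` and of `R'` in `L'`.  Then `C = (C')^G`,
`C ∩ π C' = π C`, and `LocDomainAt C' π m'` at one (every) maximal ideal `m'` over `m` implies
`LocDomainAt C π m`.
-/

set_option autoImplicit false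

namespace Fermat.Agent.INJ.NTame

open Polynomial

universe u

section Setup

variable {A₀ Lf L' : Type*} [CommRing A₀] [Field Lf] [Algebra A₀ Lf]
  [Field L'] [Algebra Lf L'] [Algebra A₀ L'] [IsScalarTower A₀ Lf L']

/-- `A₀[τ]` maps into `A₀[s]` when `s ^ e = τ - c`. -/
theorem descent_mem_adjoin (τ : Lf) (c : A₀) (e : ℕ) (s : L')
    (hs : s ^ e = algebraMap Lf L' (τ - algebraMap A₀ Lf c)) {r : Lf}
    (hr : r ∈ Algebra.adjoin A₀ {τ}) : algebraMap Lf L' r ∈ Algebra.adjoin A₀ {s} := by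
  induction hr using Algebra.adjoin_induction with
  | mem x hx =>
    rw [Set.mem_singleton_iff] at hx
    subst hx
    have h1 : algebraMap Lf L' x = s ^ e + algebraMap A₀ L' c := by
      rw [hs, map_sub, ← IsScalarTower.algebraMap_apply A₀ Lf L']
      ring
    rw [h1]
    exact Subalgebra.add_mem _ (Subalgebra.pow_mem _ (Algebra.self_mem_adjoin_singleton A₀ s) e)
      (Subalgebra.algebraMap_mem _ c)
  | algebraMap a =>
    rw [← IsScalarTower.algebraMap_apply A₀ Lf L']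
    exact Subalgebra.algebraMap_mem _ a
  | add x y _ _ hx hy =>
    rw [map_add]; exact Subalgebra.add_mem _ hx hy
  | mul x y _ _ hx hy =>
    rw [map_mul]; exact Subalgebra.mul_mem _ hx hy

/-- the ring homomorphism `A₀[τ] → A₀[s]` -/
noncomputable def descentHom (τ : Lf) (c : A₀) (e : ℕ) (s : L')
    (hs : s ^ e = algebraMap Lf L' (τ - algebraMap A₀ Lf c)) :
    ↥(Algebra.adjoin A₀ {τ}) →+* ↥(Algebra.adjoin A₀ {s}) where
  toFun r := ⟨algebraMap Lf L' (r : Lf), descent_mem_adjoin τ c e s hs r.2⟩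
  map_one' := Subtype.ext (by simp)
  map_mul' x y := Subtype.ext (by simp)
  map_zero' := Subtype.ext (by simp)
  map_add' x y := Subtype.ext (by simp)

theorem descentHom_coe (τ : Lf) (c : A₀) (e : ℕ) (s : L')
    (hs : s ^ e = algebraMap Lf L' (τ - algebraMap A₀ Lf c)) (r : ↥(Algebra.adjoin A₀ {τ})) :
    ((descentHom τ c e s hs r : ↥(Algebra.adjoin A₀ {s})) : L') = algebraMap Lf L' (r : Lf) := rfl

/-- integrality over `A₀[τ]` implies integrality over `A₀[s]` -/
theorem isIntegral_adjoin_s_of_isIntegral (τ : Lf) (c : A₀) (e : ℕ) (s : L')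
    (hs : s ^ e = algebraMap Lf L' (τ - algebraMap A₀ Lf c)) {x' : L'}
    (hx' : IsIntegral ↥(Algebra.adjoin A₀ {τ}) x') : IsIntegral ↥(Algebra.adjoin A₀ {s}) x' := by
  have := IsIntegral.map_of_comp_eq (descentHom τ c e s hs) (RingHom.id L') (by
    ext r; rfl) hx'
  simpa using this

/-- `A₀[s]` is integral over `A₀[τ]` (inside `L'`). -/
theorem isIntegral_of_mem_adjoin_s (τ : Lf) (c : A₀) (e : ℕ) (he : e ≠ 0) (s : L')
    (hs : s ^ e = algebraMap Lf L' (τ - algebraMap A₀ Lf c)) {y : L'}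
    (hy : y ∈ Algebra.adjoin A₀ {s}) : IsIntegral ↥(Algebra.adjoin A₀ {τ}) y := by
  induction hy using Algebra.adjoin_induction with
  | mem x hx =>
    rw [Set.mem_singleton_iff] at hx
    subst hx
    let r : ↥(Algebra.adjoin A₀ {τ}) :=
      ⟨τ - algebraMap A₀ Lf c, Subalgebra.sub_mem _ (Algebra.self_mem_adjoin_singleton A₀ τ)
        (Subalgebra.algebraMap_mem _ c)⟩
    refine ⟨X ^ e - C r, monic_X_pow_sub_C r he, ?_⟩
    rw [eval₂_sub, eval₂_pow, eval₂_X, eval₂_C, hs, sub_eq_zero]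
    rfl
  | algebraMap a =>
    have h1 : algebraMap A₀ L' a =
        algebraMap ↥(Algebra.adjoin A₀ {τ}) L' (algebraMap A₀ ↥(Algebra.adjoin A₀ {τ}) a) := by
      rw [IsScalarTower.algebraMap_apply A₀ Lf L']
      rfl
    rw [h1]
    exact isIntegral_algebraMap
  | add x y _ _ hx hy => exact hx.add hy
  | mul x y _ _ hx hy => exact hx.mul hy

/-- integrality over `A₀[s]` implies integrality over `A₀[τ]` -/
theorem isIntegral_of_isIntegral_adjoin_s (τ : Lf) (c : A₀) (e : ℕ) (he : e ≠ 0) (s : L')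
    (hs : s ^ e = algebraMap Lf L' (τ - algebraMap A₀ Lf c)) {x' : L'}
    (hx' : IsIntegral ↥(Algebra.adjoin A₀ {s}) x') : IsIntegral ↥(Algebra.adjoin A₀ {τ}) x' := by
  letI : Algebra ↥(Algebra.adjoin A₀ {τ}) ↥(Algebra.adjoin A₀ {s}) :=
    (descentHom τ c e s hs).toAlgebra
  haveI : IsScalarTower ↥(Algebra.adjoin A₀ {τ}) ↥(Algebra.adjoin A₀ {s}) L' :=
    IsScalarTower.of_algebraMap_eq (fun _ => rfl)
  haveI : Algebra.IsIntegral ↥(Algebra.adjoin A₀ {τ}) ↥(Algebra.adjoin A₀ {s}) := by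
    refine ⟨fun y => ?_⟩
    have h1 : IsIntegral ↥(Algebra.adjoin A₀ {τ}) (algebraMap ↥(Algebra.adjoin A₀ {s}) L' y) :=
      isIntegral_of_mem_adjoin_s τ c e he s hs y.2
    exact (isIntegral_algebraMap_iff
      (FaithfulSMul.algebraMap_injective ↥(Algebra.adjoin A₀ {s}) L')).mp h1
  exact isIntegral_trans x' hx'

end Setup

/-- **T4c (descent).**  `LocDomainAt C' π m'` for the maximal ideals `m'` of `C'` over `m`
implies `LocDomainAt C π m`. -/
theorem ntame_descent
    {A₀ E Lf L' : Type u} [CommRing A₀] [IsDomain A₀]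
    [Field E] [Algebra A₀ E] [Field Lf] [Algebra E Lf] [Algebra A₀ Lf] [IsScalarTower A₀ E Lf]
    [Field L'] [Algebra E L'] [Algebra Lf L'] [Algebra A₀ L']
    [IsScalarTower E Lf L'] [IsScalarTower A₀ E L'] [IsScalarTower A₀ Lf L']
    [FiniteDimensional Lf L'] [IsGalois Lf L']
    (π : A₀) (τ : Lf) (c : A₀) (e : ℕ) (he : e ≠ 0) (s : L')
    (hs : s ^ e = algebraMap Lf L' (τ - algebraMap A₀ Lf c))
    (m : Ideal (integralClosure (Algebra.adjoin A₀ {τ}) Lf)) (hm : m.IsMaximal)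
    (hπm : algebraMap A₀ (integralClosure (Algebra.adjoin A₀ {τ}) Lf) π ∈ m)
    (hloc : ∀ m' : Ideal (integralClosure (Algebra.adjoin A₀ {s}) L'), m'.IsMaximal →
       algebraMap A₀ (integralClosure (Algebra.adjoin A₀ {s}) L') π ∈ m' →
       (∀ (x : integralClosure (Algebra.adjoin A₀ {τ}) Lf)
          (x' : integralClosure (Algebra.adjoin A₀ {s}) L'),
          (x' : L') = algebraMap Lf L' (x : Lf) → (x' ∈ m' ↔ x ∈ m)) →
       LocDomainAt (integralClosure (Algebra.adjoin A₀ {s}) L')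
         (algebraMap A₀ (integralClosure (Algebra.adjoin A₀ {s}) L') π) m') :
    LocDomainAt (integralClosure (Algebra.adjoin A₀ {τ}) Lf)
      (algebraMap A₀ (integralClosure (Algebra.adjoin A₀ {τ}) Lf) π) m := by
  classical
  haveI := hm
  -- integrality transfer
  have hint_up : ∀ x : Lf, IsIntegral ↥(Algebra.adjoin A₀ {τ}) x →
      IsIntegral ↥(Algebra.adjoin A₀ {s}) (algebraMap Lf L' x) := fun x hx =>
    isIntegral_adjoin_s_of_isIntegral τ c e s hs
      (hx.map (IsScalarTower.toAlgHom ↥(Algebra.adjoin A₀ {τ}) Lf L'))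
  have hint_g : ∀ (g : L' ≃ₐ[Lf] L') (x' : L'), IsIntegral ↥(Algebra.adjoin A₀ {s}) x' →
      IsIntegral ↥(Algebra.adjoin A₀ {s}) (g x') := fun g x' hx' =>
    isIntegral_adjoin_s_of_isIntegral τ c e s hs
      ((isIntegral_of_isIntegral_adjoin_s τ c e he s hs hx').map
        ((g : L' →ₐ[Lf] L').restrictScalars ↥(Algebra.adjoin A₀ {τ})))
  -- the inclusion `C → C'`
  let ι : ↥(integralClosure ↥(Algebra.adjoin A₀ {τ}) Lf) →+*
      ↥(integralClosure ↥(Algebra.adjoin A₀ {s}) L') :=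
    { toFun := fun x => ⟨algebraMap Lf L' (x : Lf), hint_up _ x.2⟩
      map_one' := Subtype.ext (by simp)
      map_mul' := fun x y => Subtype.ext (by simp)
      map_zero' := Subtype.ext (by simp)
      map_add' := fun x y => Subtype.ext (by simp) }
  have hι : ∀ x, ((ι x : ↥(integralClosure ↥(Algebra.adjoin A₀ {s}) L')) : L') =
      algebraMap Lf L' (x : Lf) := fun _ => rfl
  letI : Algebra ↥(integralClosure ↥(Algebra.adjoin A₀ {τ}) Lf)
      ↥(integralClosure ↥(Algebra.adjoin A₀ {s}) L') := ι.toAlgebra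
  have hιinj : Function.Injective ι := by
    intro x y hxy
    apply Subtype.ext
    apply (algebraMap Lf L').injective
    rw [← hι, ← hι, hxy]
  -- the group action on `C'`
  letI : MulSemiringAction (L' ≃ₐ[Lf] L') ↥(integralClosure ↥(Algebra.adjoin A₀ {s}) L') :=
    { smul := fun g x => ⟨g (x : L'), hint_g g _ x.2⟩
      one_smul := fun x => Subtype.ext rfl
      mul_smul := fun g h x => Subtype.ext rfl
      smul_zero := fun g => Subtype.ext (map_zero g)
      smul_add := fun g x y => Subtype.ext (map_add g _ _)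
      smul_one := fun g => Subtype.ext (map_one g)
      smul_mul := fun g x y => Subtype.ext (map_mul g _ _) }
  have hsmul : ∀ (g : L' ≃ₐ[Lf] L') (x : ↥(integralClosure ↥(Algebra.adjoin A₀ {s}) L')),
      ((g • x : ↥(integralClosure ↥(Algebra.adjoin A₀ {s}) L')) : L') = g (x : L') :=
    fun _ _ => rfl
  haveI : SMulCommClass (L' ≃ₐ[Lf] L') ↥(integralClosure ↥(Algebra.adjoin A₀ {τ}) Lf)
      ↥(integralClosure ↥(Algebra.adjoin A₀ {s}) L') := by
    refine ⟨fun g x y => Subtype.ext ?_⟩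
    rw [hsmul, Algebra.smul_def, Algebra.smul_def]
    show g ((ι x : L') * (y : L')) = (ι x : L') * ((g • y : _) : L')
    rw [map_mul, hι, AlgEquiv.commutes, hsmul]
  haveI : Algebra.IsInvariant ↥(integralClosure ↥(Algebra.adjoin A₀ {τ}) Lf)
      ↥(integralClosure ↥(Algebra.adjoin A₀ {s}) L') (L' ≃ₐ[Lf] L') := by
    refine ⟨fun x' hx' => ?_⟩
    have hfix : ∀ g : L' ≃ₐ[Lf] L', g (x' : L') = (x' : L') := fun g => by
      have := congrArg Subtype.val (hx' g)
      exact this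
    obtain ⟨y, hy, hyx⟩ := inv_exists_of_fixed (R := ↥(Algebra.adjoin A₀ {τ}))
      (isIntegral_of_isIntegral_adjoin_s τ c e he s hs x'.2) hfix
    exact ⟨⟨y, hy⟩, Subtype.ext hyx⟩
  -- `C ∩ π C' = π C`
  have hdesc : ∀ y : ↥(integralClosure ↥(Algebra.adjoin A₀ {τ}) Lf),
      algebraMap ↥(integralClosure ↥(Algebra.adjoin A₀ {τ}) Lf)
          ↥(integralClosure ↥(Algebra.adjoin A₀ {s}) L')
          (algebraMap A₀ ↥(integralClosure ↥(Algebra.adjoin A₀ {τ}) Lf) π) ∣
        algebraMap ↥(integralClosure ↥(Algebra.adjoin A₀ {τ}) Lf)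
          ↥(integralClosure ↥(Algebra.adjoin A₀ {s}) L') y →
      algebraMap A₀ ↥(integralClosure ↥(Algebra.adjoin A₀ {τ}) Lf) π ∣ y := by
    rintro y ⟨d', hd'⟩
    have h1 : algebraMap Lf L' (y : Lf) =
        (algebraMap A₀ ↥(Algebra.adjoin A₀ {τ}) π) • (d' : L') := by
      have h2 := congrArg Subtype.val hd'
      have h3 : algebraMap Lf L' (y : Lf) =
          algebraMap Lf L' (algebraMap A₀ Lf π) * (d' : L') := h2
      rw [h3, Algebra.smul_def]
      rfl
    obtain ⟨d, hd, hyd⟩ := inv_dvd_descends (R := ↥(Algebra.adjoin A₀ {τ})) y.2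
      (isIntegral_of_isIntegral_adjoin_s τ c e he s hs d'.2) h1
    refine ⟨⟨d, hd⟩, Subtype.ext ?_⟩
    rw [hyd, Algebra.smul_def]
    rfl
  -- a maximal ideal `m'` over `m`
  haveI : Algebra.IsIntegral ↥(integralClosure ↥(Algebra.adjoin A₀ {τ}) Lf)
      ↥(integralClosure ↥(Algebra.adjoin A₀ {s}) L') :=
    Algebra.IsInvariant.isIntegral _ _ (L' ≃ₐ[Lf] L')
  have hker : RingHom.ker (algebraMap ↥(integralClosure ↥(Algebra.adjoin A₀ {τ}) Lf)
      ↥(integralClosure ↥(Algebra.adjoin A₀ {s}) L')) ≤ m := by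
    intro x hx
    have : x = 0 := hιinj (by rw [map_zero]; exact hx)
    rw [this]; exact m.zero_mem
  obtain ⟨m', hm'max, hm'⟩ := Ideal.exists_ideal_over_maximal_of_isIntegral m hker
  haveI := hm'max
  have hcompat : ∀ (x : ↥(integralClosure ↥(Algebra.adjoin A₀ {τ}) Lf))
      (x' : ↥(integralClosure ↥(Algebra.adjoin A₀ {s}) L')),
      (x' : L') = algebraMap Lf L' (x : Lf) → (x' ∈ m' ↔ x ∈ m) := by
    intro x x' hxx'
    have : x' = ι x := Subtype.ext hxx'
    rw [this, ← hm']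
    rfl
  have hπm' : algebraMap A₀ ↥(integralClosure ↥(Algebra.adjoin A₀ {s}) L') π ∈ m' := by
    refine (hcompat (algebraMap A₀ _ π) (algebraMap A₀ _ π) ?_).mpr hπm
    show algebraMap A₀ L' π = algebraMap Lf L' (algebraMap A₀ Lf π)
    rw [← IsScalarTower.algebraMap_apply A₀ Lf L']
  have h1 := hloc m' hm'max hπm' hcompat
  have hπeq : algebraMap ↥(integralClosure ↥(Algebra.adjoin A₀ {τ}) Lf)
      ↥(integralClosure ↥(Algebra.adjoin A₀ {s}) L')
      (algebraMap A₀ ↥(integralClosure ↥(Algebra.adjoin A₀ {τ}) Lf) π) =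
      algebraMap A₀ ↥(integralClosure ↥(Algebra.adjoin A₀ {s}) L') π := by
    apply Subtype.ext
    show algebraMap Lf L' (algebraMap A₀ Lf π) = algebraMap A₀ L' π
    rw [← IsScalarTower.algebraMap_apply A₀ Lf L']
  have h2 : PiLocallyPrimeAt (algebraMap ↥(integralClosure ↥(Algebra.adjoin A₀ {τ}) Lf)
      ↥(integralClosure ↥(Algebra.adjoin A₀ {s}) L')
      (algebraMap A₀ ↥(integralClosure ↥(Algebra.adjoin A₀ {τ}) Lf) π)) m' := by
    rw [hπeq]
    exact h1
  have h3 := piLocallyPrimeAt_under (L' ≃ₐ[Lf] L')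
    (algebraMap A₀ ↥(integralClosure ↥(Algebra.adjoin A₀ {τ}) Lf) π) hdesc m' h2
  have hunder : m'.under ↥(integralClosure ↥(Algebra.adjoin A₀ {τ}) Lf) = m := hm'
  rw [hunder] at h3
  exact h3

end Fermat.Agent.INJ.NTame
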