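import Fermat.Agent.INJ.NTameWire
import Fermat.Agent.INJ.NTameDescent
import Fermat.Agent.INJ.NGood

/-!
# INJ piece T4: `NTameStmt` holds

Assembly of T3 (`nGoodStmt`, helper27), T4a (`exists_kummerSetup`, helper49), T4b
(`NTame.ntame_places`, helper5) and T4c (`NTame.ntame_descent`, helper27).
-/

set_option autoImplicit false

namespace Fermat.Agent.INJ

universe u

/-- T4c in the packaged form of `NTameWire.lean`. -/
theorem nTameDescentStmt : NTameDescentStmt.{u} := by
  intro A₀ E Lf L' _ _ _ _ _ _ _ _ _ _ _ _ _ _ _ _ _ _ _ _ π τ c e he s hs m hm hπm hloc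
  exact NTame.ntame_descent (E := E) π τ c e he s hs m hm hπm hloc

/-- **T4.**  `NTameStmt` holds. -/
theorem nTameStmt : NTameStmt.{u} :=
  nTameStmt_of nGoodStmt nTameDescentStmt

end Fermat.Agent.INJ
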