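import Fermat.Agent.INJ.TSGlue
import Fermat.Agent.INJ.NTame

/-!
# (INJ) Part A: the tame specialization theorem

`tameSpecStmt : TameSpecStmt` — assembly of the glue A5 (`tameSpec_of_nTame`, TSGlue.lean) and
T4 (`nTameStmt`, NTame.lean).  In words: `A₀` a discrete valuation ring with uniformizer `π`,
`E = Frac A₀` of characteristic `0`, `Lf / E(t)` finite with field of constants `E`, one integral
basis with discriminant prime to `π`, unramified outside the branch locus `Σ ∪ {∞}` (pairwise
distinct modulo `π`), tame over it (indices dividing a unit `e` with `μ_e ⊂ A₀`), and a place with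
`ord t = -1`: then `π` is a prime element of the integral closure of `A₀[t]` in `Lf`.
-/

set_option autoImplicit false

namespace Fermat.Agent.INJ

universe u

/-- **Part A (tame specialization theorem).** -/
theorem tameSpecStmt : TameSpecStmt.{u} :=
  tameSpec_of_nTame nTameStmt

end Fermat.Agent.INJ
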