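import Fermat.Agent.INJ.UnramLemma
import Fermat.Agent.INJ.AbhyankarPlace

/-!
# (INJ) piece B2-ext: places extend along algebraic constant field extensions, unramified

Setting: `E ⊆ K` fields, `K / E` separable algebraic (e.g. algebraic in characteristic `0`),
`Lf / E` a field extension, `L' / K` a field extension containing `Lf` with `L' = Lf · K`.

* `Fermat.Agent.INJ.PlaceExt.chevalley`: Chevalley's extension theorem for valuation subrings
  (from Mathlib's `LocalSubring.exists_le_valuationSubring`).
* `Fermat.Agent.INJ.PlaceExt.dvr_of_piDisc`: DVR criterion (all values are powers of `v ϖ`).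
* `Fermat.Agent.INJ.PlaceExt.place_of_valuationSubring`: every valuation subring of `L'` over a
  place `P` of `Lf / E` is (the valuation ring of) a place `P'` of `L' / K`, with
  `ord_{P'} = ord_P` on `Lf`  (helper66's `piDisc_adjoin` = B2-UL).
* `Fermat.Agent.INJ.PlaceExt.exists_place_extend` (**B2-ext**): every place `P` of `Lf / E` extends
  to a place `P'` of `L' / K` with `ord_{P'} = ord_P` on `Lf`.  Variants `exists_place_extend'`
  (generation hypothesis `K(Lf) = L'`), `exists_place_extend_of_adjoin_image`.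
* `Fermat.Agent.INJ.PlaceExt.exists_place_restrict_const`: conversely every place `P'` of `L' / K`
  restricts to a place `P` of `Lf / E` with `ord_{P'} = ord_P` on `Lf`.
-/

set_option autoImplicit false

open AlgebraicCurve Polynomial

namespace Fermat.Agent.INJ.PlaceExt

/-- **Chevalley's extension theorem** for valuation subrings along a field extension. -/
theorem chevalley {F L : Type*} [Field F] [Field L] [Algebra F L] (O : ValuationSubring F) :
    ∃ V : ValuationSubring L, V.comap (algebraMap F L) = O := by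
  classical
  obtain ⟨V, hV⟩ := LocalSubring.exists_le_valuationSubring
    (O.toLocalSubring.map (algebraMap F L))
  obtain ⟨hle, hloc⟩ := LocalSubring.le_def.mp hV
  refine ⟨V, ?_⟩
  have hOV : ∀ x : F, x ∈ O → algebraMap F L x ∈ V := fun x hx =>
    hle (Subring.mem_map.mpr ⟨x, hx, rfl⟩)
  apply le_antisymm
  · intro x hx
    rw [ValuationSubring.mem_comap] at hx
    by_contra hxO
    have hx0 : x ≠ 0 := fun h => hxO (h ▸ O.zero_mem)
    have hxi : x⁻¹ ∈ O := (O.mem_or_inv_mem x).resolve_left hxO
    have hmem : algebraMap F L x⁻¹ ∈ (O.toLocalSubring.map (algebraMap F L)).toSubring :=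
      Subring.mem_map.mpr ⟨x⁻¹, hxi, rfl⟩
    have hunit : IsUnit (Subring.inclusion hle ⟨algebraMap F L x⁻¹, hmem⟩) := by
      refine isUnit_iff_exists_inv.mpr ⟨⟨algebraMap F L x, hx⟩, Subtype.ext ?_⟩
      simp [hx0]
    have h2 := hloc.map_nonunit _ hunit
    obtain ⟨⟨y, hy⟩, hy'⟩ := isUnit_iff_exists_inv.mp h2
    obtain ⟨z, hz, rfl⟩ := Subring.mem_map.mp hy
    have h3 : algebraMap F L x⁻¹ * algebraMap F L z = 1 := congrArg Subtype.val hy'
    rw [← map_mul, ← map_one (algebraMap F L)] at h3
    have h4 : x⁻¹ * z = 1 := (algebraMap F L).injective h3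
    have h5 : z = x := by
      field_simp at h4
      exact h4
    exact hxO (h5 ▸ hz)
  · intro x hx
    exact hOV x hx

section DVR

variable {L : Type*} [Field L] (V : ValuationSubring L) (ϖ : L)

/-- **DVR criterion.**  A valuation subring all of whose nonzero values are integral powers of the
value of one element `ϖ` with `v ϖ < 1` is a discrete valuation ring with uniformizer `ϖ`. -/
theorem dvr_of_piDisc (hϖ : V.valuation ϖ < 1) (hϖ0 : ϖ ≠ 0)
    (hdisc : ∀ x : L, x ≠ 0 → ∃ n : ℤ, V.valuation x = V.valuation ϖ ^ n) :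
    V ≠ ⊤ ∧ IsPrincipalIdealRing V ∧ ∃ p : V, (p : L) = ϖ ∧ Irreducible p := by
  classical
  set γ := V.valuation ϖ with hγ
  have hγ0 : 0 < γ := zero_lt_iff.mpr ((Valuation.ne_zero_iff _).mpr hϖ0)
  have hγ1 : γ ≠ 1 := hϖ.ne
  have hϖV : ϖ ∈ V := (V.valuation_le_one_iff ϖ).mp hϖ.le
  set p : V := ⟨ϖ, hϖV⟩ with hp
  have hp0 : p ≠ 0 := fun h => hϖ0 (congrArg Subtype.val h)
  have hpnu : ¬ IsUnit p := by
    rw [V.valuation_eq_one_iff]
    exact hγ1
  -- every nonzero element of `V` is a unit times a natural power of `p`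
  have hfac : ∀ x : V, x ≠ 0 → ∃ (n : ℕ) (u : Vˣ), x = u * p ^ n := by
    intro x hx
    have hx0 : (x : L) ≠ 0 := fun h => hx (Subtype.ext h)
    obtain ⟨n, hn⟩ := hdisc x hx0
    have hn0 : 0 ≤ n := by
      have h1 : V.valuation (x : L) ≤ 1 := V.valuation_le_one x
      rw [hn] at h1
      exact (zpow_le_one_iff_right_of_lt_one₀ hγ0 hϖ).mp h1
    obtain ⟨k, rfl⟩ := Int.eq_ofNat_of_zero_le hn0
    rw [zpow_natCast] at hn
    have hval : V.valuation ((x : L) * (ϖ ^ k)⁻¹) = 1 := by
      rw [map_mul, map_inv₀, map_pow, hn]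
      exact mul_inv_cancel₀ (pow_ne_zero k hγ0.ne')
    have hmem : (x : L) * (ϖ ^ k)⁻¹ ∈ V := (V.valuation_le_one_iff _).mp hval.le
    have hu : IsUnit (⟨(x : L) * (ϖ ^ k)⁻¹, hmem⟩ : V) := by
      rw [V.valuation_eq_one_iff]
      exact hval
    refine ⟨k, hu.unit, Subtype.ext ?_⟩
    have hϖk : ϖ ^ k ≠ 0 := pow_ne_zero k hϖ0
    show (x : L) = (x : L) * (ϖ ^ k)⁻¹ * ϖ ^ k
    field_simp
  have hirr : Irreducible p := by
    refine ⟨hpnu, fun a b hab => ?_⟩
    have ha0 : a ≠ 0 := by
      rintro rfl
      rw [zero_mul] at hab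
      exact hp0 hab
    have hb0 : b ≠ 0 := by
      rintro rfl
      rw [mul_zero] at hab
      exact hp0 hab
    obtain ⟨m, u, rfl⟩ := hfac a ha0
    obtain ⟨k, w, rfl⟩ := hfac b hb0
    have h1 : V.valuation (p : L) = V.valuation (((u : V) * p ^ m * ((w : V) * p ^ k) : V) : L) := by
      rw [← hab]
    have hu1 : V.valuation ((u : V) : L) = 1 := (V.valuation_eq_one_iff _).mp u.isUnit
    have hw1 : V.valuation ((w : V) : L) = 1 := (V.valuation_eq_one_iff _).mp w.isUnit
    have hpγ : V.valuation (p : L) = γ := rfl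
    simp only [MulMemClass.coe_mul, SubmonoidClass.coe_pow, map_mul, map_pow, hu1, hw1, one_mul,
      hpγ] at h1
    rw [← pow_add] at h1
    have h2 : γ ^ (1 : ℤ) = γ ^ ((m + k : ℕ) : ℤ) := by
      rw [zpow_one, zpow_natCast]
      exact h1
    have h3 : (1 : ℤ) = ((m + k : ℕ) : ℤ) := (zpow_right_inj₀ hγ0 hγ1).mp h2
    have h4 : m + k = 1 := by exact_mod_cast h3.symm
    rcases Nat.eq_zero_or_pos m with hm | hm
    · left
      rw [hm, pow_zero, mul_one]
      exact u.isUnit
    · right
      have hk : k = 0 := by omega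
      rw [hk, pow_zero, mul_one]
      exact w.isUnit
  have hdvr : IsDiscreteValuationRing V := by
    apply IsDiscreteValuationRing.ofHasUnitMulPowIrreducibleFactorization
    refine ⟨p, hirr, fun {x} hx => ?_⟩
    obtain ⟨n, u, rfl⟩ := hfac x hx
    exact ⟨n, u, by rw [mul_comm]⟩
  refine ⟨?_, inferInstance, p, rfl, hirr⟩
  intro htop
  have h1 : ϖ⁻¹ ∈ V := by
    rw [htop]
    exact ValuationSubring.mem_top _
  have h2 : V.valuation ϖ⁻¹ ≤ 1 := (V.valuation_le_one_iff _).mpr h1
  rw [map_inv₀, inv_le_one₀ hγ0] at h2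
  exact absurd hϖ (not_lt.mpr h2)

end DVR

section Main

variable {E Lf K L' : Type*} [Field E] [Field Lf] [Field K] [Field L']
  [Algebra E Lf] [Algebra E K] [Algebra K L'] [Algebra Lf L'] [Algebra E L']
  [IsScalarTower E Lf L'] [IsScalarTower E K L']

/-- **B2-ext, valuation-subring form.**  `K/E` separable algebraic, `L' = Lf·K`.  Every valuation
subring `V` of `L'` lying over (the valuation ring of) a place `P` of `Lf/E` is the valuation ring
of a place `P'` of `L'/K`, and `P'` is unramified over `P`: `ord_{P'} = ord_P` on `Lf`. -/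
theorem place_of_valuationSubring [Algebra.IsSeparable E K]
    (hgen : IntermediateField.adjoin Lf (Set.range (algebraMap K L')) = ⊤)
    (P : Place E Lf) (V : ValuationSubring L')
    (hV : V.comap (algebraMap Lf L') = P.toValuationSubring) :
    ∃ P' : Place K L', P'.toValuationSubring = V ∧
      ∀ x : Lf, P'.ord (algebraMap Lf L' x) = P.ord x := by
  classical
  have hmemV : ∀ x : Lf, x ∈ P.toValuationSubring ↔ algebraMap Lf L' x ∈ V := by
    intro x
    rw [← hV, ValuationSubring.mem_comap]
  -- a uniformizer of `P`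
  obtain ⟨π, hπ⟩ := IsDiscreteValuationRing.exists_irreducible P.toValuationSubring
  have hπ0 : (π : Lf) ≠ 0 := by
    simpa [ne_eq, ZeroMemClass.coe_eq_zero] using hπ.ne_zero
  have hπord : P.ord (π : Lf) = 1 := P.ord_coe_irreducible hπ
  -- units of `O_P` have value one
  have hunit : ∀ u : P.toValuationSubringˣ,
      V.valuation (algebraMap Lf L' ((u : P.toValuationSubring) : Lf)) = 1 := by
    intro u
    have h1 : V.valuation (algebraMap Lf L' ((u : P.toValuationSubring) : Lf)) ≤ 1 :=
      (V.valuation_le_one_iff _).mpr ((hmemV _).mp (u : P.toValuationSubring).2)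
    have h2 : V.valuation (algebraMap Lf L' (((u⁻¹ : P.toValuationSubringˣ) :
        P.toValuationSubring) : Lf)) ≤ 1 :=
      (V.valuation_le_one_iff _).mpr
        ((hmemV _).mp ((u⁻¹ : P.toValuationSubringˣ) : P.toValuationSubring).2)
    have h3 : ((u : P.toValuationSubring) : Lf) *
        (((u⁻¹ : P.toValuationSubringˣ) : P.toValuationSubring) : Lf) = 1 := by
      exact_mod_cast congrArg Subtype.val u.mul_inv
    have h4 : V.valuation (algebraMap Lf L' ((u : P.toValuationSubring) : Lf)) *
        V.valuation (algebraMap Lf L' (((u⁻¹ : P.toValuationSubringˣ) :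
          P.toValuationSubring) : Lf)) = 1 := by
      rw [← map_mul, ← map_mul, h3, map_one, map_one]
    refine le_antisymm h1 ?_
    by_contra hlt
    rw [not_le] at hlt
    have : V.valuation (algebraMap Lf L' ((u : P.toValuationSubring) : Lf)) *
        V.valuation (algebraMap Lf L' (((u⁻¹ : P.toValuationSubringˣ) :
          P.toValuationSubring) : Lf)) < 1 := by
      calc _ ≤ V.valuation (algebraMap Lf L' ((u : P.toValuationSubring) : Lf)) * 1 :=
            mul_le_mul_right h2 _
        _ = V.valuation (algebraMap Lf L' ((u : P.toValuationSubring) : Lf)) := mul_one _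
        _ < 1 := hlt
    rw [h4] at this
    exact lt_irrefl _ this
  -- `v π < 1`
  have hπV : V.valuation (algebraMap Lf L' (π : Lf)) < 1 := by
    have h1 : V.valuation (algebraMap Lf L' (π : Lf)) ≤ 1 :=
      (V.valuation_le_one_iff _).mpr ((hmemV _).mp π.2)
    refine lt_of_le_of_ne h1 fun h => ?_
    have h2 : V.valuation (algebraMap Lf L' (π : Lf)⁻¹) ≤ 1 := by
      rw [map_inv₀, map_inv₀, h, inv_one]
    have h3 : (π : Lf)⁻¹ ∈ P.toValuationSubring :=
      (hmemV _).mpr ((V.valuation_le_one_iff _).mp h2)
    apply hπ.not_isUnit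
    refine isUnit_iff_exists_inv.mpr ⟨⟨(π : Lf)⁻¹, h3⟩, Subtype.ext ?_⟩
    show (π : Lf) * (π : Lf)⁻¹ = 1
    exact mul_inv_cancel₀ hπ0
  -- `V` is `π`-discrete on `Lf`
  have hF : ∀ x : Lf, x ≠ 0 → ∃ n : ℤ,
      V.valuation (algebraMap Lf L' x) = V.valuation (algebraMap Lf L' (π : Lf)) ^ n := by
    intro x hx
    obtain ⟨u, hu⟩ := P.exists_unit_mul_zpow hx hπ
    refine ⟨P.ord x, ?_⟩
    conv_lhs => rw [hu]
    rw [map_mul, map_mul, hunit u, one_mul, map_zpow₀, map_zpow₀]
  -- the constants are roots of monic separable polynomials over `V ∩ Lf`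
  let φ : E →+* (V.comap (algebraMap Lf L')) :=
    (algebraMap E Lf).codRestrict (V.comap (algebraMap Lf L')).toSubring
      (fun a => by
        show algebraMap E Lf a ∈ V.comap (algebraMap Lf L')
        rw [hV]
        exact P.algebraMap_mem' a)
  have hφ : ((algebraMap Lf L').comp (V.comap (algebraMap Lf L')).subtype).comp φ
      = (algebraMap K L').comp (algebraMap E K) := by
    ext a
    show algebraMap Lf L' (algebraMap E Lf a) = algebraMap K L' (algebraMap E K a)
    rw [← IsScalarTower.algebraMap_apply, ← IsScalarTower.algebraMap_apply]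
  have hS : ∀ α ∈ Set.range (algebraMap K L'),
      ∃ f : Polynomial (V.comap (algebraMap Lf L')), f.Monic ∧ f.Separable ∧
        Polynomial.eval₂ ((algebraMap Lf L').comp (V.comap (algebraMap Lf L')).subtype) α f
          = 0 := by
    rintro _ ⟨a, rfl⟩
    have hsep : (minpoly E a).Separable := Algebra.IsSeparable.isSeparable E a
    have hint : IsIntegral E a := Algebra.IsSeparable.isIntegral E a
    refine ⟨(minpoly E a).map φ, (minpoly.monic hint).map φ, hsep.map, ?_⟩
    rw [Polynomial.eval₂_map, hφ, ← Polynomial.hom_eval₂, ← Polynomial.aeval_def, minpoly.aeval,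
      map_zero]
  have hdisc : ∀ x : L', x ≠ 0 → ∃ n : ℤ,
      V.valuation x = V.valuation (algebraMap Lf L' (π : Lf)) ^ n := by
    intro x hx
    exact piDisc_adjoin V (π : Lf) hπV hπ0 hF _ hS x (by rw [hgen]; trivial) hx
  have hϖ0 : algebraMap Lf L' (π : Lf) ≠ 0 := by simpa using hπ0
  obtain ⟨hne, hpid, p, hpcoe, hpirr⟩ := dvr_of_piDisc V _ hπV hϖ0 hdisc
  -- the constants lie in `V`
  have hK : ∀ a : K, algebraMap K L' a ∈ V := by
    intro a
    have hsep : (minpoly E a).Separable := Algebra.IsSeparable.isSeparable E a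
    have hint : IsIntegral E a := Algebra.IsSeparable.isIntegral E a
    have hintV : IsIntegral V (algebraMap K L' a) := by
      refine ⟨((minpoly E a).map φ).map
        (show (V.comap (algebraMap Lf L')) →+* V from
          { toFun := fun x => ⟨algebraMap Lf L' (x : Lf), x.2⟩
            map_one' := Subtype.ext (map_one _)
            map_mul' := fun x y => Subtype.ext (map_mul _ _ _)
            map_zero' := Subtype.ext (map_zero _)
            map_add' := fun x y => Subtype.ext (map_add _ _ _) }),
        ((minpoly.monic hint).map φ).map _, ?_⟩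
      rw [Polynomial.eval₂_map, Polynomial.eval₂_map]
      have : ((algebraMap V L').comp
          (show (V.comap (algebraMap Lf L')) →+* V from
          { toFun := fun x => ⟨algebraMap Lf L' (x : Lf), x.2⟩
            map_one' := Subtype.ext (map_one _)
            map_mul' := fun x y => Subtype.ext (map_mul _ _ _)
            map_zero' := Subtype.ext (map_zero _)
            map_add' := fun x y => Subtype.ext (map_add _ _ _) })).comp φ
          = (algebraMap K L').comp (algebraMap E K) := by
        rw [← hφ]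
        rfl
      rw [this, ← Polynomial.hom_eval₂, ← Polynomial.aeval_def, minpoly.aeval, map_zero]
    obtain ⟨y, hy⟩ := IsIntegrallyClosed.isIntegral_iff.mp hintV
    rw [← hy]
    exact y.2
  refine ⟨⟨V, hK, hne, hpid⟩, rfl, fun x => ?_⟩
  rcases eq_or_ne x 0 with rfl | hx
  · simp
  obtain ⟨u, hu⟩ := P.exists_unit_mul_zpow hx hπ
  -- the unit `u` of `O_P` as a unit of `V`
  have hu1 : V.valuation (algebraMap Lf L' ((u : P.toValuationSubring) : Lf)) = 1 := hunit u
  have humem : algebraMap Lf L' ((u : P.toValuationSubring) : Lf) ∈ V :=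
    (V.valuation_le_one_iff _).mp hu1.le
  have huV : IsUnit (⟨_, humem⟩ : V) := by
    rw [V.valuation_eq_one_iff]
    exact hu1
  set P' : Place K L' := ⟨V, hK, hne, hpid⟩ with hP'
  have key := P'.ord_unit_smul_zpow huV.unit hpirr (P.ord x)
  have hx' : algebraMap Lf L' x
      = (((huV.unit : P'.toValuationSubringˣ) : P'.toValuationSubring) : L') *
          ((p : L') ^ (P.ord x)) := by
    conv_lhs => rw [hu]
    rw [map_mul, map_zpow₀, hpcoe]
    rfl
  rw [hx']
  exact key

/-- **B2-ext.**  `K/E` separable algebraic, `L' = Lf·K`: every place `P` of `Lf/E` extends to a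
place `P'` of `L'/K` which is unramified over `P`: `ord_{P'} = ord_P` on `Lf`. -/
theorem exists_place_extend [Algebra.IsSeparable E K]
    (hgen : IntermediateField.adjoin Lf (Set.range (algebraMap K L')) = ⊤)
    (P : Place E Lf) :
    ∃ P' : Place K L', ∀ x : Lf, P'.ord (algebraMap Lf L' x) = P.ord x := by
  obtain ⟨V, hV⟩ := chevalley (L := L') P.toValuationSubring
  obtain ⟨P', -, h⟩ := place_of_valuationSubring hgen P V hV
  exact ⟨P', h⟩

/-- The two ways of saying `L' = Lf · K`. -/
theorem adjoin_range_swap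
    (hgen : IntermediateField.adjoin K (Set.range (algebraMap Lf L')) = ⊤) :
    IntermediateField.adjoin Lf (Set.range (algebraMap K L')) = ⊤ := by
  rw [eq_top_iff]
  intro x _
  set M : IntermediateField Lf L' := IntermediateField.adjoin Lf (Set.range (algebraMap K L'))
    with hM
  have hKM : ∀ a : K, algebraMap K L' a ∈ M.toSubfield := fun a =>
    IntermediateField.subset_adjoin Lf _ ⟨a, rfl⟩
  let M' : IntermediateField K L' := M.toSubfield.toIntermediateField hKM
  have hle : IntermediateField.adjoin K (Set.range (algebraMap Lf L')) ≤ M' := by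
    rw [IntermediateField.adjoin_le_iff]
    rintro _ ⟨y, rfl⟩
    show algebraMap Lf L' y ∈ M
    exact M.algebraMap_mem y
  have hx : x ∈ M' := hle (by rw [hgen]; trivial)
  exact hx

/-- **B2-ext**, with the generation hypothesis in the form `K(Lf) = L'`. -/
theorem exists_place_extend' [Algebra.IsSeparable E K]
    (hgen : IntermediateField.adjoin K (Set.range (algebraMap Lf L')) = ⊤)
    (P : Place E Lf) :
    ∃ P' : Place K L', ∀ x : Lf, P'.ord (algebraMap Lf L' x) = P.ord x :=
  exists_place_extend (adjoin_range_swap hgen) P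

/-- **B2-ext**, with the generation hypothesis in the form `K(S) = L'`, `S ⊆ Lf`. -/
theorem exists_place_extend_of_adjoin_image [Algebra.IsSeparable E K] (S : Set Lf)
    (hgen : IntermediateField.adjoin K ((algebraMap Lf L') '' S) = ⊤)
    (P : Place E Lf) :
    ∃ P' : Place K L', ∀ x : Lf, P'.ord (algebraMap Lf L' x) = P.ord x := by
  refine exists_place_extend' ?_ P
  rw [eq_top_iff, ← hgen]
  exact IntermediateField.adjoin.mono K _ _ (Set.image_subset_range _ _)

/-- The characteristic `0` form of **B2-ext** (the shape `hext` of `ramB_assemble`). -/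
theorem exists_place_extend_charZero [CharZero E] [Algebra.IsAlgebraic E K]
    (hgen : IntermediateField.adjoin K (Set.range (algebraMap Lf L')) = ⊤) :
    ∀ Q : Place E Lf, ∃ v : Place K L', ∀ y : Lf, v.ord (algebraMap Lf L' y) = Q.ord y :=
  fun Q => exists_place_extend' hgen Q

/-- `L' = Lf · K` is algebraic over `Lf` when `K / E` is algebraic. -/
theorem isAlgebraic_of_gen [Algebra.IsAlgebraic E K]
    (hgen : IntermediateField.adjoin Lf (Set.range (algebraMap K L')) = ⊤) :
    Algebra.IsAlgebraic Lf L' := by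
  have h1 : ∀ x ∈ Set.range (algebraMap K L'), IsIntegral Lf x := by
    rintro _ ⟨a, rfl⟩
    have ha : IsIntegral E a := (Algebra.IsAlgebraic.isAlgebraic a).isIntegral
    have h2 : IsIntegral E (algebraMap K L' a) := ha.map (IsScalarTower.toAlgHom E K L')
    exact h2.tower_top
  have h3 : Algebra.IsAlgebraic Lf
      (IntermediateField.adjoin Lf (Set.range (algebraMap K L'))) :=
    IntermediateField.isAlgebraic_adjoin h1
  rw [hgen] at h3
  exact (IntermediateField.topEquiv (F := Lf) (E := L')).isAlgebraic

/-- **Restriction along a constant field extension is unramified.**  `K/E` separable algebraic,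
`L' = Lf·K`: every place `P'` of `L'/K` restricts to a place `P` of `Lf/E`, and
`ord_{P'} = ord_P` on `Lf`. -/
theorem exists_place_restrict_const [Algebra.IsSeparable E K]
    (hgen : IntermediateField.adjoin Lf (Set.range (algebraMap K L')) = ⊤)
    (P' : Place K L') :
    ∃ P : Place E Lf, ∀ x : Lf, P'.ord (algebraMap Lf L' x) = P.ord x := by
  classical
  have : Algebra.IsAlgebraic Lf L' := isAlgebraic_of_gen (E := E) (K := K) hgen
  -- `P'` as a place over `E`
  let P'E : Place E L' :=
    ⟨P'.toValuationSubring, fun a => by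
      rw [IsScalarTower.algebraMap_apply E K L']
      exact P'.algebraMap_mem' _, P'.ne_top', P'.isPrincipalIdealRing'⟩
  have hordE : ∀ x : L', P'E.ord x = P'.ord x := fun x => rfl
  obtain ⟨P, ε, hε, hres⟩ := AbhP.exists_place_restrict (E := E) (L := Lf) P'E
  have hV : P'.toValuationSubring.comap (algebraMap Lf L') = P.toValuationSubring := by
    ext x
    rw [ValuationSubring.mem_comap]
    rcases eq_or_ne x 0 with rfl | hx
    · simp [zero_mem]
    have hx' : algebraMap Lf L' x ≠ 0 := by simpa using hx
    rw [← Fermat.Agent.S24.PlaceAux.ord_nonneg_iff P' hx',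
      ← Fermat.Agent.S24.PlaceAux.ord_nonneg_iff P hx, ← hordE, hres x hx]
    constructor
    · intro h
      by_contra hneg
      rw [not_le] at hneg
      have := mul_neg_of_pos_of_neg hε hneg
      omega
    · intro h
      exact mul_nonneg hε.le h
  obtain ⟨P'', hP'', h⟩ := place_of_valuationSubring hgen P P'.toValuationSubring hV
  have : P'' = P' := Place.ext hP''
  subst this
  exact ⟨P, h⟩

end Main

end Fermat.Agent.INJ.PlaceExt
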