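import Mathlib

/-!
# (INJ) B-glue piece BG-root: `p`-th roots of Laurent series

`K` a field in which `p` is invertible.  A nonzero Laurent series `f ∈ K((X))` whose order is
divisible by `p` and whose leading coefficient is a `p`-th power in `K` is a `p`-th power in
`K((X))`.

* `bgRoot_powerSeries` : a power series with constant coefficient `1` has a `p`-th root with
  constant coefficient `1` (Hensel's lemma in `K⟦X⟧`);
* `bgRoot` : the statement for Laurent series.
-/

set_option autoImplicit false

namespace Fermat.Agent.INJ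

/-- A `1`-unit of `K⟦X⟧` has a `p`-th root which is a `1`-unit, if `p` is invertible in `K`. -/
theorem bgRoot_powerSeries {K : Type*} [Field K] (p : ℕ) (hp : (p : K) ≠ 0)
    (v : PowerSeries K) (hv : PowerSeries.constantCoeff v = 1) :
    ∃ w : PowerSeries K, w ^ p = v ∧ PowerSeries.constantCoeff w = 1 := by
  have hp0 : p ≠ 0 := by
    rintro rfl
    exact hp Nat.cast_zero
  have hmonic : (Polynomial.X ^ p - Polynomial.C v : Polynomial (PowerSeries K)).Monic :=
    Polynomial.monic_X_pow_sub_C v hp0
  have heval : (Polynomial.X ^ p - Polynomial.C v : Polynomial (PowerSeries K)).eval 1 ∈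
      (Ideal.span {PowerSeries.X} : Ideal (PowerSeries K)) := by
    rw [Ideal.mem_span_singleton, PowerSeries.X_dvd_iff]
    simp [hv]
  have hder : IsUnit (Ideal.Quotient.mk (Ideal.span {PowerSeries.X} : Ideal (PowerSeries K))
      ((Polynomial.derivative
        (Polynomial.X ^ p - Polynomial.C v : Polynomial (PowerSeries K))).eval 1)) := by
    apply IsUnit.map
    have h1 : (Polynomial.derivative
        (Polynomial.X ^ p - Polynomial.C v : Polynomial (PowerSeries K))).eval 1 =
        (p : PowerSeries K) := by
      simp [Polynomial.derivative_X_pow]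
    rw [h1, PowerSeries.isUnit_iff_constantCoeff]
    have h2 : PowerSeries.constantCoeff (p : PowerSeries K) = (p : K) := by
      rw [map_natCast]
    rw [h2]
    exact isUnit_iff_ne_zero.mpr hp
  obtain ⟨w, hw, hw1⟩ := HenselianRing.is_henselian
    (I := (Ideal.span {PowerSeries.X} : Ideal (PowerSeries K))) _ hmonic 1 heval hder
  refine ⟨w, ?_, ?_⟩
  · have := hw
    rw [Polynomial.IsRoot, Polynomial.eval_sub, Polynomial.eval_pow, Polynomial.eval_X,
      Polynomial.eval_C, sub_eq_zero] at this
    exact this
  · rw [Ideal.mem_span_singleton, PowerSeries.X_dvd_iff, map_sub, map_one, sub_eq_zero] at hw1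
    exact hw1

/-- **BG-root.**  A nonzero Laurent series whose order is divisible by `p` and whose leading
coefficient is a `p`-th power is a `p`-th power (`p` invertible in `K`). -/
theorem bgRoot {K : Type*} [Field K] (p : ℕ) (hp : (p : K) ≠ 0) (f : LaurentSeries K)
    (hf : f ≠ 0) (hord : (p : ℤ) ∣ f.order) (hc : ∃ c : K, c ^ p = f.leadingCoeff) :
    ∃ g : LaurentSeries K, g ^ p = f := by
  obtain ⟨m, hm⟩ := hord
  obtain ⟨c, hc⟩ := hc
  have ha : f.leadingCoeff ≠ 0 := HahnSeries.leadingCoeff_ne_zero.mpr hf
  set a : K := f.leadingCoeff with ha_def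
  -- the unit part
  have hu : PowerSeries.constantCoeff f.powerSeriesPart = a := by
    rw [← PowerSeries.coeff_zero_eq_constantCoeff_apply, LaurentSeries.powerSeriesPart_coeff,
      Nat.cast_zero, add_zero, ha_def, HahnSeries.leadingCoeff_eq]
  obtain ⟨w, hw, -⟩ := bgRoot_powerSeries p hp (PowerSeries.C a⁻¹ * f.powerSeriesPart) (by
    rw [map_mul, PowerSeries.constantCoeff_C, hu, inv_mul_cancel₀ ha])
  refine ⟨HahnSeries.single m c * HahnSeries.ofPowerSeries ℤ K w, ?_⟩
  rw [mul_pow, HahnSeries.single_pow, ← map_pow, hw, map_mul, HahnSeries.ofPowerSeries_C, hc,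
    nsmul_eq_mul, ← hm]
  conv_rhs => rw [← LaurentSeries.single_order_mul_powerSeriesPart f]
  rw [← mul_assoc]
  congr 1
  rw [HahnSeries.C_apply, HahnSeries.single_mul_single, add_zero, mul_inv_cancel₀ ha]

end Fermat.Agent.INJ
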