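import Fermat.Agent.S24.LocalCount
import Fermat.Agent.S24.PreFinal
import Fermat.Agent.S24.RealizationExists
import Fermat.Agent.S24.GenusCount

/-!
# (INJ) piece B-I2, part 1: ramification of `F_N = ℚ̄(j(q^d) : d ∣ N)` over the `j`-line

For EVERY place `v` of `FF N` (over `ℚ̄`):
* `0 < ord_v (j)        → ord_v (j) ∣ 3`;
* `0 < ord_v (j - 1728) → ord_v (j - 1728) ∣ 2`;
* `0 < ord_v (j - c)    → ord_v (j - c) = 1`   (`c ≠ 0, 1728`);
* `0 < ord_v (j⁻¹)      → ord_v (j⁻¹) ∣ N`.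
All four come from S24's `Realization` (`restrPlace_ord_dvd`, `exists_restrPlace_eq`).
-/

set_option autoImplicit false

open AlgebraicCurve IntermediateField
open scoped MatrixGroups

namespace Fermat.Agent.INJ

open Fermat.Agent.S24

/-- Generic form: if `g⁻¹ ε ^ k g ∈ Γ₀(N)` for all `g`, every place over `x = 0` has
`ord_v x ∣ k`. -/
theorem ramJ_ord_dvd_of_loc (N : ℕ) [NeZero N] (R : Realization N)
    (x : FF N) (hx : Transcendental Kb x) (hxj : x ∈ Kb⟮jF N⟯) (hjx : jF N ∈ Kb⟮x⟯)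
    (ε : SL(2, ℤ)) (hloc : ∃ w : Place Kb R.M, LocalProp (R.φ x) (R.act ε) w)
    (k : ℕ) (hk : ∀ g : SL(2, ℤ), g⁻¹ * ε ^ k * g ∈ CongruenceSubgroup.Gamma0 N)
    (v : Place Kb (FF N)) (hv : 0 < v.ord x) : v.ord x ∣ (k : ℤ) := by
  classical
  obtain ⟨w, hw, -, hL⟩ := hloc
  have : Finite R.act.range := R.finite_range
  have hKeq : Kb⟮x⟯ = Kb⟮jF N⟯ := by
    apply le_antisymm
    · rw [IntermediateField.adjoin_simple_le_iff]; exact hxj
    · rw [IntermediateField.adjoin_simple_le_iff]; exact hjx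
  have hfdj : FiniteDimensional Kb⟮jF N⟯ (FF N) := (principal_inputs N R).2.1
  have hfd : FiniteDimensional Kb⟮x⟯ (FF N) := by
    rw [hKeq]; exact hfdj
  have hfix : ∀ γ, R.act γ (R.φ x) = R.φ x :=
    fun γ => act_fix_of_mem_adjoin R.φ R.act R.act_j hxj γ
  have hfacts := intClosure_facts (K := Kb) x hx
  obtain ⟨g, rfl⟩ := exists_restrPlace_eq R.φ R.act R.fixed w hjx hw hfix
    (fun v S' hv hvS hS' => exists_ord_neg_of x hfacts v S' hv hvS hS') v hv
  exact restrPlace_ord_dvd R.φ R.act w hw hfix ε g hL k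
    (fun f => (R.stab_iff _).mpr (hk g) f)

/-- conjugates of `-1` lie in `Γ₀(N)`. -/
theorem ramJ_conj_neg_one_mem (N : ℕ) (g : SL(2, ℤ)) :
    g⁻¹ * (-1 : SL(2, ℤ)) * g ∈ CongruenceSubgroup.Gamma0 N := by
  have h : g⁻¹ * (-1 : SL(2, ℤ)) * g = -1 := by
    rw [mul_neg, mul_one, neg_mul, inv_mul_cancel]
  rw [h, CongruenceSubgroup.Gamma0_mem]
  simp

/-- conjugates of `T ^ N` lie in `Γ₀(N)`. -/
theorem ramJ_conj_T_pow_mem (N : ℕ) (g : SL(2, ℤ)) :
    g⁻¹ * ModularGroup.T ^ N * g ∈ CongruenceSubgroup.Gamma0 N := by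
  have hT : ModularGroup.T ^ N ∈ CongruenceSubgroup.Gamma N := by
    have := CongruenceSubgroup.ModularGroup_T_pow_mem_Gamma (N : ℤ) (N : ℤ) dvd_rfl
    simpa using this
  have hn := (CongruenceSubgroup.Gamma_normal N).conj_mem _ hT g⁻¹
  rw [inv_inv] at hn
  have hle : CongruenceSubgroup.Gamma N ≤ CongruenceSubgroup.Gamma0 N := by
    intro γ hγ
    rw [CongruenceSubgroup.Gamma_mem] at hγ
    rw [CongruenceSubgroup.Gamma0_mem]
    exact hγ.2.2.1
  exact hle hn

variable (N : ℕ) [NeZero N]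

/-- Over `j = 0`: the ramification index divides `3`. -/
theorem ramJ_zero (v : Place Kb (FF N)) (hv : 0 < v.ord (jF N)) : v.ord (jF N) ∣ 3 := by
  obtain ⟨R⟩ := exists_realization N
  have hj0 : jF N - algebraMap Kb (FF N) 0 = jF N := by simp
  have h := ramJ_ord_dvd_of_loc N R (jF N - algebraMap Kb (FF N) 0) (transcendental_jF_sub N 0)
    (jF_sub_mem_adjoin N 0) (jF_mem_adjoin_sub N 0) (ModularGroup.S * ModularGroup.T)
    (by rw [hj0]; exact R.loc_zero) 3
    (fun g => by rw [ST_cube_eq_neg_one]; exact ramJ_conj_neg_one_mem N g) v (by rwa [hj0])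
  rw [hj0] at h
  exact_mod_cast h

/-- Over `j = 1728`: the ramification index divides `2`. -/
theorem ramJ_1728 (v : Place Kb (FF N))
    (hv : 0 < v.ord (jF N - algebraMap Kb (FF N) 1728)) :
    v.ord (jF N - algebraMap Kb (FF N) 1728) ∣ 2 := by
  obtain ⟨R⟩ := exists_realization N
  have h := ramJ_ord_dvd_of_loc N R (jF N - algebraMap Kb (FF N) 1728)
    (transcendental_jF_sub N 1728)
    (jF_sub_mem_adjoin N 1728) (jF_mem_adjoin_sub N 1728) ModularGroup.S R.loc_1728 2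
    (fun g => by rw [S_sq_eq_neg_one]; exact ramJ_conj_neg_one_mem N g) v hv
  exact_mod_cast h

/-- Over `j = c`, `c ≠ 0, 1728`: unramified. -/
theorem ramJ_gen (c : Kb) (hc0 : c ≠ 0) (hc : c ≠ 1728) (v : Place Kb (FF N))
    (hv : 0 < v.ord (jF N - algebraMap Kb (FF N) c)) :
    v.ord (jF N - algebraMap Kb (FF N) c) = 1 := by
  obtain ⟨R⟩ := exists_realization N
  have h := ramJ_ord_dvd_of_loc N R (jF N - algebraMap Kb (FF N) c)
    (transcendental_jF_sub N c)
    (jF_sub_mem_adjoin N c) (jF_mem_adjoin_sub N c) 1 (R.loc_gen c hc0 hc) 1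
    (fun g => by simp) v hv
  have h1 : v.ord (jF N - algebraMap Kb (FF N) c) ∣ 1 := by exact_mod_cast h
  exact Int.eq_one_of_dvd_one hv.le h1

/-- Over `j = ∞`: the ramification index divides `N`. -/
theorem ramJ_inf (v : Place Kb (FF N)) (hv : v.ord (jF N) < 0) :
    v.ord (jF N)⁻¹ ∣ (N : ℤ) := by
  obtain ⟨R⟩ := exists_realization N
  have hpos : 0 < v.ord (jF N)⁻¹ := by rw [v.ord_inv]; omega
  exact ramJ_ord_dvd_of_loc N R (jF N)⁻¹ (transcendental_jF_inv N)
    (jF_inv_mem_adjoin N) (jF_mem_adjoin_inv N) ModularGroup.T R.loc_inf N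
    (fun g => ramJ_conj_T_pow_mem N g) v hpos

/-- Every place lies over exactly one point of the `j`-line (`c : ℚ̄` or `∞`). -/
theorem ramJ_cases (v : Place Kb (FF N)) :
    (∃ c : Kb, 0 < v.ord (jF N - algebraMap Kb (FF N) c)) ∨ v.ord (jF N) < 0 := by
  by_cases hv : v.ord (jF N) < 0
  · exact Or.inr hv
  · left
    have hmem : jF N ∈ v.toValuationSubring := PlaceAux.mem_of_ord_nonneg v (not_lt.mp hv)
    obtain ⟨R⟩ := exists_realization N
    have htr := transcendental_jF N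
    have hfin : FiniteDimensional Kb⟮jF N⟯ (FF N) := (principal_inputs N R).2.1
    have halg : Algebra.IsAlgebraic Kb⟮jF N⟯ (FF N) := Algebra.IsAlgebraic.of_finite _ _
    obtain ⟨c, hc⟩ := exists_sub_mem_nonunits (jF N) htr halg v _ hmem
    exact ⟨c, (PlaceAux.ord_pos_iff_mem_nonunits v (jF_sub_ne_zero N c)).mpr hc⟩

end Fermat.Agent.INJ
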