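import Fermat.Agent.INJ.BGFin
import Fermat.Agent.INJ.Hauptmodul

/-!
# (INJ) B-glue, piece BG-fin-h: finiteness over `E(t)`, `t` a Hauptmodul of `X₀(2)` or `X₀(3)`

The analogue of `bgFin_finiteDimensional_of_root_sup` for the coordinate `t = hm2 E` (`2 ∣ N`)
resp. `t = hm3 E` (`3 ∣ N`) instead of `j`: since `j = (t + 256)³ / t²` resp.
`j = (t + 27)(t + 243)³ / t³`, we have `E(j) ≤ E(t)`, and a field finite over `E(j)` is finite
over `E(t)`.
-/

set_option autoImplicit false

noncomputable section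

open IntermediateField Polynomial

namespace Fermat.Agent.INJ

open ModularCurve

section Abstract

variable {K L : Type*} [Field K] [Field L] [Algebra K L]

/-- If `j ∈ K(t)` and `L` is finite over `K(j)`, then `L` is finite over `K(t)`. -/
theorem bgFinH_of_mem (j t : L) (hjt : j ∈ K⟮t⟯) [FiniteDimensional K⟮j⟯ L] :
    FiniteDimensional K⟮t⟯ L := by
  have hle : K⟮j⟯ ≤ K⟮t⟯ := by
    rw [IntermediateField.adjoin_simple_le_iff]
    exact hjt
  obtain ⟨s, hs⟩ := (Module.finite_def (R := K⟮j⟯) (M := L)).mp inferInstance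
  refine (Module.finite_def (R := K⟮t⟯) (M := L)).mpr ⟨s, ?_⟩
  rw [eq_top_iff]
  intro y hy'
  clear hy'
  have hy : y ∈ Submodule.span K⟮j⟯ (s : Set L) := by rw [hs]; trivial
  induction hy using Submodule.span_induction with
  | mem z hz => exact Submodule.subset_span hz
  | zero => exact zero_mem _
  | add a b _ _ ha hb => exact add_mem ha hb
  | smul a b _ hb =>
    have h1 : a • b = (⟨(a : L), hle a.2⟩ : K⟮t⟯) • b := rfl
    rw [h1]
    exact Submodule.smul_mem _ _ hb

end Abstract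

section Modular

variable (E : Type*) [Field E]

theorem bgFinH_hm_unit_ne_zero {u : PowerSeries ℤ} (hu : PowerSeries.constantCoeff u = 1) :
    HahnSeries.single (-1 : ℤ) (1 : E) *
      HahnSeries.ofPowerSeries ℤ E (u.map (Int.castRingHom E)) ≠ 0 := by
  refine mul_ne_zero (HahnSeries.single_ne_zero one_ne_zero) ?_
  intro h0
  have h1 : u.map (Int.castRingHom E) = 0 :=
    HahnSeries.ofPowerSeries_injective (by rw [h0, map_zero])
  have h2 := congrArg PowerSeries.constantCoeff h1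
  rw [← PowerSeries.coeff_zero_eq_constantCoeff_apply, PowerSeries.coeff_map,
    PowerSeries.coeff_zero_eq_constantCoeff_apply, hu] at h2
  simp at h2

theorem bgFinH_hm2_ne_zero : hm2 E ≠ 0 := by
  rw [hm2_eq]; exact bgFinH_hm_unit_ne_zero E constantCoeff_hm2U

theorem bgFinH_hm3_ne_zero : hm3 E ≠ 0 := by
  rw [hm3_eq]; exact bgFinH_hm_unit_ne_zero E constantCoeff_hm3U

/-- `j = (t + 256)³ / t²` for `t = hm2 E`. -/
theorem bgFinH_j_eq_hm2 : jqModC E = (hm2 E + 256) ^ 3 / hm2 E ^ 2 := by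
  rw [eq_div_iff (pow_ne_zero 2 (bgFinH_hm2_ne_zero E))]
  exact hm2_j E

/-- `j = (t + 27)(t + 243)³ / t³` for `t = hm3 E`. -/
theorem bgFinH_j_eq_hm3 : jqModC E = (hm3 E + 27) * (hm3 E + 243) ^ 3 / hm3 E ^ 3 := by
  rw [eq_div_iff (pow_ne_zero 3 (bgFinH_hm3_ne_zero E))]
  exact hm3_j E

set_option maxHeartbeats 1600000 in
set_option synthInstance.maxHeartbeats 400000 in
/-- A rational expression in `t` with integer coefficients lies in `E(t)` (inside the
subtype of an intermediate field of `E((q))/E`): level 2. -/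
theorem bgFinH_j_mem_adjoin_hm2 (Lf : IntermediateField E (LaurentSeries E))
    (j t : Lf) (hj : (j : LaurentSeries E) = jqModC E) (ht : (t : LaurentSeries E) = hm2 E) :
    j ∈ E⟮t⟯ := by
  have h : j = (t + 256) ^ 3 / t ^ 2 := by
    apply Subtype.ext
    have h1 : (((t + 256) ^ 3 / t ^ 2 : Lf) : LaurentSeries E) =
        ((t : LaurentSeries E) + 256) ^ 3 / (t : LaurentSeries E) ^ 2 := by
      push_cast
      rfl
    rw [h1, hj, ht]
    exact bgFinH_j_eq_hm2 E
  rw [h]
  have htm : t ∈ E⟮t⟯ := IntermediateField.mem_adjoin_simple_self E t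
  have h256 : (256 : Lf) ∈ E⟮t⟯ := by
    have := (E⟮t⟯).natCast_mem 256
    exact_mod_cast this
  exact div_mem (pow_mem (add_mem htm h256) 3) (pow_mem htm 2)

set_option maxHeartbeats 1600000 in
set_option synthInstance.maxHeartbeats 400000 in
/-- Level 3. -/
theorem bgFinH_j_mem_adjoin_hm3 (Lf : IntermediateField E (LaurentSeries E))
    (j t : Lf) (hj : (j : LaurentSeries E) = jqModC E) (ht : (t : LaurentSeries E) = hm3 E) :
    j ∈ E⟮t⟯ := by
  have h : j = (t + 27) * (t + 243) ^ 3 / t ^ 3 := by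
    apply Subtype.ext
    have h1 : (((t + 27) * (t + 243) ^ 3 / t ^ 3 : Lf) : LaurentSeries E) =
        ((t : LaurentSeries E) + 27) * ((t : LaurentSeries E) + 243) ^ 3 /
          (t : LaurentSeries E) ^ 3 := by
      push_cast
      rfl
    rw [h1, hj, ht]
    exact bgFinH_j_eq_hm3 E
  rw [h]
  have htm : t ∈ E⟮t⟯ := IntermediateField.mem_adjoin_simple_self E t
  have h27 : (27 : Lf) ∈ E⟮t⟯ := by
    have := (E⟮t⟯).natCast_mem 27
    exact_mod_cast this
  have h243 : (243 : Lf) ∈ E⟮t⟯ := by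
    have := (E⟮t⟯).natCast_mem 243
    exact_mod_cast this
  exact div_mem (mul_mem (add_mem htm h27) (pow_mem (add_mem htm h243) 3)) (pow_mem htm 3)

variable (N : ℕ) [NeZero N]

set_option maxHeartbeats 1600000 in
set_option synthInstance.maxHeartbeats 400000 in
/-- **BG-fin-h, level 2.** `Lf = F_N(h)`, `h ^ p ∈ F_N`, is finite over `E(t)`, `t = hm2 E`. -/
theorem bgFinH_finiteDimensional_hm2
    (Lf : IntermediateField E (LaurentSeries E))
    (hle : modularFunctionFieldFullC E N ≤ Lf)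
    (h : LaurentSeries E) (hh : h ∈ Lf) (p : ℕ) (hp : p ≠ 0)
    (hw : h ^ p ∈ modularFunctionFieldFullC E N)
    (hgen : Lf ≤ modularFunctionFieldFullC E N ⊔ E⟮h⟯)
    (t : Lf) (ht : (t : LaurentSeries E) = hm2 E) :
    FiniteDimensional E⟮t⟯ Lf := by
  let j : Lf := ⟨jqModC E, hle (jqModC_mem_full E N)⟩
  have hfin : FiniteDimensional E⟮j⟯ Lf :=
    bgFin_finiteDimensional_of_root_sup E N Lf hle h hh p hp hw hgen j rfl
  exact bgFinH_of_mem j t (bgFinH_j_mem_adjoin_hm2 E Lf j t rfl ht)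

set_option maxHeartbeats 1600000 in
set_option synthInstance.maxHeartbeats 400000 in
/-- **BG-fin-h, level 3.** `Lf = F_N(h)`, `h ^ p ∈ F_N`, is finite over `E(t)`, `t = hm3 E`. -/
theorem bgFinH_finiteDimensional_hm3
    (Lf : IntermediateField E (LaurentSeries E))
    (hle : modularFunctionFieldFullC E N ≤ Lf)
    (h : LaurentSeries E) (hh : h ∈ Lf) (p : ℕ) (hp : p ≠ 0)
    (hw : h ^ p ∈ modularFunctionFieldFullC E N)
    (hgen : Lf ≤ modularFunctionFieldFullC E N ⊔ E⟮h⟯)
    (t : Lf) (ht : (t : LaurentSeries E) = hm3 E) :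
    FiniteDimensional E⟮t⟯ Lf := by
  let j : Lf := ⟨jqModC E, hle (jqModC_mem_full E N)⟩
  have hfin : FiniteDimensional E⟮j⟯ Lf :=
    bgFin_finiteDimensional_of_root_sup E N Lf hle h hh p hp hw hgen j rfl
  exact bgFinH_of_mem j t (bgFinH_j_mem_adjoin_hm3 E Lf j t rfl ht)

set_option maxHeartbeats 1600000 in
set_option synthInstance.maxHeartbeats 400000 in
/-- **BG-fin-h for `F_N` itself**, level 2. -/
theorem bgFinH_finiteDimensional_full_hm2
    (t : ↥(modularFunctionFieldFullC E N)) (ht : (t : LaurentSeries E) = hm2 E) :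
    FiniteDimensional E⟮t⟯ ↥(modularFunctionFieldFullC E N) := by
  have hfin := bgFin_finiteDimensional_full E N
  exact bgFinH_of_mem (⟨jqModC E, jqModC_mem_full E N⟩ : ↥(modularFunctionFieldFullC E N)) t
    (bgFinH_j_mem_adjoin_hm2 E _ ⟨jqModC E, jqModC_mem_full E N⟩ t rfl ht)

set_option maxHeartbeats 1600000 in
set_option synthInstance.maxHeartbeats 400000 in
/-- **BG-fin-h for `F_N` itself**, level 3. -/
theorem bgFinH_finiteDimensional_full_hm3
    (t : ↥(modularFunctionFieldFullC E N)) (ht : (t : LaurentSeries E) = hm3 E) :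
    FiniteDimensional E⟮t⟯ ↥(modularFunctionFieldFullC E N) := by
  have hfin := bgFin_finiteDimensional_full E N
  exact bgFinH_of_mem (⟨jqModC E, jqModC_mem_full E N⟩ : ↥(modularFunctionFieldFullC E N)) t
    (bgFinH_j_mem_adjoin_hm3 E _ ⟨jqModC E, jqModC_mem_full E N⟩ t rfl ht)

end Modular

end Fermat.Agent.INJ
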