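import Fermat.Agent.INJ.StmtNF
import Fermat.Agent.INJ.NumFieldDVR

/-!
# (INJ) final assembly, piece LS: the local setup `A₀ = A ∩ K₀`

`A ⊂ ℚ̄` a valuation ring over the prime `ℓ`, `K₀ ⊂ ℚ̄` a number field, `A₀ = nfSub A K₀`,
`nfRes A K₀ : A₀ → k(A)` the reduction, `π ∈ A₀` irreducible.

* `ls_isDVR` : `A₀` is a discrete valuation ring;
* `ls_res_eq_zero_iff` : `nfRes a = 0 ↔ ¬ IsUnit a`;
* (LS1) `ls_res_irreducible`, `ls_dvd_of_res_eq_zero`;
* (LS2) `ls_natCast_residue_ne_zero`;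
* (LS3) `ls_isUnit_natCast`;
* (LS4) `ls_exists_primitiveRoot`;
* (LS5) `ls_exists_inv_zeta_sub_one`;
* (LS6) `ls_not_dvd_intCast_sub`.
-/

set_option autoImplicit false

namespace Fermat.Agent.INJ

open ModularCurve

variable (A : ValuationSubring NfQb) (K₀ : IntermediateField ℚ NfQb)

/-- the residue field of a valuation subring over `ℓ` has characteristic `ℓ` -/
theorem ls_charP_residueField {ℓ : ℕ} (hℓ : ℓ.Prime) (hA : A.LiesOverPrime ℓ) :
    CharP (IsLocalRing.ResidueField A) ℓ := by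
  rw [CharP.charP_iff_prime_eq_zero hℓ]
  have h1 : (((ℓ : A) : A) : NfQb) ∈ A.nonunits := by
    have : (((ℓ : A) : A) : NfQb) = (ℓ : NfQb) := by simp
    rw [this]
    exact hA
  rw [ValuationSubring.coe_mem_nonunits_iff, ← IsLocalRing.residue_eq_zero_iff, map_natCast] at h1
  exact h1

/-- `A₀ = A ∩ K₀` is a discrete valuation ring. -/
theorem ls_isDVR [FiniteDimensional ℚ K₀] {ℓ : ℕ} (hℓ : ℓ.Prime) (hA : A.LiesOverPrime ℓ) :
    IsDiscreteValuationRing (nfSub A K₀) := by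
  have hnf : NumberField K₀ := { to_charZero := inferInstance, to_finiteDimensional := inferInstance }
  refine nf_isDiscreteValuationRing_comap (K := K₀) (L := NfQb) A (x := (ℓ : K₀)) ?_ ?_
  · exact Nat.cast_ne_zero.mpr hℓ.ne_zero
  · rw [map_natCast]
    exact hA

/-- units of `A ∩ K₀` are detected in `A`. -/
theorem ls_isUnit_iff (a : nfSub A K₀) : IsUnit a ↔ IsUnit (nfSubIncl A K₀ a) := by
  constructor
  · intro h
    exact h.map (nfSubIncl A K₀)
  · intro h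
    obtain ⟨u, hu⟩ := h
    have h1 : ((u : A) : NfQb) * ((↑(u⁻¹) : A) : NfQb) = 1 := by
      rw [← A.coe_mul, Units.mul_inv]; rfl
    rw [hu, coe_nfSubIncl] at h1
    have ha0 : (a : K₀) ≠ 0 := by
      intro h0
      rw [h0, map_zero, zero_mul] at h1
      exact zero_ne_one h1
    have hinv : ((↑(u⁻¹) : A) : NfQb) = algebraMap K₀ NfQb (a : K₀)⁻¹ := by
      rw [map_inv₀]
      exact eq_inv_of_mul_eq_one_right h1
    have hmem : (a : K₀)⁻¹ ∈ nfSub A K₀ := by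
      show algebraMap K₀ NfQb (a : K₀)⁻¹ ∈ A
      rw [← hinv]
      exact (↑(u⁻¹) : A).2
    refine isUnit_iff_exists_inv.mpr ⟨⟨(a : K₀)⁻¹, hmem⟩, ?_⟩
    apply Subtype.ext
    show (a : K₀) * (a : K₀)⁻¹ = 1
    exact mul_inv_cancel₀ ha0

/-- the kernel of the reduction consists of the non-units. -/
theorem ls_res_eq_zero_iff (a : nfSub A K₀) : nfRes A K₀ a = 0 ↔ ¬ IsUnit a := by
  rw [nfRes_apply, IsLocalRing.residue_eq_zero_iff, IsLocalRing.mem_maximalIdeal,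
    mem_nonunits_iff, ls_isUnit_iff]

/-- **(LS1a)** the reduction kills a non-unit, in particular an irreducible element. -/
theorem ls_res_irreducible {π : nfSub A K₀} (hπ : Irreducible π) : nfRes A K₀ π = 0 :=
  (ls_res_eq_zero_iff A K₀ π).mpr hπ.not_isUnit

/-- **(LS1b)** the kernel of the reduction is generated by `π`. -/
theorem ls_dvd_of_res_eq_zero [IsDiscreteValuationRing (nfSub A K₀)]
    {π : nfSub A K₀} (hπ : Irreducible π) (a : nfSub A K₀) (ha : nfRes A K₀ a = 0) : π ∣ a := by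
  have h1 : ¬ IsUnit a := (ls_res_eq_zero_iff A K₀ a).mp ha
  have h2 : a ∈ IsLocalRing.maximalIdeal (nfSub A K₀) := by
    rw [IsLocalRing.mem_maximalIdeal, mem_nonunits_iff]
    exact h1
  rw [(IsDiscreteValuationRing.irreducible_iff_uniformizer π).mp hπ] at h2
  exact Ideal.mem_span_singleton.mp h2

/-- **(LS2)** integers prime to `ℓ` are nonzero in the residue field. -/
theorem ls_natCast_residue_ne_zero {ℓ : ℕ} (hℓ : ℓ.Prime) (hA : A.LiesOverPrime ℓ)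
    (m : ℕ) (hm : ¬ ℓ ∣ m) : ((m : ℕ) : IsLocalRing.ResidueField A) ≠ 0 := by
  have := ls_charP_residueField A hℓ hA
  intro h0
  exact hm ((CharP.cast_eq_zero_iff (IsLocalRing.ResidueField A) ℓ m).mp h0)

/-- **(LS3)** integers prime to `ℓ` are units of `A ∩ K₀`. -/
theorem ls_isUnit_natCast {ℓ : ℕ} (hℓ : ℓ.Prime) (hA : A.LiesOverPrime ℓ)
    (m : ℕ) (hm : ¬ ℓ ∣ m) : IsUnit ((m : ℕ) : nfSub A K₀) := by
  by_contra hnu
  have h0 := (ls_res_eq_zero_iff A K₀ _).mpr hnu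
  rw [map_natCast] at h0
  exact ls_natCast_residue_ne_zero A hℓ hA m hm h0

/-- integers prime to `ℓ` are units of `A ∩ K₀` (integer form). -/
theorem ls_isUnit_intCast {ℓ : ℕ} (hℓ : ℓ.Prime) (hA : A.LiesOverPrime ℓ)
    (m : ℤ) (hm : ¬ (ℓ : ℤ) ∣ m) : IsUnit ((m : ℤ) : nfSub A K₀) := by
  have := ls_charP_residueField A hℓ hA
  by_contra hnu
  have h0 := (ls_res_eq_zero_iff A K₀ _).mpr hnu
  rw [map_intCast] at h0
  exact hm ((CharP.intCast_eq_zero_iff (IsLocalRing.ResidueField A) ℓ m).mp h0)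

/-- a root of unity of `K₀` lies in `A ∩ K₀`. -/
theorem ls_mem_of_pow_eq_one {m : ℕ} (hm : m ≠ 0) {ζ : K₀} (hζ : ζ ^ m = 1) :
    ζ ∈ nfSub A K₀ := by
  show algebraMap K₀ NfQb ζ ∈ A
  rw [← A.valuation_le_one_iff]
  have h1 : A.valuation (algebraMap K₀ NfQb ζ) ^ m = 1 := by
    rw [← map_pow, ← map_pow, hζ, map_one, map_one]
  exact le_of_eq ((pow_eq_one_iff.mp h1).resolve_right hm)

/-- **(LS4)** primitive roots of unity of `K₀` lie in `A ∩ K₀`. -/
theorem ls_exists_primitiveRoot {m : ℕ} (hm : m ≠ 0) (h : ∃ ζ : K₀, IsPrimitiveRoot ζ m) :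
    ∃ ζ : nfSub A K₀, IsPrimitiveRoot ζ m := by
  obtain ⟨ζ, hζ⟩ := h
  refine ⟨⟨ζ, ls_mem_of_pow_eq_one A K₀ hm hζ.pow_eq_one⟩, ?_⟩
  refine IsPrimitiveRoot.of_map_of_injective (f := (nfSub A K₀).subtype) ?_ ?_
  · exact hζ
  · exact Subtype.val_injective

/-- **(LS5)** `ζ_p - 1` is a unit of `A ∩ K₀` for a prime `p ≠ ℓ`. -/
theorem ls_exists_inv_zeta_sub_one {ℓ : ℕ} (hℓ : ℓ.Prime) (hA : A.LiesOverPrime ℓ)
    {p : ℕ} (hp : p.Prime) (hpℓ : p ≠ ℓ) (ζ : nfSub A K₀) (hζ : IsPrimitiveRoot ζ p) :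
    ∃ u : nfSub A K₀, (ζ - 1) * u = 1 := by
  have hu : IsUnit (ζ - 1) := by
    by_contra hnu
    have h0 := (ls_res_eq_zero_iff A K₀ _).mpr hnu
    rw [map_sub, map_one, sub_eq_zero] at h0
    have hsum : ∑ i ∈ Finset.range p, ζ ^ i = 0 := hζ.geom_sum_eq_zero hp.one_lt
    have hsum' := congrArg (nfRes A K₀) hsum
    rw [map_sum, map_zero] at hsum'
    simp only [map_pow, h0, one_pow, Finset.sum_const, Finset.card_range, nsmul_eq_mul,
      mul_one] at hsum'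
    refine ls_natCast_residue_ne_zero A hℓ hA p ?_ hsum'
    intro hdvd
    exact hpℓ ((Nat.prime_dvd_prime_iff_eq hℓ hp).mp hdvd).symm
  obtain ⟨u, hu'⟩ := isUnit_iff_exists_inv.mp hu
  exact ⟨u, hu'⟩

/-- **(LS6)** integers that are distinct modulo `ℓ` are distinct modulo `π`. -/
theorem ls_not_dvd_intCast_sub {ℓ : ℕ} (hℓ : ℓ.Prime) (hA : A.LiesOverPrime ℓ)
    {π : nfSub A K₀} (hπ : ¬ IsUnit π) (a b : ℤ) (hab : ¬ (ℓ : ℤ) ∣ a - b) :
    ¬ π ∣ ((a : nfSub A K₀) - (b : nfSub A K₀)) := by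
  intro hdvd
  have hu : IsUnit ((a : nfSub A K₀) - (b : nfSub A K₀)) := by
    have := ls_isUnit_intCast A K₀ hℓ hA (a - b) hab
    rwa [Int.cast_sub] at this
  exact hπ (isUnit_of_dvd_unit hdvd hu)

/-- `π ≠ 0` and `π` is not a unit, for the record. -/
theorem ls_irreducible_ne_zero {π : nfSub A K₀} (hπ : Irreducible π) : π ≠ 0 := hπ.ne_zero

end Fermat.Agent.INJ
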