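import Mathlib

/-!
# INJ piece A4a — Abhyankar's lemma for discrete valuations (tame Kummer base change)

`L ⊂ L'` fields, `v` a `ℤᵐ⁰`-valued valuation on `L'`, `u ∈ L` a uniformiser of `v|_L`,
`τ ∈ L` with `v τ = (v u)^k`, `s ∈ L'` with `s^e = τ`, `k ∣ e`, `k ≠ 0` in the residue field.
Then `v s` generates the value group of `v` on `L[s]`, i.e. `s` is a uniformiser:
`L(s)` is unramified over the Kummer extension `K(s)` of any subfield `K ∋ τ` of `L`.

Main results (namespace `Fermat.Agent.INJ.Abh`):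
* `val_sum_distinct` : a finite sum whose nonzero terms have pairwise distinct values has the
  value of one of its terms.
* `unitKummer_value` : unit Kummer extensions are unramified (value group does not grow).
* `abhyankar_value` : the statement above.
-/

set_option autoImplicit false

open Polynomial WithZero

namespace Fermat.Agent.INJ.Abh

variable {L' : Type*} [Field L']

/-- A finite sum whose nonzero terms have pairwise distinct values is zero or has the value of
one of its nonzero terms. -/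
theorem val_sum_distinct (v : Valuation L' ℤᵐ⁰) {ι : Type*} (S : Finset ι) (f : ι → L')
    (hdist : ∀ i ∈ S, ∀ j ∈ S, f i ≠ 0 → f j ≠ 0 → v (f i) = v (f j) → i = j) :
    (∑ i ∈ S, f i = 0 ∧ ∀ i ∈ S, f i = 0) ∨
      ∃ j ∈ S, f j ≠ 0 ∧ v (∑ i ∈ S, f i) = v (f j) := by
  classical
  induction S using Finset.induction_on with
  | empty => left; simp
  | insert a S ha ih =>
    have ih' := ih (fun i hi j hj => hdist i (Finset.mem_insert_of_mem hi) j
      (Finset.mem_insert_of_mem hj))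
    rw [Finset.sum_insert ha]
    by_cases hfa : f a = 0
    · rcases ih' with ⟨h0, hall⟩ | ⟨j, hj, hj0, hjv⟩
      · left
        refine ⟨by rw [hfa, h0, add_zero], fun i hi => ?_⟩
        rcases Finset.mem_insert.mp hi with rfl | hi
        · exact hfa
        · exact hall i hi
      · right
        exact ⟨j, Finset.mem_insert_of_mem hj, hj0, by rw [hfa, zero_add, hjv]⟩
    · right
      rcases ih' with ⟨h0, _⟩ | ⟨j, hj, hj0, hjv⟩
      · exact ⟨a, Finset.mem_insert_self a S, hfa, by rw [h0, add_zero]⟩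
      · have hne : v (f a) ≠ v (∑ i ∈ S, f i) := by
          rw [hjv]
          intro h
          have := hdist a (Finset.mem_insert_self a S) j (Finset.mem_insert_of_mem hj) hfa hj0 h
          exact ha (this ▸ hj)
        rw [Valuation.map_add_of_distinct_val v hne]
        rcases le_total (v (f a)) (v (∑ i ∈ S, f i)) with h | h
        · exact ⟨j, Finset.mem_insert_of_mem hj, hj0, by rw [max_eq_right h, hjv]⟩
        · exact ⟨a, Finset.mem_insert_self a S, hfa, by rw [max_eq_left h]⟩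

/-- Totally ramified step: if the `c i` have values in `⟨γ^m⟩` and `v s = γ ≠ 1`, then
`∑_{i<m} c_i s^i` has value in `⟨γ⟩`. -/
theorem val_sum_pow_mem (v : Valuation L' ℤᵐ⁰) (s : L') (hs0 : s ≠ 0) (hs1 : v s ≠ 1)
    (m : ℕ) (c : ℕ → L')
    (hc : ∀ i < m, c i ≠ 0 → ∃ n : ℤ, v (c i) = v s ^ ((m : ℤ) * n))
    (hx : ∑ i ∈ Finset.range m, c i * s ^ i ≠ 0) :
    ∃ n : ℤ, v (∑ i ∈ Finset.range m, c i * s ^ i) = v s ^ n := by
  have hγ0 : 0 < v s := by
    rw [zero_lt_iff]
    exact (Valuation.ne_zero_iff v).mpr hs0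
  have hinj := zpow_right_injective₀ hγ0 hs1
  have hval : ∀ i < m, c i * s ^ i ≠ 0 → ∃ n : ℤ, v (c i * s ^ i) = v s ^ ((m : ℤ) * n + i) := by
    intro i hi h0
    have hci : c i ≠ 0 := left_ne_zero_of_mul h0
    obtain ⟨n, hn⟩ := hc i hi hci
    refine ⟨n, ?_⟩
    rw [map_mul, map_pow, hn, zpow_add₀ hγ0.ne', zpow_natCast]
  have hdist : ∀ i ∈ Finset.range m, ∀ j ∈ Finset.range m, c i * s ^ i ≠ 0 → c j * s ^ j ≠ 0 →
      v (c i * s ^ i) = v (c j * s ^ j) → i = j := by
    intro i hi j hj hi0 hj0 hij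
    have hi' := Finset.mem_range.mp hi
    have hj' := Finset.mem_range.mp hj
    obtain ⟨n, hn⟩ := hval i hi' hi0
    obtain ⟨n', hn'⟩ := hval j hj' hj0
    rw [hn, hn'] at hij
    have h := hinj hij
    -- m*n + i = m*n' + j with i, j < m
    have h1 : ((i : ℤ) - j) = (m : ℤ) * (n' - n) := by
      linarith
    have h2 : (m : ℤ) ∣ (i : ℤ) - j := ⟨_, h1⟩
    have h3 : |(i : ℤ) - j| < m := by
      rw [abs_lt]
      constructor <;> omega
    have h4 : (i : ℤ) - j = 0 := Int.eq_zero_of_abs_lt_dvd h2 h3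
    omega
  rcases val_sum_distinct v (Finset.range m) (fun i => c i * s ^ i) hdist with
    ⟨h0, _⟩ | ⟨j, hj, hj0, hjv⟩
  · exact absurd h0 hx
  · obtain ⟨n, hn⟩ := hval j (Finset.mem_range.mp hj) hj0
    exact ⟨_, hjv.trans hn⟩


/-! ## Unit Kummer extensions are unramified -/

section Kummer

variable {L : Type*} [Field L] [Algebra L L'] (v : Valuation L' ℤᵐ⁰)

/-- The valuation ring of `v|_L`. -/
abbrev OL : ValuationSubring L := (v.comap (algebraMap L L')).valuationSubring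

/-- The valuation ring of `v`. -/
abbrev OL' : ValuationSubring L' := v.valuationSubring

theorem mem_OL {a : L} : a ∈ OL (L := L) v ↔ v (algebraMap L L' a) ≤ 1 := Iff.rfl

/-- The inclusion `O_L → O_{L'}`. -/
def incl : OL (L := L) v →+* OL' v :=
  ((algebraMap L L').comp (OL (L := L) v).subtype).codRestrict (OL' v).toSubring
    (fun a => a.2)

@[simp] theorem incl_coe (a : OL (L := L) v) : ((incl v a : OL' v) : L') = algebraMap L L' a := rfl

theorem isUnit_OL_iff (a : OL (L := L) v) : IsUnit a ↔ v (algebraMap L L' a) = 1 := by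
  rw [ValuationSubring.valuation_eq_one_iff]
  have h := (Valuation.isEquiv_valuation_valuationSubring (v.comap (algebraMap L L')))
  exact (Valuation.isEquiv_iff_val_eq_one.mp h).symm

theorem isUnit_OL'_iff (a : OL' v) : IsUnit a ↔ v (a : L') = 1 := by
  rw [ValuationSubring.valuation_eq_one_iff]
  have h := (Valuation.isEquiv_valuation_valuationSubring v)
  exact (Valuation.isEquiv_iff_val_eq_one.mp h).symm

instance : IsLocalHom (incl (L := L) v) where
  map_nonunit a ha := by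
    rw [isUnit_OL_iff]
    rw [isUnit_OL'_iff] at ha
    exact ha

theorem residue_OL'_eq_zero_iff (a : OL' v) :
    IsLocalRing.residue (OL' v) a = 0 ↔ v (a : L') < 1 := by
  rw [IsLocalRing.residue_eq_zero_iff, IsLocalRing.mem_maximalIdeal, mem_nonunits_iff,
    isUnit_OL'_iff]
  have h1 : v (a : L') ≤ 1 := a.2
  exact ⟨fun h => lt_of_le_of_ne h1 h, fun h => h.ne⟩

theorem residue_OL_eq_zero_iff (a : OL (L := L) v) :
    IsLocalRing.residue (OL (L := L) v) a = 0 ↔ v (algebraMap L L' a) < 1 := by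
  rw [IsLocalRing.residue_eq_zero_iff, IsLocalRing.mem_maximalIdeal, mem_nonunits_iff,
    isUnit_OL_iff]
  have h1 : v (algebraMap L L' a) ≤ 1 := a.2
  exact ⟨fun h => lt_of_le_of_ne h1 h, fun h => h.ne⟩

/-- Evaluation of an integral polynomial at an integral element, in `O_{L'}`. -/
noncomputable def ev' (z₀ : OL' v) (Q : (OL (L := L) v)[X]) : OL' v := Q.eval₂ (incl v) z₀

/-- Evaluation of an integral polynomial at an integral element, in `L'`. -/
noncomputable def ev (z₀ : OL' v) (Q : (OL (L := L) v)[X]) : L' := (ev' v z₀ Q : L')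

theorem ev_add (z₀ : OL' v) (P Q : (OL (L := L) v)[X]) : ev v z₀ (P + Q) = ev v z₀ P + ev v z₀ Q := by
  simp [ev, ev', Polynomial.eval₂_add]

theorem ev_mul (z₀ : OL' v) (P Q : (OL (L := L) v)[X]) : ev v z₀ (P * Q) = ev v z₀ P * ev v z₀ Q := by
  simp [ev, ev', Polynomial.eval₂_mul]

theorem ev_sub (z₀ : OL' v) (P Q : (OL (L := L) v)[X]) : ev v z₀ (P - Q) = ev v z₀ P - ev v z₀ Q := by
  simp [ev, ev', Polynomial.eval₂_sub]

theorem ev_C (z₀ : OL' v) (a : OL (L := L) v) : ev v z₀ (C a) = algebraMap L L' a := by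
  simp [ev, ev']

theorem ev_X (z₀ : OL' v) : ev (L := L) v z₀ X = (z₀ : L') := by
  simp [ev, ev']

theorem ev_pow (z₀ : OL' v) (P : (OL (L := L) v)[X]) (n : ℕ) : ev v z₀ (P ^ n) = ev v z₀ P ^ n := by
  simp [ev, ev', Polynomial.eval₂_pow]

theorem ev_le_one (z₀ : OL' v) (Q : (OL (L := L) v)[X]) : v (ev v z₀ Q) ≤ 1 := (ev' v z₀ Q).2


theorem residue_ev' (z₀ : OL' v) (Q : (OL (L := L) v)[X]) :
    IsLocalRing.residue (OL' v) (ev' v z₀ Q) =
      (Q.map (IsLocalRing.residue (OL (L := L) v))).eval₂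
        (IsLocalRing.ResidueField.map (incl (L := L) v)) (IsLocalRing.residue (OL' v) z₀) := by
  rw [ev', Polynomial.hom_eval₂, Polynomial.eval₂_map,
    IsLocalRing.ResidueField.map_comp_residue]

/-- Powers of an element `< 1` of `ℤᵐ⁰` become arbitrarily small. -/
theorem exists_pow_lt {a x : ℤᵐ⁰} (ha0 : a ≠ 0) (ha1 : a < 1) (hx : x ≠ 0) :
    ∃ N : ℕ, a ^ N < x := by
  obtain ⟨α, rfl⟩ : ∃ α : ℤ, a = exp α := ⟨log a, (exp_log ha0).symm⟩
  obtain ⟨ξ, rfl⟩ : ∃ ξ : ℤ, x = exp ξ := ⟨log x, (exp_log hx).symm⟩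
  have hα : α < 0 := by
    have : exp α < exp (0 : ℤ) := by rw [exp_zero]; exact ha1
    exact exp_lt_exp.mp this
  refine ⟨(|ξ| + 1).toNat, ?_⟩
  rw [← exp_nsmul, exp_lt_exp]
  have h1 : ((|ξ| + 1).toNat : ℤ) = |ξ| + 1 := Int.toNat_of_nonneg (by positivity)
  rw [nsmul_eq_mul, h1]
  have h2 : -|ξ| ≤ ξ := neg_abs_le _
  nlinarith [abs_nonneg ξ]

/-- If `a` lies in the maximal ideal and `u` is a uniformiser, then `u ∣ a`. -/
theorem dvd_of_lt_one (u : L) (hu1 : v (algebraMap L L' u) < 1)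
    (hunif : ∀ a : L, a ≠ 0 → ∃ n : ℤ, v (algebraMap L L' a) = v (algebraMap L L' u) ^ n)
    (a : OL (L := L) v) (ha : v (algebraMap L L' a) < 1) :
    (⟨u, hu1.le⟩ : OL (L := L) v) ∣ a := by
  have hint := Valuation.valuationSubring.integers (v.comap (algebraMap L L'))
  apply hint.dvd_of_le
  show v (algebraMap L L' (a : L)) ≤ v (algebraMap L L' u)
  by_cases ha0 : (a : L) = 0
  · rw [ha0, map_zero, map_zero]; exact zero_le
  obtain ⟨n, hn⟩ := hunif a ha0
  have hu0 : 0 < v (algebraMap L L' u) := by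
    rw [zero_lt_iff]
    intro h0
    rw [h0] at hn
    have : v (algebraMap L L' (a : L)) ≠ 0 :=
      (Valuation.ne_zero_iff v).mpr (by simpa using ha0)
    rcases eq_or_ne n 0 with rfl | hn0
    · rw [zpow_zero] at hn; rw [hn] at ha; exact lt_irrefl _ ha
    · rw [zero_zpow n hn0] at hn; exact this hn
  rw [hn] at ha ⊢
  have h1 : (1 : ℤ) ≤ n := by
    by_contra hcon
    have hn0 : n ≤ 0 := by omega
    have : v (algebraMap L L' u) ^ (0 : ℤ) ≤ v (algebraMap L L' u) ^ n :=
      zpow_le_zpow_right_of_le_one₀ hu0 hu1.le hn0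
    rw [zpow_zero] at this
    exact absurd ha (not_lt.mpr this)
  have := zpow_le_zpow_right_of_le_one₀ hu0 hu1.le h1
  simpa using this

/-- A polynomial with zero reduction is divisible by the uniformiser. -/
theorem C_dvd_of_map_eq_zero (u : L) (hu1 : v (algebraMap L L' u) < 1)
    (hunif : ∀ a : L, a ≠ 0 → ∃ n : ℤ, v (algebraMap L L' a) = v (algebraMap L L' u) ^ n)
    (P : (OL (L := L) v)[X]) (hP : P.map (IsLocalRing.residue (OL (L := L) v)) = 0) :
    C (⟨u, hu1.le⟩ : OL (L := L) v) ∣ P := by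
  rw [Polynomial.C_dvd_iff_dvd_coeff]
  intro i
  apply dvd_of_lt_one v u hu1 hunif
  rw [← residue_OL_eq_zero_iff]
  have := congrArg (fun p => p.coeff i) hP
  simpa using this


/-- `ev` as a ring homomorphism. -/
noncomputable def evHom (z₀ : OL' v) : (OL (L := L) v)[X] →+* L' :=
  (OL' v).subtype.comp (Polynomial.eval₂RingHom (incl (L := L) v) z₀)

theorem ev_eq (z₀ : OL' v) (Q : (OL (L := L) v)[X]) : ev v z₀ Q = evHom v z₀ Q := rfl

/-- Key step: there is a `v`-unit `c` such that every integral polynomial expression in `z` of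
value `< 1`, multiplied by `c`, is `u` times an integral polynomial expression in `z`. -/
theorem kummer_step (u ω : L) (hu1 : v (algebraMap L L' u) < 1)
    (hunif : ∀ a : L, a ≠ 0 → ∃ n : ℤ, v (algebraMap L L' a) = v (algebraMap L L' u) ^ n)
    (z₀ : OL' v) (k : ℕ) (hz : (z₀ : L') ^ k = algebraMap L L' ω)
    (hω : v (algebraMap L L' ω) = 1) (hkv : v (k : L') = 1) :
    ∃ c : L', v c = 1 ∧ ∀ Q : (OL (L := L) v)[X], v (ev v z₀ Q) < 1 →
      ∃ Y : (OL (L := L) v)[X], ev v z₀ Q * c = algebraMap L L' u * ev v z₀ Y := by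
  classical
  set O := OL (L := L) v with hO
  set res := IsLocalRing.residue O with hres
  set ρ := IsLocalRing.ResidueField.map (incl (L := L) v) with hρ
  set zb := IsLocalRing.residue (OL' v) z₀ with hzb
  let ω₀ : O := ⟨ω, hω.le⟩
  let u₀ : O := ⟨u, hu1.le⟩
  have hωb : res ω₀ ≠ 0 := by
    rw [Ne, residue_OL_eq_zero_iff]
    show ¬ v (algebraMap L L' ω) < 1
    rw [hω]; exact lt_irrefl _
  have hkb : ((k : ℕ) : IsLocalRing.ResidueField O) ≠ 0 := by
    have : ((k : ℕ) : IsLocalRing.ResidueField O) = res (k : O) := by simp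
    rw [this, Ne, residue_OL_eq_zero_iff]
    have h2 : algebraMap L L' (((k : O) : L)) = (k : L') := by simp
    rw [h2, hkv]; exact lt_irrefl _
  have hsep : (X ^ k - C (res ω₀) : (IsLocalRing.ResidueField O)[X]).Separable :=
    separable_X_pow_sub_C (res ω₀) hkb hωb
  let evρ : (IsLocalRing.ResidueField O)[X] →+* IsLocalRing.ResidueField (OL' v) :=
    Polynomial.eval₂RingHom ρ zb
  have hres_ev : ∀ Q : O[X], IsLocalRing.residue (OL' v) (ev' v z₀ Q) = evρ (Q.map res) :=
    fun Q => residue_ev' v z₀ Q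
  let I : Ideal (IsLocalRing.ResidueField O)[X] := RingHom.ker evρ
  let h := Submodule.IsPrincipal.generator I
  have hhI : h ∈ I := Submodule.IsPrincipal.generator_mem I
  have hg₀ : ev' v z₀ (X ^ k - C ω₀ : O[X]) = 0 := by
    apply Subtype.ext
    simp only [ev', eval₂_sub, eval₂_pow, eval₂_X, eval₂_C]
    show (z₀ : L') ^ k - algebraMap L L' ω = 0
    rw [hz, sub_self]
  have hgI : (X ^ k - C (res ω₀) : (IsLocalRing.ResidueField O)[X]) ∈ I := by
    rw [RingHom.mem_ker]
    have := hres_ev (X ^ k - C ω₀)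
    rw [hg₀, map_zero] at this
    rw [this]
    simp
  obtain ⟨h₂, hh₂⟩ := (Submodule.IsPrincipal.mem_iff_generator_dvd I).mp hgI
  rw [hh₂] at hsep
  obtain ⟨a, b, hab⟩ := hsep.isCoprime
  have hsurj := Polynomial.map_surjective res IsLocalRing.residue_surjective
  obtain ⟨H, hH⟩ := hsurj h
  obtain ⟨H₂, hH₂⟩ := hsurj h₂
  obtain ⟨B, hB⟩ := hsurj b
  have hevh : evρ h = 0 := hhI
  refine ⟨ev v z₀ (B * H₂), ?_, ?_⟩
  · -- `c` is a unit
    have h1 : IsLocalRing.residue (OL' v) (ev' v z₀ (B * H₂)) = 1 := by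
      rw [hres_ev, Polynomial.map_mul, hB, hH₂]
      have : b * h₂ = 1 - a * h := by rw [← hab]; ring
      rw [this, map_sub, map_one, map_mul, hevh, mul_zero, sub_zero]
    have h2 : ¬ v (ev v z₀ (B * H₂)) < 1 := by
      rw [ev, ← residue_OL'_eq_zero_iff, h1]
      exact one_ne_zero
    exact le_antisymm (ev_le_one v z₀ _) (not_lt.mp h2)
  · intro Q hQ
    have hQ0 : evρ (Q.map res) = 0 := by
      rw [← hres_ev, residue_OL'_eq_zero_iff]
      exact hQ
    have hQI : Q.map res ∈ I := hQ0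
    obtain ⟨q₁, hq₁⟩ := (Submodule.IsPrincipal.mem_iff_generator_dvd I).mp hQI
    obtain ⟨Q₁, hQ₁⟩ := hsurj q₁
    have hP₁ : (Q - H * Q₁).map res = 0 := by
      rw [Polynomial.map_sub, Polynomial.map_mul, hH, hQ₁, hq₁, sub_self]
    have hP₂ : (H * H₂ - (X ^ k - C ω₀)).map res = 0 := by
      rw [Polynomial.map_sub, Polynomial.map_mul, hH, hH₂, Polynomial.map_sub,
        Polynomial.map_pow, Polynomial.map_X, Polynomial.map_C, ← hh₂, sub_self]
    obtain ⟨P₁, hP₁'⟩ := C_dvd_of_map_eq_zero v u hu1 hunif _ hP₁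
    obtain ⟨P₂, hP₂'⟩ := C_dvd_of_map_eq_zero v u hu1 hunif _ hP₂
    refine ⟨Q₁ * B * P₂ + P₁ * B * H₂, ?_⟩
    have hpoly : Q * (B * H₂) = Q₁ * B * (X ^ k - C ω₀) +
        C u₀ * (Q₁ * B * P₂ + P₁ * B * H₂) := by
      have e1 : Q = H * Q₁ + C u₀ * P₁ := by rw [← hP₁']; ring
      have e2 : H * H₂ = (X ^ k - C ω₀) + C u₀ * P₂ := by rw [← hP₂']; ring
      calc Q * (B * H₂) = (H * Q₁ + C u₀ * P₁) * (B * H₂) := by rw [← e1]
        _ = Q₁ * B * (H * H₂) + C u₀ * (P₁ * B * H₂) := by ring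
        _ = Q₁ * B * ((X ^ k - C ω₀) + C u₀ * P₂) + C u₀ * (P₁ * B * H₂) := by rw [e2]
        _ = _ := by ring
    have hg₀' : ev v z₀ (X ^ k - C ω₀ : O[X]) = 0 := by
      rw [ev, hg₀]; rfl
    rw [← ev_mul, hpoly, ev_add, ev_mul, hg₀', mul_zero, zero_add, ev_mul, ev_C]


/-- Values of integral polynomial expressions in a unit Kummer generator are powers of `v u`. -/
theorem kummer_value_int (u ω : L) (hu0 : u ≠ 0) (hu1 : v (algebraMap L L' u) < 1)
    (hunif : ∀ a : L, a ≠ 0 → ∃ n : ℤ, v (algebraMap L L' a) = v (algebraMap L L' u) ^ n)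
    (z₀ : OL' v) (k : ℕ) (hz : (z₀ : L') ^ k = algebraMap L L' ω)
    (hω : v (algebraMap L L' ω) = 1) (hkv : v (k : L') = 1)
    (Q : (OL (L := L) v)[X]) (hQ : ev v z₀ Q ≠ 0) :
    ∃ n : ℤ, v (ev v z₀ Q) = v (algebraMap L L' u) ^ n := by
  obtain ⟨c, hc, hstep⟩ := kummer_step v u ω hu1 hunif z₀ k hz hω hkv
  have hγ0 : v (algebraMap L L' u) ≠ 0 :=
    (Valuation.ne_zero_iff v).mpr (by simpa using hu0)
  have key : ∀ N : ℕ, ∀ Q : (OL (L := L) v)[X], ev v z₀ Q ≠ 0 →
      v (algebraMap L L' u) ^ N < v (ev v z₀ Q) →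
      ∃ n : ℤ, v (ev v z₀ Q) = v (algebraMap L L' u) ^ n := by
    intro N
    induction N with
    | zero =>
      intro Q _ hlt
      rw [pow_zero] at hlt
      exact absurd (ev_le_one v z₀ Q) (not_le.mpr hlt)
    | succ N ih =>
      intro Q hQ hlt
      rcases (ev_le_one v z₀ Q).lt_or_eq with h1 | h1
      · obtain ⟨Y, hY⟩ := hstep Q h1
        have hval : v (ev v z₀ Q) = v (algebraMap L L' u) * v (ev v z₀ Y) := by
          have := congrArg v hY
          rwa [map_mul, map_mul, hc, mul_one] at this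
        have hY0 : ev v z₀ Y ≠ 0 := by
          intro h0
          rw [h0, map_zero, mul_zero] at hval
          exact hQ ((Valuation.zero_iff v).mp hval)
        have hlt' : v (algebraMap L L' u) ^ N < v (ev v z₀ Y) := by
          rw [hval, pow_succ'] at hlt
          exact lt_of_mul_lt_mul_left' hlt
        obtain ⟨n, hn⟩ := ih Y hY0 hlt'
        refine ⟨n + 1, ?_⟩
        rw [hval, hn, zpow_add₀ hγ0, zpow_one, mul_comm]
      · exact ⟨0, by rw [h1, zpow_zero]⟩
  obtain ⟨N, hN⟩ := exists_pow_lt hγ0 hu1 ((Valuation.ne_zero_iff v).mpr hQ)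
  exact key N Q hQ hN

/-- **Unit Kummer extensions are unramified**: if `z^k = ω ∈ L` with `v ω = 1` and `v k = 1`,
and `u` is a uniformiser of `v|_L`, then every nonzero element of `L[z]` has value in `⟨v u⟩`. -/
theorem unitKummer_value (u ω : L) (hu0 : u ≠ 0) (hu1 : v (algebraMap L L' u) < 1)
    (hunif : ∀ a : L, a ≠ 0 → ∃ n : ℤ, v (algebraMap L L' a) = v (algebraMap L L' u) ^ n)
    (z : L') (k : ℕ) (hz : z ^ k = algebraMap L L' ω)
    (hω : v (algebraMap L L' ω) = 1) (hkv : v (k : L') = 1)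
    (Q : L[X]) (hQ : aeval z Q ≠ 0) :
    ∃ n : ℤ, v (aeval z Q) = v (algebraMap L L' u) ^ n := by
  have hk0 : k ≠ 0 := by
    rintro rfl
    simp at hkv
  have hz1 : v z = 1 := by
    have h := congrArg v hz
    rw [map_pow, hω] at h
    exact (pow_left_inj₀ zero_le zero_le hk0).mp (h.trans (one_pow k).symm)
  let z₀ : OL' v := ⟨z, hz1.le⟩
  have hγ0 : v (algebraMap L L' u) ≠ 0 :=
    (Valuation.ne_zero_iff v).mpr (by simpa using hu0)
  -- every element of `L[z]` is `u^{-j}` times an integral expression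
  have hrep : ∀ Q : L[X], ∃ (j : ℕ) (Y : (OL (L := L) v)[X]),
      algebraMap L L' u ^ j * aeval z Q = ev v z₀ Y := by
    intro Q
    induction Q using Polynomial.induction_on' with
    | add p q hp hq =>
      obtain ⟨j, Y, hY⟩ := hp
      obtain ⟨j', Y', hY'⟩ := hq
      refine ⟨j + j', C (⟨u, hu1.le⟩ : OL (L := L) v) ^ j' * Y +
        C (⟨u, hu1.le⟩ : OL (L := L) v) ^ j * Y', ?_⟩
      rw [map_add, ev_add, ev_mul, ev_mul, ev_pow, ev_pow, ev_C, ← hY, ← hY']
      show algebraMap L L' u ^ (j + j') * _ = algebraMap L L' u ^ j' * _ +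
        algebraMap L L' u ^ j * _
      ring
    | monomial n a =>
      by_cases ha : a = 0
      · exact ⟨0, 0, by simp [ha, ev, ev']⟩
      obtain ⟨m, hm⟩ := hunif a ha
      -- `u^j * a` is integral for `j = (-m).toNat`
      have hint : v (algebraMap L L' (u ^ (-m).toNat * a)) ≤ 1 := by
        rw [map_mul, map_mul, map_pow, map_pow, hm, ← zpow_natCast, ← zpow_add₀ hγ0]
        have h0 : (0 : ℤ) ≤ ((-m).toNat : ℤ) + m := by
          have := Int.self_le_toNat (-m)
          omega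
        have := zpow_le_zpow_right_of_le_one₀ (zero_lt_iff.mpr hγ0) hu1.le h0
        simpa using this
      refine ⟨(-m).toNat, C (⟨u ^ (-m).toNat * a, hint⟩ : OL (L := L) v) * X ^ n, ?_⟩
      rw [ev_mul, ev_C, ev_pow, ev_X, Polynomial.aeval_monomial]
      show _ = algebraMap L L' (u ^ (-m).toNat * a) * z ^ n
      rw [map_mul, map_pow]
      ring
  obtain ⟨j, Y, hY⟩ := hrep Q
  have hY0 : ev v z₀ Y ≠ 0 := by
    rw [← hY]
    exact mul_ne_zero (pow_ne_zero _ (by simpa using hu0)) hQ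
  obtain ⟨n, hn⟩ := kummer_value_int v u ω hu0 hu1 hunif z₀ k hz hω hkv Y hY0
  refine ⟨n - j, ?_⟩
  have h := congrArg v hY
  rw [map_mul, map_pow, hn] at h
  rw [zpow_sub₀ hγ0, zpow_natCast, ← h, mul_comm, mul_div_assoc,
    div_self (pow_ne_zero _ hγ0), mul_one]


/-! ## Abhyankar's lemma -/

/-- **Abhyankar's lemma, valuation form.**  `u ∈ L` a uniformiser of `v|_L`, `τ ∈ L` with
`v τ = (v u)^k`, `s^e = τ` with `k ∣ e`, and `k` a `v`-unit (tameness).  Then every nonzero
element of `L[s]` has value in `⟨v s⟩`: `s` is a uniformiser of `v` on `L[s]`. -/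
theorem abhyankar_value (u τ : L) (hu0 : u ≠ 0) (hu1 : v (algebraMap L L' u) < 1)
    (hunif : ∀ a : L, a ≠ 0 → ∃ n : ℤ, v (algebraMap L L' a) = v (algebraMap L L' u) ^ n)
    (s : L') (e k : ℕ) (hke : k ∣ e) (he : e ≠ 0) (hs : s ^ e = algebraMap L L' τ)
    (hτ : v (algebraMap L L' τ) = v (algebraMap L L' u) ^ k) (hkv : v (k : L') = 1)
    (P : L[X]) (hP : aeval s P ≠ 0) :
    ∃ n : ℤ, v (aeval s P) = v s ^ n := by
  classical
  obtain ⟨m, rfl⟩ := hke
  have hk0 : k ≠ 0 := fun h => he (by rw [h, zero_mul])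
  have hm0 : m ≠ 0 := fun h => he (by rw [h, mul_zero])
  have hφu0 : algebraMap L L' u ≠ 0 := by simpa using hu0
  have hγ0 : v (algebraMap L L' u) ≠ 0 := (Valuation.ne_zero_iff v).mpr hφu0
  set z : L' := s ^ m / algebraMap L L' u with hzdef
  have hzk : z ^ k = algebraMap L L' (τ / u ^ k) := by
    rw [hzdef, div_pow, ← pow_mul, mul_comm m k, hs, map_div₀, map_pow]
  have hω : v (algebraMap L L' (τ / u ^ k)) = 1 := by
    rw [map_div₀, map_div₀, map_pow, map_pow, hτ, div_self (pow_ne_zero _ hγ0)]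
  have hz1 : v z = 1 := by
    have h := congrArg v hzk
    rw [map_pow, hω] at h
    exact (pow_left_inj₀ zero_le zero_le hk0).mp (h.trans (one_pow k).symm)
  have hsm : s ^ m = z * algebraMap L L' u := by
    rw [hzdef, div_mul_cancel₀ _ hφu0]
  have hvs : v s ^ m = v (algebraMap L L' u) := by
    rw [← map_pow, hsm, map_mul, hz1, one_mul]
  have hs0 : s ≠ 0 := by
    rintro rfl
    rw [map_zero, zero_pow hm0] at hvs
    exact hγ0 hvs.symm
  have hs1 : v s ≠ 1 := by
    intro h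
    rw [h, one_pow] at hvs
    rw [← hvs] at hu1
    exact lt_irrefl _ hu1
  -- representation of elements of `L[s]`
  have hrep : ∀ P : L[X], ∃ c : ℕ → L[X],
      aeval s P = ∑ i ∈ Finset.range m, aeval z (c i) * s ^ i := by
    intro P
    induction P using Polynomial.induction_on' with
    | add p q hp hq =>
      obtain ⟨c, hc⟩ := hp
      obtain ⟨c', hc'⟩ := hq
      refine ⟨fun i => c i + c' i, ?_⟩
      rw [map_add, hc, hc', ← Finset.sum_add_distrib]
      refine Finset.sum_congr rfl fun i _ => ?_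
      rw [map_add, add_mul]
    | monomial n a =>
      refine ⟨fun i => if i = n % m then C (a * u ^ (n / m)) * X ^ (n / m) else 0, ?_⟩
      have hmem : n % m ∈ Finset.range m := Finset.mem_range.mpr (Nat.mod_lt _ (Nat.pos_of_ne_zero hm0))
      rw [Finset.sum_eq_single_of_mem (n % m) hmem]
      · simp only [if_true, map_mul, aeval_C, map_pow, aeval_X, Polynomial.aeval_monomial]
        have h1 : algebraMap L L' u ^ (n / m) * z ^ (n / m) = (s ^ m) ^ (n / m) := by
          rw [hsm, mul_pow, mul_comm]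
        have h2 : s ^ n = (s ^ m) ^ (n / m) * s ^ (n % m) := by
          rw [← pow_mul, ← pow_add, Nat.div_add_mod]
        rw [h2, ← h1]
        ring
      · intro i _ hi
        simp [hi]
  obtain ⟨c, hc⟩ := hrep P
  rw [hc] at hP ⊢
  refine val_sum_pow_mem v s hs0 hs1 m (fun i => aeval z (c i)) ?_ hP
  intro i _ hci
  obtain ⟨n, hn⟩ := unitKummer_value v u (τ / u ^ k) hu0 hu1 hunif z k hzk hω hkv (c i) hci
  refine ⟨n, ?_⟩
  rw [hn, ← hvs, ← zpow_natCast, ← zpow_mul]

/-- `abhyankar_value` for all elements of `L'` when `L' = L[s]`. -/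
theorem abhyankar_value_of_adjoin (u τ : L) (hu0 : u ≠ 0) (hu1 : v (algebraMap L L' u) < 1)
    (hunif : ∀ a : L, a ≠ 0 → ∃ n : ℤ, v (algebraMap L L' a) = v (algebraMap L L' u) ^ n)
    (s : L') (e k : ℕ) (hke : k ∣ e) (he : e ≠ 0) (hs : s ^ e = algebraMap L L' τ)
    (hτ : v (algebraMap L L' τ) = v (algebraMap L L' u) ^ k) (hkv : v (k : L') = 1)
    (hgen : Algebra.adjoin L {s} = ⊤) (x : L') (hx : x ≠ 0) :
    ∃ n : ℤ, v x = v s ^ n := by
  have hx' : x ∈ Algebra.adjoin L {s} := by rw [hgen]; exact Algebra.mem_top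
  rw [Algebra.adjoin_singleton_eq_range_aeval] at hx'
  obtain ⟨P, rfl⟩ := hx'
  exact abhyankar_value v u τ hu0 hu1 hunif s e k hke he hs hτ hkv P hx

/-- `abhyankar_value` for all elements of `L'` when `L' = L(s)`. -/
theorem abhyankar_value_of_adjoin_field (u τ : L) (hu0 : u ≠ 0)
    (hu1 : v (algebraMap L L' u) < 1)
    (hunif : ∀ a : L, a ≠ 0 → ∃ n : ℤ, v (algebraMap L L' a) = v (algebraMap L L' u) ^ n)
    (s : L') (e k : ℕ) (hke : k ∣ e) (he : e ≠ 0) (hs : s ^ e = algebraMap L L' τ)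
    (hτ : v (algebraMap L L' τ) = v (algebraMap L L' u) ^ k) (hkv : v (k : L') = 1)
    (hgen : IntermediateField.adjoin L {s} = ⊤) (x : L') (hx : x ≠ 0) :
    ∃ n : ℤ, v x = v s ^ n := by
  have hint : IsIntegral L s := by
    refine ⟨X ^ e - C τ, monic_X_pow_sub_C τ he, ?_⟩
    simp [hs]
  have h1 : Algebra.adjoin L {s} = ⊤ := by
    have := IntermediateField.adjoin_simple_toSubalgebra_of_isAlgebraic hint.isAlgebraic
    rw [← this, hgen]
    rfl
  exact abhyankar_value_of_adjoin v u τ hu0 hu1 hunif s e k hke he hs hτ hkv h1 x hx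

/-- Normalised form: if moreover `v` takes the value `exp (-1)`, then `v s = exp (-1)`. -/
theorem abhyankar_uniformizer (u τ : L) (hu0 : u ≠ 0) (hu1 : v (algebraMap L L' u) < 1)
    (hunif : ∀ a : L, a ≠ 0 → ∃ n : ℤ, v (algebraMap L L' a) = v (algebraMap L L' u) ^ n)
    (s : L') (e k : ℕ) (hke : k ∣ e) (he : e ≠ 0) (hs : s ^ e = algebraMap L L' τ)
    (hτ : v (algebraMap L L' τ) = v (algebraMap L L' u) ^ k) (hkv : v (k : L') = 1)
    (hk0 : k ≠ 0)
    (hgen : IntermediateField.adjoin L {s} = ⊤) (ϖ : L') (hϖ : v ϖ = exp (-1 : ℤ)) :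
    v s = exp (-1 : ℤ) := by
  have hϖ0 : ϖ ≠ 0 := by
    rintro rfl
    rw [map_zero] at hϖ
    exact exp_ne_zero hϖ.symm
  obtain ⟨n, hn⟩ := abhyankar_value_of_adjoin_field v u τ hu0 hu1 hunif s e k hke he hs hτ hkv
    hgen ϖ hϖ0
  have hs0 : v s ≠ 0 := by
    intro h0
    rw [hϖ, h0] at hn
    rcases eq_or_ne n 0 with rfl | hn0
    · rw [zpow_zero] at hn
      have : (-1 : ℤ) = 0 := exp_injective (hn.trans exp_zero.symm)
      omega
    · rw [zero_zpow n hn0] at hn
      exact exp_ne_zero hn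
  obtain ⟨α, hα⟩ : ∃ α : ℤ, v s = exp α := ⟨log (v s), (exp_log hs0).symm⟩
  -- `v s < 1`
  have hlt : v s < 1 := by
    have hse : v s ^ e = v (algebraMap L L' u) ^ k := by rw [← map_pow, hs, hτ]
    have hu_lt : v (algebraMap L L' u) ^ k < 1 := pow_lt_one₀ zero_le hu1 hk0
    rw [← hse] at hu_lt
    by_contra hcon
    have : 1 ≤ v s ^ e := one_le_pow₀ (not_lt.mp hcon)
    exact absurd hu_lt (not_lt.mpr this)
  rw [hα] at hn hlt ⊢
  rw [hϖ, ← exp_zsmul, exp_inj] at hn
  have hα0 : α < 0 := by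
    have : exp α < exp (0 : ℤ) := by rw [exp_zero]; exact hlt
    exact exp_lt_exp.mp this
  have : α = -1 := by
    have h1 : n * α = -1 := by rw [← smul_eq_mul]; exact hn.symm
    have h2 : α ∣ -1 := ⟨n, by rw [mul_comm]; exact h1.symm⟩
    have h3 : α ∣ 1 := (Int.dvd_neg).mp h2
    rcases Int.isUnit_iff.mp (isUnit_of_dvd_one h3) with h | h <;> omega
  rw [this]

end Kummer

end Fermat.Agent.INJ.Abh
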