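import Mathlib

/-!
# (INJ) B-glue: the abstract end game (`BG-contra`)

`C ⊂ Lf` a subring of a field, `π ∈ C` a prime element of `C` (in element form), `σ` an
automorphism of `Lf` preserving `C` and fixing `π`, `h ∈ Lf` with `σ h = ζ h`, `ζ ^ p = 1`,
`ζ - 1` prime to `π`.  If `h ^ p ≡ 1` modulo `π` (up to denominators `s`, `b` prime to `π`),
we get a contradiction.

In the application `Lf = F(h)`, `h ^ p = w ∈ F`, `w ≡ 1` for the Gauss valuation, `C` = integral
closure of `A₀[t]` in `Lf`, and "`π` prime in `C`" is the conclusion of the tame specialization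
theorem (`Fermat.Agent.INJ.TameSpecStmt`).
-/

set_option autoImplicit false

namespace Fermat.Agent.INJ

variable {Lf : Type*} [Field Lf]

/-- `π` divides `x` inside the subring `C` -/
def BgDvd (C : Subring Lf) (π x : Lf) : Prop := ∃ z ∈ C, x = π * z

theorem BgDvd.mul_left {C : Subring Lf} {π x : Lf} (h : BgDvd C π x) {y : Lf} (hy : y ∈ C) :
    BgDvd C π (y * x) := by
  obtain ⟨z, hz, rfl⟩ := h
  exact ⟨y * z, C.mul_mem hy hz, by ring⟩

theorem BgDvd.mul_right {C : Subring Lf} {π x : Lf} (h : BgDvd C π x) {y : Lf} (hy : y ∈ C) :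
    BgDvd C π (x * y) := by
  obtain ⟨z, hz, rfl⟩ := h
  exact ⟨z * y, C.mul_mem hz hy, by ring⟩

theorem BgDvd.add {C : Subring Lf} {π x y : Lf} (hx : BgDvd C π x) (hy : BgDvd C π y) :
    BgDvd C π (x + y) := by
  obtain ⟨z, hz, rfl⟩ := hx
  obtain ⟨z', hz', rfl⟩ := hy
  exact ⟨z + z', C.add_mem hz hz', by ring⟩

theorem BgDvd.sub {C : Subring Lf} {π x y : Lf} (hx : BgDvd C π x) (hy : BgDvd C π y) :
    BgDvd C π (x - y) := by
  obtain ⟨z, hz, rfl⟩ := hx
  obtain ⟨z', hz', rfl⟩ := hy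
  exact ⟨z - z', C.sub_mem hz hz', by ring⟩

/-- `π` is a prime element of `C`, in element form -/
structure BgPrime (C : Subring Lf) (π : Lf) : Prop where
  not_unit : ¬ BgDvd C π 1
  dvd_or_dvd : ∀ x ∈ C, ∀ y ∈ C, BgDvd C π (x * y) → BgDvd C π x ∨ BgDvd C π y

theorem BgPrime.dvd_of_dvd_pow {C : Subring Lf} {π : Lf} (hp : BgPrime C π) {x : Lf} (hx : x ∈ C)
    (n : ℕ) (h : BgDvd C π (x ^ n)) : BgDvd C π x := by
  induction n with
  | zero => exact absurd (by simpa using h) hp.not_unit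
  | succ n ih =>
    rw [pow_succ] at h
    rcases hp.dvd_or_dvd _ (C.pow_mem hx n) _ hx h with h' | h'
    · exact ih h'
    · exact h'

theorem BgPrime.exists_dvd_of_dvd_prod {C : Subring Lf} {π : Lf} (hp : BgPrime C π)
    {ι : Type*} (S : Finset ι) (f : ι → Lf) (hf : ∀ i ∈ S, f i ∈ C)
    (h : BgDvd C π (∏ i ∈ S, f i)) : ∃ i ∈ S, BgDvd C π (f i) := by
  classical
  induction S using Finset.induction_on with
  | empty => exact absurd (by simpa using h) hp.not_unit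
  | insert a S ha ih =>
    rw [Finset.prod_insert ha] at h
    have hfa : f a ∈ C := hf a (Finset.mem_insert_self a S)
    have hfS : ∀ i ∈ S, f i ∈ C := fun i hi => hf i (Finset.mem_insert_of_mem hi)
    rcases hp.dvd_or_dvd _ hfa _ (C.prod_mem hfS) h with h' | h'
    · exact ⟨a, Finset.mem_insert_self a S, h'⟩
    · obtain ⟨i, hi, hi'⟩ := ih hfS h'
      exact ⟨i, Finset.mem_insert_of_mem hi, hi'⟩

/-- **The abstract end game.** -/
theorem bg_contra (C : Subring Lf) {π : Lf} (hprime : BgPrime C π)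
    (σ : Lf ≃+* Lf) (hσC : ∀ x ∈ C, σ x ∈ C) (hσπ : σ π = π)
    {p : ℕ} {ζ s b c h : Lf}
    (hζC : ζ ∈ C) (hζ1 : ¬ BgDvd C π (ζ - 1))
    (hsC : s ∈ C) (hbC : b ∈ C) (hcC : c ∈ C) (hσs : σ s = s) (hσζ : σ ζ = ζ)
    (hs : ¬ BgDvd C π s) (hb : ¬ BgDvd C π b)
    (hshC : s * h ∈ C) (hσh : σ h = ζ * h)
    (hprod : ∏ i ∈ Finset.range p, (h - ζ ^ i) = h ^ p - 1)
    (hw : (h ^ p - 1) * b = π * c) : False := by
  -- step 1: `π ∣ b * ∏ (s h - ζ^i s)`
  have hfac : ∀ i ∈ Finset.range p, s * h - ζ ^ i * s ∈ C := fun i _ =>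
    C.sub_mem hshC (C.mul_mem (C.pow_mem hζC i) hsC)
  have hP : ∏ i ∈ Finset.range p, (s * h - ζ ^ i * s) = s ^ p * (h ^ p - 1) := by
    have : ∀ i ∈ Finset.range p, s * h - ζ ^ i * s = s * (h - ζ ^ i) := fun i _ => by ring
    rw [Finset.prod_congr rfl this, Finset.prod_mul_distrib, Finset.prod_const, Finset.card_range,
      hprod]
  have h1 : BgDvd C π (b * ∏ i ∈ Finset.range p, (s * h - ζ ^ i * s)) := by
    refine ⟨s ^ p * c, C.mul_mem (C.pow_mem hsC p) hcC, ?_⟩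
    rw [hP]
    calc b * (s ^ p * (h ^ p - 1)) = s ^ p * ((h ^ p - 1) * b) := by ring
      _ = π * (s ^ p * c) := by rw [hw]; ring
  have h2 : BgDvd C π (∏ i ∈ Finset.range p, (s * h - ζ ^ i * s)) := by
    rcases hprime.dvd_or_dvd _ hbC _ (C.prod_mem hfac) h1 with h' | h'
    · exact absurd h' hb
    · exact h'
  obtain ⟨i, _, hi⟩ := hprime.exists_dvd_of_dvd_prod _ _ hfac h2
  -- step 2: apply `σ`
  have hσi : BgDvd C π (s * (ζ * h) - ζ ^ i * s) := by
    obtain ⟨z, hz, hz'⟩ := hi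
    refine ⟨σ z, hσC z hz, ?_⟩
    have := congrArg σ hz'
    rw [map_sub, map_mul, map_mul, map_mul, map_pow, hσs, hσζ, hσh, hσπ] at this
    exact this
  have h3 : BgDvd C π ((ζ - 1) * (s * h)) := by
    have := hσi.sub hi
    have e : s * (ζ * h) - ζ ^ i * s - (s * h - ζ ^ i * s) = (ζ - 1) * (s * h) := by ring
    rwa [e] at this
  have h4 : BgDvd C π (s * h) := by
    rcases hprime.dvd_or_dvd _ (C.sub_mem hζC C.one_mem) _ hshC h3 with h' | h'
    · exact absurd h' hζ1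
    · exact h'
  -- step 3: `π ∣ b * s ^ p`
  have hp0 : p ≠ 0 := by
    rintro rfl
    apply hprime.not_unit
    simpa using h2
  have h5 : BgDvd C π ((s * h) ^ p) := by
    obtain ⟨n, rfl⟩ := Nat.exists_eq_succ_of_ne_zero hp0
    rw [pow_succ]
    exact h4.mul_left (C.pow_mem hshC n)
  have h6 : BgDvd C π (b * s ^ p) := by
    have e : b * s ^ p = b * (s * h) ^ p - s ^ p * ((h ^ p - 1) * b) := by ring
    rw [e, hw]
    refine (h5.mul_left hbC).sub ⟨s ^ p * c, C.mul_mem (C.pow_mem hsC p) hcC, by ring⟩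
  rcases hprime.dvd_or_dvd _ hbC _ (C.pow_mem hsC p) h6 with h' | h'
  · exact hb h'
  · exact hs (hprime.dvd_of_dvd_pow hsC p h')

end Fermat.Agent.INJ
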