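import Fermat.Agent.INJ.RamJLine
import Fermat.Agent.INJ.KummerUnram
import Fermat.Agent.INJ.PlaceExt
import Fermat.Agent.INJ.NFEmb
import Fermat.Agent.INJ.Concrete
import Fermat.Agent.INJ.BGConstJ
import Fermat.Agent.INJ.HMMem

/-!
# (INJ) B-glue, piece BG-b: hypotheses `(b)`, `(b')` of `TameSpecStmt` for the concrete Kummer field

`K₀ ⊆ ℚ̄` an intermediate field, `F₀ = modularFunctionFieldFullC K₀ N ⊆ K₀((q))`,
`w ∈ F₀`, `h ∈ K₀((q))`, `h ^ p = w`, `Lf = kumField K₀ N h = F₀(h)`.  If the divisor of (the image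
of) `w` on `F_N(ℚ̄)` is divisible by `p`, then over the `j`-line
`TSUnramified j Σ ∧ TSTame j Σ e` for `Lf / K₀`, `Σ ↦ {0, 1728}`, `6 ∣ e`, `N ∣ e`.

* `bgRam_algebra`, `bgRam_tower` : the algebra structure of `F_N(ℚ̄)` over `F₀` (via `nfEmb`);
* `bgRam_hext` : places of `F₀ / K₀` extend to `F_N(ℚ̄) / ℚ̄` with the same `ord`;
* `bgRam_hkum` : places of `Lf / K₀` restrict to `F₀ / K₀` with the same `ord`;
* `bgRam_jline` : the statement.
-/

set_option autoImplicit false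
set_option linter.style.haveILetI false
set_option linter.unusedSectionVars false
set_option synthInstance.maxHeartbeats 400000
set_option maxHeartbeats 1000000

namespace Fermat.Agent.INJ

open Polynomial AlgebraicCurve IntermediateField Fermat.Agent.S24 ModularCurve

section BGRam

variable (K₀ : IntermediateField ℚ NfQb) (N : ℕ)

/-- `F_N(ℚ̄)` as an algebra over `F_N(K₀)` -/
@[reducible] noncomputable def bgRam_algebra :
    Algebra (modularFunctionFieldFullC K₀ N) (FF N) :=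
  (nfEmb K₀ N).toAlgebra

theorem bgRam_algebraMap_eq (x : modularFunctionFieldFullC K₀ N) :
    letI := bgRam_algebra K₀ N
    algebraMap (modularFunctionFieldFullC K₀ N) (FF N) x = nfEmb K₀ N x := rfl

theorem bgRam_tower :
    letI := bgRam_algebra K₀ N
    IsScalarTower K₀ (modularFunctionFieldFullC K₀ N) (FF N) := by
  letI := bgRam_algebra K₀ N
  refine IsScalarTower.of_algebraMap_eq fun c => ?_
  rw [bgRam_algebraMap_eq, nfEmb_algebraMap]
  rfl

theorem bgRam_isAlgebraic : Algebra.IsAlgebraic K₀ Kb := by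
  haveI : Algebra.IsAlgebraic ℚ Kb := AlgebraicClosure.isAlgebraic ℚ
  exact Algebra.IsAlgebraic.tower_top (K := ℚ) K₀

/-- (B2-ext, concrete) every place of `F_N(K₀) / K₀` extends to `F_N(ℚ̄) / ℚ̄`. -/
theorem bgRam_hext (Q : Place K₀ (modularFunctionFieldFullC K₀ N)) :
    ∃ v : Place Kb (FF N), ∀ y : modularFunctionFieldFullC K₀ N,
      v.ord (nfEmb K₀ N y) = Q.ord y := by
  letI := bgRam_algebra K₀ N
  haveI := bgRam_tower K₀ N
  haveI := bgRam_isAlgebraic K₀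
  exact PlaceExt.exists_place_extend_charZero (E := K₀) (K := Kb) (L' := FF N)
    (nfEmb_adjoin_range K₀ N) Q

variable (h : LaurentSeries K₀)

/-- (B2-kum, concrete) every place of `F_N(K₀)(h) / K₀`, `h ^ p = w`, `div w ∈ p · Div`,
restricts to `F_N(K₀)` with the same `ord`. -/
theorem bgRam_hkum (p : ℕ) (hp : p ≠ 0) (w : modularFunctionFieldFullC K₀ N)
    (hw : h ^ p = (w : LaurentSeries K₀)) (hh0 : h ≠ 0)
    (hdiv : ∀ v : Place Kb (FF N), (p : ℤ) ∣ v.ord (nfEmb K₀ N w))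
    (P : Place K₀ (kumField K₀ N h)) :
    ∃ Q : Place K₀ (modularFunctionFieldFullC K₀ N),
      ∀ y : modularFunctionFieldFullC K₀ N, P.ord (kumIncl K₀ N h y) = Q.ord y := by
  letI := kumAlgebra K₀ N h
  haveI := kum_isScalarTower K₀ N h
  have hh : (kumGen K₀ N h) ^ p
      = algebraMap (modularFunctionFieldFullC K₀ N) (kumField K₀ N h) w := by
    apply Subtype.ext
    rw [kum_algebraMap_eq, coe_kumIncl]
    exact hw
  have hg0 : kumGen K₀ N h ≠ 0 := by
    intro h0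
    apply hh0
    have := congrArg Subtype.val h0
    exact this
  have hdiv' : ∀ Q : Place K₀ (modularFunctionFieldFullC K₀ N), (p : ℤ) ∣ Q.ord w := by
    intro Q
    obtain ⟨v, hv⟩ := bgRam_hext K₀ N Q
    rw [← hv w]
    exact hdiv v
  exact KumU.exists_place_restrict_kummer (E := K₀) w (kumGen K₀ N h) p hp hh hg0
    (kumField_adjoin_gen K₀ N h) hdiv' P

variable [NeZero N]

theorem bgRam_nfEmb_bgJ : nfEmb K₀ N (bgJ K₀ N) = jF N := by
  apply Subtype.ext
  rw [nfEmb_coe, coe_jF, hmMem_jBar_eq]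
  exact map_jqModC (algebraMap K₀ NfQb)

/-- **BG-b over the `j`-line** (`ℓ ≥ 5`): `(b)` and `(b')` of `TameSpecStmt` for
`Lf = F_N(K₀)(h)`, `t = j`, `Σ ↦ {0, 1728}`, `6 ∣ e`, `N ∣ e`. -/
theorem bgRam_jline {A₀ : Type} [CommRing A₀] [Algebra A₀ K₀]
    [Algebra A₀ (kumField K₀ N h)] [IsScalarTower A₀ K₀ (kumField K₀ N h)]
    (p : ℕ) (hp : p ≠ 0) (w : modularFunctionFieldFullC K₀ N)
    (hw : h ^ p = (w : LaurentSeries K₀)) (hh0 : h ≠ 0)
    (hdiv : ∀ v : Place Kb (FF N), (p : ℤ) ∣ v.ord (nfEmb K₀ N w))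
    (S : Finset A₀)
    (hS : ∀ c ∈ S, algebraMap A₀ K₀ c = 0 ∨ algebraMap A₀ K₀ c = 1728)
    (h0 : ∃ c ∈ S, algebraMap A₀ K₀ c = 0)
    (h1728 : ∃ c ∈ S, algebraMap A₀ K₀ c = 1728)
    (e : ℕ) (h6 : 6 ∣ e) (hN : N ∣ e) :
    TSUnramified (E := K₀) (kumIncl K₀ N h (bgJ K₀ N)) S ∧
      TSTame (E := K₀) (kumIncl K₀ N h (bgJ K₀ N)) S e := by
  letI := kumAlgebra K₀ N h
  haveI := kum_isScalarTower K₀ N h
  letI := bgRam_algebra K₀ N
  haveI := bgRam_tower K₀ N
  haveI := bgRam_isAlgebraic K₀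
  refine ramB_jline (E := K₀) (Lf := kumField K₀ N h) N (bgJ K₀ N) (bgRam_nfEmb_bgJ K₀ N) S
    ?_ ?_ ?_ e h6 hN (bgRam_hkum K₀ N h p hp w hw hh0 hdiv) (bgRam_hext K₀ N)
  · intro c hc
    rcases hS c hc with h' | h'
    · left; rw [h', map_zero]
    · right; rw [h', map_ofNat]
  · obtain ⟨c, hc, h'⟩ := h0
    exact ⟨c, hc, by rw [h', map_zero]⟩
  · obtain ⟨c, hc, h'⟩ := h1728
    exact ⟨c, hc, by rw [h', map_ofNat]⟩

end BGRam

end Fermat.Agent.INJ
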