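import Fermat.Agent.INJ.RamAssemble
import Fermat.Agent.INJ.RamJ

/-!
# (INJ) piece B2-b for the `j`-line (`ℓ ≥ 5`): `Σ = {0, 1728}`, `6 ∣ e`, `N ∣ e`

`ramB_jline`: for `F₀ ⊆ FF N` over `E ⊆ ℚ̄`, `Lf / F₀`, `t = j`, the hypotheses `(b)` and `(b')` of
the tame specialization theorem hold as soon as places restrict from `Lf` to `F₀` (B2-kum) and
extend from `F₀` to `FF N` (B2-ext) with the same `ord`.
-/

set_option autoImplicit false

namespace Fermat.Agent.INJ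

open Polynomial IntermediateField AlgebraicCurve Fermat.Agent.S24

section JLine

variable {A₀ E Lf : Type} {F₀ : Type*}
  [CommRing A₀] [Field E] [Algebra A₀ E] [Field Lf] [Algebra E Lf] [Algebra A₀ Lf]
  [IsScalarTower A₀ E Lf]
  [Algebra E Kb] [Field F₀] [Algebra E F₀] [Algebra F₀ Lf] [IsScalarTower E F₀ Lf]
  (N : ℕ) [NeZero N]
  [Algebra F₀ (FF N)] [Algebra E (FF N)] [IsScalarTower E F₀ (FF N)]
  [IsScalarTower E Kb (FF N)]

/-- **B2-b over the `j`-line.** -/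
theorem ramB_jline [CharZero E] [Algebra.IsAlgebraic E Kb]
    (t₀ : F₀) (ht₀ : algebraMap F₀ (FF N) t₀ = jF N) (S : Finset A₀)
    (hS : ∀ c ∈ S, algebraMap E Kb (algebraMap A₀ E c) = 0 ∨
      algebraMap E Kb (algebraMap A₀ E c) = 1728)
    (h0 : ∃ c ∈ S, algebraMap E Kb (algebraMap A₀ E c) = 0)
    (h1728 : ∃ c ∈ S, algebraMap E Kb (algebraMap A₀ E c) = 1728)
    (e : ℕ) (h6 : 6 ∣ e) (hN : N ∣ e)
    (hkum : ∀ P : Place E Lf, ∃ Q : Place E F₀,
      ∀ y : F₀, P.ord (algebraMap F₀ Lf y) = Q.ord y)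
    (hext : ∀ Q : Place E F₀, ∃ v : Place Kb (FF N),
      ∀ y : F₀, v.ord (algebraMap F₀ (FF N) y) = Q.ord y) :
    TSUnramified (E := E) (algebraMap F₀ Lf t₀) S ∧
      TSTame (E := E) (algebraMap F₀ Lf t₀) S e := by
  refine ramB_assemble A₀ E Kb t₀ S e hkum hext ?_ ?_ ?_ ?_
  · intro v hv
    rw [ht₀] at hv ⊢
    rcases ramJ_cases N v with h | h
    · exact h
    · omega
  · intro v c₀ hc₀ hv
    rw [ht₀] at hv ⊢
    obtain ⟨c, hc, hc0⟩ := h0
    obtain ⟨c', hc', hc1728⟩ := h1728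
    refine ramJ_gen N c₀ ?_ ?_ v hv
    · rw [← hc0]; exact hc₀ c hc
    · rw [← hc1728]; exact hc₀ c' hc'
  · intro v c hc hv
    rw [ht₀] at hv ⊢
    rcases hS c hc with h | h
    · rw [h] at hv ⊢
      rw [map_zero, sub_zero] at hv ⊢
      exact (ramJ_zero N v hv).trans (by exact_mod_cast (by omega : 3 ∣ e))
    · rw [h] at hv ⊢
      exact (ramJ_1728 N v hv).trans (by exact_mod_cast (by omega : 2 ∣ e))
  · intro v hv
    rw [ht₀] at hv ⊢
    have h := ramJ_inf N v hv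
    rw [v.ord_inv, neg_dvd] at h
    exact h.trans (by exact_mod_cast hN)

end JLine

end Fermat.Agent.INJ
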