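import Fermat.Agent.INJ.RamHRel
import Fermat.Agent.INJ.HMMem
import Fermat.Agent.INJ.RamJLine

/-!
# (INJ) B2-T, part 2 (`ℓ = 3`): ramification of `F_N` over the `h`-line of `X₀(2)` (`2 ∣ N`)

`h = hF2 N : FF N` the Hauptmodul of `X₀(2)` (`j h² = (h + 256)³`).  For every place `v` of `F_N`:
* `ord_v h < 0 → ord_v h ∣ N`;
* `0 < ord_v h → ord_v h ∣ N` (the cusp `h = 0`);
* `0 < ord_v (h + 64) → ord_v (h + 64) ∣ 2` (the elliptic point);
* `0 < ord_v (h - c₀) → ord_v (h - c₀) = 1` for `c₀ ≠ 0, -64`.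
Hence `ramB_h2line`: hypotheses `(b)`, `(b')` of Part A with `t = h`, `Σ = {0, -64}`, `N ∣ e`.
-/

set_option autoImplicit false

namespace Fermat.Agent.INJ

open Polynomial AlgebraicCurve IntermediateField Fermat.Agent.S24 ModularCurve

section H2

variable (N : ℕ) [NeZero N] (h2 : 2 ∣ N)

/-- The Hauptmodul of `X₀(2)` as an element of `F_N` (`2 ∣ N`). -/
noncomputable def hF2 : FF N := ⟨hm2 Kb, hm2_mem N h2⟩

theorem hF2_coe : ((hF2 N h2 : FF N) : LaurentSeries Kb) = hm2 Kb := rfl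

theorem hF2_ne_zero : hF2 N h2 ≠ 0 := by
  intro h
  apply hm2_ne_zero
  have := congrArg Subtype.val h
  simpa [hF2] using this

theorem hF2_j : jF N * hF2 N h2 ^ 2 = (hF2 N h2 + 256) ^ 3 := by
  apply Subtype.ext
  have h := hm2_j (K := Kb)
  rw [← hmMem_jBar_eq] at h
  exact h

theorem hF2_j1728 :
    (jF N - 1728) * hF2 N h2 ^ 2 = (hF2 N h2 - 512) ^ 2 * (hF2 N h2 + 64) := by
  linear_combination hF2_j N h2

set_option synthInstance.maxHeartbeats 400000 in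
/-- `j · A(h) = B(h)` with `A = X²`, `B = (X + 256)³`. -/
theorem hF2_rel :
    jF N * aeval (hF2 N h2) (X ^ 2 : Kb[X]) = aeval (hF2 N h2) ((X + C 256) ^ 3 : Kb[X]) := by
  rw [map_pow, aeval_X, map_pow, map_add, aeval_X, aeval_C, map_ofNat]
  exact hF2_j N h2

set_option synthInstance.maxHeartbeats 400000 in
theorem hF2_sub_ne_zero (c : Kb) : hF2 N h2 - algebraMap Kb (FF N) c ≠ 0 := by
  refine ramH_rel_sub_ne_zero N (hF2 N h2) _ _ (hF2_rel N h2) ?_ c
  rw [map_pow, aeval_X]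
  exact pow_ne_zero _ (hF2_ne_zero N h2)

/-- Over `h = ∞`. -/
theorem ramH2_inf (v : Place Kb (FF N)) (hv : v.ord (hF2 N h2) < 0) :
    v.ord (hF2 N h2) ∣ (N : ℤ) := by
  have hx0 := hF2_ne_zero N h2
  obtain ⟨hne, hord⟩ := ramH_ord_add_const_of_neg v (hF2 N h2) 256 hv
  rw [map_ofNat] at hne hord
  have h1 := congrArg v.ord (hF2_j N h2)
  rw [v.ord_mul (jF_ne_zero N) (pow_ne_zero _ hx0), place_ord_pow, place_ord_pow, hord] at h1
  simp only [Nat.cast_ofNat] at h1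
  have hJ : v.ord (jF N) = v.ord (hF2 N h2) := by linarith
  have h3 := ramJ_inf N v (by rw [hJ]; exact hv)
  rw [v.ord_inv, neg_dvd, hJ] at h3
  exact h3

/-- Over the cusp `h = 0`. -/
theorem ramH2_zero (v : Place Kb (FF N)) (hv : 0 < v.ord (hF2 N h2)) :
    v.ord (hF2 N h2) ∣ (N : ℤ) := by
  have hx0 := hF2_ne_zero N h2
  have hv' : 0 < v.ord (hF2 N h2 - algebraMap Kb (FF N) 0) := by
    rwa [map_zero, sub_zero]
  obtain ⟨hne, hord⟩ := ramH_ord_sub_const v (hF2 N h2) 0 (-256) hv' (by norm_num)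
  rw [map_neg, sub_neg_eq_add, map_ofNat] at hne hord
  have h1 := congrArg v.ord (hF2_j N h2)
  rw [v.ord_mul (jF_ne_zero N) (pow_ne_zero _ hx0), place_ord_pow, place_ord_pow, hord] at h1
  simp only [Nat.cast_ofNat] at h1
  have hJ : v.ord (jF N) = -(2 * v.ord (hF2 N h2)) := by linarith
  have h3 := ramJ_inf N v (by rw [hJ]; omega)
  rw [v.ord_inv, hJ, neg_neg] at h3
  exact (Dvd.intro_left _ rfl).trans h3

/-- Over the elliptic point `h = -64`. -/
theorem ramH2_ell (v : Place Kb (FF N))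
    (hv : 0 < v.ord (hF2 N h2 - algebraMap Kb (FF N) (-64))) :
    v.ord (hF2 N h2 - algebraMap Kb (FF N) (-64)) ∣ 2 := by
  have hx0 := hF2_ne_zero N h2
  obtain ⟨hne0, hord0⟩ := ramH_ord_sub_const v (hF2 N h2) (-64) 0 hv (by norm_num)
  rw [map_zero, sub_zero] at hord0
  obtain ⟨hne1, hord1⟩ := ramH_ord_sub_const v (hF2 N h2) (-64) 512 hv (by norm_num)
  rw [map_ofNat] at hne1 hord1
  have hne2 := hF2_sub_ne_zero N h2 (-64)
  have h1 := congrArg v.ord (hF2_j1728 N h2)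
  have hJ0 : jF N - (1728 : FF N) ≠ 0 := by
    have := jF_sub_ne_zero N 1728
    rwa [map_ofNat] at this
  have he : hF2 N h2 + 64 = hF2 N h2 - algebraMap Kb (FF N) (-64) := by
    rw [map_neg, sub_neg_eq_add, map_ofNat]
  rw [he] at h1
  rw [v.ord_mul hJ0 (pow_ne_zero _ hx0), place_ord_pow, hord0,
    v.ord_mul (pow_ne_zero _ hne1) hne2, place_ord_pow, hord1] at h1
  simp only [Nat.cast_ofNat, mul_zero, add_zero, zero_add] at h1
  have hJ : v.ord (jF N - algebraMap Kb (FF N) 1728)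
      = v.ord (hF2 N h2 - algebraMap Kb (FF N) (-64)) := by
    rw [map_ofNat (algebraMap Kb (FF N)) 1728]; exact h1
  have h3 := ramJ_1728 N v (by rw [hJ]; exact hv)
  rwa [hJ] at h3

/-- Over `h = -256` (where `j = 0`). -/
theorem ramH2_256 (v : Place Kb (FF N))
    (hv : 0 < v.ord (hF2 N h2 - algebraMap Kb (FF N) (-256))) :
    v.ord (hF2 N h2 - algebraMap Kb (FF N) (-256)) = 1 := by
  have hx0 := hF2_ne_zero N h2
  obtain ⟨hne0, hord0⟩ := ramH_ord_sub_const v (hF2 N h2) (-256) 0 hv (by norm_num)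
  rw [map_zero, sub_zero] at hord0
  have h1 := congrArg v.ord (hF2_j N h2)
  have he : hF2 N h2 + 256 = hF2 N h2 - algebraMap Kb (FF N) (-256) := by
    rw [map_neg, sub_neg_eq_add, map_ofNat]
  rw [he] at h1
  rw [v.ord_mul (jF_ne_zero N) (pow_ne_zero _ hx0), place_ord_pow, hord0, place_ord_pow] at h1
  simp only [Nat.cast_ofNat, mul_zero, add_zero] at h1
  have hJ : v.ord (jF N) = 3 * v.ord (hF2 N h2 - algebraMap Kb (FF N) (-256)) := h1
  have h3 := ramJ_zero N v (by rw [hJ]; omega)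
  rw [hJ] at h3
  exact ramH_eq_one_of_mul_dvd (n := 3) (by norm_num) hv h3

/-- Over `h = 512` (where `j = 1728`). -/
theorem ramH2_512 (v : Place Kb (FF N))
    (hv : 0 < v.ord (hF2 N h2 - algebraMap Kb (FF N) 512)) :
    v.ord (hF2 N h2 - algebraMap Kb (FF N) 512) = 1 := by
  have hx0 := hF2_ne_zero N h2
  obtain ⟨hne0, hord0⟩ := ramH_ord_sub_const v (hF2 N h2) 512 0 hv (by norm_num)
  rw [map_zero, sub_zero] at hord0
  obtain ⟨hne1, hord1⟩ := ramH_ord_sub_const v (hF2 N h2) 512 (-64) hv (by norm_num)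
  have hne2 := hF2_sub_ne_zero N h2 512
  have h1 := congrArg v.ord (hF2_j1728 N h2)
  have hJ0 : jF N - (1728 : FF N) ≠ 0 := by
    have := jF_sub_ne_zero N 1728
    rwa [map_ofNat] at this
  have he : hF2 N h2 + 64 = hF2 N h2 - algebraMap Kb (FF N) (-64) := by
    rw [map_neg, sub_neg_eq_add, map_ofNat]
  have he' : hF2 N h2 - 512 = hF2 N h2 - algebraMap Kb (FF N) 512 := by
    rw [map_ofNat]
  rw [he, he'] at h1
  rw [v.ord_mul hJ0 (pow_ne_zero _ hx0), place_ord_pow, hord0,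
    v.ord_mul (pow_ne_zero _ hne2) hne1, place_ord_pow, hord1] at h1
  simp only [Nat.cast_ofNat, mul_zero, add_zero] at h1
  have hJ : v.ord (jF N - algebraMap Kb (FF N) 1728)
      = 2 * v.ord (hF2 N h2 - algebraMap Kb (FF N) 512) := by
    rw [map_ofNat (algebraMap Kb (FF N)) 1728]; exact h1
  have h3 := ramJ_1728 N v (by rw [hJ]; omega)
  rw [hJ] at h3
  exact ramH_eq_one_of_mul_dvd (n := 2) (by norm_num) hv h3

/-- Over a generic point `h = c₀`, `c₀ ≠ 0, -64`: unramified. -/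
theorem ramH2_gen (c₀ : Kb) (hc0 : c₀ ≠ 0) (hc64 : c₀ ≠ -64) (v : Place Kb (FF N))
    (hv : 0 < v.ord (hF2 N h2 - algebraMap Kb (FF N) c₀)) :
    v.ord (hF2 N h2 - algebraMap Kb (FF N) c₀) = 1 := by
  by_cases h256 : c₀ = -256
  · subst h256; exact ramH2_256 N h2 v hv
  by_cases h512 : c₀ = 512
  · subst h512; exact ramH2_512 N h2 v hv
  refine ramH_rel_gen N (hF2 N h2) _ _ (hF2_rel N h2) v c₀ hv ?_ ?_ ?_
  · simpa using hc0
  · simp only [eval_pow, eval_add, eval_X, eval_C]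
    refine pow_ne_zero _ ?_
    intro h
    exact h256 (eq_neg_of_add_eq_zero_left h)
  · simp only [eval_pow, eval_add, eval_X, eval_C]
    intro h
    have h' : (c₀ - 512) ^ 2 * (c₀ + 64) = 0 := by linear_combination h
    rcases mul_eq_zero.mp h' with h'' | h''
    · exact h512 (sub_eq_zero.mp (pow_eq_zero_iff (by norm_num) |>.mp h''))
    · exact hc64 (eq_neg_of_add_eq_zero_left h'')

theorem ramH2_cases (v : Place Kb (FF N)) (hv : 0 ≤ v.ord (hF2 N h2)) :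
    ∃ c₀ : Kb, 0 < v.ord (hF2 N h2 - algebraMap Kb (FF N) c₀) :=
  ramH_rel_cases N (hF2 N h2) (hF2_sub_ne_zero N h2) v hv

end H2

section H2Line

variable {A₀ E Lf : Type} {F₀ : Type*}
  [CommRing A₀] [Field E] [Algebra A₀ E] [Field Lf] [Algebra E Lf] [Algebra A₀ Lf]
  [IsScalarTower A₀ E Lf]
  [Algebra E Kb] [Field F₀] [Algebra E F₀] [Algebra F₀ Lf] [IsScalarTower E F₀ Lf]
  (N : ℕ) [NeZero N] (h2 : 2 ∣ N)
  [Algebra F₀ (FF N)] [Algebra E (FF N)] [IsScalarTower E F₀ (FF N)]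
  [IsScalarTower E Kb (FF N)]

/-- **B2-b over the `h`-line of `X₀(2)`** (`ℓ = 3`): `Σ = {0, -64}`, `N ∣ e`. -/
theorem ramB_h2line [CharZero E] [Algebra.IsAlgebraic E Kb]
    (t₀ : F₀) (ht₀ : algebraMap F₀ (FF N) t₀ = hF2 N h2) (S : Finset A₀)
    (hS : ∀ c ∈ S, algebraMap E Kb (algebraMap A₀ E c) = 0 ∨
      algebraMap E Kb (algebraMap A₀ E c) = -64)
    (h0 : ∃ c ∈ S, algebraMap E Kb (algebraMap A₀ E c) = 0)
    (h64 : ∃ c ∈ S, algebraMap E Kb (algebraMap A₀ E c) = -64)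
    (e : ℕ) (hN : N ∣ e)
    (hkum : ∀ P : Place E Lf, ∃ Q : Place E F₀,
      ∀ y : F₀, P.ord (algebraMap F₀ Lf y) = Q.ord y)
    (hext : ∀ Q : Place E F₀, ∃ v : Place Kb (FF N),
      ∀ y : F₀, v.ord (algebraMap F₀ (FF N) y) = Q.ord y) :
    TSUnramified (E := E) (algebraMap F₀ Lf t₀) S ∧
      TSTame (E := E) (algebraMap F₀ Lf t₀) S e := by
  have h2e : (2 : ℤ) ∣ (e : ℤ) := by exact_mod_cast h2.trans hN
  have hNe : (N : ℤ) ∣ (e : ℤ) := by exact_mod_cast hN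
  refine ramB_assemble A₀ E Kb t₀ S e hkum hext ?_ ?_ ?_ ?_
  · intro v hv
    rw [ht₀] at hv ⊢
    exact ramH2_cases N h2 v hv
  · intro v c₀ hc₀ hv
    rw [ht₀] at hv ⊢
    obtain ⟨c, hc, hc0⟩ := h0
    obtain ⟨c', hc', hc64⟩ := h64
    refine ramH2_gen N h2 c₀ ?_ ?_ v hv
    · rw [← hc0]; exact hc₀ c hc
    · rw [← hc64]; exact hc₀ c' hc'
  · intro v c hc hv
    rw [ht₀] at hv ⊢
    rcases hS c hc with h | h
    · rw [h] at hv ⊢
      rw [map_zero, sub_zero] at hv ⊢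
      exact (ramH2_zero N h2 v hv).trans hNe
    · rw [h] at hv ⊢
      exact (ramH2_ell N h2 v hv).trans h2e
  · intro v hv
    rw [ht₀] at hv ⊢
    exact (ramH2_inf N h2 v hv).trans hNe

end H2Line

end Fermat.Agent.INJ
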