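import Fermat.Agent.INJ.RamHRel
import Fermat.Agent.INJ.HMMem
import Fermat.Agent.INJ.RamJLine

/-!
# (INJ) B2-T, part 2 (`ℓ = 2`): ramification of `F_N` over the `h`-line of `X₀(3)` (`3 ∣ N`)

`h = hF3 N : FF N` the Hauptmodul of `X₀(3)` (`j h³ = (h + 27)(h + 243)³`).  For every place `v`
of `F_N`:
* `ord_v h < 0 → ord_v h ∣ N`;
* `0 < ord_v h → ord_v h ∣ N` (the cusp `h = 0`);
* `0 < ord_v (h + 27) → ord_v (h + 27) ∣ 3` (the elliptic point);
* `0 < ord_v (h - c₀) → ord_v (h - c₀) = 1` for `c₀ ≠ 0, -27`.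
Hence `ramB_h3line`: hypotheses `(b)`, `(b')` of Part A with `t = h`, `Σ = {0, -27}`, `N ∣ e`.
-/

set_option autoImplicit false

namespace Fermat.Agent.INJ

open Polynomial AlgebraicCurve IntermediateField Fermat.Agent.S24 ModularCurve

section H3

variable (N : ℕ) [NeZero N] (h3 : 3 ∣ N)

/-- The Hauptmodul of `X₀(3)` as an element of `F_N` (`3 ∣ N`). -/
noncomputable def hF3 : FF N := ⟨hm3 Kb, hm3_mem N h3⟩

theorem hF3_coe : ((hF3 N h3 : FF N) : LaurentSeries Kb) = hm3 Kb := rfl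

theorem hF3_ne_zero : hF3 N h3 ≠ 0 := by
  intro h
  apply hm3_ne_zero
  have := congrArg Subtype.val h
  simpa [hF3] using this

theorem hF3_j : jF N * hF3 N h3 ^ 3 = (hF3 N h3 + 27) * (hF3 N h3 + 243) ^ 3 := by
  apply Subtype.ext
  have h := hm3_j (K := Kb)
  rw [← hmMem_jBar_eq] at h
  exact h

theorem hF3_j1728 :
    (jF N - 1728) * hF3 N h3 ^ 3 = (hF3 N h3 ^ 2 - 486 * hF3 N h3 - 19683) ^ 2 := by
  linear_combination hF3_j N h3

set_option synthInstance.maxHeartbeats 400000 in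
/-- `j · A(h) = B(h)` with `A = X³`, `B = (X + 27)(X + 243)³`. -/
theorem hF3_rel :
    jF N * aeval (hF3 N h3) (X ^ 3 : Kb[X])
      = aeval (hF3 N h3) ((X + C 27) * (X + C 243) ^ 3 : Kb[X]) := by
  rw [map_pow, aeval_X, map_mul, map_pow, map_add, map_add, aeval_X, aeval_C, aeval_C,
    map_ofNat, map_ofNat]
  exact hF3_j N h3

set_option synthInstance.maxHeartbeats 400000 in
theorem hF3_sub_ne_zero (c : Kb) : hF3 N h3 - algebraMap Kb (FF N) c ≠ 0 := by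
  refine ramH_rel_sub_ne_zero N (hF3 N h3) _ _ (hF3_rel N h3) ?_ c
  rw [map_pow, aeval_X]
  exact pow_ne_zero _ (hF3_ne_zero N h3)

/-- Over `h = ∞`. -/
theorem ramH3_inf (v : Place Kb (FF N)) (hv : v.ord (hF3 N h3) < 0) :
    v.ord (hF3 N h3) ∣ (N : ℤ) := by
  have hx0 := hF3_ne_zero N h3
  obtain ⟨hne, hord⟩ := ramH_ord_add_const_of_neg v (hF3 N h3) 27 hv
  obtain ⟨hne', hord'⟩ := ramH_ord_add_const_of_neg v (hF3 N h3) 243 hv
  rw [map_ofNat] at hne hord hne' hord'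
  have h1 := congrArg v.ord (hF3_j N h3)
  rw [v.ord_mul (jF_ne_zero N) (pow_ne_zero _ hx0), place_ord_pow,
    v.ord_mul hne (pow_ne_zero _ hne'), place_ord_pow, hord, hord'] at h1
  simp only [Nat.cast_ofNat] at h1
  have hJ : v.ord (jF N) = v.ord (hF3 N h3) := by linarith
  have h4 := ramJ_inf N v (by rw [hJ]; exact hv)
  rw [v.ord_inv, neg_dvd, hJ] at h4
  exact h4

/-- Over the cusp `h = 0`. -/
theorem ramH3_zero (v : Place Kb (FF N)) (hv : 0 < v.ord (hF3 N h3)) :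
    v.ord (hF3 N h3) ∣ (N : ℤ) := by
  have hx0 := hF3_ne_zero N h3
  have hv' : 0 < v.ord (hF3 N h3 - algebraMap Kb (FF N) 0) := by
    rwa [map_zero, sub_zero]
  obtain ⟨hne, hord⟩ := ramH_ord_sub_const v (hF3 N h3) 0 (-27) hv' (by norm_num)
  obtain ⟨hne', hord'⟩ := ramH_ord_sub_const v (hF3 N h3) 0 (-243) hv' (by norm_num)
  rw [map_neg, sub_neg_eq_add, map_ofNat] at hne hord hne' hord'
  have h1 := congrArg v.ord (hF3_j N h3)
  rw [v.ord_mul (jF_ne_zero N) (pow_ne_zero _ hx0), place_ord_pow,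
    v.ord_mul hne (pow_ne_zero _ hne'), place_ord_pow, hord, hord'] at h1
  simp only [Nat.cast_ofNat, mul_zero, add_zero] at h1
  have hJ : v.ord (jF N) = -(3 * v.ord (hF3 N h3)) := by linarith
  have h4 := ramJ_inf N v (by rw [hJ]; omega)
  rw [v.ord_inv, hJ, neg_neg] at h4
  exact (Dvd.intro_left _ rfl).trans h4

/-- Over the elliptic point `h = -27`. -/
theorem ramH3_ell (v : Place Kb (FF N))
    (hv : 0 < v.ord (hF3 N h3 - algebraMap Kb (FF N) (-27))) :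
    v.ord (hF3 N h3 - algebraMap Kb (FF N) (-27)) ∣ 3 := by
  have hx0 := hF3_ne_zero N h3
  obtain ⟨hne0, hord0⟩ := ramH_ord_sub_const v (hF3 N h3) (-27) 0 hv (by norm_num)
  rw [map_zero, sub_zero] at hord0
  obtain ⟨hne1, hord1⟩ := ramH_ord_sub_const v (hF3 N h3) (-27) (-243) hv (by norm_num)
  have hne2 := hF3_sub_ne_zero N h3 (-27)
  have h1 := congrArg v.ord (hF3_j N h3)
  have he : hF3 N h3 + 27 = hF3 N h3 - algebraMap Kb (FF N) (-27) := by
    rw [map_neg, sub_neg_eq_add, map_ofNat]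
  have he' : hF3 N h3 + 243 = hF3 N h3 - algebraMap Kb (FF N) (-243) := by
    rw [map_neg, sub_neg_eq_add, map_ofNat]
  rw [he, he'] at h1
  rw [v.ord_mul (jF_ne_zero N) (pow_ne_zero _ hx0), place_ord_pow, hord0,
    v.ord_mul hne2 (pow_ne_zero _ hne1), place_ord_pow, hord1] at h1
  simp only [Nat.cast_ofNat, mul_zero, add_zero] at h1
  have h4 := ramJ_zero N v (by rw [h1]; exact hv)
  rwa [h1] at h4

/-- Over `h = -243` (where `j = 0`, ramified of index `3` over the `j`-line). -/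
theorem ramH3_243 (v : Place Kb (FF N))
    (hv : 0 < v.ord (hF3 N h3 - algebraMap Kb (FF N) (-243))) :
    v.ord (hF3 N h3 - algebraMap Kb (FF N) (-243)) = 1 := by
  have hx0 := hF3_ne_zero N h3
  obtain ⟨hne0, hord0⟩ := ramH_ord_sub_const v (hF3 N h3) (-243) 0 hv (by norm_num)
  rw [map_zero, sub_zero] at hord0
  obtain ⟨hne1, hord1⟩ := ramH_ord_sub_const v (hF3 N h3) (-243) (-27) hv (by norm_num)
  have hne2 := hF3_sub_ne_zero N h3 (-243)
  have h1 := congrArg v.ord (hF3_j N h3)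
  have he : hF3 N h3 + 27 = hF3 N h3 - algebraMap Kb (FF N) (-27) := by
    rw [map_neg, sub_neg_eq_add, map_ofNat]
  have he' : hF3 N h3 + 243 = hF3 N h3 - algebraMap Kb (FF N) (-243) := by
    rw [map_neg, sub_neg_eq_add, map_ofNat]
  rw [he, he'] at h1
  rw [v.ord_mul (jF_ne_zero N) (pow_ne_zero _ hx0), place_ord_pow, hord0,
    v.ord_mul hne1 (pow_ne_zero _ hne2), place_ord_pow, hord1] at h1
  simp only [Nat.cast_ofNat, mul_zero, add_zero, zero_add] at h1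
  have h4 := ramJ_zero N v (by rw [h1]; omega)
  rw [h1] at h4
  exact ramH_eq_one_of_mul_dvd (n := 3) (by norm_num) hv h4

set_option synthInstance.maxHeartbeats 400000 in
/-- Over the roots of `X² - 486 X - 19683` (where `j = 1728`). -/
theorem ramH3_1728 (c₀ : Kb) (hc : c₀ ^ 2 - 486 * c₀ - 19683 = 0) (v : Place Kb (FF N))
    (hv : 0 < v.ord (hF3 N h3 - algebraMap Kb (FF N) c₀)) :
    v.ord (hF3 N h3 - algebraMap Kb (FF N) c₀) = 1 := by
  have hx0 := hF3_ne_zero N h3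
  have hc0 : (0 : Kb) ≠ c₀ := by
    rintro rfl
    norm_num at hc
  obtain ⟨hne0, hord0⟩ := ramH_ord_sub_const v (hF3 N h3) c₀ 0 hv hc0
  rw [map_zero, sub_zero] at hord0
  set Q : Kb[X] := X ^ 2 - C 486 * X - C 19683 with hQ
  have hQ0 : Q ≠ 0 := by
    intro h
    have := congrArg (fun p : Kb[X] => p.eval 0) h
    simp [hQ] at this
  have hroot : Q.IsRoot c₀ := by
    rw [IsRoot, hQ]
    simp only [eval_sub, eval_pow, eval_X, eval_mul, eval_C]
    exact hc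
  obtain ⟨hQne, hQord⟩ := ramH_ord_aeval v (hF3 N h3) c₀ hv Q hQ0
  have hm : 0 < Q.rootMultiplicity c₀ := (rootMultiplicity_pos hQ0).mpr hroot
  have hQx : aeval (hF3 N h3) Q = hF3 N h3 ^ 2 - 486 * hF3 N h3 - 19683 := by
    rw [hQ, map_sub, map_sub, map_pow, map_mul, aeval_X, aeval_C, aeval_C, map_ofNat, map_ofNat]
  have hJ0 : jF N - (1728 : FF N) ≠ 0 := by
    have := jF_sub_ne_zero N 1728
    rwa [map_ofNat] at this
  have h1 := congrArg v.ord (hF3_j1728 N h3)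
  rw [← hQx, v.ord_mul hJ0 (pow_ne_zero _ hx0), place_ord_pow, hord0, place_ord_pow, hQord] at h1
  simp only [Nat.cast_ofNat, mul_zero, add_zero] at h1
  have hpos : 0 < (Q.rootMultiplicity c₀ : ℤ) * v.ord (hF3 N h3 - algebraMap Kb (FF N) c₀) :=
    mul_pos (by exact_mod_cast hm) hv
  have h4 := ramJ_1728 N v (by rw [map_ofNat (algebraMap Kb (FF N)) 1728, h1]; omega)
  rw [map_ofNat (algebraMap Kb (FF N)) 1728, h1] at h4
  have h5 := ramH_eq_one_of_mul_dvd (n := 2) (by norm_num) hpos h4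
  exact ramH_eq_one_of_mul_eq_one hv h5

/-- Over a generic point `h = c₀`, `c₀ ≠ 0, -27`: unramified. -/
theorem ramH3_gen (c₀ : Kb) (hc0 : c₀ ≠ 0) (hc27 : c₀ ≠ -27) (v : Place Kb (FF N))
    (hv : 0 < v.ord (hF3 N h3 - algebraMap Kb (FF N) c₀)) :
    v.ord (hF3 N h3 - algebraMap Kb (FF N) c₀) = 1 := by
  by_cases h243 : c₀ = -243
  · subst h243; exact ramH3_243 N h3 v hv
  by_cases hQ : c₀ ^ 2 - 486 * c₀ - 19683 = 0
  · exact ramH3_1728 N h3 c₀ hQ v hv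
  refine ramH_rel_gen N (hF3 N h3) _ _ (hF3_rel N h3) v c₀ hv ?_ ?_ ?_
  · simpa using hc0
  · simp only [eval_mul, eval_pow, eval_add, eval_X, eval_C]
    refine mul_ne_zero ?_ (pow_ne_zero _ ?_)
    · intro h
      exact hc27 (eq_neg_of_add_eq_zero_left h)
    · intro h
      exact h243 (eq_neg_of_add_eq_zero_left h)
  · simp only [eval_mul, eval_pow, eval_add, eval_X, eval_C]
    intro h
    have h' : (c₀ ^ 2 - 486 * c₀ - 19683) ^ 2 = 0 := by linear_combination h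
    exact hQ (pow_eq_zero_iff (by norm_num) |>.mp h')

theorem ramH3_cases (v : Place Kb (FF N)) (hv : 0 ≤ v.ord (hF3 N h3)) :
    ∃ c₀ : Kb, 0 < v.ord (hF3 N h3 - algebraMap Kb (FF N) c₀) :=
  ramH_rel_cases N (hF3 N h3) (hF3_sub_ne_zero N h3) v hv

end H3

section H3Line

variable {A₀ E Lf : Type} {F₀ : Type*}
  [CommRing A₀] [Field E] [Algebra A₀ E] [Field Lf] [Algebra E Lf] [Algebra A₀ Lf]
  [IsScalarTower A₀ E Lf]
  [Algebra E Kb] [Field F₀] [Algebra E F₀] [Algebra F₀ Lf] [IsScalarTower E F₀ Lf]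
  (N : ℕ) [NeZero N] (h3 : 3 ∣ N)
  [Algebra F₀ (FF N)] [Algebra E (FF N)] [IsScalarTower E F₀ (FF N)]
  [IsScalarTower E Kb (FF N)]

/-- **B2-b over the `h`-line of `X₀(3)`** (`ℓ = 2`): `Σ = {0, -27}`, `N ∣ e`. -/
theorem ramB_h3line [CharZero E] [Algebra.IsAlgebraic E Kb]
    (t₀ : F₀) (ht₀ : algebraMap F₀ (FF N) t₀ = hF3 N h3) (S : Finset A₀)
    (hS : ∀ c ∈ S, algebraMap E Kb (algebraMap A₀ E c) = 0 ∨
      algebraMap E Kb (algebraMap A₀ E c) = -27)
    (h0 : ∃ c ∈ S, algebraMap E Kb (algebraMap A₀ E c) = 0)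
    (h27 : ∃ c ∈ S, algebraMap E Kb (algebraMap A₀ E c) = -27)
    (e : ℕ) (hN : N ∣ e)
    (hkum : ∀ P : Place E Lf, ∃ Q : Place E F₀,
      ∀ y : F₀, P.ord (algebraMap F₀ Lf y) = Q.ord y)
    (hext : ∀ Q : Place E F₀, ∃ v : Place Kb (FF N),
      ∀ y : F₀, v.ord (algebraMap F₀ (FF N) y) = Q.ord y) :
    TSUnramified (E := E) (algebraMap F₀ Lf t₀) S ∧
      TSTame (E := E) (algebraMap F₀ Lf t₀) S e := by
  have h3e : (3 : ℤ) ∣ (e : ℤ) := by exact_mod_cast h3.trans hN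
  have hNe : (N : ℤ) ∣ (e : ℤ) := by exact_mod_cast hN
  refine ramB_assemble A₀ E Kb t₀ S e hkum hext ?_ ?_ ?_ ?_
  · intro v hv
    rw [ht₀] at hv ⊢
    exact ramH3_cases N h3 v hv
  · intro v c₀ hc₀ hv
    rw [ht₀] at hv ⊢
    obtain ⟨c, hc, hc0⟩ := h0
    obtain ⟨c', hc', hc27⟩ := h27
    refine ramH3_gen N h3 c₀ ?_ ?_ v hv
    · rw [← hc0]; exact hc₀ c hc
    · rw [← hc27]; exact hc₀ c' hc'
  · intro v c hc hv
    rw [ht₀] at hv ⊢
    rcases hS c hc with h | h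
    · rw [h] at hv ⊢
      rw [map_zero, sub_zero] at hv ⊢
      exact (ramH3_zero N h3 v hv).trans hNe
    · rw [h] at hv ⊢
      exact (ramH3_ell N h3 v hv).trans h3e
  · intro v hv
    rw [ht₀] at hv ⊢
    exact (ramH3_inf N h3 v hv).trans hNe

end H3Line

end Fermat.Agent.INJ
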