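import Fermat.Agent.INJ.CoeffDescent
import Fermat.Agent.INJ.RamH2
import Fermat.Agent.INJ.RamH3

/-!
# (INJ) B-glue, piece BG-b over the Hauptmodul lines (`ℓ ∈ {2, 3}`)

`K₀ ⊆ ℚ̄`, `F₀ = modularFunctionFieldFullC K₀ N`, `Lf = kumField K₀ N h = F₀(h)`, `h ^ p = w ∈ F₀`,
`div w ∈ p · Div` on `F_N(ℚ̄)`.
* `bgRam_h2line` (`2 ∣ N`, for `ℓ = 3`): `t = hm2` (Hauptmodul of `X₀(2)`), `Σ ↦ {0, -64}`, `N ∣ e`;
* `bgRam_h3line` (`3 ∣ N`, for `ℓ = 2`): `t = hm3` (Hauptmodul of `X₀(3)`), `Σ ↦ {0, -27}`, `N ∣ e`.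
-/

set_option autoImplicit false
set_option linter.style.haveILetI false
set_option linter.unusedSectionVars false
set_option synthInstance.maxHeartbeats 400000
set_option maxHeartbeats 1000000

namespace Fermat.Agent.INJ

open Polynomial AlgebraicCurve IntermediateField Fermat.Agent.S24 ModularCurve

section BGRamH

variable (K₀ : IntermediateField ℚ NfQb) (N : ℕ) [NeZero N] (h : LaurentSeries K₀)

/-- the Hauptmodul of `X₀(2)` in `F_N(K₀)` -/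
noncomputable def bgH2 (h2 : 2 ∣ N) : modularFunctionFieldFullC K₀ N :=
  ⟨hm2 K₀, hm2_mem_fullC K₀ N h2⟩

/-- the Hauptmodul of `X₀(3)` in `F_N(K₀)` -/
noncomputable def bgH3 (h3 : 3 ∣ N) : modularFunctionFieldFullC K₀ N :=
  ⟨hm3 K₀, hm3_mem_fullC K₀ N h3⟩

theorem coe_bgH2 (h2 : 2 ∣ N) : ((bgH2 K₀ N h2 : modularFunctionFieldFullC K₀ N) :
    LaurentSeries K₀) = hm2 K₀ := rfl

theorem coe_bgH3 (h3 : 3 ∣ N) : ((bgH3 K₀ N h3 : modularFunctionFieldFullC K₀ N) :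
    LaurentSeries K₀) = hm3 K₀ := rfl

theorem bgRam_nfEmb_bgH2 (h2 : 2 ∣ N) : nfEmb K₀ N (bgH2 K₀ N h2) = hF2 N h2 := by
  apply Subtype.ext
  rw [nfEmb_coe, hF2_coe, coe_bgH2]
  exact hm2_map (algebraMap K₀ NfQb)

theorem bgRam_nfEmb_bgH3 (h3 : 3 ∣ N) : nfEmb K₀ N (bgH3 K₀ N h3) = hF3 N h3 := by
  apply Subtype.ext
  rw [nfEmb_coe, hF3_coe, coe_bgH3]
  exact hm3_map (algebraMap K₀ NfQb)

/-- **BG-b over the Hauptmodul line of `X₀(2)`** (`ℓ = 3`). -/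
theorem bgRam_h2line (h2 : 2 ∣ N) {A₀ : Type} [CommRing A₀] [Algebra A₀ K₀]
    [Algebra A₀ (kumField K₀ N h)] [IsScalarTower A₀ K₀ (kumField K₀ N h)]
    (p : ℕ) (hp : p ≠ 0) (w : modularFunctionFieldFullC K₀ N)
    (hw : h ^ p = (w : LaurentSeries K₀)) (hh0 : h ≠ 0)
    (hdiv : ∀ v : Place Kb (FF N), (p : ℤ) ∣ v.ord (nfEmb K₀ N w))
    (S : Finset A₀)
    (hS : ∀ c ∈ S, algebraMap A₀ K₀ c = 0 ∨ algebraMap A₀ K₀ c = -64)
    (h0 : ∃ c ∈ S, algebraMap A₀ K₀ c = 0)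
    (h64 : ∃ c ∈ S, algebraMap A₀ K₀ c = -64)
    (e : ℕ) (hN : N ∣ e) :
    TSUnramified (E := K₀) (kumIncl K₀ N h (bgH2 K₀ N h2)) S ∧
      TSTame (E := K₀) (kumIncl K₀ N h (bgH2 K₀ N h2)) S e := by
  letI := kumAlgebra K₀ N h
  haveI := kum_isScalarTower K₀ N h
  letI := bgRam_algebra K₀ N
  haveI := bgRam_tower K₀ N
  haveI := bgRam_isAlgebraic K₀
  refine ramB_h2line (E := K₀) (Lf := kumField K₀ N h) N h2 (bgH2 K₀ N h2)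
    (bgRam_nfEmb_bgH2 K₀ N h2) S
    ?_ ?_ ?_ e hN (bgRam_hkum K₀ N h p hp w hw hh0 hdiv) (bgRam_hext K₀ N)
  · intro c hc
    rcases hS c hc with h' | h'
    · left; rw [h', map_zero]
    · right; rw [h', map_neg, map_ofNat]
  · obtain ⟨c, hc, h'⟩ := h0
    exact ⟨c, hc, by rw [h', map_zero]⟩
  · obtain ⟨c, hc, h'⟩ := h64
    exact ⟨c, hc, by rw [h', map_neg, map_ofNat]⟩

/-- **BG-b over the Hauptmodul line of `X₀(3)`** (`ℓ = 2`). -/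
theorem bgRam_h3line (h3 : 3 ∣ N) {A₀ : Type} [CommRing A₀] [Algebra A₀ K₀]
    [Algebra A₀ (kumField K₀ N h)] [IsScalarTower A₀ K₀ (kumField K₀ N h)]
    (p : ℕ) (hp : p ≠ 0) (w : modularFunctionFieldFullC K₀ N)
    (hw : h ^ p = (w : LaurentSeries K₀)) (hh0 : h ≠ 0)
    (hdiv : ∀ v : Place Kb (FF N), (p : ℤ) ∣ v.ord (nfEmb K₀ N w))
    (S : Finset A₀)
    (hS : ∀ c ∈ S, algebraMap A₀ K₀ c = 0 ∨ algebraMap A₀ K₀ c = -27)
    (h0 : ∃ c ∈ S, algebraMap A₀ K₀ c = 0)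
    (h27 : ∃ c ∈ S, algebraMap A₀ K₀ c = -27)
    (e : ℕ) (hN : N ∣ e) :
    TSUnramified (E := K₀) (kumIncl K₀ N h (bgH3 K₀ N h3)) S ∧
      TSTame (E := K₀) (kumIncl K₀ N h (bgH3 K₀ N h3)) S e := by
  letI := kumAlgebra K₀ N h
  haveI := kum_isScalarTower K₀ N h
  letI := bgRam_algebra K₀ N
  haveI := bgRam_tower K₀ N
  haveI := bgRam_isAlgebraic K₀
  refine ramB_h3line (E := K₀) (Lf := kumField K₀ N h) N h3 (bgH3 K₀ N h3)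
    (bgRam_nfEmb_bgH3 K₀ N h3) S
    ?_ ?_ ?_ e hN (bgRam_hkum K₀ N h p hp w hw hh0 hdiv) (bgRam_hext K₀ N)
  · intro c hc
    rcases hS c hc with h' | h'
    · left; rw [h', map_zero]
    · right; rw [h', map_neg, map_ofNat]
  · obtain ⟨c, hc, h'⟩ := h0
    exact ⟨c, hc, by rw [h', map_zero]⟩
  · obtain ⟨c, hc, h'⟩ := h27
    exact ⟨c, hc, by rw [h', map_neg, map_ofNat]⟩

end BGRamH

end Fermat.Agent.INJ
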