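import Fermat.Agent.INJ.BGRamH

/-!
# (INJ) B-glue, piece BG-b, number-field form

The same as `bgRam_jline`, `bgRam_h2line`, `bgRam_h3line`, with the divisibility hypothesis
on the places of `F_N(K₀) / K₀` (the shape of `StmtInjNF`) instead of the places of
`F_N(ℚ̄) / ℚ̄`:  `hdiv : ∀ Q : Place K₀ (modularFunctionFieldFullC K₀ N), (p : ℤ) ∣ Q.ord w`.
-/

set_option autoImplicit false
set_option linter.style.haveILetI false
set_option linter.unusedSectionVars false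
set_option synthInstance.maxHeartbeats 400000
set_option maxHeartbeats 1000000

namespace Fermat.Agent.INJ

open Polynomial AlgebraicCurve IntermediateField Fermat.Agent.S24 ModularCurve

section BGRamNF

variable (K₀ : IntermediateField ℚ NfQb) (N : ℕ) (h : LaurentSeries K₀)

/-- (B2-kum, concrete, number-field form) -/
theorem bgRamNF_hkum (p : ℕ) (hp : p ≠ 0) (w : modularFunctionFieldFullC K₀ N)
    (hw : h ^ p = (w : LaurentSeries K₀)) (hh0 : h ≠ 0)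
    (hdiv : ∀ Q : Place K₀ (modularFunctionFieldFullC K₀ N), (p : ℤ) ∣ Q.ord w)
    (P : Place K₀ (kumField K₀ N h)) :
    ∃ Q : Place K₀ (modularFunctionFieldFullC K₀ N),
      ∀ y : modularFunctionFieldFullC K₀ N, P.ord (kumIncl K₀ N h y) = Q.ord y := by
  letI := kumAlgebra K₀ N h
  haveI := kum_isScalarTower K₀ N h
  have hh : (kumGen K₀ N h) ^ p
      = algebraMap (modularFunctionFieldFullC K₀ N) (kumField K₀ N h) w := by
    apply Subtype.ext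
    rw [kum_algebraMap_eq, coe_kumIncl]
    exact hw
  have hg0 : kumGen K₀ N h ≠ 0 := by
    intro h0
    apply hh0
    have := congrArg Subtype.val h0
    exact this
  exact KumU.exists_place_restrict_kummer (E := K₀) w (kumGen K₀ N h) p hp hh hg0
    (kumField_adjoin_gen K₀ N h) hdiv P

/-- the quotient form of the divisibility hypothesis: `h ^ p * y₂ = y₁`,
`p ∣ ord y₁ - ord y₂` gives `p ∣ ord (y₁ / y₂)` -/
theorem bgRamNF_hdiv_quot (p : ℕ) (y₁ y₂ : modularFunctionFieldFullC K₀ N) (hy₁ : y₁ ≠ 0)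
    (hy₂ : y₂ ≠ 0)
    (hdiv : ∀ Q : Place K₀ (modularFunctionFieldFullC K₀ N), (p : ℤ) ∣ Q.ord y₁ - Q.ord y₂) :
    ∀ Q : Place K₀ (modularFunctionFieldFullC K₀ N), (p : ℤ) ∣ Q.ord (y₁ / y₂) := by
  intro Q
  rw [div_eq_mul_inv, Q.ord_mul hy₁ (inv_ne_zero hy₂), Q.ord_inv, ← sub_eq_add_neg]
  exact hdiv Q

variable [NeZero N]

/-- **BG-b over the `j`-line**, number-field form. -/
theorem bgRamNF_jline {A₀ : Type} [CommRing A₀] [Algebra A₀ K₀]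
    [Algebra A₀ (kumField K₀ N h)] [IsScalarTower A₀ K₀ (kumField K₀ N h)]
    (p : ℕ) (hp : p ≠ 0) (w : modularFunctionFieldFullC K₀ N)
    (hw : h ^ p = (w : LaurentSeries K₀)) (hh0 : h ≠ 0)
    (hdiv : ∀ Q : Place K₀ (modularFunctionFieldFullC K₀ N), (p : ℤ) ∣ Q.ord w)
    (S : Finset A₀)
    (hS : ∀ c ∈ S, algebraMap A₀ K₀ c = 0 ∨ algebraMap A₀ K₀ c = 1728)
    (h0 : ∃ c ∈ S, algebraMap A₀ K₀ c = 0)
    (h1728 : ∃ c ∈ S, algebraMap A₀ K₀ c = 1728)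
    (e : ℕ) (h6 : 6 ∣ e) (hN : N ∣ e) :
    TSUnramified (E := K₀) (kumIncl K₀ N h (bgJ K₀ N)) S ∧
      TSTame (E := K₀) (kumIncl K₀ N h (bgJ K₀ N)) S e := by
  letI := kumAlgebra K₀ N h
  haveI := kum_isScalarTower K₀ N h
  letI := bgRam_algebra K₀ N
  haveI := bgRam_tower K₀ N
  haveI := bgRam_isAlgebraic K₀
  refine ramB_jline (E := K₀) (Lf := kumField K₀ N h) N (bgJ K₀ N) (bgRam_nfEmb_bgJ K₀ N) S
    ?_ ?_ ?_ e h6 hN (bgRamNF_hkum K₀ N h p hp w hw hh0 hdiv) (bgRam_hext K₀ N)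
  · intro c hc
    rcases hS c hc with h' | h'
    · left; rw [h', map_zero]
    · right; rw [h', map_ofNat]
  · obtain ⟨c, hc, h'⟩ := h0
    exact ⟨c, hc, by rw [h', map_zero]⟩
  · obtain ⟨c, hc, h'⟩ := h1728
    exact ⟨c, hc, by rw [h', map_ofNat]⟩

/-- **BG-b over the Hauptmodul line of `X₀(2)`** (`ℓ = 3`), number-field form. -/
theorem bgRamNF_h2line (h2 : 2 ∣ N) {A₀ : Type} [CommRing A₀] [Algebra A₀ K₀]
    [Algebra A₀ (kumField K₀ N h)] [IsScalarTower A₀ K₀ (kumField K₀ N h)]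
    (p : ℕ) (hp : p ≠ 0) (w : modularFunctionFieldFullC K₀ N)
    (hw : h ^ p = (w : LaurentSeries K₀)) (hh0 : h ≠ 0)
    (hdiv : ∀ Q : Place K₀ (modularFunctionFieldFullC K₀ N), (p : ℤ) ∣ Q.ord w)
    (S : Finset A₀)
    (hS : ∀ c ∈ S, algebraMap A₀ K₀ c = 0 ∨ algebraMap A₀ K₀ c = -64)
    (h0 : ∃ c ∈ S, algebraMap A₀ K₀ c = 0)
    (h64 : ∃ c ∈ S, algebraMap A₀ K₀ c = -64)
    (e : ℕ) (hN : N ∣ e) :
    TSUnramified (E := K₀) (kumIncl K₀ N h (bgH2 K₀ N h2)) S ∧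
      TSTame (E := K₀) (kumIncl K₀ N h (bgH2 K₀ N h2)) S e := by
  letI := kumAlgebra K₀ N h
  haveI := kum_isScalarTower K₀ N h
  letI := bgRam_algebra K₀ N
  haveI := bgRam_tower K₀ N
  haveI := bgRam_isAlgebraic K₀
  refine ramB_h2line (E := K₀) (Lf := kumField K₀ N h) N h2 (bgH2 K₀ N h2)
    (bgRam_nfEmb_bgH2 K₀ N h2) S
    ?_ ?_ ?_ e hN (bgRamNF_hkum K₀ N h p hp w hw hh0 hdiv) (bgRam_hext K₀ N)
  · intro c hc
    rcases hS c hc with h' | h'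
    · left; rw [h', map_zero]
    · right; rw [h', map_neg, map_ofNat]
  · obtain ⟨c, hc, h'⟩ := h0
    exact ⟨c, hc, by rw [h', map_zero]⟩
  · obtain ⟨c, hc, h'⟩ := h64
    exact ⟨c, hc, by rw [h', map_neg, map_ofNat]⟩

/-- **BG-b over the Hauptmodul line of `X₀(3)`** (`ℓ = 2`), number-field form. -/
theorem bgRamNF_h3line (h3 : 3 ∣ N) {A₀ : Type} [CommRing A₀] [Algebra A₀ K₀]
    [Algebra A₀ (kumField K₀ N h)] [IsScalarTower A₀ K₀ (kumField K₀ N h)]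
    (p : ℕ) (hp : p ≠ 0) (w : modularFunctionFieldFullC K₀ N)
    (hw : h ^ p = (w : LaurentSeries K₀)) (hh0 : h ≠ 0)
    (hdiv : ∀ Q : Place K₀ (modularFunctionFieldFullC K₀ N), (p : ℤ) ∣ Q.ord w)
    (S : Finset A₀)
    (hS : ∀ c ∈ S, algebraMap A₀ K₀ c = 0 ∨ algebraMap A₀ K₀ c = -27)
    (h0 : ∃ c ∈ S, algebraMap A₀ K₀ c = 0)
    (h27 : ∃ c ∈ S, algebraMap A₀ K₀ c = -27)
    (e : ℕ) (hN : N ∣ e) :
    TSUnramified (E := K₀) (kumIncl K₀ N h (bgH3 K₀ N h3)) S ∧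
      TSTame (E := K₀) (kumIncl K₀ N h (bgH3 K₀ N h3)) S e := by
  letI := kumAlgebra K₀ N h
  haveI := kum_isScalarTower K₀ N h
  letI := bgRam_algebra K₀ N
  haveI := bgRam_tower K₀ N
  haveI := bgRam_isAlgebraic K₀
  refine ramB_h3line (E := K₀) (Lf := kumField K₀ N h) N h3 (bgH3 K₀ N h3)
    (bgRam_nfEmb_bgH3 K₀ N h3) S
    ?_ ?_ ?_ e hN (bgRamNF_hkum K₀ N h p hp w hw hh0 hdiv) (bgRam_hext K₀ N)
  · intro c hc
    rcases hS c hc with h' | h'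
    · left; rw [h', map_zero]
    · right; rw [h', map_neg, map_ofNat]
  · obtain ⟨c, hc, h'⟩ := h0
    exact ⟨c, hc, by rw [h', map_zero]⟩
  · obtain ⟨c, hc, h'⟩ := h27
    exact ⟨c, hc, by rw [h', map_neg, map_ofNat]⟩

end BGRamNF

end Fermat.Agent.INJ
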