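import Fermat.Agent.INJ.BGInt

/-!
# INJ B-glue: wiring the Gauss data into the end game

Setting as in `BGInt.lean` (`kd : GaussKD r F t₀ x`, `e : Lf →ₐ[E] E((q))` whose image contains
`F`, `e τ = t`).

* `bgWire_red_aeval_ne_zero` : `g ∈ A[X]`, `ḡ ≠ 0` ⇒ the reduction of `g(t₀)` is nonzero;
* `bgWire_not_dvd` : an element `z` of `F` with nonzero Gauss reduction is not `π · c` with
  `c ∈ Lf` integral over `A[τ]`;
* `bgWire_endGame_data` : for `Y₁, Y₂ ∈ A((q))` with images in `F` and equal nonzero reductions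
  and `h ∈ Lf` with `h ^ p * y₂ = y₁`, the elements `s, b, c` consumed by `endGame`
  (`INJ/EndGame.lean`);
* `bgWire_kummer_data` : `s ≠ 0` from `F` with `W := s ^ p * y₁ / y₂` integral over `A[τ]` and
  `N(W) = nW(τ)`, `π ∤ nW` (the hypotheses `W, nW` of `BGBasis.tsGoodBasis_kummer`, `H = s * h`).
-/

set_option autoImplicit false
set_option linter.unusedSectionVars false
set_option linter.style.haveILetI false

noncomputable section

namespace Fermat.Agent.INJ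

open Polynomial ModularCurve IntermediateField Fermat.Agent.S28

section Wire

universe u

variable {A E k : Type u} [CommRing A] [IsDomain A] [IsDiscreteValuationRing A]
  [Field E] [Algebra A E] [IsFractionRing A E] [CharZero E]
  [Field k] {r : A →+* k}
  {F : IntermediateField E (LaurentSeries E)} {t₀ : LaurentSeries A} {n : ℕ}
  {x : Fin n → LaurentSeries A}
variable {Lf : Type u} [Field Lf] [Algebra E Lf] [Algebra A Lf] [IsScalarTower A E Lf]
  (e : Lf →ₐ[E] LaurentSeries E)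

/-- the reduction of `g(t₀)` is `ḡ(t̄) ≠ 0` -/
theorem bgWire_red_aeval_ne_zero (kd : GaussKD r F t₀ x) {g : A[X]} (hg : g.map r ≠ 0) :
    coeffMap r (aeval t₀ g) ≠ 0 := by
  rw [redDVR_coeffMap_aeval]
  intro h0
  exact hg (transcendental_iff.mp kd.transc _ h0)

/-- `e (g(τ) * y)` is the image of the integral series `g(t₀) * Y` -/
theorem bgWire_map_aeval_mul {τ : Lf} (hτ : e τ = coeffMap (algebraMap A E) t₀) (g : A[X])
    {y : Lf} {Y : LaurentSeries A} (hy : e y = coeffMap (algebraMap A E) Y) :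
    e (aeval τ g * y) = coeffMap (algebraMap A E) (aeval t₀ g * Y) := by
  rw [map_mul e, bgInt_map_aeval e hτ, hy, map_mul]

/-- **Non-divisibility by `π`.**  An element of `F` with nonzero Gauss reduction is not
`π · c` with `c` integral over `A[τ]`. -/
theorem bgWire_not_dvd (kd : GaussKD r F t₀ x) {π : A} (hπ : Irreducible π) (hrπ : r π = 0)
    (hr : ∀ a, r a = 0 → π ∣ a)
    (hF : ∀ f ∈ F, ∃ z : Lf, e z = f) {τ : Lf} (hτ : e τ = coeffMap (algebraMap A E) t₀)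
    (hτtr : Transcendental E τ)
    (z : Lf) (hzF : e z ∈ F) (hzg : e z ∈ gaussRing (algebraMap A E) r)
    (hred : gaussRed r (IsFractionRing.injective A E) ⟨e z, hzg⟩ ≠ 0) :
    ¬ ∃ c : Lf, IsIntegral (Algebra.adjoin A {τ}) c ∧ z = algebraMap A Lf π * c := by
  rintro ⟨c, hc, hzc⟩
  have hz0 : z ≠ 0 := by
    rintro rfl
    apply hred
    have : (⟨e 0, hzg⟩ : gaussRing (algebraMap A E) r) = 0 := Subtype.ext (map_zero e)
    rw [this, map_zero]
  have hinvg : e z⁻¹ ∈ gaussRing (algebraMap A E) r := by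
    rw [map_inv₀]
    exact inv_mem_gaussRing r (IsFractionRing.injective A E) ⟨e z, hzg⟩ hred
  have hinvF : e z⁻¹ ∈ F := by
    rw [map_inv₀]
    exact F.inv_mem hzF
  obtain ⟨g, hg, hgint⟩ := bgInt_exists_mul_isIntegral e kd hπ.ne_zero hπ.not_isUnit hr hF hτ
    z⁻¹ hinvF hinvg
  -- `g(τ) = π · (g(τ) z⁻¹ · c)`
  have hπL : algebraMap A Lf π ≠ 0 := by
    rw [IsScalarTower.algebraMap_apply A E Lf]
    intro h0
    have h1 : algebraMap A E π = 0 := (algebraMap E Lf).injective (by rw [h0, map_zero])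
    exact hπ.ne_zero (IsFractionRing.injective A E (by rw [h1, map_zero]))
  have hgeq : aeval τ g = algebraMap A Lf π * (aeval τ g * z⁻¹ * c) := by
    have : aeval τ g * z⁻¹ * z = aeval τ g := by
      rw [mul_assoc, inv_mul_cancel₀ hz0, mul_one]
    calc aeval τ g = aeval τ g * z⁻¹ * z := this.symm
      _ = algebraMap A Lf π * (aeval τ g * z⁻¹ * c) := by rw [hzc]; ring
  have hw : IsIntegral (Algebra.adjoin A {τ}) (aeval τ g * z⁻¹ * c) := hgint.mul hc
  -- the element `g(τ) / π` of `E(τ)`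
  have hgmem : aeval τ g ∈ E⟮τ⟯ :=
    ChartGB.mem_adjoinSimple_of_mem_adjoin (A₀ := A) (E := E) τ (bgInt_aeval_mem_adjoin τ g)
  set w : E⟮τ⟯ := (algebraMap E E⟮τ⟯ (algebraMap A E π))⁻¹ * ⟨aeval τ g, hgmem⟩ with hwdef
  have hwL : algebraMap E⟮τ⟯ Lf w = aeval τ g * z⁻¹ * c := by
    have h1 : algebraMap E⟮τ⟯ Lf w = (algebraMap A Lf π)⁻¹ * aeval τ g := by
      rw [hwdef, map_mul, map_inv₀, IsScalarTower.algebraMap_apply A E Lf]
      rfl
    rw [h1, eq_comm, eq_inv_mul_iff_mul_eq₀ hπL]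
    exact hgeq.symm
  obtain ⟨P, hP⟩ := bgInt_exists_aeval_of_isIntegral hτtr w (by rw [hwL]; exact hw)
  have hgP : aeval τ g = aeval τ (C π * P) := by
    rw [map_mul, aeval_C, ← hP, hwL]
    exact hgeq
  have : g = C π * P := chart_aeval_injective hτtr hgP
  exact bgInt_not_C_dvd_of_map_ne_zero hrπ hg ⟨P, this⟩

/-- **End-game data.**  For `Y₁, Y₂ ∈ A((q))` with images `y₁, y₂` in `F`, equal nonzero
reductions, and `h ∈ Lf` with `h ^ p * y₂ = y₁`, there are `s, b, c ∈ Lf` coming from `F`,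
integral over `A[τ]`, with `s, b` not divisible by `π` in the integral closure of `A[τ]` in `Lf`,
`s * h` integral and `(h ^ p - 1) * b = π * c`. -/
theorem bgWire_endGame_data (kd : GaussKD r F t₀ x) {π : A} (hπ : Irreducible π)
    (hrπ : r π = 0) (hr : ∀ a, r a = 0 → π ∣ a)
    (hF : ∀ f ∈ F, ∃ z : Lf, e z = f) {τ : Lf} (hτ : e τ = coeffMap (algebraMap A E) t₀)
    (hτtr : Transcendental E τ)
    (Y₁ Y₂ : LaurentSeries A) (h₁ : coeffMap (algebraMap A E) Y₁ ∈ F)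
    (h₂ : coeffMap (algebraMap A E) Y₂ ∈ F)
    (hred : coeffMap r Y₁ = coeffMap r Y₂) (hne : coeffMap r Y₂ ≠ 0)
    {y₁ y₂ : Lf} (hy₁ : e y₁ = coeffMap (algebraMap A E) Y₁)
    (hy₂ : e y₂ = coeffMap (algebraMap A E) Y₂)
    {p : ℕ} (hp : 0 < p) (h : Lf) (hh : h ^ p * y₂ = y₁) :
    ∃ s b c : Lf, e s ∈ F ∧ e b ∈ F ∧ e c ∈ F ∧
      IsIntegral (Algebra.adjoin A {τ}) s ∧ IsIntegral (Algebra.adjoin A {τ}) b ∧
      IsIntegral (Algebra.adjoin A {τ}) c ∧
      (¬ ∃ z : Lf, IsIntegral (Algebra.adjoin A {τ}) z ∧ s = algebraMap A Lf π * z) ∧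
      (¬ ∃ z : Lf, IsIntegral (Algebra.adjoin A {τ}) z ∧ b = algebraMap A Lf π * z) ∧
      IsIntegral (Algebra.adjoin A {τ}) (s * h) ∧
      (h ^ p - 1) * b = algebraMap A Lf π * c := by
  have hinjι : Function.Injective (algebraMap A E) := IsFractionRing.injective A E
  have hinj : Function.Injective e := e.toRingHom.injective
  -- the third series
  have hdiff : coeffMap r (Y₁ - Y₂) = 0 := by rw [map_sub, hred, sub_self]
  obtain ⟨Y₃, hY₃⟩ := exists_eq_C_mul_of_coeffMap_eq_zero r hr (Y₁ - Y₂) hdiff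
  have hπE : algebraMap A E π ≠ 0 := fun h0 =>
    hπ.ne_zero (hinjι (by rw [h0, map_zero]))
  have hCπ : (HahnSeries.C (algebraMap A E π) : LaurentSeries E) =
      algebraMap E (LaurentSeries E) (algebraMap A E π) := by
    rw [LaurentSeries.algebraMap_apply]
  have hY₃E : coeffMap (algebraMap A E) Y₁ - coeffMap (algebraMap A E) Y₂ =
      algebraMap E (LaurentSeries E) (algebraMap A E π) * coeffMap (algebraMap A E) Y₃ := by
    rw [← map_sub, hY₃, map_mul, coeffMap_hahnC, hCπ]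
  have h₃ : coeffMap (algebraMap A E) Y₃ ∈ F := by
    have hne' : algebraMap E (LaurentSeries E) (algebraMap A E π) ≠ 0 := by
      intro h0
      exact hπE ((algebraMap E (LaurentSeries E)).injective (by rw [h0, map_zero]))
    have : coeffMap (algebraMap A E) Y₃ =
        (algebraMap E (LaurentSeries E) (algebraMap A E π))⁻¹ *
          (coeffMap (algebraMap A E) Y₁ - coeffMap (algebraMap A E) Y₂) := by
      rw [hY₃E, inv_mul_cancel_left₀ hne']
    rw [this]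
    exact F.mul_mem (F.inv_mem (F.algebraMap_mem _)) (F.sub_mem h₁ h₂)
  obtain ⟨y₃, hy₃⟩ := hF _ h₃
  have hy₁F : e y₁ ∈ F := by rw [hy₁]; exact h₁
  have hy₂F : e y₂ ∈ F := by rw [hy₂]; exact h₂
  have hy₃F : e y₃ ∈ F := by rw [hy₃]; exact h₃
  have hgauss : ∀ {y : Lf} {Y : LaurentSeries A}, e y = coeffMap (algebraMap A E) Y →
      e y ∈ gaussRing (algebraMap A E) r := fun hy => by
    rw [hy]; exact coeffMap_mem_gaussRing _ r _
  obtain ⟨g₁, hg₁, hg₁int⟩ := bgInt_exists_mul_isIntegral e kd hπ.ne_zero hπ.not_isUnit hr hF hτ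
    y₁ hy₁F (hgauss hy₁)
  obtain ⟨g₂, hg₂, hg₂int⟩ := bgInt_exists_mul_isIntegral e kd hπ.ne_zero hπ.not_isUnit hr hF hτ
    y₂ hy₂F (hgauss hy₂)
  obtain ⟨g₃, hg₃, hg₃int⟩ := bgInt_exists_mul_isIntegral e kd hπ.ne_zero hπ.not_isUnit hr hF hτ
    y₃ hy₃F (hgauss hy₃)
  have hgi : ∀ g : A[X], IsIntegral (Algebra.adjoin A {τ}) (aeval τ g) := fun g => by
    have : aeval τ g = algebraMap (↥(Algebra.adjoin A {τ})) Lf
        ⟨aeval τ g, bgInt_aeval_mem_adjoin τ g⟩ := rfl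
    rw [this]
    exact isIntegral_algebraMap
  have hgF : ∀ g : A[X], e (aeval τ g) ∈ F := fun g => by
    rw [bgInt_map_aeval e hτ, redDVR_coeffMap_aeval]
    have : aeval (coeffMap (algebraMap A E) t₀) (g.map (algebraMap A E)) ∈
        F.toSubalgebra := by
      rw [aeval_def, eval₂_eq_sum_range]
      refine Subalgebra.sum_mem _ fun i _ => ?_
      exact Subalgebra.mul_mem _ (Subalgebra.algebraMap_mem _ _)
        (Subalgebra.pow_mem _ kd.t_mem _)
    exact this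
  -- non-divisibility for `g(τ) * y₂`
  have hnd : ∀ g : A[X], g.map r ≠ 0 →
      ¬ ∃ z : Lf, IsIntegral (Algebra.adjoin A {τ}) z ∧
        aeval τ g * y₂ = algebraMap A Lf π * z := by
    intro g hg
    have hmap := bgWire_map_aeval_mul e hτ g hy₂
    have hmem : e (aeval τ g * y₂) ∈ gaussRing (algebraMap A E) r := by
      rw [hmap]; exact coeffMap_mem_gaussRing _ r _
    refine bgWire_not_dvd e kd hπ hrπ hr hF hτ hτtr _ ?_ hmem ?_
    · rw [map_mul e]
      exact F.mul_mem (hgF g) hy₂F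
    · have : (⟨e (aeval τ g * y₂), hmem⟩ : gaussRing (algebraMap A E) r) =
          ⟨coeffMap (algebraMap A E) (aeval t₀ g * Y₂), coeffMap_mem_gaussRing _ r _⟩ :=
        Subtype.ext hmap
      rw [this, gaussRed_coeffMap, map_mul]
      exact mul_ne_zero (bgWire_red_aeval_ne_zero kd hg) hne
  have hy₂0 : y₂ ≠ 0 := by
    rintro rfl
    rw [map_zero] at hy₂
    apply hne
    have : Y₂ = 0 := redDVR_coeffMap_injective (algebraMap A E) hinjι (by rw [← hy₂, map_zero])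
    rw [this, map_zero]
  have hy₃eq : y₁ - y₂ = algebraMap A Lf π * y₃ := by
    apply hinj
    rw [map_sub, map_mul e, hy₁, hy₂, hy₃, hY₃E, IsScalarTower.algebraMap_apply A E Lf,
      AlgHom.commutes]
  refine ⟨aeval τ (g₁ * g₂) * y₂, aeval τ (g₃ * g₂) * y₂, aeval τ g₂ * (aeval τ g₃ * y₃),
    ?_, ?_, ?_, ?_, ?_, ?_, ?_, ?_, ?_, ?_⟩
  · rw [map_mul e]; exact F.mul_mem (hgF _) hy₂F
  · rw [map_mul e]; exact F.mul_mem (hgF _) hy₂F
  · rw [map_mul e, map_mul e]; exact F.mul_mem (hgF _) (F.mul_mem (hgF _) hy₃F)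
  · rw [map_mul (aeval τ), mul_assoc]; exact (hgi g₁).mul hg₂int
  · rw [map_mul (aeval τ), mul_assoc]; exact (hgi g₃).mul hg₂int
  · exact (hgi g₂).mul hg₃int
  · exact hnd _ (by rw [Polynomial.map_mul]; exact mul_ne_zero hg₁ hg₂)
  · exact hnd _ (by rw [Polynomial.map_mul]; exact mul_ne_zero hg₃ hg₂)
  · -- `(s h) ^ p` is integral
    apply IsIntegral.of_pow hp
    obtain ⟨p', rfl⟩ : ∃ p', p = p' + 1 := ⟨p - 1, by omega⟩
    have : (aeval τ (g₁ * g₂) * y₂ * h) ^ (p' + 1) =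
        aeval τ g₁ ^ p' * aeval τ g₂ * (aeval τ g₂ * y₂) ^ p' * (aeval τ g₁ * y₁) := by
      rw [← hh, map_mul (aeval τ)]
      ring
    rw [this]
    exact ((((hgi g₁).pow _).mul (hgi g₂)).mul (hg₂int.pow _)).mul hg₁int
  · have h1 : (h ^ p - 1) * y₂ = y₁ - y₂ := by rw [sub_mul, one_mul, hh]
    calc (h ^ p - 1) * (aeval τ (g₃ * g₂) * y₂)
        = aeval τ (g₃ * g₂) * ((h ^ p - 1) * y₂) := by ring
      _ = aeval τ (g₃ * g₂) * (algebraMap A Lf π * y₃) := by rw [h1, hy₃eq]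
      _ = algebraMap A Lf π * (aeval τ g₂ * (aeval τ g₃ * y₃)) := by
          rw [map_mul (aeval τ)]; ring

/-- **Kummer data.**  For `Y₁, Y₂ ∈ A((q))` with images `y₁, y₂` in `F` and nonzero reductions
there is `s ≠ 0` coming from `F` such that `W := s ^ p * y₁ / y₂` is integral over `A[τ]` with
norm `nW(τ)`, `π ∤ nW`.  (So `H := s * h` satisfies `H ^ p = W` when `h ^ p = y₁ / y₂`.) -/
theorem bgWire_kummer_data (kd : GaussKD r F t₀ x) {π : A} (hπ : Irreducible π)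
    (hrπ : r π = 0) (hr : ∀ a, r a = 0 → π ∣ a)
    (hF : ∀ f ∈ F, ∃ z : Lf, e z = f) {τ : Lf} (hτ : e τ = coeffMap (algebraMap A E) t₀)
    (hτtr : Transcendental E τ)
    (Y₁ Y₂ : LaurentSeries A) (h₁ : coeffMap (algebraMap A E) Y₁ ∈ F)
    (h₂ : coeffMap (algebraMap A E) Y₂ ∈ F)
    (hne₁ : coeffMap r Y₁ ≠ 0) (hne₂ : coeffMap r Y₂ ≠ 0)
    {y₁ y₂ : Lf} (hy₁ : e y₁ = coeffMap (algebraMap A E) Y₁)
    (hy₂ : e y₂ = coeffMap (algebraMap A E) Y₂)
    {p : ℕ} (hp : 0 < p) :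
    ∃ (s W : Lf) (nW : A[X]), s ≠ 0 ∧ e s ∈ F ∧ e W ∈ F ∧ W * y₂ = s ^ p * y₁ ∧
      IsIntegral (Algebra.adjoin A {τ}) s ∧
      IsIntegral (Algebra.adjoin A {τ}) W ∧ ¬ C π ∣ nW ∧
      algebraMap E⟮τ⟯ Lf (Algebra.norm E⟮τ⟯ W) = aeval τ nW := by
  have hinjι : Function.Injective (algebraMap A E) := IsFractionRing.injective A E
  have hinj : Function.Injective e := e.toRingHom.injective
  have hy₁F : e y₁ ∈ F := by rw [hy₁]; exact h₁
  have hy₂F : e y₂ ∈ F := by rw [hy₂]; exact h₂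
  have hgauss : ∀ {y : Lf} {Y : LaurentSeries A}, e y = coeffMap (algebraMap A E) Y →
      e y ∈ gaussRing (algebraMap A E) r := fun hy => by
    rw [hy]; exact coeffMap_mem_gaussRing _ r _
  obtain ⟨g₁, hg₁, hg₁int⟩ := bgInt_exists_mul_isIntegral e kd hπ.ne_zero hπ.not_isUnit hr hF hτ
    y₁ hy₁F (hgauss hy₁)
  obtain ⟨g₂, hg₂, hg₂int⟩ := bgInt_exists_mul_isIntegral e kd hπ.ne_zero hπ.not_isUnit hr hF hτ
    y₂ hy₂F (hgauss hy₂)
  have hgi : ∀ g : A[X], IsIntegral (Algebra.adjoin A {τ}) (aeval τ g) := fun g => by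
    have : aeval τ g = algebraMap (↥(Algebra.adjoin A {τ})) Lf
        ⟨aeval τ g, bgInt_aeval_mem_adjoin τ g⟩ := rfl
    rw [this]
    exact isIntegral_algebraMap
  have hgF : ∀ g : A[X], e (aeval τ g) ∈ F := fun g => by
    rw [bgInt_map_aeval e hτ, redDVR_coeffMap_aeval]
    have : aeval (coeffMap (algebraMap A E) t₀) (g.map (algebraMap A E)) ∈
        F.toSubalgebra := by
      rw [aeval_def, eval₂_eq_sum_range]
      refine Subalgebra.sum_mem _ fun i _ => ?_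
      exact Subalgebra.mul_mem _ (Subalgebra.algebraMap_mem _ _)
        (Subalgebra.pow_mem _ kd.t_mem _)
    exact this
  have hy₂0 : y₂ ≠ 0 := by
    rintro rfl
    rw [map_zero] at hy₂
    apply hne₂
    have : Y₂ = 0 := redDVR_coeffMap_injective (algebraMap A E) hinjι (by rw [← hy₂, map_zero])
    rw [this, map_zero]
  have hg0 : ∀ g : A[X], g.map r ≠ 0 → aeval τ g ≠ 0 := by
    intro g hg h0
    have h1 : g = 0 := chart_aeval_injective hτtr (by rw [h0, map_zero])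
    apply hg
    rw [h1, Polynomial.map_zero]
  obtain ⟨p', rfl⟩ : ∃ p', p = p' + 1 := ⟨p - 1, by omega⟩
  -- the series of `W`
  set G : A[X] := g₁ ^ p' * g₂ with hG
  have hWmap : e (aeval τ G * (aeval τ g₂ * y₂) ^ p' * (aeval τ g₁ * y₁)) =
      coeffMap (algebraMap A E)
        (aeval t₀ G * (aeval t₀ g₂ * Y₂) ^ p' * (aeval t₀ g₁ * Y₁)) := by
    rw [map_mul e, map_mul e, map_pow e, bgWire_map_aeval_mul e hτ g₂ hy₂,
      bgWire_map_aeval_mul e hτ g₁ hy₁, bgInt_map_aeval e hτ, ← map_pow, ← map_mul, ← map_mul]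
  have hWg : e (aeval τ G * (aeval τ g₂ * y₂) ^ p' * (aeval τ g₁ * y₁)) ∈
      gaussRing (algebraMap A E) r := by
    rw [hWmap]; exact coeffMap_mem_gaussRing _ r _
  have hWF : e (aeval τ G * (aeval τ g₂ * y₂) ^ p' * (aeval τ g₁ * y₁)) ∈ F := by
    have ha : e (aeval τ g₂ * y₂) ∈ F := by
      rw [map_mul e]; exact F.mul_mem (hgF _) hy₂F
    have hb : e (aeval τ g₁ * y₁) ∈ F := by
      rw [map_mul e]; exact F.mul_mem (hgF _) hy₁F
    rw [map_mul e, map_mul e, map_pow e]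
    exact F.mul_mem (F.mul_mem (hgF _) (pow_mem ha p')) hb
  have hWint : IsIntegral (Algebra.adjoin A {τ})
      (aeval τ G * (aeval τ g₂ * y₂) ^ p' * (aeval τ g₁ * y₁)) :=
    ((hgi G).mul (hg₂int.pow _)).mul hg₁int
  have hWred : gaussRed r (IsFractionRing.injective A E)
      ⟨e (aeval τ G * (aeval τ g₂ * y₂) ^ p' * (aeval τ g₁ * y₁)), hWg⟩ ≠ 0 := by
    have : (⟨e (aeval τ G * (aeval τ g₂ * y₂) ^ p' * (aeval τ g₁ * y₁)), hWg⟩ :
        gaussRing (algebraMap A E) r) =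
        ⟨coeffMap (algebraMap A E)
          (aeval t₀ G * (aeval t₀ g₂ * Y₂) ^ p' * (aeval t₀ g₁ * Y₁)),
          coeffMap_mem_gaussRing _ r _⟩ := Subtype.ext hWmap
    rw [this, gaussRed_coeffMap]
    have hGr : G.map r ≠ 0 := by
      rw [hG, Polynomial.map_mul, Polynomial.map_pow]
      exact mul_ne_zero (pow_ne_zero _ hg₁) hg₂
    have ha : coeffMap r (aeval t₀ g₂ * Y₂) ≠ 0 := by
      rw [map_mul]; exact mul_ne_zero (bgWire_red_aeval_ne_zero kd hg₂) hne₂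
    have hb : coeffMap r (aeval t₀ g₁ * Y₁) ≠ 0 := by
      rw [map_mul]; exact mul_ne_zero (bgWire_red_aeval_ne_zero kd hg₁) hne₁
    rw [map_mul (coeffMap r), map_mul (coeffMap r), map_pow (coeffMap r)]
    exact mul_ne_zero (mul_ne_zero (bgWire_red_aeval_ne_zero kd hGr) (pow_ne_zero _ ha)) hb
  obtain ⟨nW, -, hnW, hnorm⟩ := bgInt_norm e kd hπ hrπ hr hF hτ hτtr _ hWF hWg hWred hWint
  refine ⟨aeval τ (g₁ * g₂) * y₂, _, nW, ?_, ?_, hWF, ?_, ?_, hWint, hnW, hnorm⟩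
  · refine mul_ne_zero (hg0 _ ?_) hy₂0
    rw [Polynomial.map_mul]; exact mul_ne_zero hg₁ hg₂
  · rw [map_mul e]; exact F.mul_mem (hgF _) hy₂F
  · rw [hG, map_mul (aeval τ), map_mul (aeval τ), map_pow (aeval τ)]
    ring
  · rw [map_mul (aeval τ), mul_assoc]; exact (hgi g₁).mul hg₂int

end Wire

end Fermat.Agent.INJ
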