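import Mathlib.RingTheory.Polynomial.GaussLemma
import Mathlib.RingTheory.PrincipalIdealDomain
import Mathlib.Algebra.Polynomial.Reverse
import Fermat.Agent.S24.PlaceBasic

/-!
# (INJ) A5 glue: the centre of a place on the `τ`-line

`P` a place of `Lf / E`, `τ : Lf`.  If some polynomial in `τ` has positive order at `P` then
`τ` is `P`-integral, the polynomials `g` with `ord_P g(τ) > 0` form the ideal generated by one
irreducible `f` ("the centre of `P`"), and if some polynomial in `τ` is a uniformizer at `P`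
then so is `f(τ)`.
-/

set_option autoImplicit false
set_option linter.unusedSectionVars false

namespace Fermat.Agent.INJ

open Polynomial AlgebraicCurve Fermat.Agent.S24

variable {E Lf : Type*} [Field E] [Field Lf] [Algebra E Lf]

/-- polynomials in a `P`-integral element are `P`-integral -/
theorem centre_aeval_mem (P : Place E Lf) {τ : Lf} (hτ : τ ∈ P.toValuationSubring) (p : E[X]) :
    aeval τ p ∈ P.toValuationSubring := by
  rw [Polynomial.aeval_eq_sum_range]
  refine sum_mem fun i _ => ?_
  rw [Algebra.smul_def]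
  exact mul_mem (P.algebraMap_mem' _) (pow_mem hτ i)

theorem centre_ord_aeval_nonneg (P : Place E Lf) {τ : Lf} (hτ : 0 ≤ P.ord τ) (p : E[X]) :
    0 ≤ P.ord (aeval τ p) := by
  rcases eq_or_ne (aeval τ p) 0 with h | h
  · rw [h]; simp
  · exact (PlaceAux.ord_nonneg_iff P h).mpr
      (centre_aeval_mem P (PlaceAux.mem_of_ord_nonneg P hτ) p)

/-- If a polynomial in `τ` has positive order at `P`, then `τ` is `P`-integral. -/
theorem centre_ord_nonneg (P : Place E Lf) (τ : Lf) (f : E[X]) (h : 0 < P.ord (aeval τ f)) :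
    0 ≤ P.ord τ := by
  by_contra hneg
  rw [not_le] at hneg
  have hτ0 : τ ≠ 0 := by
    rintro rfl
    simp at hneg
  have hf0 : f ≠ 0 := by
    rintro rfl
    simp at h
  -- `f(τ) = τ ^ n * (reverse f)(τ⁻¹)`
  set n := f.natDegree with hn
  let _ : Invertible τ := invertibleOfNonzero hτ0
  have key := eval₂_reflect_mul_pow (algebraMap E Lf) τ n f le_rfl
  rw [invOf_eq_inv] at key
  -- the second factor is a unit at `P`
  set y : Lf := eval₂ (algebraMap E Lf) τ⁻¹ (reflect n f) with hy
  have hτinv : 0 < P.ord τ⁻¹ := by rw [P.ord_inv]; omega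
  have hcoeff0 : (reflect n f).coeff 0 = f.leadingCoeff := by
    rw [coeff_reflect, revAt_le (Nat.zero_le n), Nat.sub_zero, leadingCoeff]
  have hlc : f.leadingCoeff ≠ 0 := leadingCoeff_ne_zero.mpr hf0
  have hdecomp : y = algebraMap E Lf f.leadingCoeff
      + eval₂ (algebraMap E Lf) τ⁻¹ (reflect n f).divX * τ⁻¹ := by
    have h1 := divX_mul_X_add (reflect n f)
    have h2 : y = eval₂ (algebraMap E Lf) τ⁻¹ ((reflect n f).divX * X + C ((reflect n f).coeff 0)) := by
      rw [h1]
    rw [h2, eval₂_add, eval₂_mul, eval₂_X, eval₂_C, hcoeff0, add_comm]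
  have hlcne : algebraMap E Lf f.leadingCoeff ≠ 0 := by simpa using hlc
  have hy0 : P.ord y = 0 := by
    rcases eq_or_ne (eval₂ (algebraMap E Lf) τ⁻¹ (reflect n f).divX * τ⁻¹) 0 with h0 | h0
    · rw [hdecomp, h0, add_zero]; exact PlaceAux.ord_algebraMap P _
    · rw [hdecomp, PlaceAux.ord_add_eq_of_lt P hlcne h0]
      · exact PlaceAux.ord_algebraMap P _
      · rw [PlaceAux.ord_algebraMap]
        have hq0 : eval₂ (algebraMap E Lf) τ⁻¹ (reflect n f).divX ≠ 0 := left_ne_zero_of_mul h0
        rw [P.ord_mul hq0 (inv_ne_zero hτ0)]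
        have : 0 ≤ P.ord (eval₂ (algebraMap E Lf) τ⁻¹ (reflect n f).divX) :=
          centre_ord_aeval_nonneg P hτinv.le _
        omega
  have hy_ne : y ≠ 0 := by
    intro h0
    have : aeval τ f = 0 := by
      rw [aeval_def, ← key, h0, zero_mul]
    rw [this] at h; simp at h
  have hfτ : aeval τ f = y * τ ^ n := by rw [aeval_def, ← key]
  rw [hfτ, P.ord_mul hy_ne (pow_ne_zero _ hτ0), hy0, zero_add, ← zpow_natCast, P.ord_zpow] at h
  have : (n : ℤ) * P.ord τ ≤ 0 := mul_nonpos_of_nonneg_of_nonpos (by positivity) hneg.le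
  omega

/-- membership in the maximal ideal, in terms of `ord` -/
theorem centre_mem_maximalIdeal_iff (P : Place E Lf) {x : Lf} (hx : x ∈ P.toValuationSubring) :
    (⟨x, hx⟩ : P.toValuationSubring) ∈ IsLocalRing.maximalIdeal P.toValuationSubring ↔
      x = 0 ∨ 0 < P.ord x := by
  rcases eq_or_ne x 0 with rfl | h0
  · simp only [true_or, iff_true]
    exact (IsLocalRing.maximalIdeal P.toValuationSubring).zero_mem
  · rw [PlaceAux.ord_pos_iff_mem_nonunits P h0,
      ValuationSubring.mem_nonunits_iff_exists_mem_maximalIdeal]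
    constructor
    · intro h; exact Or.inr ⟨hx, h⟩
    · rintro (h | ⟨_, h⟩)
      · exact absurd h h0
      · exact h

/-- **The centre of `P` on the `τ`-line**: an irreducible polynomial with positive order at `P`
divides every polynomial with positive order at `P`. -/
theorem centre_dvd (P : Place E Lf) (τ : Lf) {f g : E[X]} (hf : Irreducible f)
    (hfP : 0 < P.ord (aeval τ f)) (hgP : 0 < P.ord (aeval τ g)) : f ∣ g := by
  have hτ : 0 ≤ P.ord τ := centre_ord_nonneg P τ f hfP
  have hτm := PlaceAux.mem_of_ord_nonneg P hτ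
  let φ : E[X] →+* P.toValuationSubring :=
    (aeval τ : E[X] →ₐ[E] Lf).toRingHom.codRestrict P.toValuationSubring.toSubring
      (fun p => centre_aeval_mem P hτm p)
  let I : Ideal E[X] := (IsLocalRing.maximalIdeal P.toValuationSubring).comap φ
  have hmem : ∀ h : E[X], h ∈ I ↔ (aeval τ h = 0 ∨ 0 < P.ord (aeval τ h)) := by
    intro h
    show φ h ∈ IsLocalRing.maximalIdeal P.toValuationSubring ↔ _
    exact centre_mem_maximalIdeal_iff P (centre_aeval_mem P hτm h)
  have hIprime : I.IsPrime := Ideal.comap_isPrime φ _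
  have hfI : f ∈ I := (hmem f).mpr (Or.inr hfP)
  have hgI : g ∈ I := (hmem g).mpr (Or.inr hgP)
  have hmax : (Ideal.span {f}).IsMaximal := PrincipalIdealRing.isMaximal_of_irreducible hf
  have hle : Ideal.span {f} ≤ I := (Ideal.span_singleton_le_iff_mem I).mpr hfI
  have heq : Ideal.span {f} = I := hmax.eq_of_le hIprime.ne_top hle
  rw [← heq] at hgI
  exact Ideal.mem_span_singleton.mp hgI

/-- If some polynomial in `τ` is a uniformizer at `P`, so is the centre. -/
theorem centre_ord_eq_one (P : Place E Lf) (τ : Lf) {f g : E[X]} (hf : Irreducible f)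
    (hfP : 0 < P.ord (aeval τ f)) (hg : P.ord (aeval τ g) = 1) : P.ord (aeval τ f) = 1 := by
  have hτ : 0 ≤ P.ord τ := centre_ord_nonneg P τ f hfP
  obtain ⟨q, rfl⟩ := centre_dvd P τ hf hfP (g := g) (by omega)
  have hf0 : aeval τ f ≠ 0 := by
    intro h0; rw [h0] at hfP; simp at hfP
  have hq0 : aeval τ q ≠ 0 := by
    intro h0
    rw [map_mul, h0, mul_zero] at hg
    simp at hg
  rw [map_mul, P.ord_mul hf0 hq0] at hg
  have := centre_ord_aeval_nonneg P hτ q
  omega

section Integral

variable {A₀ : Type*} [CommRing A₀] [IsDomain A₀] [IsPrincipalIdealRing A₀]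
  [Algebra A₀ E] [IsFractionRing A₀ E] [Algebra A₀ Lf] [IsScalarTower A₀ E Lf]

theorem centre_aeval_map (τ : Lf) (f : A₀[X]) :
    aeval τ (f.map (algebraMap A₀ E)) = aeval τ f :=
  aeval_map_algebraMap E τ f

/-- constants of `A₀` have order `0` -/
theorem centre_ord_algebraMap (P : Place E Lf) (a : A₀) : P.ord (algebraMap A₀ Lf a) = 0 := by
  rw [IsScalarTower.algebraMap_apply A₀ E Lf]
  exact PlaceAux.ord_algebraMap P _

/-- an irreducible polynomial over `A₀` with positive order at `P` is irreducible over `E` -/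
theorem centre_irreducible_map (P : Place E Lf) (τ : Lf) {f : A₀[X]} (hf : Irreducible f)
    (hfP : 0 < P.ord (aeval τ f)) :
    f.IsPrimitive ∧ Irreducible (f.map (algebraMap A₀ E)) := by
  have hdeg : f.natDegree ≠ 0 := by
    intro h0
    obtain ⟨a, ha⟩ := natDegree_eq_zero.mp h0
    rw [← ha, aeval_C, centre_ord_algebraMap] at hfP
    exact lt_irrefl _ hfP
  have hprim : f.IsPrimitive := hf.isPrimitive hdeg
  exact ⟨hprim, (hprim.irreducible_iff_irreducible_map_fraction_map (K := E)).mp hf⟩

/-- the centre, over `A₀` -/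
theorem centre_dvd_int (P : Place E Lf) (τ : Lf) {f g : A₀[X]} (hf : Irreducible f)
    (hfP : 0 < P.ord (aeval τ f)) (hgP : 0 < P.ord (aeval τ g)) : f ∣ g := by
  obtain ⟨hprim, hirr⟩ := centre_irreducible_map P τ hf hfP
  apply hprim.dvd_of_fraction_map_dvd_fraction_map (K := E)
  apply centre_dvd P τ hirr
  · rw [centre_aeval_map]; exact hfP
  · rw [centre_aeval_map]; exact hgP

/-- If some polynomial in `τ` over `E` is a uniformizer at `P`, so is the centre. -/
theorem centre_ord_eq_one_int (P : Place E Lf) (τ : Lf) {f : A₀[X]} (hf : Irreducible f)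
    (hfP : 0 < P.ord (aeval τ f)) {g : E[X]} (hg : P.ord (aeval τ g) = 1) :
    P.ord (aeval τ f) = 1 := by
  obtain ⟨-, hirr⟩ := centre_irreducible_map P τ hf hfP
  rw [← centre_aeval_map (E := E)] at hfP ⊢
  exact centre_ord_eq_one P τ hirr hfP hg

end Integral

end Fermat.Agent.INJ
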