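import Mathlib

/-!
# (INJ) piece A6, core: Zariski connectedness by a torsion count

`A₀` a discrete valuation ring with uniformizer `π`, `B` a commutative `A₀`-algebra on which `π` is
regular, `C₁ C₂ ⊆ B` two subalgebras ("charts", `B` = functions on the overlap) such that
* `C₁ ∩ C₂ = A₀` (global functions are constants);
* the `π`-power torsion of `B / (C₁ + C₂)` (= `H¹`) is killed by `π ^ N`.
Then for `n > N` every compatible pair of idempotents modulo `π ^ n` is trivial modulo `π`.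
-/

set_option autoImplicit false

namespace Fermat.Agent.INJ

variable {A₀ : Type*} [CommRing A₀] [IsDomain A₀] [IsDiscreteValuationRing A₀]
variable {B : Type*} [CommRing B] [Algebra A₀ B]

/-- In a DVR every element is divisible by `π ^ (N+1)` or divides `π ^ N`. -/
theorem dvr_dichotomy {π : A₀} (hπ : Irreducible π) (N : ℕ) (a : A₀) :
    (π ^ (N + 1) ∣ a) ∨ (a ∣ π ^ N) := by
  by_cases ha : a = 0
  · left; simp [ha]
  obtain ⟨k, hk⟩ := IsDiscreteValuationRing.associated_pow_irreducible ha hπ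
  by_cases hkN : k ≤ N
  · right
    exact hk.dvd.trans (pow_dvd_pow π hkN)
  · left
    exact (pow_dvd_pow π (by omega)).trans hk.symm.dvd

/-- cancellation of a power of a regular element -/
theorem pow_mul_cancel {p : B} (hreg : ∀ x : B, p * x = 0 → x = 0) (N : ℕ) {u v : B}
    (h : p ^ N * u = p ^ N * v) : u = v := by
  induction N with
  | zero => simpa using h
  | succ N ih =>
    apply ih
    have : p * (p ^ N * u - p ^ N * v) = 0 := by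
      have h' : p ^ (N + 1) * u - p ^ (N + 1) * v = 0 := sub_eq_zero.mpr h
      rw [← h']; ring
    exact sub_eq_zero.mp (hreg _ this)

/-- **Core of Zariski connectedness**, with the overlap ring `C₁₂` as a subalgebra of `B`
(so that `B` may be a field). -/
theorem zariski_core_mem {π : A₀} (hπ : Irreducible π)
    (hreg : ∀ x : B, algebraMap A₀ B π * x = 0 → x = 0)
    (C₁ C₂ C₁₂ : Subalgebra A₀ B)
    (hconst : ∀ z : B, z ∈ C₁ → z ∈ C₂ → ∃ a : A₀, algebraMap A₀ B a = z)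
    (N : ℕ)
    (hbdd : ∀ (n : ℕ) (c : B), c ∈ C₁₂ →
      (∃ x ∈ C₁, ∃ y ∈ C₂, algebraMap A₀ B π ^ n * c = x + y) →
        ∃ x ∈ C₁, ∃ y ∈ C₂, algebraMap A₀ B π ^ N * c = x + y)
    {n : ℕ} (hn : N < n)
    {e₁ e₂ c₁ c₂ c : B} (he₁ : e₁ ∈ C₁) (he₂ : e₂ ∈ C₂) (hc₁ : c₁ ∈ C₁) (hc₂ : c₂ ∈ C₂)
    (hc : c ∈ C₁₂)
    (hid₁ : e₁ * e₁ - e₁ = algebraMap A₀ B π ^ n * c₁)
    (hid₂ : e₂ * e₂ - e₂ = algebraMap A₀ B π ^ n * c₂)
    (hcomp : e₁ - e₂ = algebraMap A₀ B π ^ n * c) :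
    (∃ y₁ ∈ C₁, ∃ y₂ ∈ C₂, e₁ = algebraMap A₀ B π * y₁ ∧ e₂ = algebraMap A₀ B π * y₂) ∨
    (∃ y₁ ∈ C₁, ∃ y₂ ∈ C₂, e₁ - 1 = algebraMap A₀ B π * y₁ ∧
      e₂ - 1 = algebraMap A₀ B π * y₂) := by
  set p : B := algebraMap A₀ B π with hp
  have hpC₁ : p ∈ C₁ := C₁.algebraMap_mem π
  have hpC₂ : p ∈ C₂ := C₂.algebraMap_mem π
  -- step 1: the class of `c` in `H¹` is killed by `p ^ N`
  obtain ⟨x, hx, y, hy, hxy⟩ :=
    hbdd n c hc ⟨e₁, he₁, -e₂, C₂.neg_mem he₂, by rw [← hcomp]; ring⟩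
  -- step 2: a global function
  have hz : p ^ N * e₁ - p ^ n * x = p ^ N * e₂ + p ^ n * y := by
    have h1 : p ^ N * (e₁ - e₂) = p ^ n * (x + y) := by
      rw [hcomp, ← hxy]; ring
    have h2 : p ^ N * e₁ - p ^ n * x - (p ^ N * e₂ + p ^ n * y)
        = p ^ N * (e₁ - e₂) - p ^ n * (x + y) := by ring
    rw [← sub_eq_zero, h2, h1, sub_self]
  have hz₁ : p ^ N * e₁ - p ^ n * x ∈ C₁ :=
    C₁.sub_mem (C₁.mul_mem (C₁.pow_mem hpC₁ N) he₁) (C₁.mul_mem (C₁.pow_mem hpC₁ n) hx)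
  have hz₂ : p ^ N * e₁ - p ^ n * x ∈ C₂ := by
    rw [hz]
    exact C₂.add_mem (C₂.mul_mem (C₂.pow_mem hpC₂ N) he₂) (C₂.mul_mem (C₂.pow_mem hpC₂ n) hy)
  obtain ⟨a, ha⟩ := hconst _ hz₁ hz₂
  have ha₁ : p ^ N * e₁ = algebraMap A₀ B a + p ^ n * x := by rw [ha]; ring
  have ha₂ : p ^ N * e₂ = algebraMap A₀ B a - p ^ n * y := by rw [ha, hz]; ring
  obtain ⟨m, rfl⟩ : ∃ m, n = N + 1 + m := ⟨n - (N + 1), by omega⟩
  rcases dvr_dichotomy hπ N a with ⟨a', rfl⟩ | ⟨b, hb⟩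
  · -- `a = π ^ (N+1) * a'`
    left
    refine ⟨algebraMap A₀ B a' + p ^ m * x,
      C₁.add_mem (C₁.algebraMap_mem a') (C₁.mul_mem (C₁.pow_mem hpC₁ m) hx),
      algebraMap A₀ B a' - p ^ m * y,
      C₂.sub_mem (C₂.algebraMap_mem a') (C₂.mul_mem (C₂.pow_mem hpC₂ m) hy), ?_, ?_⟩
    · apply pow_mul_cancel hreg N
      rw [ha₁, map_mul, map_pow, ← hp]; ring
    · apply pow_mul_cancel hreg N
      rw [ha₂, map_mul, map_pow, ← hp]; ring
  · -- `π ^ N = a * b`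
    right
    have hb' : p ^ N = algebraMap A₀ B a * algebraMap A₀ B b := by
      rw [hp, ← map_pow, hb, map_mul]
    refine ⟨- (p ^ m * (algebraMap A₀ B b * (-(p ^ N * c₁) - x * (1 - e₁)))),
      C₁.neg_mem (C₁.mul_mem (C₁.pow_mem hpC₁ m) (C₁.mul_mem (C₁.algebraMap_mem b)
        (C₁.sub_mem (C₁.neg_mem (C₁.mul_mem (C₁.pow_mem hpC₁ N) hc₁))
          (C₁.mul_mem hx (C₁.sub_mem C₁.one_mem he₁))))),
      - (p ^ m * (algebraMap A₀ B b * (-(p ^ N * c₂) + y * (1 - e₂)))),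
      C₂.neg_mem (C₂.mul_mem (C₂.pow_mem hpC₂ m) (C₂.mul_mem (C₂.algebraMap_mem b)
        (C₂.add_mem (C₂.neg_mem (C₂.mul_mem (C₂.pow_mem hpC₂ N) hc₂))
          (C₂.mul_mem hy (C₂.sub_mem C₂.one_mem he₂))))), ?_, ?_⟩
    · apply pow_mul_cancel hreg N
      have key : algebraMap A₀ B a * (1 - e₁)
          = p ^ (N + 1 + m) * (-(p ^ N * c₁) - x * (1 - e₁)) := by
        have : algebraMap A₀ B a = p ^ N * e₁ - p ^ (N + 1 + m) * x := by rw [ha₁]; ring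
        rw [this]
        have h3 : (p ^ N * e₁ - p ^ (N + 1 + m) * x) * (1 - e₁)
            = - (p ^ N * (e₁ * e₁ - e₁)) - p ^ (N + 1 + m) * (x * (1 - e₁)) := by ring
        rw [h3, hid₁]; ring
      calc p ^ N * (e₁ - 1) = - (algebraMap A₀ B b * (algebraMap A₀ B a * (1 - e₁))) := by
            rw [hb']; ring
        _ = _ := by rw [key]; ring
    · apply pow_mul_cancel hreg N
      have key : algebraMap A₀ B a * (1 - e₂)
          = p ^ (N + 1 + m) * (-(p ^ N * c₂) + y * (1 - e₂)) := by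
        have : algebraMap A₀ B a = p ^ N * e₂ + p ^ (N + 1 + m) * y := by rw [ha₂]; ring
        rw [this]
        have h3 : (p ^ N * e₂ + p ^ (N + 1 + m) * y) * (1 - e₂)
            = - (p ^ N * (e₂ * e₂ - e₂)) + p ^ (N + 1 + m) * (y * (1 - e₂)) := by ring
        rw [h3, hid₂]; ring
      calc p ^ N * (e₂ - 1) = - (algebraMap A₀ B b * (algebraMap A₀ B a * (1 - e₂))) := by
            rw [hb']; ring
        _ = _ := by rw [key]; ring

/-- **Core of Zariski connectedness** (the case `C₁₂ = B`). -/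
theorem zariski_core {π : A₀} (hπ : Irreducible π)
    (hreg : ∀ x : B, algebraMap A₀ B π * x = 0 → x = 0)
    (C₁ C₂ : Subalgebra A₀ B)
    (hconst : ∀ z : B, z ∈ C₁ → z ∈ C₂ → ∃ a : A₀, algebraMap A₀ B a = z)
    (N : ℕ)
    (hbdd : ∀ (n : ℕ) (c : B), (∃ x ∈ C₁, ∃ y ∈ C₂, algebraMap A₀ B π ^ n * c = x + y) →
        ∃ x ∈ C₁, ∃ y ∈ C₂, algebraMap A₀ B π ^ N * c = x + y)
    {n : ℕ} (hn : N < n)
    {e₁ e₂ c₁ c₂ c : B} (he₁ : e₁ ∈ C₁) (he₂ : e₂ ∈ C₂) (hc₁ : c₁ ∈ C₁) (hc₂ : c₂ ∈ C₂)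
    (hid₁ : e₁ * e₁ - e₁ = algebraMap A₀ B π ^ n * c₁)
    (hid₂ : e₂ * e₂ - e₂ = algebraMap A₀ B π ^ n * c₂)
    (hcomp : e₁ - e₂ = algebraMap A₀ B π ^ n * c) :
    (∃ y₁ ∈ C₁, ∃ y₂ ∈ C₂, e₁ = algebraMap A₀ B π * y₁ ∧ e₂ = algebraMap A₀ B π * y₂) ∨
    (∃ y₁ ∈ C₁, ∃ y₂ ∈ C₂, e₁ - 1 = algebraMap A₀ B π * y₁ ∧
      e₂ - 1 = algebraMap A₀ B π * y₂) :=
  zariski_core_mem hπ hreg C₁ C₂ ⊤ hconst N (fun n c _ h => hbdd n c h) hn he₁ he₂ hc₁ hc₂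
    Algebra.mem_top hid₁ hid₂ hcomp

end Fermat.Agent.INJ
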