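import Mathlib

/-!
# INJ A6-Z3: bounded `π`-torsion of `C₁₂ / (C₁ + C₂)`

`C₁` is finite over `A₀[t]`, `C₁₂ = C₁[1/t]`, `t⁻¹ ∈ C₂` and the generators of `C₁` become
elements of `C₂` after multiplication by a power of `t⁻¹`.  Then `C₁₂/(C₁ + C₂)` is contained
in a finitely generated `A₀`-module, so its `π`-power torsion is killed by one fixed power of `π`.
-/

set_option autoImplicit false

namespace Fermat.Agent.INJ

open Polynomial

section Aux

variable {A₀ : Type*} [CommRing A₀] {B : Type*} [CommRing B] [Algebra A₀ B]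

/-- `t' ^ s * t ^ j` when `t * t' = 1` and `s ≤ j`. -/
theorem zbdd_pow_mul_pow_of_le {t t' : B} (htt' : t * t' = 1) {s j : ℕ} (h : s ≤ j) :
    t' ^ s * t ^ j = t ^ (j - s) := by
  obtain ⟨d, rfl⟩ := Nat.exists_eq_add_of_le h
  rw [Nat.add_sub_cancel_left, pow_add, ← mul_assoc, ← mul_pow, mul_comm t' t, htt', one_pow,
    one_mul]

/-- `t' ^ s * t ^ j` when `t * t' = 1` and `j ≤ s`. -/
theorem zbdd_pow_mul_pow_of_ge {t t' : B} (htt' : t * t' = 1) {s j : ℕ} (h : j ≤ s) :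
    t' ^ s * t ^ j = t' ^ (s - j) := by
  obtain ⟨d, rfl⟩ := Nat.exists_eq_add_of_le h
  rw [Nat.add_sub_cancel_left, pow_add, mul_comm (t' ^ j) (t' ^ d), mul_assoc, ← mul_pow,
    mul_comm t' t, htt', one_pow, mul_one]

/-- The finitely generated module that contains `C₁₂` modulo `C₁ + C₂`. -/
def zbddSpan (t' : B) {m : ℕ} (g : Fin m → B) (S : ℕ) : Submodule A₀ B :=
  Submodule.span A₀ (Set.range fun ie : Fin m × Fin S => t' ^ (ie.2 : ℕ) * g ie.1)

theorem zbddSpan_fg (t' : B) {m : ℕ} (g : Fin m → B) (S : ℕ) :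
    (zbddSpan (A₀ := A₀) t' g S).FG :=
  Submodule.fg_span (Set.finite_range _)

/-- Monomial step: `t'^s * t^j * g i` lies in `C₁ + C₂ + span`. -/
theorem zbdd_monomial_mem (C₁ C₂ : Subalgebra A₀ B) {t t' : B} (htt' : t * t' = 1)
    (ht : t ∈ C₁) (ht' : t' ∈ C₂) {m : ℕ} (g : Fin m → B) (hg : ∀ i, g i ∈ C₁)
    (S : ℕ) (hS : ∀ i, t' ^ S * g i ∈ C₂) (s j : ℕ) (i : Fin m) :
    t' ^ s * t ^ j * g i ∈
      Subalgebra.toSubmodule C₁ ⊔ Subalgebra.toSubmodule C₂ ⊔ zbddSpan (A₀ := A₀) t' g S := by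
  rcases le_total s j with h | h
  · rw [zbdd_pow_mul_pow_of_le htt' h]
    exact Submodule.mem_sup_left (Submodule.mem_sup_left
      (C₁.mul_mem (C₁.pow_mem ht _) (hg i)))
  · rw [zbdd_pow_mul_pow_of_ge htt' h]
    rcases lt_or_ge (s - j) S with h' | h'
    · exact Submodule.mem_sup_right
        (Submodule.subset_span ⟨(i, ⟨s - j, h'⟩), rfl⟩)
    · obtain ⟨d, hd⟩ := Nat.exists_eq_add_of_le h'
      have : t' ^ (s - j) * g i = t' ^ d * (t' ^ S * g i) := by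
        rw [hd, pow_add]; ring
      rw [this]
      exact Submodule.mem_sup_left (Submodule.mem_sup_right
        (C₂.mul_mem (C₂.pow_mem ht' _) (hS i)))

/-- Polynomial step. -/
theorem zbdd_poly_mem (C₁ C₂ : Subalgebra A₀ B) {t t' : B} (htt' : t * t' = 1)
    (ht : t ∈ C₁) (ht' : t' ∈ C₂) {m : ℕ} (g : Fin m → B) (hg : ∀ i, g i ∈ C₁)
    (S : ℕ) (hS : ∀ i, t' ^ S * g i ∈ C₂) (s : ℕ) (f : A₀[X]) (i : Fin m) :
    t' ^ s * (aeval t f * g i) ∈
      Subalgebra.toSubmodule C₁ ⊔ Subalgebra.toSubmodule C₂ ⊔ zbddSpan (A₀ := A₀) t' g S := by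
  rw [Polynomial.aeval_eq_sum_range, Finset.sum_mul, Finset.mul_sum]
  refine Submodule.sum_mem _ fun j _ => ?_
  have : t' ^ s * (f.coeff j • t ^ j * g i) = f.coeff j • (t' ^ s * t ^ j * g i) := by
    rw [Algebra.smul_def, Algebra.smul_def]; ring
  rw [this]
  exact Submodule.smul_mem _ _ (zbdd_monomial_mem C₁ C₂ htt' ht ht' g hg S hS s j i)

end Aux

/-- Z3: bounded torsion of `C₁₂/(C₁+C₂)`; `t' = t⁻¹`. -/
theorem zariski_bdd {A₀ : Type*} [CommRing A₀] [IsDomain A₀] [IsDiscreteValuationRing A₀]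
    {B : Type*} [CommRing B] [Algebra A₀ B] {π : A₀} (hπ : Irreducible π)
    (C₁ C₂ C₁₂ : Subalgebra A₀ B) {t t' : B} (htt' : t * t' = 1) (ht : t ∈ C₁) (ht' : t' ∈ C₂)
    {m : ℕ} (g : Fin m → B) (hg : ∀ i, g i ∈ C₁)
    (hfin : ∀ x ∈ C₁, ∃ f : Fin m → A₀[X], x = ∑ i, aeval t (f i) * g i)
    (hloc₁ : ∀ b ∈ C₁₂, ∃ s : ℕ, t ^ s * b ∈ C₁)
    (hloc₂ : ∀ i, ∃ s : ℕ, t' ^ s * g i ∈ C₂) :
    ∃ N : ℕ, ∀ (n : ℕ) (c : B), c ∈ C₁₂ →
      (∃ x ∈ C₁, ∃ y ∈ C₂, algebraMap A₀ B π ^ n * c = x + y) →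
        ∃ x ∈ C₁, ∃ y ∈ C₂, algebraMap A₀ B π ^ N * c = x + y := by
  classical
  have _hπ := hπ
  -- a uniform exponent for the generators
  choose s₀ hs₀ using hloc₂
  set S : ℕ := ∑ i, s₀ i with hSdef
  have hS : ∀ i, t' ^ S * g i ∈ C₂ := by
    intro i
    have hle : s₀ i ≤ S := Finset.single_le_sum (f := s₀) (fun _ _ => Nat.zero_le _)
      (Finset.mem_univ i)
    obtain ⟨d, hd⟩ := Nat.exists_eq_add_of_le hle
    have : t' ^ S * g i = t' ^ d * (t' ^ s₀ i * g i) := by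
      rw [hd, pow_add]; ring
    rw [this]
    exact C₂.mul_mem (C₂.pow_mem ht' _) (hs₀ i)
  set P : Submodule A₀ B := Subalgebra.toSubmodule C₁ ⊔ Subalgebra.toSubmodule C₂ with hP
  set W : Submodule A₀ B := zbddSpan (A₀ := A₀) t' g S with hW
  -- `C₁₂ ⊆ P + W`
  have hC₁₂ : ∀ c ∈ C₁₂, c ∈ P ⊔ W := by
    intro c hc
    obtain ⟨s, hs⟩ := hloc₁ c hc
    obtain ⟨f, hf⟩ := hfin _ hs
    have hc' : c = t' ^ s * (t ^ s * c) := by
      rw [← mul_assoc, ← mul_pow, mul_comm t' t, htt', one_pow, one_mul]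
    rw [hc', hf, Finset.mul_sum]
    exact Submodule.sum_mem _ fun i _ => zbdd_poly_mem C₁ C₂ htt' ht ht' g hg S hS s (f i) i
  -- the image of `W` in `B ⧸ P`
  set Wq : Submodule A₀ (B ⧸ P) := W.map P.mkQ with hWq
  have hWqfg : Wq.FG := (zbddSpan_fg (A₀ := A₀) t' g S).map _
  have : IsNoetherian A₀ Wq := isNoetherian_of_fg_of_noetherian Wq hWqfg
  -- the chain of `π^n`-torsion submodules of `Wq`
  let T : ℕ →o Submodule A₀ Wq :=
    { toFun := fun n => LinearMap.ker (LinearMap.lsmul A₀ Wq (π ^ n))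
      monotone' := by
        intro a b hab w hw
        rw [LinearMap.mem_ker, LinearMap.lsmul_apply] at hw ⊢
        obtain ⟨d, rfl⟩ := Nat.exists_eq_add_of_le hab
        rw [pow_add, mul_comm, mul_smul, hw, smul_zero] }
  obtain ⟨N, hN⟩ := monotone_stabilizes_iff_noetherian.mpr (inferInstance : IsNoetherian A₀ Wq) T
  refine ⟨N, fun n c hc hn => ?_⟩
  -- the class of `c` lies in `Wq`
  have hcW : P.mkQ c ∈ Wq := by
    obtain ⟨p, hp, w, hw, hpw⟩ := Submodule.mem_sup.mp (hC₁₂ c hc)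
    refine ⟨w, hw, ?_⟩
    rw [← hpw, map_add, Submodule.mkQ_apply, Submodule.mkQ_apply,
      (Submodule.Quotient.mk_eq_zero P).mpr hp, zero_add]
  -- it is `π^n`-torsion
  have hmem : ∀ k : ℕ, (algebraMap A₀ B π ^ k * c ∈ P) ↔
      (⟨P.mkQ c, hcW⟩ : Wq) ∈ T k := by
    intro k
    show _ ↔ _ ∈ LinearMap.ker (LinearMap.lsmul A₀ Wq (π ^ k))
    rw [LinearMap.mem_ker, LinearMap.lsmul_apply, Subtype.ext_iff, Submodule.coe_smul,
      Submodule.coe_zero, Submodule.coe_mk, ← map_smul, Submodule.mkQ_apply,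
      Submodule.Quotient.mk_eq_zero, Algebra.smul_def, map_pow]
  have hnP : algebraMap A₀ B π ^ n * c ∈ P := by
    obtain ⟨x, hx, y, hy, hxy⟩ := hn
    rw [hxy]
    exact Submodule.add_mem _ (Submodule.mem_sup_left hx) (Submodule.mem_sup_right hy)
  have hNP : algebraMap A₀ B π ^ N * c ∈ P := by
    rw [hmem]
    rcases le_total n N with h | h
    · exact T.monotone h ((hmem n).mp hnP)
    · rw [hN n h]
      exact (hmem n).mp hnP
  obtain ⟨x, hx, y, hy, hxy⟩ := Submodule.mem_sup.mp hNP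
  exact ⟨x, hx, y, hy, hxy.symm⟩

end Fermat.Agent.INJ
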