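import Mathlib

/-!
# (INJ) A6-Zconst: the constants of the two charts

* `integral_of_integral_two`: an element integral over two integrally closed domains `R₁`, `R₂`
  with the same fraction field `K` is integral over any ring `A₀` containing `R₁ ∩ R₂`.
* `adjoin_inter_adjoin_inv`: `A₀[t] ∩ A₀[t⁻¹] = A₀` for `t` transcendental.
-/

set_option autoImplicit false
set_option linter.style.haveILetI false

namespace Fermat.Agent.INJ

open Polynomial

/-- Zconst (a): integral over two integrally closed subrings with the same fraction field. -/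
theorem integral_of_integral_two {A₀ R₁ R₂ K L : Type*} [CommRing A₀] [CommRing R₁] [CommRing R₂]
    [Field K] [Field L] [IsDomain R₁] [IsDomain R₂]
    [Algebra A₀ K] [Algebra K L] [Algebra A₀ L] [IsScalarTower A₀ K L]
    [Algebra R₁ K] [Algebra R₁ L] [IsScalarTower R₁ K L] [IsFractionRing R₁ K]
    [IsIntegrallyClosed R₁]
    [Algebra R₂ K] [Algebra R₂ L] [IsScalarTower R₂ K L] [IsFractionRing R₂ K]
    [IsIntegrallyClosed R₂]
    (hint : ∀ z : K, z ∈ (algebraMap R₁ K).range → z ∈ (algebraMap R₂ K).range →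
      z ∈ (algebraMap A₀ K).range)
    (x : L) (hx₁ : IsIntegral R₁ x) (hx₂ : IsIntegral R₂ x) : IsIntegral A₀ x := by
  have h1 : minpoly K x = (minpoly R₁ x).map (algebraMap R₁ K) :=
    minpoly.isIntegrallyClosed_eq_field_fractions' K hx₁
  have h2 : minpoly K x = (minpoly R₂ x).map (algebraMap R₂ K) :=
    minpoly.isIntegrallyClosed_eq_field_fractions' K hx₂
  have hxK : IsIntegral K x := hx₁.tower_top
  have hlifts : minpoly K x ∈ Polynomial.lifts (algebraMap A₀ K) := by
    rw [Polynomial.lifts_iff_coeff_lifts]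
    intro n
    have c1 : (minpoly K x).coeff n ∈ (algebraMap R₁ K).range := by
      rw [h1, coeff_map]; exact ⟨_, rfl⟩
    have c2 : (minpoly K x).coeff n ∈ (algebraMap R₂ K).range := by
      rw [h2, coeff_map]; exact ⟨_, rfl⟩
    obtain ⟨a, ha⟩ := hint _ c1 c2
    exact ⟨a, ha⟩
  obtain ⟨q, hq, -, hqm⟩ :=
    Polynomial.lifts_and_degree_eq_and_monic hlifts (minpoly.monic hxK)
  refine ⟨q, hqm, ?_⟩
  have h3 : eval₂ (algebraMap A₀ L) x q = eval₂ (algebraMap K L) x (q.map (algebraMap A₀ K)) := by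
    rw [eval₂_map, ← IsScalarTower.algebraMap_eq]
  rw [h3, hq]
  exact minpoly.aeval K x

/-- Zconst (b): `A₀[t] ∩ A₀[t⁻¹] = A₀` for `t` transcendental. -/
theorem adjoin_inter_adjoin_inv {A₀ K : Type*} [CommRing A₀] [IsDomain A₀] [Field K] [Algebra A₀ K]
    (hinj : Function.Injective (algebraMap A₀ K))
    {t : K} (ht : Transcendental A₀ t) (z : K)
    (h₁ : z ∈ Algebra.adjoin A₀ {t}) (h₂ : z ∈ Algebra.adjoin A₀ {t⁻¹}) :
    ∃ a : A₀, algebraMap A₀ K a = z := by
  have _ := hinj
  rw [Algebra.adjoin_singleton_eq_range_aeval] at h₁ h₂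
  obtain ⟨f, hf⟩ := h₁
  obtain ⟨g, hg⟩ := h₂
  have ht0 : t ≠ 0 := by
    rintro rfl
    exact ht (isAlgebraic_zero)
  letI : Invertible (t⁻¹ : K) := invertibleOfNonzero (inv_ne_zero ht0)
  have hinv : ⅟(t⁻¹ : K) = t := by rw [invOf_eq_inv, inv_inv]
  set N := g.natDegree with hN
  have key := eval₂_reflect_mul_pow (algebraMap A₀ K) (t⁻¹ : K) N g le_rfl
  rw [hinv] at key
  -- `z * t ^ N = aeval t (reflect N g)`
  have h1 : aeval t (f * X ^ N) = aeval t (reflect N g) := by
    have hz : z = eval₂ (algebraMap A₀ K) t⁻¹ g := by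
      rw [← hg]; rfl
    have hz' : z = aeval t f := by rw [← hf]; rfl
    rw [map_mul, map_pow, aeval_X, ← hz', hz, ← key, aeval_def, mul_assoc, ← mul_pow,
      inv_mul_cancel₀ ht0, one_pow, mul_one]
  have h2 : f * X ^ N = reflect N g := (transcendental_iff_injective.mp ht) h1
  by_cases hf0 : f = 0
  · refine ⟨0, ?_⟩
    rw [map_zero, ← show aeval t f = z from hf, hf0, map_zero]
  have hdeg : (f * X ^ N).natDegree = f.natDegree + N := by
    rw [natDegree_mul hf0 (pow_ne_zero _ X_ne_zero), natDegree_X_pow]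
  have hle : (reflect N g).natDegree ≤ N := by
    have := natDegree_reflect_le (N := N) (p := g)
    rwa [max_self] at this
  rw [← h2, hdeg] at hle
  have hf_deg : f.natDegree = 0 := by omega
  obtain ⟨a, ha⟩ := natDegree_eq_zero.mp hf_deg
  refine ⟨a, ?_⟩
  rw [← show aeval t f = z from hf, ← ha, aeval_C]

end Fermat.Agent.INJ
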