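import Mathlib
import Fermat.Agent.INJ.Zariski
import Fermat.Agent.INJ.ZariskiBdd
import Fermat.Agent.INJ.ZariskiConst

/-!
# INJ A6-concrete: Zariski connectedness for the three charts of a cover of the line

`zariski_connected_charts`: `A₀` a DVR with fraction field `E` (char 0), `L/E(t)` finite, `E`
algebraically closed in `L`; `C₁, C₂, C₁₂` the integral closures of `A₀[t]`, `A₀[t⁻¹]`,
`A₀[t, t⁻¹]` in `L`.  A pair of idempotents modulo `π` on the two charts that agree on the overlap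
is trivial.  This instantiates `zariski_connected` (Zariski.lean) using `zariski_bdd`
(ZariskiBdd.lean) and `adjoin_inter_adjoin_inv` (ZariskiConst.lean).
-/

set_option autoImplicit false
set_option linter.unusedSectionVars false
set_option linter.style.haveILetI false

namespace Fermat.Agent.INJ

open Polynomial IntermediateField

section Basic

variable {A₀ L : Type*} [CommRing A₀] [Field L] [Algebra A₀ L]

/-- Integrality over a subalgebra is monotone in the subalgebra. -/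
theorem zch_isIntegral_mono {S S' : Subalgebra A₀ L} (h : S ≤ S') {x : L}
    (hx : IsIntegral S x) : IsIntegral S' x := by
  obtain ⟨p, hp, hpx⟩ := hx
  refine ⟨p.map (Subalgebra.inclusion h).toRingHom, hp.map _, ?_⟩
  rw [eval₂_map]
  exact hpx

/-- Elements of `A₀[u, u']` (with `u u' = 1`) are moved into `A₀[u]` by large powers of `u`. -/
theorem zch_pow_mul_mem {u u' : L} (huu' : u * u' = 1) {c : L}
    (hc : c ∈ Algebra.adjoin A₀ {u, u'}) :
    ∃ s : ℕ, ∀ s', s ≤ s' → u ^ s' * c ∈ Algebra.adjoin A₀ {u} := by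
  have hu : u ∈ Algebra.adjoin A₀ {u} := Algebra.subset_adjoin (Set.mem_singleton u)
  induction hc using Algebra.adjoin_induction with
  | mem x hx =>
    rcases hx with rfl | rfl
    · exact ⟨0, fun s' _ => Subalgebra.mul_mem _ (Subalgebra.pow_mem _ hu _) hu⟩
    · refine ⟨1, fun s' hs' => ?_⟩
      obtain ⟨d, rfl⟩ := Nat.exists_eq_add_of_le hs'
      have : u ^ (1 + d) * x = u ^ d := by
        rw [pow_add, pow_one, mul_comm u (u ^ d), mul_assoc, huu', mul_one]
      rw [this]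
      exact Subalgebra.pow_mem _ hu _
  | algebraMap r =>
    exact ⟨0, fun s' _ => Subalgebra.mul_mem _ (Subalgebra.pow_mem _ hu _)
      (Subalgebra.algebraMap_mem _ r)⟩
  | add x y _ _ hx hy =>
    obtain ⟨s₁, h₁⟩ := hx
    obtain ⟨s₂, h₂⟩ := hy
    refine ⟨max s₁ s₂, fun s' hs' => ?_⟩
    rw [mul_add]
    exact Subalgebra.add_mem _ (h₁ s' (le_trans (le_max_left _ _) hs'))
      (h₂ s' (le_trans (le_max_right _ _) hs'))
  | mul x y _ _ hx hy =>
    obtain ⟨s₁, h₁⟩ := hx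
    obtain ⟨s₂, h₂⟩ := hy
    refine ⟨s₁ + s₂, fun s' hs' => ?_⟩
    obtain ⟨d, rfl⟩ := Nat.exists_eq_add_of_le hs'
    have : u ^ (s₁ + s₂ + d) * (x * y) = (u ^ (s₁ + d) * x) * (u ^ s₂ * y) := by
      rw [pow_add, pow_add, pow_add]; ring
    rw [this]
    exact Subalgebra.mul_mem _ (h₁ _ (Nat.le_add_right _ _)) (h₂ _ le_rfl)

/-- An element integral over `A₀[u, u⁻¹]` becomes integral over `A₀[u]` after multiplication
by a power of `u`. -/
theorem zch_exists_pow_mul_isIntegral {u u' : L} (huu' : u * u' = 1) {x : L}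
    (hx : IsIntegral (Algebra.adjoin A₀ {u, u'}) x) :
    ∃ s : ℕ, IsIntegral (Algebra.adjoin A₀ {u}) (u ^ s * x) := by
  classical
  obtain ⟨p, hp, hpx⟩ := hx
  set R₁ : Subalgebra A₀ L := Algebra.adjoin A₀ {u} with hR₁
  -- uniform exponent
  have hex : ∀ i : ℕ, ∃ s : ℕ, ∀ s', s ≤ s' → u ^ s' * ((p.coeff i : Algebra.adjoin A₀ {u, u'}) : L)
      ∈ R₁ := fun i => zch_pow_mul_mem huu' (p.coeff i).2
  choose s₀ hs₀ using hex
  set s : ℕ := ∑ i ∈ Finset.range (p.natDegree + 1), s₀ i with hs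
  have hsle : ∀ i, i ≤ p.natDegree → s₀ i ≤ s := fun i hi =>
    Finset.single_le_sum (f := s₀) (fun _ _ => Nat.zero_le _)
      (Finset.mem_range.mpr (Nat.lt_succ_of_le hi))
  -- the scaled polynomial over `L`
  set P : L[X] := p.map (algebraMap (Algebra.adjoin A₀ {u, u'}) L) with hP
  have hPm : P.Monic := hp.map _
  have hPdeg : P.natDegree = p.natDegree := hp.natDegree_map _
  set Q : L[X] := scaleRoots P (u ^ s) with hQ
  have hQm : Q.Monic := (monic_scaleRoots_iff _).mpr hPm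
  have hQx : eval (u ^ s * x) Q = 0 := by
    rw [hQ, scaleRoots_eval_mul, hP, eval_map, hpx, mul_zero]
  have hQlift : Q ∈ Polynomial.lifts (algebraMap R₁ L) := by
    rw [Polynomial.lifts_iff_coeff_lifts]
    intro i
    rw [hQ, coeff_scaleRoots, hPdeg]
    rcases lt_trichotomy i p.natDegree with hi | hi | hi
    · have h1 : (u ^ s) ^ (p.natDegree - i) = u ^ (s * (p.natDegree - i)) := by rw [← pow_mul]
      have h2 : s₀ i ≤ s * (p.natDegree - i) :=
        le_trans (hsle i hi.le) (Nat.le_mul_of_pos_right _ (Nat.sub_pos_of_lt hi))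
      have h3 := hs₀ i _ h2
      rw [hP, coeff_map, h1, mul_comm]
      exact ⟨⟨_, h3⟩, rfl⟩
    · rw [hi, Nat.sub_self, pow_zero, mul_one, ← hPdeg, hPm.coeff_natDegree]
      exact ⟨1, map_one _⟩
    · rw [coeff_eq_zero_of_natDegree_lt (by rw [hPdeg]; exact hi), zero_mul]
      exact ⟨0, map_zero _⟩
  obtain ⟨q, hq, -, hqm⟩ := Polynomial.lifts_and_natDegree_eq_and_monic hQlift hQm
  refine ⟨s, q, hqm, ?_⟩
  rw [← eval_map, hq]
  exact hQx

end Basic

section Chart

variable {A₀ E L : Type*} [CommRing A₀] [IsDomain A₀] [IsDiscreteValuationRing A₀]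
  [Field E] [Algebra A₀ E] [IsFractionRing A₀ E]
  [Field L] [Algebra E L] [Algebra A₀ L] [IsScalarTower A₀ E L]

theorem zch_transcendental {u : L} (hu : Transcendental E u) : Transcendental A₀ u :=
  hu.restrictScalars (IsFractionRing.injective A₀ E)

include E in
theorem zch_algebraMap_injective : Function.Injective (algebraMap A₀ L) := by
  rw [IsScalarTower.algebraMap_eq A₀ E L]
  exact (algebraMap E L).injective.comp (IsFractionRing.injective A₀ E)

theorem zch_aeval_integerNormalization (u : L) (r : E[X]) :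
    ∃ b : A₀, b ≠ 0 ∧ ∃ r' : A₀[X], aeval u r' = algebraMap A₀ L b * aeval u r := by
  obtain ⟨b, hb, hr⟩ := IsLocalization.integerNormalization_spec (nonZeroDivisors A₀) r
  refine ⟨b, nonZeroDivisors.ne_zero hb, IsLocalization.integerNormalization (nonZeroDivisors A₀) r, ?_⟩
  have hsm : b • r = C (algebraMap A₀ E b) * r := by
    rw [Algebra.smul_def]; rfl
  rw [← aeval_map_algebraMap E u, hr, hsm, map_mul, aeval_C,
    ← IsScalarTower.algebraMap_apply A₀ E L]

/-- Every element of `E(u)` is a quotient of two polynomials in `u` with coefficients in `A₀`. -/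
theorem zch_exists_div (u : L) {z : L} (hz : z ∈ E⟮u⟯) :
    ∃ x y : A₀[X], z = aeval u x / aeval u y := by
  obtain ⟨r, s, rfl⟩ := (mem_adjoin_simple_iff E z).mp hz
  obtain ⟨br, hbr, r', hr'⟩ := zch_aeval_integerNormalization (A₀ := A₀) u r
  obtain ⟨bs, hbs, s', hs'⟩ := zch_aeval_integerNormalization (A₀ := A₀) u s
  have hinj := zch_algebraMap_injective (A₀ := A₀) (E := E) (L := L)
  have hbr' : algebraMap A₀ L br ≠ 0 := (map_ne_zero_iff _ hinj).mpr hbr
  have hbs' : algebraMap A₀ L bs ≠ 0 := (map_ne_zero_iff _ hinj).mpr hbs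
  refine ⟨C bs * r', C br * s', ?_⟩
  rw [map_mul, map_mul, aeval_C, aeval_C, hr', hs']
  rw [show algebraMap A₀ L bs * (algebraMap A₀ L br * aeval u r)
      = (algebraMap A₀ L bs * algebraMap A₀ L br) * aeval u r by ring,
    show algebraMap A₀ L br * (algebraMap A₀ L bs * aeval u s)
      = (algebraMap A₀ L bs * algebraMap A₀ L br) * aeval u s by ring,
    mul_div_mul_left _ _ (mul_ne_zero hbs' hbr')]

/-- Integrality over `A₀[u] ⊆ L` in terms of the polynomial ring. -/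
theorem zch_isIntegral_iff (u : L) (x : L) :
    IsIntegral (Algebra.adjoin A₀ {u}) x ↔
      (aeval u : A₀[X] →ₐ[A₀] L).toRingHom.IsIntegralElem x := by
  have hrange : ∀ y : Algebra.adjoin A₀ {u}, ∃ f : A₀[X], aeval u f = (y : L) := by
    intro y
    have h : (y : L) ∈ (aeval u : A₀[X] →ₐ[A₀] L).range := by
      rw [← Algebra.adjoin_singleton_eq_range_aeval]
      exact y.2
    exact h
  constructor
  · rintro ⟨p, hp, hpx⟩
    -- lift the coefficients
    set P : L[X] := p.map (algebraMap (Algebra.adjoin A₀ {u}) L) with hP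
    have hPm : P.Monic := hp.map _
    have hlift : P ∈ Polynomial.lifts (aeval u : A₀[X] →ₐ[A₀] L).toRingHom := by
      rw [Polynomial.lifts_iff_coeff_lifts]
      intro i
      rw [hP, coeff_map]
      obtain ⟨f, hf⟩ := hrange (p.coeff i)
      exact ⟨f, hf⟩
    obtain ⟨q, hq, -, hqm⟩ := Polynomial.lifts_and_natDegree_eq_and_monic hlift hPm
    refine ⟨q, hqm, ?_⟩
    rw [← eval_map, hq, hP, eval_map]
    exact hpx
  · rintro ⟨q, hqm, hqx⟩
    let ψ : A₀[X] →+* Algebra.adjoin A₀ {u} :=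
      ((aeval u : A₀[X] →ₐ[A₀] L).codRestrict (Algebra.adjoin A₀ {u}) (fun f => by
        rw [Algebra.adjoin_singleton_eq_range_aeval]; exact ⟨f, rfl⟩)).toRingHom
    refine ⟨q.map ψ, hqm.map _, ?_⟩
    rw [eval₂_map]
    exact hqx


/-- Coefficients of the minimal polynomial over `E(u)` of an element integral over `A₀[u]`. -/
theorem zch_minpoly_coeff_mem {u : L} (hu : Transcendental E u) {z : L}
    (hz : IsIntegral (Algebra.adjoin A₀ {u}) z) (K : IntermediateField E L) (hK : K = E⟮u⟯)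
    (i : ℕ) :
    (((minpoly K z).coeff i : K) : L) ∈ Algebra.adjoin A₀ {u} := by
  subst hK
  have huA : Transcendental A₀ u := zch_transcendental hu
  set gen : E⟮u⟯ := AdjoinSimple.gen E u with hgen
  haveI : IsScalarTower A₀ E⟮u⟯ L := IsScalarTower.of_algebraMap_eq (fun _ => rfl)
  letI algK : Algebra A₀[X] E⟮u⟯ := (aeval gen : A₀[X] →ₐ[A₀] E⟮u⟯).toRingHom.toAlgebra
  letI algL : Algebra A₀[X] L := (aeval u : A₀[X] →ₐ[A₀] L).toRingHom.toAlgebra
  have hKL : ∀ f : A₀[X], ((aeval gen f : E⟮u⟯) : L) = aeval u f := by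
    intro f
    have := aeval_algHom_apply (IsScalarTower.toAlgHom A₀ E⟮u⟯ L) gen f
    exact this.symm
  haveI : IsScalarTower A₀[X] E⟮u⟯ L := IsScalarTower.of_algebraMap_eq (fun f => (hKL f).symm)
  have hinjL : Function.Injective (aeval u : A₀[X] →ₐ[A₀] L) :=
    transcendental_iff_injective.mp huA
  have hinjK : Function.Injective (algebraMap A₀[X] E⟮u⟯) := by
    intro f g hfg
    apply hinjL
    rw [← hKL f, ← hKL g]
    exact congrArg _ hfg
  haveI : FaithfulSMul A₀[X] E⟮u⟯ := (faithfulSMul_iff_algebraMap_injective _ _).mpr hinjK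
  haveI : IsFractionRing A₀[X] E⟮u⟯ := IsFractionRing.of_field A₀[X] E⟮u⟯ (fun z => by
    obtain ⟨x, y, hxy⟩ := zch_exists_div (A₀ := A₀) u z.2
    refine ⟨x, y, Subtype.ext ?_⟩
    rw [hxy]
    show _ = ((aeval gen x / aeval gen y : E⟮u⟯) : L)
    rw [IntermediateField.coe_div, hKL, hKL])
  have hzi : IsIntegral A₀[X] z := (zch_isIntegral_iff u z).mp hz
  have h := minpoly.isIntegrallyClosed_eq_field_fractions' E⟮u⟯ hzi
  rw [h, coeff_map]
  show ((aeval gen _ : E⟮u⟯) : L) ∈ _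
  rw [hKL, Algebra.adjoin_singleton_eq_range_aeval]
  exact ⟨_, rfl⟩


/-- `E(t) = E(t⁻¹)`. -/
theorem zch_adjoin_inv (t : L) : E⟮t⟯ = E⟮t⁻¹⟯ := by
  apply le_antisymm
  · rw [adjoin_simple_le_iff]
    have h : t⁻¹ ∈ E⟮t⁻¹⟯ := mem_adjoin_simple_self E _
    simpa using inv_mem h
  · rw [adjoin_simple_le_iff]
    exact inv_mem (mem_adjoin_simple_self E t)

/-- `t⁻¹` is transcendental if `t` is. -/
theorem zch_transcendental_inv {t : L} (ht : Transcendental E t) : Transcendental E t⁻¹ := by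
  intro h
  apply ht
  have := h.inv
  simpa using this

/-- Constants: an element integral over `A₀[t]` and over `A₀[t⁻¹]` lies in `A₀`. -/
theorem zch_const {t : L} (ht : Transcendental E t) [FiniteDimensional E⟮t⟯ L]
    (hcl : ∀ x : L, IsAlgebraic E x → x ∈ (algebraMap E L).range) {z : L}
    (h₁ : IsIntegral (Algebra.adjoin A₀ {t}) z) (h₂ : IsIntegral (Algebra.adjoin A₀ {t⁻¹}) z) :
    ∃ a : A₀, algebraMap A₀ L a = z := by
  have hinj := zch_algebraMap_injective (A₀ := A₀) (E := E) (L := L)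
  have hzK : IsIntegral E⟮t⟯ z := IsIntegral.of_finite E⟮t⟯ z
  -- all coefficients of the minimal polynomial over `E(t)` lie in `A₀`
  have hcoeff : ∀ i, ∃ a : A₀, algebraMap A₀ L a = (((minpoly E⟮t⟯ z).coeff i : E⟮t⟯) : L) := by
    intro i
    exact adjoin_inter_adjoin_inv hinj (zch_transcendental ht) _
      (zch_minpoly_coeff_mem ht h₁ E⟮t⟯ rfl i)
      (zch_minpoly_coeff_mem (zch_transcendental_inv ht) h₂ E⟮t⟯ (zch_adjoin_inv t) i)
  set P : L[X] := (minpoly E⟮t⟯ z).map (algebraMap E⟮t⟯ L) with hP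
  have hPm : P.Monic := (minpoly.monic hzK).map _
  have hlift : P ∈ Polynomial.lifts (algebraMap A₀ L) := by
    rw [Polynomial.lifts_iff_coeff_lifts]
    intro i
    rw [hP, coeff_map]
    obtain ⟨a, ha⟩ := hcoeff i
    exact ⟨a, ha⟩
  obtain ⟨q, hq, -, hqm⟩ := Polynomial.lifts_and_natDegree_eq_and_monic hlift hPm
  have hzA : IsIntegral A₀ z := by
    refine ⟨q, hqm, ?_⟩
    rw [← eval_map, hq, hP, eval_map, ← aeval_def, minpoly.aeval]
  have hzE : IsAlgebraic E z := (hzA.tower_top (A := E)).isAlgebraic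
  obtain ⟨e, rfl⟩ := hcl z hzE
  have heA : IsIntegral A₀ e :=
    (isIntegral_algebraMap_iff (algebraMap E L).injective).mp hzA
  obtain ⟨a, rfl⟩ := IsIntegrallyClosed.isIntegral_iff.mp heA
  exact ⟨a, (IsScalarTower.algebraMap_apply A₀ E L a)⟩

/-- Finiteness: the integral closure of `A₀[t]` in `L` is generated, as a module over the
polynomials in `t`, by finitely many elements. -/
theorem zch_finite [CharZero E] {t : L} (ht : Transcendental E t) [FiniteDimensional E⟮t⟯ L] :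
    ∃ (m : ℕ) (g : Fin m → L), (∀ i, IsIntegral (Algebra.adjoin A₀ {t}) (g i)) ∧
      ∀ x : L, IsIntegral (Algebra.adjoin A₀ {t}) x →
        ∃ f : Fin m → A₀[X], x = ∑ i, aeval t (f i) * g i := by
  have huA : Transcendental A₀ t := zch_transcendental ht
  set gen : E⟮t⟯ := AdjoinSimple.gen E t with hgen
  haveI : IsScalarTower A₀ E⟮t⟯ L := IsScalarTower.of_algebraMap_eq (fun _ => rfl)
  letI algK : Algebra A₀[X] E⟮t⟯ := (aeval gen : A₀[X] →ₐ[A₀] E⟮t⟯).toRingHom.toAlgebra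
  letI algL : Algebra A₀[X] L := (aeval t : A₀[X] →ₐ[A₀] L).toRingHom.toAlgebra
  have hKL : ∀ f : A₀[X], ((aeval gen f : E⟮t⟯) : L) = aeval t f := by
    intro f
    have := aeval_algHom_apply (IsScalarTower.toAlgHom A₀ E⟮t⟯ L) gen f
    exact this.symm
  haveI : IsScalarTower A₀[X] E⟮t⟯ L := IsScalarTower.of_algebraMap_eq (fun f => (hKL f).symm)
  have hinjL : Function.Injective (aeval t : A₀[X] →ₐ[A₀] L) :=
    transcendental_iff_injective.mp huA
  have hinjK : Function.Injective (algebraMap A₀[X] E⟮t⟯) := by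
    intro f g hfg
    apply hinjL
    rw [← hKL f, ← hKL g]
    exact congrArg _ hfg
  haveI : FaithfulSMul A₀[X] E⟮t⟯ := (faithfulSMul_iff_algebraMap_injective _ _).mpr hinjK
  haveI : IsFractionRing A₀[X] E⟮t⟯ := IsFractionRing.of_field A₀[X] E⟮t⟯ (fun z => by
    obtain ⟨x, y, hxy⟩ := zch_exists_div (A₀ := A₀) t z.2
    refine ⟨x, y, Subtype.ext ?_⟩
    rw [hxy]
    show _ = ((aeval gen x / aeval gen y : E⟮t⟯) : L)
    rw [IntermediateField.coe_div, hKL, hKL])
  haveI : Module.Finite A₀[X] (integralClosure A₀[X] L) :=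
    IsIntegralClosure.finite A₀[X] E⟮t⟯ L (integralClosure A₀[X] L)
  obtain ⟨m, s, hs⟩ := Module.Finite.exists_fin (R := A₀[X]) (M := integralClosure A₀[X] L)
  refine ⟨m, fun i => (s i : L), fun i => (zch_isIntegral_iff t _).mpr (s i).2, fun x hx => ?_⟩
  have hx' : IsIntegral A₀[X] x := (zch_isIntegral_iff t x).mp hx
  have hmem : (⟨x, hx'⟩ : integralClosure A₀[X] L) ∈ Submodule.span A₀[X] (Set.range s) := by
    rw [hs]; exact Submodule.mem_top
  obtain ⟨c, hc⟩ := (Submodule.mem_span_range_iff_exists_fun A₀[X]).mp hmem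
  refine ⟨c, ?_⟩
  have := congrArg (fun y : integralClosure A₀[X] L => (y : L)) hc
  simp only [AddSubmonoidClass.coe_finsetSum] at this
  rw [← this]
  refine Finset.sum_congr rfl fun i _ => ?_
  rfl

end Chart

section Main

variable {A₀ E L : Type*} [CommRing A₀] [IsDomain A₀] [IsDiscreteValuationRing A₀]
  [Field E] [Algebra A₀ E] [IsFractionRing A₀ E] [CharZero E]
  [Field L] [Algebra E L] [Algebra A₀ L] [IsScalarTower A₀ E L]

/-- The integral closure of `A₀[S]` in `L`, as an `A₀`-subalgebra. -/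
def zchClosure (S : Set L) : Subalgebra A₀ L :=
  (integralClosure (Algebra.adjoin A₀ S) L).restrictScalars A₀

theorem mem_zchClosure {S : Set L} {x : L} :
    x ∈ zchClosure (A₀ := A₀) S ↔ IsIntegral (Algebra.adjoin A₀ S) x := Iff.rfl

/-- **A6-concrete.** Zariski connectedness for the charts `A₀[t]`, `A₀[t⁻¹]`, `A₀[t, t⁻¹]`. -/
theorem zariski_connected_charts
    {π : A₀} (hπ : Irreducible π)
    {t : L} (ht : Transcendental E t)
    [FiniteDimensional (IntermediateField.adjoin E {t}) L]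
    (hcl : ∀ x : L, IsAlgebraic E x → x ∈ (algebraMap E L).range)
    {e₁ e₂ : L}
    (he₁ : IsIntegral (Algebra.adjoin A₀ {t}) e₁) (he₂ : IsIntegral (Algebra.adjoin A₀ {t⁻¹}) e₂)
    (hid₁ : ∃ c₁ : L, IsIntegral (Algebra.adjoin A₀ {t}) c₁ ∧
      e₁ * e₁ - e₁ = algebraMap A₀ L π * c₁)
    (hid₂ : ∃ c₂ : L, IsIntegral (Algebra.adjoin A₀ {t⁻¹}) c₂ ∧
      e₂ * e₂ - e₂ = algebraMap A₀ L π * c₂)
    (hcomp : ∃ c : L, IsIntegral (Algebra.adjoin A₀ {t, t⁻¹}) c ∧
      e₁ - e₂ = algebraMap A₀ L π * c) :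
    (∃ y₁ : L, IsIntegral (Algebra.adjoin A₀ {t}) y₁ ∧ e₁ = algebraMap A₀ L π * y₁) ∨
    (∃ y₁ : L, IsIntegral (Algebra.adjoin A₀ {t}) y₁ ∧ e₁ - 1 = algebraMap A₀ L π * y₁) := by
  have hinj := zch_algebraMap_injective (A₀ := A₀) (E := E) (L := L)
  have ht0 : t ≠ 0 := by
    rintro rfl
    exact ht isAlgebraic_zero
  have htt' : t * t⁻¹ = 1 := mul_inv_cancel₀ ht0
  have ht't : t⁻¹ * t = 1 := inv_mul_cancel₀ ht0
  have hπ0 : algebraMap A₀ L π ≠ 0 := (map_ne_zero_iff _ hinj).mpr hπ.ne_zero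
  have hreg : ∀ x : L, algebraMap A₀ L π * x = 0 → x = 0 := fun x hx =>
    (mul_eq_zero.mp hx).resolve_left hπ0
  have hsub₁ : Algebra.adjoin A₀ ({t} : Set L) ≤ Algebra.adjoin A₀ {t, t⁻¹} :=
    Algebra.adjoin_mono (by intro x hx; exact Or.inl hx)
  have hsub₂ : Algebra.adjoin A₀ ({t⁻¹} : Set L) ≤ Algebra.adjoin A₀ {t, t⁻¹} :=
    Algebra.adjoin_mono (by intro x hx; exact Or.inr hx)
  have hpair : ({t⁻¹, t} : Set L) = {t, t⁻¹} := Set.pair_comm _ _
  -- the finiteness data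
  obtain ⟨m, g, hg, hfin⟩ := zch_finite (A₀ := A₀) ht
  -- bounded torsion
  have hbdd := zariski_bdd hπ (zchClosure (A₀ := A₀) {t}) (zchClosure (A₀ := A₀) {t⁻¹})
    (zchClosure (A₀ := A₀) {t, t⁻¹}) htt'
    (show t ∈ zchClosure (A₀ := A₀) {t} from
      mem_zchClosure.mpr (isIntegral_algebraMap (R := Algebra.adjoin A₀ ({t} : Set L))
        (x := ⟨t, Algebra.subset_adjoin (Set.mem_singleton t)⟩)))
    (show t⁻¹ ∈ zchClosure (A₀ := A₀) {t⁻¹} from
      mem_zchClosure.mpr (isIntegral_algebraMap (R := Algebra.adjoin A₀ ({t⁻¹} : Set L))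
        (x := ⟨t⁻¹, Algebra.subset_adjoin (Set.mem_singleton _)⟩)))
    g hg (fun x hx => hfin x hx)
    (fun b hb => zch_exists_pow_mul_isIntegral htt' hb)
    (fun i => by
      have h := zch_isIntegral_mono hsub₁ (hg i)
      rw [← hpair] at h
      have := zch_exists_pow_mul_isIntegral (A₀ := A₀) ht't h
      exact this)
  obtain ⟨c₁, hc₁, hid₁⟩ := hid₁
  obtain ⟨c₂, hc₂, hid₂⟩ := hid₂
  obtain ⟨c, hc, hcomp⟩ := hcomp
  rcases zariski_connected hπ hreg (zchClosure (A₀ := A₀) {t}) (zchClosure (A₀ := A₀) {t⁻¹})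
    (zchClosure (A₀ := A₀) {t, t⁻¹})
    (fun x hx => zch_isIntegral_mono hsub₁ hx) (fun x hx => zch_isIntegral_mono hsub₂ hx)
    (fun z hz₁ hz₂ => zch_const ht hcl hz₁ hz₂) hbdd he₁ he₂
    ⟨c₁, hc₁, hid₁⟩ ⟨c₂, hc₂, hid₂⟩ ⟨c, hc, hcomp⟩ with
    ⟨y₁, hy₁, -, -, h1, -⟩ | ⟨y₁, hy₁, -, -, h1, -⟩
  · exact Or.inl ⟨y₁, hy₁, h1⟩
  · exact Or.inr ⟨y₁, hy₁, h1⟩

end Main

end Fermat.Agent.INJ
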