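import Mathlib
import Fermat.Agent.INJ.ChartBasics
import Fermat.Agent.INJ.ChartGoodBasis
import Fermat.Agent.INJ.ZariskiCharts

/-!
# (INJ) glue piece T1, items (3) and (6): finiteness of the integral closure of the chart ring

Setting as in `ChartBasics.lean`: `A₀` a DVR with fraction field `E` (char 0), `Lf ⊇ E` a field,
`τ : Lf` transcendental over `E`, `R := Algebra.adjoin A₀ {τ}`, `C := integralClosure R Lf`,
`[FiniteDimensional E⟮τ⟯ Lf]`.

* (3) `chart_finite : Module.Finite R C`, `chart_closure_isNoetherianRing : IsNoetherianRing C`,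
      `chart_closure_isNoetherian : IsNoetherian R C`.
* (6) `chart_exists_pow_mul_integral` : `x` integral over `A₀[τ, τ⁻¹]` ⇒ `τ ^ k * x` integral
      over `A₀[τ]` for some `k` (wrapper around helper99's `zch_exists_pow_mul_isIntegral`).
-/

set_option autoImplicit false
set_option linter.style.haveILetI false
set_option linter.unusedSectionVars false

namespace Fermat.Agent.INJ

open Polynomial IntermediateField

section ChartFinite

universe u

variable {A₀ E Lf : Type u} [CommRing A₀] [IsDomain A₀] [IsDiscreteValuationRing A₀]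
  [Field E] [Algebra A₀ E] [IsFractionRing A₀ E] [CharZero E]
  [Field Lf] [Algebra E Lf] [Algebra A₀ Lf] [IsScalarTower A₀ E Lf]
  {τ : Lf}

/-- (3) the integral closure of `A₀[τ]` in `Lf` is a finite `A₀[τ]`-module. -/
theorem chart_finite (hτ : Transcendental E τ) [FiniteDimensional E⟮τ⟯ Lf] :
    Module.Finite ↥(Algebra.adjoin A₀ {τ}) ↥(integralClosure ↥(Algebra.adjoin A₀ {τ}) Lf) := by
  letI : Algebra ↥(Algebra.adjoin A₀ {τ}) E⟮τ⟯ := (ChartGB.chartIncl (A₀ := A₀) (E := E) τ).toAlgebra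
  haveI : IsScalarTower ↥(Algebra.adjoin A₀ {τ}) E⟮τ⟯ Lf :=
    IsScalarTower.of_algebraMap_eq (fun _ => rfl)
  haveI := ChartGB.isFractionRing_adjoinSimple (A₀ := A₀) (E := E) τ
  haveI := chart_isIntegrallyClosed (A₀ := A₀) (E := E) hτ
  haveI := chart_isNoetherianRing (A₀ := A₀) (E := E) hτ
  haveI : CharZero E⟮τ⟯ := charZero_of_injective_algebraMap (algebraMap E E⟮τ⟯).injective
  haveI : Algebra.IsSeparable E⟮τ⟯ Lf := inferInstance
  exact IsIntegralClosure.finite ↥(Algebra.adjoin A₀ {τ}) E⟮τ⟯ Lf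
    ↥(integralClosure ↥(Algebra.adjoin A₀ {τ}) Lf)

/-- (3) the integral closure of `A₀[τ]` in `Lf` is a noetherian `A₀[τ]`-module. -/
theorem chart_closure_isNoetherian (hτ : Transcendental E τ) [FiniteDimensional E⟮τ⟯ Lf] :
    IsNoetherian ↥(Algebra.adjoin A₀ {τ}) ↥(integralClosure ↥(Algebra.adjoin A₀ {τ}) Lf) := by
  haveI := chart_isNoetherianRing (A₀ := A₀) (E := E) hτ
  haveI := chart_finite (A₀ := A₀) (E := E) hτ
  exact isNoetherian_of_isNoetherianRing_of_finite _ _

/-- (3) the integral closure of `A₀[τ]` in `Lf` is a noetherian ring. -/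
theorem chart_closure_isNoetherianRing (hτ : Transcendental E τ) [FiniteDimensional E⟮τ⟯ Lf] :
    IsNoetherianRing ↥(integralClosure ↥(Algebra.adjoin A₀ {τ}) Lf) := by
  haveI := chart_isNoetherianRing (A₀ := A₀) (E := E) hτ
  haveI := chart_finite (A₀ := A₀) (E := E) hτ
  exact IsNoetherianRing.of_finite ↥(Algebra.adjoin A₀ {τ}) _

/-- (6) an element integral over `A₀[τ, τ⁻¹]` becomes integral over `A₀[τ]` after multiplication
by a power of `τ`.  (No hypothesis on `τ` is needed.) -/
theorem chart_exists_pow_mul_integral (τ : Lf) (x : Lf)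
    (hx : IsIntegral ↥(Algebra.adjoin A₀ {τ, τ⁻¹}) x) :
    ∃ k : ℕ, IsIntegral ↥(Algebra.adjoin A₀ {τ}) (τ ^ k * x) := by
  by_cases h0 : τ = 0
  · subst h0
    refine ⟨0, ?_⟩
    rw [pow_zero, one_mul]
    have hS : ({0, (0 : Lf)⁻¹} : Set Lf) = {0} := by simp
    rw [hS] at hx
    exact hx
  · exact zch_exists_pow_mul_isIntegral (mul_inv_cancel₀ h0) hx

end ChartFinite

end Fermat.Agent.INJ
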