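/-
INJ / Part A, glue piece for A5/T6 (helper29): the chart at infinity.

`tsGoodBasis_inv` : hypothesis `(a)` (`TSGoodBasis`, `INJ/TSStmt.lean`) for the coordinate `t`
implies hypothesis `(a)` for the coordinate `t⁻¹`: basis `b' = t⁻ᵏ • b` (`k` large), discriminant
`d' = reflect (k * (2 n)) d`, using `E⟮t⟯ = E⟮t⁻¹⟯` (`zch_adjoin_inv`).

Tools: `discr_smul`, `aeval_inv_reflect`, `not_C_dvd_reflect`, `exists_pow_inv_mul_isIntegral`.
-/
import Mathlib
import Fermat.Agent.INJ.TSStmt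
import Fermat.Agent.INJ.ZariskiCharts

set_option autoImplicit false
set_option linter.unusedSectionVars false
set_option linter.style.haveILetI false
set_option linter.unusedVariables false

open Polynomial Module IntermediateField

namespace Fermat.Agent.INJ.ChartInv

section Discr

variable {K L : Type*} [Field K] [Field L] [Algebra K L]

/-- discriminant of a scalar multiple of a family -/
theorem discr_smul {n : ℕ} (c : K) (b : Fin n → L) :
    Algebra.discr K (fun i => c • b i) = c ^ (2 * n) * Algebra.discr K b := by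
  have h : Algebra.traceMatrix K (fun i => c • b i) = (c ^ 2) • Algebra.traceMatrix K b := by
    ext i j
    rw [Matrix.smul_apply, Algebra.traceMatrix_apply, Algebra.traceMatrix_apply,
      Algebra.traceForm_apply, Algebra.traceForm_apply, smul_mul_smul_comm, map_smul, smul_eq_mul,
      smul_eq_mul, pow_two]
  rw [Algebra.discr_def, h, Matrix.det_smul, Fintype.card_fin, ← pow_mul, Algebra.discr_def]

end Discr

section Reflect

variable {A L : Type*} [CommRing A] [Field L] [Algebra A L]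

theorem aeval_inv_reflect {t : L} (ht : t ≠ 0) (N : ℕ) (d : A[X]) (hd : d.natDegree ≤ N) :
    aeval t⁻¹ (reflect N d) = (t⁻¹) ^ N * aeval t d := by
  letI := invertibleOfNonzero ht
  have h := eval₂_reflect_mul_pow (algebraMap A L) t N d hd
  rw [invOf_eq_inv] at h
  rw [aeval_def, aeval_def, ← h, inv_pow, mul_comm, mul_assoc, mul_inv_cancel₀ (pow_ne_zero N ht),
    mul_one]

theorem not_C_dvd_reflect {π : A} {d : A[X]} (N : ℕ) (h : ¬ C π ∣ d) : ¬ C π ∣ reflect N d := by
  rintro ⟨g, hg⟩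
  apply h
  refine ⟨reflect N g, ?_⟩
  have := congrArg (reflect N) hg
  rw [reflect_reflect, reflect_C_mul] at this
  exact this

end Reflect

section Main

universe u

variable {A₀ E Lf : Type u} [CommRing A₀] [IsDomain A₀] [IsDiscreteValuationRing A₀]
  [Field E] [Algebra A₀ E] [IsFractionRing A₀ E]
  [Field Lf] [Algebra E Lf] [Algebra A₀ Lf] [IsScalarTower A₀ E Lf]

/-- integrality over `A₀[t⁻¹]` after multiplication by a large power of `t⁻¹`, uniformly -/
theorem exists_pow_inv_mul_isIntegral {t : Lf} (ht0 : t ≠ 0) {x : Lf}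
    (hx : IsIntegral (Algebra.adjoin A₀ {t}) x) :
    ∃ s : ℕ, ∀ s', s ≤ s' → IsIntegral (Algebra.adjoin A₀ {t⁻¹}) ((t⁻¹) ^ s' * x) := by
  have hle : Algebra.adjoin A₀ {t} ≤ Algebra.adjoin A₀ {t⁻¹, t} :=
    Algebra.adjoin_mono (by intro y hy; right; exact hy)
  obtain ⟨s, hs⟩ := zch_exists_pow_mul_isIntegral (A₀ := A₀) (u := t⁻¹) (u' := t)
    (inv_mul_cancel₀ ht0) (zch_isIntegral_mono hle hx)
  refine ⟨s, fun s' hs' => ?_⟩
  obtain ⟨e, rfl⟩ := Nat.exists_eq_add_of_le hs'
  have h1 : (t⁻¹) ^ (s + e) * x = (t⁻¹) ^ e * ((t⁻¹) ^ s * x) := by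
    rw [pow_add]; ring
  rw [h1]
  have hmem : (t⁻¹) ^ e ∈ Algebra.adjoin A₀ {t⁻¹} :=
    Subalgebra.pow_mem _ (Algebra.subset_adjoin (Set.mem_singleton _)) _
  have h2 : IsIntegral (Algebra.adjoin A₀ {t⁻¹}) ((t⁻¹) ^ e) := by
    have := isIntegral_algebraMap (R := Algebra.adjoin A₀ {t⁻¹}) (A := Lf) (x := ⟨_, hmem⟩)
    exact this
  exact h2.mul hs

/-- **Chart at infinity**: hypothesis `(a)` for the coordinate `t` implies hypothesis `(a)` for
the coordinate `t⁻¹` (basis `t⁻ᵏ • b`, discriminant `reflect (2kn) d`). -/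
theorem tsGoodBasis_inv {π : A₀} (hπ : Irreducible π) {t : Lf} (ht : Transcendental E t)
    [FiniteDimensional E⟮t⟯ Lf] (h : TSGoodBasis (E := E) π t) :
    TSGoodBasis (E := E) π t⁻¹ := by
  classical
  obtain ⟨n, b, d, hli, hsp, hint, hd, hdisc⟩ := h
  have ht0 : t ≠ 0 := by
    rintro rfl
    exact ht (isAlgebraic_zero)
  -- `n ≥ 1`
  have hn : 1 ≤ n := by
    by_contra hn0
    have hn0' : n = 0 := by omega
    subst hn0'
    have hr : Set.range b = ∅ := Set.range_eq_empty b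
    rw [hr, Submodule.span_empty] at hsp
    have h1 : (1 : Lf) ∈ (⊥ : Submodule E⟮t⟯ Lf) := by rw [hsp]; trivial
    exact one_ne_zero ((Submodule.mem_bot _).1 h1)
  -- the uniform exponent
  choose s₀ hs₀ using fun i => exists_pow_inv_mul_isIntegral (A₀ := A₀) ht0 (hint i)
  set k : ℕ := d.natDegree + ∑ i, s₀ i with hk
  have hks : ∀ i, s₀ i ≤ k := fun i =>
    le_trans (Finset.single_le_sum (f := s₀) (fun _ _ => Nat.zero_le _) (Finset.mem_univ i))
      (Nat.le_add_left _ _)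
  have hkd : d.natDegree ≤ k * (2 * n) := by
    have : k ≤ k * (2 * n) := Nat.le_mul_of_pos_right _ (by omega)
    exact le_trans (Nat.le_add_right _ _) this
  -- the scalar `c = t⁻ᵏ ∈ E(t)`
  have htK : t⁻¹ ∈ E⟮t⟯ := inv_mem (mem_adjoin_simple_self E t)
  set cK : E⟮t⟯ := (⟨t⁻¹, htK⟩ : E⟮t⟯) ^ k with hcK
  have hcK0 : cK ≠ 0 := by
    apply pow_ne_zero
    intro h0
    have := congrArg (fun z : E⟮t⟯ => (z : Lf)) h0
    exact inv_ne_zero ht0 this
  have hcKL : (cK : Lf) = (t⁻¹) ^ k := by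
    rw [hcK]; rfl
  set b' : Fin n → Lf := fun i => cK • b i with hb'
  have hb'L : ∀ i, b' i = (t⁻¹) ^ k * b i := fun i => by
    rw [hb', ← hcKL]; rfl
  -- statement over `E(t)`
  have hli' : LinearIndependent E⟮t⟯ b' := by
    have := hli.units_smul (fun _ => Units.mk0 cK hcK0)
    exact this
  have hsp' : Submodule.span E⟮t⟯ (Set.range b') = ⊤ := by
    rw [eq_top_iff, ← hsp, Submodule.span_le]
    rintro _ ⟨i, rfl⟩
    have : b i = cK⁻¹ • b' i := by
      rw [hb', smul_smul, inv_mul_cancel₀ hcK0, one_smul]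
    rw [this]
    exact Submodule.smul_mem _ _ (Submodule.subset_span ⟨i, rfl⟩)
  have hdisc' : algebraMap E⟮t⟯ Lf (Algebra.discr E⟮t⟯ b') = aeval t⁻¹ (reflect (k * (2 * n)) d) := by
    rw [hb', discr_smul, map_mul, hdisc, aeval_inv_reflect ht0 _ d hkd, map_pow]
    congr 1
    show (cK : Lf) ^ (2 * n) = _
    rw [hcKL, ← pow_mul]
  -- transport to `E(t⁻¹)`
  have key : ∀ K : IntermediateField E Lf, K = E⟮t⟯ →
      LinearIndependent K b' ∧ Submodule.span K (Set.range b') = ⊤ ∧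
        algebraMap K Lf (Algebra.discr K b') = aeval t⁻¹ (reflect (k * (2 * n)) d) := by
    rintro K rfl
    exact ⟨hli', hsp', hdisc'⟩
  obtain ⟨h1, h2, h3⟩ := key E⟮t⁻¹⟯ (zch_adjoin_inv t).symm
  refine ⟨n, b', reflect (k * (2 * n)) d, h1, h2, fun i => ?_, not_C_dvd_reflect _ hd, h3⟩
  rw [hb'L]
  exact hs₀ i k (hks i)

end Main

end Fermat.Agent.INJ.ChartInv
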