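import Fermat.Agent.INJ.DiscPresentation

/-!
# (INJ) piece A3, part 3: existence of a presentation (Nakayama)

`R` a domain, `π` a prime element with `R ⧸ π` a PID, `C` a finite `R`-algebra on which `π` is
regular and such that `C / π C` is torsion-free over `R ⧸ π`.  Then there are `b : Fin r → C`,
`R`-linearly independent, and `s ≡ 1 mod π` with `s • C ⊆ ⊕ R b i`.
-/

set_option autoImplicit false
set_option linter.style.haveILetI false
set_option linter.unusedSectionVars false

namespace Fermat.Agent.INJ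

open Module TensorProduct

section

variable {R : Type*} {C : Type*} [CommRing R] [CommRing C] [Algebra R C]

/-- every element of `(R ⧸ I) ⊗ C` is of the form `1 ⊗ x` -/
theorem exists_one_tmul (I : Ideal R) (z : (R ⧸ I) ⊗[R] C) : ∃ x : C, z = (1 : R ⧸ I) ⊗ₜ[R] x := by
  induction z using TensorProduct.induction_on with
  | zero => exact ⟨0, by simp⟩
  | tmul a x =>
    obtain ⟨a, rfl⟩ := Ideal.Quotient.mk_surjective a
    refine ⟨a • x, ?_⟩
    rw [TensorProduct.tmul_smul, TensorProduct.smul_tmul']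
    congr 1
    rw [Algebra.smul_def, mul_one]; rfl
  | add z w hz hw =>
    obtain ⟨x, rfl⟩ := hz
    obtain ⟨y, rfl⟩ := hw
    exact ⟨x + y, by rw [TensorProduct.tmul_add]⟩

theorem one_tmul_eq_zero_iff_mem (I : Ideal R) (x : C) :
    (1 : R ⧸ I) ⊗ₜ[R] x = 0 ↔ x ∈ (I • ⊤ : Submodule R C) := by
  rw [← (TensorProduct.quotTensorEquivQuotSMul C I).map_eq_zero_iff,
    TensorProduct.quotTensorEquivQuotSMul_mk_one_tmul, Submodule.Quotient.mk_eq_zero]

theorem mem_span_singleton_smul_top_iff (π : R) (x : C) :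
    x ∈ ((Ideal.span {π} : Ideal R) • ⊤ : Submodule R C) ↔ algebraMap R C π ∣ x := by
  rw [Submodule.ideal_span_singleton_smul, Submodule.mem_smul_pointwise_iff_exists]
  constructor
  · rintro ⟨y, -, rfl⟩
    exact ⟨y, by rw [Algebra.smul_def]⟩
  · rintro ⟨y, rfl⟩
    exact ⟨y, Submodule.mem_top, by rw [Algebra.smul_def]⟩

theorem one_tmul_eq_zero_iff (π : R) (x : C) :
    (1 : R ⧸ Ideal.span {π}) ⊗ₜ[R] x = 0 ↔ algebraMap R C π ∣ x := by
  rw [one_tmul_eq_zero_iff_mem, mem_span_singleton_smul_top_iff]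

theorem mk_smul_one_tmul (I : Ideal R) (a : R) (x : C) :
    (Ideal.Quotient.mk I a) • ((1 : R ⧸ I) ⊗ₜ[R] x) = (1 : R ⧸ I) ⊗ₜ[R] (a • x) := by
  rw [TensorProduct.tmul_smul, TensorProduct.smul_tmul', TensorProduct.smul_tmul', smul_eq_mul,
    mul_one, Algebra.smul_def, mul_one]
  rfl

end

section

variable {R : Type*} {C : Type*} [CommRing R] [IsDomain R] [WfDvdMonoid R]
  [CommRing C] [Algebra R C] [Module.Finite R C]

/-- **Nakayama step**: existence of a presentation with `s ≡ 1 mod π`. -/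
theorem exists_presentation {π : R} (hπ : Prime π) [IsPrincipalIdealRing (R ⧸ Ideal.span {π})]
    (hreg : ∀ x : C, algebraMap R C π * x = 0 → x = 0)
    (htf : ∀ f : R, ¬ π ∣ f → ∀ x : C, algebraMap R C π ∣ f • x → algebraMap R C π ∣ x) :
    ∃ (r : ℕ) (b : Fin r → C) (s : R), π ∣ s - 1 ∧ IsPresentation b s := by
  classical
  set I : Ideal R := Ideal.span {π} with hI
  haveI hIprime : I.IsPrime := (Ideal.span_singleton_prime hπ.ne_zero).mpr hπ
  haveI : IsDomain (R ⧸ I) := Ideal.Quotient.isDomain I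
  have hmk : ∀ a : R, Ideal.Quotient.mk I a = 0 ↔ π ∣ a := fun a => by
    rw [Ideal.Quotient.eq_zero_iff_mem, hI, Ideal.mem_span_singleton]
  -- torsion-freeness of the special fibre
  haveI : Module.IsTorsionFree (R ⧸ I) ((R ⧸ I) ⊗[R] C) := by
    refine ⟨fun a ha z₁ z₂ h => ?_⟩
    obtain ⟨f, rfl⟩ := Ideal.Quotient.mk_surjective a
    have hf : ¬ π ∣ f := fun hd => ha.ne_zero ((hmk f).mpr hd)
    obtain ⟨x, hx⟩ := exists_one_tmul I (z₁ - z₂)
    have h0 : Ideal.Quotient.mk I f • (z₁ - z₂) = 0 := by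
      rw [smul_sub]; exact sub_eq_zero.mpr h
    rw [hx, mk_smul_one_tmul, one_tmul_eq_zero_iff] at h0
    have := htf f hf x h0
    rw [← one_tmul_eq_zero_iff (π := π), ← hx] at this
    exact sub_eq_zero.mp this
  haveI : Module.Free (R ⧸ I) ((R ⧸ I) ⊗[R] C) := Module.free_of_finite_type_torsion_free'
  let r := Module.finrank (R ⧸ I) ((R ⧸ I) ⊗[R] C)
  let bb : Basis (Fin r) (R ⧸ I) ((R ⧸ I) ⊗[R] C) := Module.finBasis _ _
  have hlift : ∀ i, ∃ x : C, bb i = (1 : R ⧸ I) ⊗ₜ[R] x := fun i => exists_one_tmul I (bb i)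
  choose b hb using hlift
  -- reduction of a linear combination
  have hcomb : ∀ g : Fin r → R, (1 : R ⧸ I) ⊗ₜ[R] (∑ i, g i • b i)
      = ∑ i, Ideal.Quotient.mk I (g i) • bb i := by
    intro g
    rw [TensorProduct.tmul_sum]
    refine Finset.sum_congr rfl fun i _ => ?_
    rw [hb i, mk_smul_one_tmul]
  -- a relation has coefficients divisible by `π`
  have hrel1 : ∀ g : Fin r → R, ∑ i, g i • b i = 0 → ∀ i, π ∣ g i := by
    intro g hg i
    have h := hcomb g
    rw [hg, TensorProduct.tmul_zero] at h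
    have := Fintype.linearIndependent_iff.mp bb.linearIndependent _ h.symm i
    exact (hmk _).mp this
  have hrel : ∀ m : ℕ, ∀ g : Fin r → R, ∑ i, g i • b i = 0 → ∀ i, π ^ m ∣ g i := by
    intro m
    induction m with
    | zero => intro g _ i; simp
    | succ m ih =>
      intro g hg i
      have h1 := hrel1 g hg
      choose g' hg' using h1
      have hg2 : ∑ i, g' i • b i = 0 := by
        apply hreg
        rw [Finset.mul_sum, ← hg]
        refine Finset.sum_congr rfl fun j _ => ?_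
        rw [hg' j, mul_smul, Algebra.smul_def π]
      rw [hg' i, pow_succ']
      exact mul_dvd_mul_left π (ih g' hg2 i)
  have hindep : LinearIndependent R b := by
    rw [Fintype.linearIndependent_iff]
    intro g hg i
    by_contra hgi
    obtain ⟨n, hn⟩ := FiniteMultiplicity.of_not_isUnit hπ.not_unit hgi
    exact hn (hrel _ g hg i)
  -- Nakayama
  have hsup : (⊤ : Submodule R C) ≤ Submodule.span R (Set.range b) ⊔ I • (⊤ : Submodule R C) := by
    intro x _
    -- coordinates of `1 ⊗ x`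
    have hc : ∀ i, ∃ c : R, Ideal.Quotient.mk I c = bb.repr ((1 : R ⧸ I) ⊗ₜ[R] x) i :=
      fun i => Ideal.Quotient.mk_surjective _
    choose c hc using hc
    have h1 : (1 : R ⧸ I) ⊗ₜ[R] (x - ∑ i, c i • b i) = 0 := by
      rw [TensorProduct.tmul_sub, hcomb, sub_eq_zero]
      simp only [hc]
      exact (bb.sum_repr _).symm
    rw [one_tmul_eq_zero_iff_mem] at h1
    have h2 : x = ∑ i, c i • b i + (x - ∑ i, c i • b i) := by ring
    rw [h2]
    refine Submodule.add_mem_sup ?_ h1
    exact Submodule.sum_mem _ fun i _ =>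
      Submodule.smul_mem _ _ (Submodule.subset_span ⟨i, rfl⟩)
  obtain ⟨s, hs1, hs2⟩ := Submodule.exists_sub_one_mem_and_smul_le_of_fg_of_le_sup
    (I := I) (N := Submodule.span R (Set.range b)) (N' := ⊤) (P := ⊤)
    Module.Finite.fg_top le_rfl hsup
  refine ⟨r, b, s, ?_, hindep, fun x => ?_⟩
  · rwa [hI, Ideal.mem_span_singleton] at hs1
  · exact hs2 (Submodule.smul_mem_pointwise_smul x s ⊤ Submodule.mem_top)

end

end Fermat.Agent.INJ
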