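import Fermat.Agent.INJ.DiscTrace
import Fermat.Agent.INJ.DiscNakayama

/-!
# (INJ) piece A3: the discriminant step ("purity of the branch locus" on a two-dimensional base)

`R` a UFD (in the application `R = A₀[X]`, `A₀` a DVR with uniformizer `π`), `π ∈ R` a prime
element with `R ⧸ π` a PID, `C` a finite `R`-algebra with `π` regular on `C` and `C / π C`
torsion-free over `R ⧸ π` (piece A1), generically étale special fibre (piece A2).
Let `n ∋ π` be a maximal ideal of `R` (a closed point of the special fibre of the `t`-line).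
If every height-one prime `(f) ⊆ n`, `f ≁ π`, has residue characteristic `0` and *reduced*
fibre (= `C` is unramified over `f`), then the closed fibre `C / n C` is étale over `R / n`:
its trace form is nondegenerate, in particular it is reduced.

Main results: `fibre_traceForm_nondegenerate`, `closedFibre_reduced`.
-/

set_option autoImplicit false
set_option linter.style.haveILetI false
set_option linter.unusedSectionVars false

namespace Fermat.Agent.INJ

open Module TensorProduct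

universe u v w

section power

variable {R : Type*} {C : Type*} [CommRing R] [CommRing C] [Algebra R C]

/-- the elementwise "reduced fibre" hypothesis propagates from squares to all powers -/
theorem exists_dvd_smul_of_dvd_pow {f : R} (hf : Prime f)
    (hunr : ∀ x : C, algebraMap R C f ∣ x ^ 2 → ∃ a : R, ¬ f ∣ a ∧ algebraMap R C f ∣ a • x)
    (N : ℕ) : ∀ y : C, algebraMap R C f ∣ y ^ N → ∃ a : R, ¬ f ∣ a ∧ algebraMap R C f ∣ a • y := by
  induction N using Nat.strong_induction_on with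
  | _ N ih =>
    intro y hy
    rcases Nat.lt_or_ge N 2 with hN | hN
    · refine ⟨1, fun h => hf.not_unit (isUnit_of_dvd_one h), ?_⟩
      rw [one_smul]
      interval_cases N
      · rw [pow_zero] at hy
        exact hy.trans (one_dvd y)
      · rwa [pow_one] at hy
    · -- `M = ⌈N/2⌉ < N`
      obtain ⟨M, hM1, hM2, hM0⟩ : ∃ M, M < N ∧ N ≤ 2 * M ∧ 1 ≤ M :=
        ⟨(N + 1) / 2, by omega, by omega, by omega⟩
      have h1 : algebraMap R C f ∣ (y ^ M) ^ 2 := by
        rw [← pow_mul, mul_comm]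
        exact hy.trans (pow_dvd_pow y hM2)
      obtain ⟨a, ha, hay⟩ := hunr _ h1
      have h2 : algebraMap R C f ∣ (a • y) ^ M := by
        obtain ⟨M', rfl⟩ : ∃ M', M = M' + 1 := ⟨M - 1, by omega⟩
        have : (a • y) ^ (M' + 1) = (algebraMap R C a) ^ M' * (a • y ^ (M' + 1)) := by
          rw [Algebra.smul_def, Algebra.smul_def]; ring
        rw [this]
        exact Dvd.dvd.mul_left hay _
      obtain ⟨a', ha', hay'⟩ := ih M hM1 (a • y) h2
      refine ⟨a' * a, fun h => ?_, ?_⟩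
      · rcases hf.dvd_or_dvd h with h | h
        · exact ha' h
        · exact ha h
      · rwa [mul_smul]

end power

section reduced

variable {R : Type*} {C : Type*} [CommRing R] [CommRing C] [Algebra R C]
variable {ι : Type*} [Fintype ι] [DecidableEq ι]
variable {k : Type*} [Field k] [Algebra R k]

theorem algebraMap_smul_one_tmul (a : R) (x : C) :
    algebraMap R k a • ((1 : k) ⊗ₜ[R] x) = (1 : k) ⊗ₜ[R] (a • x) := by
  rw [TensorProduct.tmul_smul, algebraMap_smul]

/-- if `k` is generated by fractions of `R`, every element of `k ⊗ C` is a fraction of `1 ⊗ x` -/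
theorem exists_smul_eq_one_tmul
    (hfrac : ∀ a : k, ∃ p q : R, algebraMap R k q ≠ 0 ∧ algebraMap R k q * a = algebraMap R k p)
    (z : k ⊗[R] C) :
    ∃ (q : R) (x : C), algebraMap R k q ≠ 0 ∧ algebraMap R k q • z = (1 : k) ⊗ₜ[R] x := by
  induction z using TensorProduct.induction_on with
  | zero => exact ⟨1, 0, by simp, by simp⟩
  | tmul a y =>
    obtain ⟨p, q, hq, hpq⟩ := hfrac a
    refine ⟨q, p • y, hq, ?_⟩
    rw [TensorProduct.smul_tmul', smul_eq_mul, hpq, ← algebraMap_smul_one_tmul,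
      TensorProduct.smul_tmul', smul_eq_mul, mul_one]
  | add z w hz hw =>
    obtain ⟨q₁, x₁, hq₁, h₁⟩ := hz
    obtain ⟨q₂, x₂, hq₂, h₂⟩ := hw
    refine ⟨q₁ * q₂, q₂ • x₁ + q₁ • x₂, ?_, ?_⟩
    · rw [map_mul]; exact mul_ne_zero hq₁ hq₂
    · have e1 : (algebraMap R k (q₁ * q₂)) • z = algebraMap R k q₂ • (algebraMap R k q₁ • z) := by
        rw [map_mul, mul_comm, mul_smul]
      have e2 : (algebraMap R k (q₁ * q₂)) • w = algebraMap R k q₁ • (algebraMap R k q₂ • w) := by
        rw [map_mul, mul_smul]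
      rw [smul_add, e1, e2, h₁, h₂, algebraMap_smul_one_tmul, algebraMap_smul_one_tmul,
        TensorProduct.tmul_add]

/-- **The fibre over an unramified height-one prime is reduced.** -/
theorem isReduced_fibre {b : ι → C} {s : R} (P : IsPresentation b s)
    {f : R} (hf : Prime f)
    (hk : RingHom.ker (algebraMap R k) = Ideal.span {f})
    (hfrac : ∀ a : k, ∃ p q : R, algebraMap R k q ≠ 0 ∧ algebraMap R k q * a = algebraMap R k p)
    (hs : algebraMap R k s ≠ 0)
    (hunr : ∀ x : C, algebraMap R C f ∣ x ^ 2 → ∃ a : R, ¬ f ∣ a ∧ algebraMap R C f ∣ a • x) :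
    IsReduced (k ⊗[R] C) := by
  have hker : ∀ a : R, algebraMap R k a = 0 ↔ f ∣ a := fun a => by
    rw [← RingHom.mem_ker, hk, Ideal.mem_span_singleton]
  refine ⟨fun z hz => ?_⟩
  obtain ⟨N, hN⟩ := hz
  obtain ⟨q, x, hq, hqz⟩ := exists_smul_eq_one_tmul hfrac z
  -- `1 ⊗ x ^ N = 0`
  have h1 : (1 : k) ⊗ₜ[R] (x ^ N) = 0 := by
    have : ((1 : k) ⊗ₜ[R] x) ^ N = 0 := by
      rw [← hqz, smul_pow, hN, smul_zero]
    rwa [Algebra.TensorProduct.tmul_pow, one_pow] at this
  -- hence `f ∣ s • x ^ N`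
  have h2 : algebraMap R C f ∣ s • x ^ N := by
    have hc := (P.tmul_eq_zero_iff hs (x ^ N)).mp h1
    rw [← P.sum_coord (x ^ N)]
    refine Finset.dvd_sum fun i _ => ?_
    obtain ⟨c, hc⟩ := (hker _).mp (hc i)
    rw [hc, mul_smul, Algebra.smul_def f]
    exact dvd_mul_right _ _
  -- hence `f ∣ (s • x) ^ (N + 1)`
  have h3 : algebraMap R C f ∣ (s • x) ^ (N + 1) := by
    have : (s • x) ^ (N + 1) = (algebraMap R C s) ^ N * x * (s • x ^ N) := by
      rw [Algebra.smul_def, Algebra.smul_def]; ring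
    rw [this]
    exact Dvd.dvd.mul_left h2 _
  obtain ⟨a, ha, hax⟩ := exists_dvd_smul_of_dvd_pow hf hunr (N + 1) (s • x) h3
  -- so `1 ⊗ x = 0`
  have h4 : (1 : k) ⊗ₜ[R] (a • s • x) = 0 := by
    obtain ⟨y, hy⟩ := hax
    rw [hy, ← Algebra.smul_def, ← algebraMap_smul_one_tmul, (hker f).mpr dvd_rfl, zero_smul]
  have h5 : (1 : k) ⊗ₜ[R] x = 0 := by
    rw [← algebraMap_smul_one_tmul, ← algebraMap_smul_one_tmul] at h4
    have ha' : algebraMap R k a ≠ 0 := fun h => ha ((hker a).mp h)
    exact (smul_eq_zero.mp ((smul_eq_zero.mp h4).resolve_left ha')).resolve_left hs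
  rw [h5] at hqz
  exact (smul_eq_zero.mp hqz).resolve_left hq

end reduced

section main

variable {R : Type u} {C : Type v} [CommRing R] [IsDomain R] [UniqueFactorizationMonoid R]
  [CommRing C] [Algebra R C] [Module.Finite R C]

/-- the fraction field of `R ⧸ f` is generated by fractions of `R` -/
theorem fractionRing_quotient_frac (I : Ideal R) [I.IsPrime]
    (a : FractionRing (R ⧸ I)) :
    ∃ p q : R, algebraMap R (FractionRing (R ⧸ I)) q ≠ 0 ∧
      algebraMap R (FractionRing (R ⧸ I)) q * a = algebraMap R (FractionRing (R ⧸ I)) p := by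
  obtain ⟨x, y, hy, rfl⟩ := IsFractionRing.div_surjective (R ⧸ I) a
  obtain ⟨p, rfl⟩ := Ideal.Quotient.mk_surjective x
  obtain ⟨q, rfl⟩ := Ideal.Quotient.mk_surjective y
  have hq : algebraMap (R ⧸ I) (FractionRing (R ⧸ I)) (Ideal.Quotient.mk I q) ≠ 0 := by
    intro h
    have := (IsFractionRing.injective (R ⧸ I) (FractionRing (R ⧸ I))) (h.trans (map_zero _).symm)
    exact nonZeroDivisors.ne_zero hy this
  refine ⟨p, q, ?_, ?_⟩
  · rw [IsScalarTower.algebraMap_apply R (R ⧸ I) (FractionRing (R ⧸ I))]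
    exact hq
  · rw [IsScalarTower.algebraMap_apply R (R ⧸ I) (FractionRing (R ⧸ I)),
      IsScalarTower.algebraMap_apply R (R ⧸ I) (FractionRing (R ⧸ I))]
    exact mul_div_cancel₀ _ hq

theorem fractionRing_quotient_ker (I : Ideal R) [I.IsPrime] :
    RingHom.ker (algebraMap R (FractionRing (R ⧸ I))) = I := by
  ext a
  rw [RingHom.mem_ker, IsScalarTower.algebraMap_apply R (R ⧸ I) (FractionRing (R ⧸ I)),
    map_eq_zero_iff _ (IsFractionRing.injective (R ⧸ I) (FractionRing (R ⧸ I)))]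
  exact Ideal.Quotient.eq_zero_iff_mem

/-- **A3, core.**  With a presentation `(b, s)`, `s ∉ n`: the scaled discriminant is a unit at
`n`. -/
theorem sdisc_not_mem {ι : Type*} [Fintype ι] [DecidableEq ι] {b : ι → C} {s : R}
    (P : IsPresentation b s) {π : R}
    (k : Type w) [Field k] [Algebra R k] (hk : RingHom.ker (algebraMap R k) = Ideal.span {π})
    (hgen : (Algebra.traceForm k (k ⊗[R] C)).Nondegenerate)
    (n : Ideal R) [n.IsPrime] (hsπ : π ∣ s - 1) (hsn : s ∉ n)
    (hunr : ∀ f : R, Prime f → f ∈ n → ¬ Associated f π →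
        (∀ m : ℕ, m ≠ 0 → ¬ f ∣ (m : R)) ∧
        ∀ x : C, algebraMap R C f ∣ x ^ 2 → ∃ a : R, ¬ f ∣ a ∧ algebraMap R C f ∣ a • x) :
    P.sdisc ∉ n := by
  have hkerπ : ∀ a : R, algebraMap R k a = 0 ↔ π ∣ a := fun a => by
    rw [← RingHom.mem_ker, hk, Ideal.mem_span_singleton]
  -- Step A: `π ∤ D`
  have hsk : algebraMap R k s ≠ 0 := by
    have h1 : algebraMap R k (s - 1) = 0 := (hkerπ _).mpr hsπ
    rw [map_sub, map_one, sub_eq_zero] at h1
    rw [h1]; exact one_ne_zero
  have hA : ¬ π ∣ P.sdisc := fun h =>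
    (P.traceForm_nondegenerate_iff hsk).mp hgen ((hkerπ _).mpr h)
  have hD0 : P.sdisc ≠ 0 := fun h => hA (h ▸ dvd_zero π)
  -- Step B: unramified primes do not divide `D`
  have hB : ∀ f : R, Prime f → f ∈ n → ¬ Associated f π → ¬ f ∣ P.sdisc := by
    intro f hf hfn hfπ hfD
    obtain ⟨hchar, hred⟩ := hunr f hf hfn hfπ
    haveI hIprime : (Ideal.span {f}).IsPrime := (Ideal.span_singleton_prime hf.ne_zero).mpr hf
    haveI : IsDomain (R ⧸ Ideal.span {f}) := Ideal.Quotient.isDomain _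
    let κ := FractionRing (R ⧸ Ideal.span {f})
    have hκ : RingHom.ker (algebraMap R κ) = Ideal.span {f} := fractionRing_quotient_ker _
    have hkerf : ∀ a : R, algebraMap R κ a = 0 ↔ f ∣ a := fun a => by
      rw [← RingHom.mem_ker, hκ, Ideal.mem_span_singleton]
    have hsκ : algebraMap R κ s ≠ 0 := fun h => hsn (by
      obtain ⟨c, hc⟩ := (hkerf s).mp h
      rw [hc]; exact n.mul_mem_right _ hfn)
    haveI : CharZero κ := charZero_of_inj_zero fun m hm => by
      by_contra hm0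
      refine hchar m hm0 ((hkerf _).mp ?_)
      rw [map_natCast]; exact hm
    haveI : IsReduced (κ ⊗[R] C) :=
      isReduced_fibre P hf hκ (fractionRing_quotient_frac _) hsκ hred
    have hnd : (Algebra.traceForm κ (κ ⊗[R] C)).Nondegenerate :=
      traceForm_nondegenerate_of_isReduced
    exact (P.traceForm_nondegenerate_iff hsκ).mp hnd ((hkerf _).mpr hfD)
  -- Step C: factor `D`
  intro hDn
  obtain ⟨F, hFprime, hFD⟩ := UniqueFactorizationMonoid.exists_prime_factors P.sdisc hD0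
  have hFn : F.prod ∈ n := by
    obtain ⟨u, hu⟩ := hFD.symm
    rw [← hu]; exact n.mul_mem_right _ hDn
  obtain ⟨p, hpF, hpn⟩ := (Ideal.IsPrime.multiset_prod_mem_iff_exists_mem ‹n.IsPrime› F).mp hFn
  have hpD : p ∣ P.sdisc := (Multiset.dvd_prod hpF).trans hFD.dvd
  by_cases hpπ : Associated p π
  · exact hA (hpπ.symm.dvd.trans hpD)
  · exact hB p (hFprime p hpF) hpn hpπ hpD

/-- **A3 (discriminant step).**  The closed fibre over `n` is étale: its trace form is
nondegenerate. -/
theorem fibre_traceForm_nondegenerate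
    {π : R} (hπ : Prime π) [IsPrincipalIdealRing (R ⧸ Ideal.span {π})]
    (hreg : ∀ x : C, algebraMap R C π * x = 0 → x = 0)
    (htf : ∀ f : R, ¬ π ∣ f → ∀ x : C, algebraMap R C π ∣ f • x → algebraMap R C π ∣ x)
    (k : Type w) [Field k] [Algebra R k] (hk : RingHom.ker (algebraMap R k) = Ideal.span {π})
    (hgen : (Algebra.traceForm k (k ⊗[R] C)).Nondegenerate)
    (n : Ideal R) [n.IsMaximal] (hπn : π ∈ n)
    (hunr : ∀ f : R, Prime f → f ∈ n → ¬ Associated f π →
        (∀ m : ℕ, m ≠ 0 → ¬ f ∣ (m : R)) ∧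
        ∀ x : C, algebraMap R C f ∣ x ^ 2 → ∃ a : R, ¬ f ∣ a ∧ algebraMap R C f ∣ a • x) :
    (Algebra.traceForm (R ⧸ n) ((R ⧸ n) ⊗[R] C)).Nondegenerate := by
  classical
  obtain ⟨r, b, s, hsπ, P⟩ := exists_presentation hπ hreg htf
  have hsn : s ∉ n := fun hs => by
    have h1 : s - 1 ∈ n := by
      obtain ⟨c, hc⟩ := hsπ
      rw [hc]; exact n.mul_mem_right _ hπn
    have : (1 : R) ∈ n := by
      have := n.sub_mem hs h1
      rwa [sub_sub_cancel] at this
    exact (Ideal.ne_top_iff_one n).mp (Ideal.IsMaximal.ne_top ‹_›) this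
  have hD := sdisc_not_mem P k hk hgen n hsπ hsn hunr
  letI : Field (R ⧸ n) := Ideal.Quotient.field n
  have hsn' : algebraMap R (R ⧸ n) s ≠ 0 := fun h => hsn (Ideal.Quotient.eq_zero_iff_mem.mp h)
  have hDn' : algebraMap R (R ⧸ n) P.sdisc ≠ 0 := fun h => hD (Ideal.Quotient.eq_zero_iff_mem.mp h)
  exact (P.traceForm_nondegenerate_iff hsn').mpr hDn'

/-- **A3, reduced form**: the closed fibre `C / n C` is reduced. -/
theorem closedFibre_reduced
    {π : R} (hπ : Prime π) [IsPrincipalIdealRing (R ⧸ Ideal.span {π})]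
    (hreg : ∀ x : C, algebraMap R C π * x = 0 → x = 0)
    (htf : ∀ f : R, ¬ π ∣ f → ∀ x : C, algebraMap R C π ∣ f • x → algebraMap R C π ∣ x)
    (k : Type w) [Field k] [Algebra R k] (hk : RingHom.ker (algebraMap R k) = Ideal.span {π})
    (hgen : (Algebra.traceForm k (k ⊗[R] C)).Nondegenerate)
    (n : Ideal R) [n.IsMaximal] (hπn : π ∈ n)
    (hunr : ∀ f : R, Prime f → f ∈ n → ¬ Associated f π →
        (∀ m : ℕ, m ≠ 0 → ¬ f ∣ (m : R)) ∧
        ∀ x : C, algebraMap R C f ∣ x ^ 2 → ∃ a : R, ¬ f ∣ a ∧ algebraMap R C f ∣ a • x) :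
    ∀ x : C, x ^ 2 ∈ n.map (algebraMap R C) → x ∈ n.map (algebraMap R C) := by
  have hnd := fibre_traceForm_nondegenerate hπ hreg htf k hk hgen n hπn hunr
  letI : Field (R ⧸ n) := Ideal.Quotient.field n
  haveI : IsReduced ((R ⧸ n) ⊗[R] C) := isReduced_of_traceForm_nondegenerate hnd
  have hmem : ∀ y : C, y ∈ n.map (algebraMap R C) ↔ (1 : R ⧸ n) ⊗ₜ[R] y = 0 := fun y => by
    rw [one_tmul_eq_zero_iff_mem, Ideal.smul_top_eq_map, Submodule.restrictScalars_mem]
  intro x hx
  rw [hmem] at hx ⊢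
  have h : ((1 : R ⧸ n) ⊗ₜ[R] x) ^ 2 = 0 := by
    rw [Algebra.TensorProduct.tmul_pow, one_pow, hx]
  exact IsReduced.eq_zero _ ⟨2, h⟩

end main

end Fermat.Agent.INJ
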