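import Mathlib

/-!
# INJ piece A3 (discriminant step) — cores (helper27)

Generic commutative algebra, no modular forms.

Setting (AKLB): `P` an integrally closed domain with fraction field `K`, `L / K` a finite separable
field extension, `B` a ring, integral over `P`, with a map `B → L`.

* `trace_mem_of_pow_mem` : if `y ^ m ∈ 𝔭 B` (`𝔭` a prime of `P`) then `Tr_{L/K}(y) ∈ 𝔭`.
* `mem_prime_of_trace_mul_mem` : (characteristic `0` fibre) if `Tr(x y) ∈ (f)` for all `y ∈ B` then
  `x` lies in every prime `𝔮` of `B` over `(f)` (Dedekind independence of characters).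
* `mem_map_of_pow_mem_of_discr_notMem` (Core-1): if `b` spans `B` locally at the maximal ideal `𝔪`
  of `P` and `det Tr(b i * b j) ∉ 𝔪`, then the closed fibre `B / 𝔪 B` is reduced.
* `discr_notMem_of_unramified` (Core-2, `P = A[X]`, `A` a DVR of characteristic `0`):
  `π ∤ d = det Tr(b i * b j)`, `b` spans `B` locally at `𝔪`, and the fibres of `B` at the
  height-one primes `(f)` (not vertical, not `X - c`, `c ∈ S`) are reduced up to `π`-torsion
  `⇒ d ∉ 𝔪` for every maximal ideal `𝔪` containing no `X - c`, `c ∈ S`.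
-/

set_option autoImplicit false

namespace Fermat.Agent.INJ

open Polynomial

section Embeddings

variable {P K L B : Type*} [CommRing P] [IsDomain P] [Field K] [Field L] [CommRing B]
  [Algebra P K] [IsFractionRing P K] [Algebra B L] [Algebra P B] [Algebra P L] [Algebra K L]
  [IsScalarTower P K L] [IsScalarTower P B L]
  [FiniteDimensional K L] [Algebra.IsSeparable K L] [Algebra.IsIntegral P B]

/-- The `P`-algebra hom `B → integralClosure P Ω` induced by an embedding `σ : L → Ω`. -/
noncomputable def embInt (Ω : Type*) [Field Ω] [Algebra K Ω] [Algebra P Ω] [IsScalarTower P K Ω]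
    (σ : L →ₐ[K] Ω) : B →ₐ[P] integralClosure P Ω :=
  ((σ.restrictScalars P).comp (IsScalarTower.toAlgHom P B L)).codRestrict (integralClosure P Ω)
    (fun x => by
      have hx : IsIntegral P x := Algebra.IsIntegral.isIntegral x
      exact hx.map ((σ.restrictScalars P).comp (IsScalarTower.toAlgHom P B L)))

@[simp] lemma coe_embInt (Ω : Type*) [Field Ω] [Algebra K Ω] [Algebra P Ω] [IsScalarTower P K Ω]
    (σ : L →ₐ[K] Ω) (x : B) :
    ((embInt (P := P) Ω σ x : integralClosure P Ω) : Ω) = σ (algebraMap B L x) := rfl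


/-- **(Tr-nil)** If `y ∈ B` is nilpotent modulo `𝔭 B`, then `Tr_{L/K}(y) ∈ 𝔭`. -/
theorem trace_mem_of_pow_mem [IsIntegrallyClosed P] (𝔭 : Ideal P) [𝔭.IsPrime] (y : B) (m : ℕ)
    (hy : y ^ m ∈ 𝔭.map (algebraMap P B)) :
    ∃ t ∈ 𝔭, algebraMap P K t = Algebra.trace K L (algebraMap B L y) := by
  classical
  -- the trace is integral, hence in `P`
  have hint : IsIntegral P (Algebra.trace K L (algebraMap B L y)) :=
    Algebra.isIntegral_trace ((Algebra.IsIntegral.isIntegral y).map (IsScalarTower.toAlgHom P B L))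
  obtain ⟨t, ht⟩ := IsIntegrallyClosed.isIntegral_iff.mp hint
  refine ⟨t, ?_, ht⟩
  -- big field
  let Ω := AlgebraicClosure L
  let P' := integralClosure P Ω
  have hinjK : Function.Injective (algebraMap P K) := IsFractionRing.injective P K
  have hinjΩ : Function.Injective (algebraMap P Ω) := by
    rw [IsScalarTower.algebraMap_eq P K Ω]
    exact (algebraMap K Ω).injective.comp hinjK
  have hinjP' : Function.Injective (algebraMap P P') := by
    intro a b hab
    apply hinjΩ
    have := congrArg (fun z : P' => (z : Ω)) hab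
    simpa using this
  obtain ⟨𝔓, -, h𝔓prime, h𝔓⟩ := Ideal.exists_ideal_over_prime_of_isIntegral 𝔭 (⊥ : Ideal P')
    (by
      intro a ha
      have : a = 0 := by
        apply hinjP'
        simpa using ha
      simp [this])
  -- each conjugate of `y` lies in `𝔓`
  have hconj : ∀ σ : L →ₐ[K] Ω, embInt (P := P) (B := B) Ω σ y ∈ 𝔓 := by
    intro σ
    have h1 : embInt (P := P) (B := B) Ω σ (y ^ m) ∈ 𝔓 := by
      let ψ : B →+* P' := (embInt (P := P) (B := B) Ω σ).toRingHom
      have h2 : (𝔭.map (algebraMap P B)).map ψ ≤ 𝔓 := by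
        rw [Ideal.map_map]
        have : ψ.comp (algebraMap P B) = algebraMap P P' :=
          (embInt (P := P) (B := B) Ω σ).comp_algebraMap
        rw [this, Ideal.map_le_iff_le_comap, h𝔓]
      exact h2 (Ideal.mem_map_of_mem ψ hy)
    rw [map_pow] at h1
    exact h𝔓prime.mem_of_pow_mem m h1
  have hsum : (∑ σ : L →ₐ[K] Ω, embInt (P := P) (B := B) Ω σ y) ∈ 𝔓 :=
    Ideal.sum_mem _ (fun σ _ => hconj σ)
  have heq : algebraMap P P' t = ∑ σ : L →ₐ[K] Ω, embInt (P := P) (B := B) Ω σ y := by
    apply Subtype.ext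
    have h3 : ((algebraMap P P' t : P') : Ω) = algebraMap K Ω (algebraMap P K t) := by
      rw [← IsScalarTower.algebraMap_apply P K Ω]; rfl
    rw [h3, ht, trace_eq_sum_embeddings Ω]
    simp
  rw [← h𝔓, Ideal.mem_comap, heq]
  exact hsum


/-- **(converse, characteristic `0`)** If `Tr_{L/K}(x y) ∈ (f)` for every `y ∈ B`, then `x` lies in
every prime `𝔮` of `B` over `(f)`, provided the residue characteristic at `f` is `0`. -/
theorem mem_prime_of_trace_mul_mem (hBL : Function.Injective (algebraMap B L))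
    (f : P) (hchar : ∀ n : ℕ, n ≠ 0 → ¬ f ∣ (n : P)) (x : B)
    (hx : ∀ y : B, ∃ t : P, f ∣ t ∧
      algebraMap P K t = Algebra.trace K L (algebraMap B L (x * y)))
    (𝔮 : Ideal B) [𝔮.IsPrime] (h𝔮 : 𝔮.comap (algebraMap P B) = Ideal.span {f}) : x ∈ 𝔮 := by
  classical
  let Ω := AlgebraicClosure L
  let P' := integralClosure P Ω
  let σ₀ : L →ₐ[K] Ω := IsScalarTower.toAlgHom K L Ω
  let ψ₀ : B →ₐ[P] P' := embInt (P := P) (B := B) Ω σ₀
  have hψ₀inj : Function.Injective ψ₀ := by
    intro a b hab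
    apply hBL
    apply σ₀.injective
    have := congrArg (fun z : P' => (z : Ω)) hab
    exact this
  letI : Algebra B P' := ψ₀.toRingHom.toAlgebra
  haveI : IsScalarTower P B P' := IsScalarTower.of_algebraMap_eq (fun a => (ψ₀.commutes a).symm)
  haveI : Algebra.IsIntegral B P' :=
    ⟨fun z => (Algebra.IsIntegral.isIntegral (R := P) z).tower_top⟩
  obtain ⟨𝔓, -, h𝔓prime, h𝔓⟩ := Ideal.exists_ideal_over_prime_of_isIntegral 𝔮 (⊥ : Ideal P')
    (by
      intro a ha
      have : a = 0 := by
        apply hψ₀inj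
        have h0 : algebraMap B P' a = 0 := by
          have := Ideal.mem_comap.mp ha
          simpa using this
        rw [map_zero]
        exact h0
      simp [this])
  haveI := h𝔓prime
  -- the characters
  let χ : (L →ₐ[K] Ω) → (B →* (P' ⧸ 𝔓)) := fun σ =>
    ((Ideal.Quotient.mk 𝔓).comp (embInt (P := P) (B := B) Ω σ).toRingHom).toMonoidHom
  have hχ : ∀ σ y, χ σ y = Ideal.Quotient.mk 𝔓 (embInt (P := P) (B := B) Ω σ y) := fun _ _ => rfl
  have hcomapP : ∀ t : P, f ∣ t → algebraMap P P' t ∈ 𝔓 := by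
    intro t ht
    have h1 : t ∈ 𝔮.comap (algebraMap P B) := by
      rw [h𝔮]; exact Ideal.mem_span_singleton.mpr ht
    have h2 : algebraMap B P' (algebraMap P B t) ∈ 𝔓 := by
      have : algebraMap P B t ∈ 𝔓.comap (algebraMap B P') := by rw [h𝔓]; exact h1
      exact this
    rwa [← IsScalarTower.algebraMap_apply] at h2
  have hsum0 : ∀ y : B, ∑ σ : L →ₐ[K] Ω, χ σ x * χ σ y = 0 := by
    intro y
    obtain ⟨t, hft, ht⟩ := hx y
    have heq : algebraMap P P' t = ∑ σ : L →ₐ[K] Ω, embInt (P := P) (B := B) Ω σ (x * y) := by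
      apply Subtype.ext
      have h3 : ((algebraMap P P' t : P') : Ω) = algebraMap K Ω (algebraMap P K t) := by
        rw [← IsScalarTower.algebraMap_apply P K Ω]; rfl
      rw [h3, ht, trace_eq_sum_embeddings Ω]
      simp
    have h4 : Ideal.Quotient.mk 𝔓 (algebraMap P P' t) = 0 :=
      Ideal.Quotient.eq_zero_iff_mem.mpr (hcomapP t hft)
    rw [heq, map_sum] at h4
    rw [← h4]
    refine Finset.sum_congr rfl (fun σ _ => ?_)
    rw [hχ, hχ, ← map_mul, ← map_mul]
  -- linear independence of characters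
  have hli := linearIndependent_monoidHom B (P' ⧸ 𝔓)
  rw [linearIndependent_iff'] at hli
  let s : Finset (B →* (P' ⧸ 𝔓)) := Finset.univ.image χ
  let g : (B →* (P' ⧸ 𝔓)) → (P' ⧸ 𝔓) := fun c =>
    ∑ σ ∈ Finset.univ.filter (fun σ => χ σ = c), χ σ x
  have hg : ∑ c ∈ s, g c • (c : B → (P' ⧸ 𝔓)) = 0 := by
    have h5 : ∑ c ∈ s, g c • (c : B → (P' ⧸ 𝔓)) =
        ∑ σ : L →ₐ[K] Ω, χ σ x • (χ σ : B → (P' ⧸ 𝔓)) := by
      apply Finset.sum_image'
      intro σ _
      simp only [g]
      rw [Finset.sum_smul]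
      refine Finset.sum_congr rfl (fun τ hτ => ?_)
      rw [(Finset.mem_filter.mp hτ).2]
    rw [h5]
    funext y
    simp only [Finset.sum_apply, Pi.smul_apply, smul_eq_mul, Pi.zero_apply]
    exact hsum0 y
  have hg0 := hli s g hg (χ σ₀) (Finset.mem_image_of_mem χ (Finset.mem_univ σ₀))
  -- the fibre sum is `card • χ σ₀ x`
  have hfib : g (χ σ₀) =
      ((Finset.univ.filter (fun σ => χ σ = χ σ₀)).card : P' ⧸ 𝔓) * χ σ₀ x := by
    simp only [g]
    rw [Finset.sum_congr rfl (fun τ hτ => by rw [(Finset.mem_filter.mp hτ).2] :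
      ∀ τ ∈ Finset.univ.filter (fun σ => χ σ = χ σ₀), χ τ x = χ σ₀ x)]
    rw [Finset.sum_const, nsmul_eq_mul]
  rw [hfib] at hg0
  have hcard : (Finset.univ.filter (fun σ => χ σ = χ σ₀)).card ≠ 0 := by
    apply Finset.card_ne_zero.mpr
    exact ⟨σ₀, Finset.mem_filter.mpr ⟨Finset.mem_univ _, rfl⟩⟩
  rcases mul_eq_zero.mp hg0 with h6 | h6
  · exfalso
    set m := (Finset.univ.filter (fun σ => χ σ = χ σ₀)).card with hm
    have h7 : ((m : P') : P' ⧸ 𝔓) = 0 := by
      have : (Ideal.Quotient.mk 𝔓 (m : P')) = ((m : ℕ) : P' ⧸ 𝔓) := map_natCast _ _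
      rw [← h6]; exact this
    have h8 : (m : P') ∈ 𝔓 := Ideal.Quotient.eq_zero_iff_mem.mp h7
    have h9 : algebraMap B P' (algebraMap P B (m : P)) ∈ 𝔓 := by
      rw [← IsScalarTower.algebraMap_apply, map_natCast]; exact h8
    have h10 : (m : P) ∈ 𝔮.comap (algebraMap P B) := by
      rw [← h𝔓]; exact h9
    rw [h𝔮, Ideal.mem_span_singleton] at h10
    exact hchar m hcard h10
  · have h11 : ψ₀ x ∈ 𝔓 := Ideal.Quotient.eq_zero_iff_mem.mp h6
    have h12 : x ∈ 𝔓.comap (algebraMap B P') := h11
    rwa [h𝔓] at h12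


/-- The trace matrix of a family of elements of `B` has entries in `P`. -/
theorem exists_traceMatrix [IsIntegrallyClosed P] {n : ℕ} (b : Fin n → B) :
    ∃ T : Matrix (Fin n) (Fin n) P, ∀ i j,
      algebraMap P K (T i j) = Algebra.trace K L (algebraMap B L (b i * b j)) := by
  have h : ∀ i j, ∃ t : P, algebraMap P K t = Algebra.trace K L (algebraMap B L (b i * b j)) := by
    intro i j
    have hint : IsIntegral P (Algebra.trace K L (algebraMap B L (b i * b j))) :=
      Algebra.isIntegral_trace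
        ((Algebra.IsIntegral.isIntegral (b i * b j)).map (IsScalarTower.toAlgHom P B L))
    exact IsIntegrallyClosed.isIntegral_iff.mp hint
  choose T hT using h
  exact ⟨Matrix.of T, fun i j => hT i j⟩

omit [IsDomain P] [IsFractionRing P K] [FiniteDimensional K L] [Algebra.IsSeparable K L]
  [Algebra.IsIntegral P B] in
lemma trace_algebraMap_mul (c : P) (z : B) :
    Algebra.trace K L (algebraMap B L (algebraMap P B c * z)) =
      algebraMap P K c * Algebra.trace K L (algebraMap B L z) := by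
  rw [map_mul, ← IsScalarTower.algebraMap_apply P B L, IsScalarTower.algebraMap_apply P K L,
    ← Algebra.smul_def, map_smul, smul_eq_mul]

/-- **Core-1.** If the discriminant `d` of a family `b` which spans `B` locally at the maximal
ideal `𝔪` of `P` is not in `𝔪`, then `B / 𝔪 B` is reduced. -/
theorem mem_map_of_pow_mem_of_discr_notMem [IsIntegrallyClosed P]
    {n : ℕ} (b : Fin n → B) (d : P)
    (hd : algebraMap P K d =
      (Matrix.of fun i j => Algebra.trace K L (algebraMap B L (b i * b j))).det)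
    (𝔪 : Ideal P) [𝔪.IsMaximal] (hd𝔪 : d ∉ 𝔪)
    (hspan : ∀ y : B, ∃ s : P, s ∉ 𝔪 ∧ ∃ a : Fin n → P,
      algebraMap P B s * y = ∑ i, algebraMap P B (a i) * b i)
    (x : B) (m : ℕ) (hx : x ^ m ∈ 𝔪.map (algebraMap P B)) : x ∈ 𝔪.map (algebraMap P B) := by
  classical
  have hinjK : Function.Injective (algebraMap P K) := IsFractionRing.injective P K
  obtain ⟨T, hT⟩ := exists_traceMatrix (P := P) (K := K) (L := L) b
  have hdT : d = T.det := by
    apply hinjK
    rw [hd, RingHom.map_det]
    congr 1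
    ext i j
    simp [hT i j]
  obtain ⟨s, hs, a, ha⟩ := hspan x
  -- traces of `s x b_j` are in `𝔪`
  have htr : ∀ j, ∃ t ∈ 𝔪, algebraMap P K t =
      Algebra.trace K L (algebraMap B L (algebraMap P B s * x * b j)) := by
    intro j
    apply trace_mem_of_pow_mem (P := P) (K := K) (L := L) 𝔪 _ m
    have : (algebraMap P B s * x * b j) ^ m = (algebraMap P B s * b j) ^ m * x ^ m := by ring
    rw [this]
    exact Ideal.mul_mem_left _ _ hx
  choose t ht𝔪 ht using htr
  have ht2 : ∀ j, t j = ∑ i, a i * T i j := by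
    intro j
    apply hinjK
    rw [ht j, ha, Finset.sum_mul, map_sum, map_sum, map_sum]
    refine Finset.sum_congr rfl (fun i _ => ?_)
    rw [mul_assoc, trace_algebraMap_mul, ← hT i j, ← map_mul]
  -- multiply by the adjugate
  have hvec : Matrix.vecMul a T = t := by
    funext j
    rw [ht2 j]
    simp [Matrix.vecMul, dotProduct]
  have hda : ∀ k, d * a k ∈ 𝔪 := by
    intro k
    have h1 : Matrix.vecMul (Matrix.vecMul a T) T.adjugate = T.det • a := by
      rw [Matrix.vecMul_vecMul, Matrix.mul_adjugate, Matrix.vecMul_smul, Matrix.vecMul_one]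
    have h2 : (T.det • a) k = ∑ j, t j * T.adjugate j k := by
      rw [← h1, hvec]
      simp [Matrix.vecMul, dotProduct]
    have h3 : d * a k = ∑ j, t j * T.adjugate j k := by
      rw [hdT, ← h2]; simp
    rw [h3]
    exact Ideal.sum_mem _ (fun j _ => Ideal.mul_mem_right _ _ (ht𝔪 j))
  have ha𝔪 : ∀ k, a k ∈ 𝔪 := fun k =>
    ((Ideal.IsMaximal.isPrime ‹_›).mem_or_mem (hda k)).resolve_left hd𝔪
  have hsx : algebraMap P B s * x ∈ 𝔪.map (algebraMap P B) := by
    rw [ha]
    exact Ideal.sum_mem _ (fun i _ => Ideal.mul_mem_right _ _ (Ideal.mem_map_of_mem _ (ha𝔪 i)))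
  obtain ⟨s', hs'⟩ := Ideal.IsMaximal.exists_inv (I := 𝔪) ‹_› hs
  obtain ⟨e, he𝔪, he⟩ := hs'
  -- `s' * s + e = 1`
  have hone : x = algebraMap P B s' * (algebraMap P B s * x) + algebraMap P B e * x := by
    have h1 : algebraMap P B (s' * s + e) = 1 := by rw [he, map_one]
    have : x = algebraMap P B (s' * s + e) * x := by rw [h1, one_mul]
    rw [map_add, map_mul] at this
    linear_combination this
  rw [hone]
  exact Ideal.add_mem _ (Ideal.mul_mem_left _ _ hsx)
    (Ideal.mul_mem_right _ _ (Ideal.mem_map_of_mem _ he𝔪))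


/-- If the discriminant of `b` is nonzero, the family `b` is `P`-linearly independent in `B`. -/
theorem coeff_eq_zero_of_discr_ne_zero {n : ℕ} (b : Fin n → B)
    (T : Matrix (Fin n) (Fin n) P)
    (hT : ∀ i j, algebraMap P K (T i j) = Algebra.trace K L (algebraMap B L (b i * b j)))
    (hdet : T.det ≠ 0) (c : Fin n → P) (hc : ∑ i, algebraMap P B (c i) * b i = 0) : c = 0 := by
  classical
  have hinjK : Function.Injective (algebraMap P K) := IsFractionRing.injective P K
  have h1 : Matrix.vecMul c T = 0 := by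
    funext j
    apply hinjK
    have : Algebra.trace K L (algebraMap B L ((∑ i, algebraMap P B (c i) * b i) * b j)) = 0 := by
      rw [hc, zero_mul, map_zero, map_zero]
    rw [Finset.sum_mul, map_sum, map_sum] at this
    simp only [Matrix.vecMul, dotProduct, Pi.zero_apply, map_sum, map_mul, map_zero]
    rw [← this]
    refine Finset.sum_congr rfl (fun i _ => ?_)
    rw [mul_assoc, trace_algebraMap_mul, ← hT i j]
  have h2 : Matrix.vecMul (Matrix.vecMul c T) T.adjugate = T.det • c := by
    rw [Matrix.vecMul_vecMul, Matrix.mul_adjugate, Matrix.vecMul_smul, Matrix.vecMul_one]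
  rw [h1, Matrix.zero_vecMul] at h2
  funext k
  have h3 := congrFun h2 k
  simp only [Pi.zero_apply, Pi.smul_apply, smul_eq_mul] at h3
  exact (mul_eq_zero.mp h3.symm).resolve_left hdet

end Embeddings


section PolynomialBase

variable {A : Type*} [CommRing A] [IsDomain A] [IsDiscreteValuationRing A] [CharZero A]
variable {K L B : Type*} [Field K] [Field L] [CommRing B]
  [Algebra A[X] K] [IsFractionRing A[X] K] [Algebra B L] [Algebra A[X] B] [Algebra A[X] L]
  [Algebra K L] [IsScalarTower A[X] K L] [IsScalarTower A[X] B L]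
  [FiniteDimensional K L] [Algebra.IsSeparable K L] [Module.Finite A[X] B]

/-- Nakayama: a family spanning `B` modulo `π` spans `B` after multiplication by some
`r ≡ 1 mod π`. -/
theorem exists_smul_eq_sum_of_span_mod (π : A) {n : ℕ} (b : Fin n → B)
    (hspanπ : ∀ x : B, ∃ a : Fin n → A[X],
      algebraMap A[X] B (C π) ∣ x - ∑ i, algebraMap A[X] B (a i) * b i) :
    ∃ r : A[X], C π ∣ r - 1 ∧ ∀ y : B, ∃ a : Fin n → A[X],
      algebraMap A[X] B r * y = ∑ i, algebraMap A[X] B (a i) * b i := by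
  classical
  let N : Submodule A[X] B := Submodule.span A[X] (Set.range b)
  have htop : (⊤ : Submodule A[X] B) ≤ N ⊔ (Ideal.span {C π} : Ideal A[X]) • (⊤ : Submodule A[X] B) := by
    intro x _
    obtain ⟨a, z, hz⟩ := hspanπ x
    have hx : x = (∑ i, a i • b i) + (C π : A[X]) • z := by
      have : x = (∑ i, algebraMap A[X] B (a i) * b i) + algebraMap A[X] B (C π) * z := by
        rw [← hz]; ring
      simpa [Algebra.smul_def] using this
    rw [hx]
    refine Submodule.add_mem_sup ?_ ?_
    · exact Submodule.sum_mem _ (fun i _ => Submodule.smul_mem _ _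
        (Submodule.subset_span (Set.mem_range_self i)))
    · exact Submodule.smul_mem_smul (Ideal.subset_span (Set.mem_singleton _)) Submodule.mem_top
  obtain ⟨r, hr1, hr2⟩ := Submodule.exists_sub_one_mem_and_smul_le_of_fg_of_le_sup
    (N := N) (N' := ⊤) (P := ⊤) (I := Ideal.span {C π})
    (Module.Finite.fg_top) le_rfl htop
  refine ⟨r, Ideal.mem_span_singleton.mp hr1, fun y => ?_⟩
  have hy : r • y ∈ N := hr2 (Submodule.smul_mem_pointwise_smul y r ⊤ Submodule.mem_top)
  obtain ⟨a, ha⟩ := (Submodule.mem_span_range_iff_exists_fun A[X]).mp hy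
  refine ⟨a, ?_⟩
  rw [← Algebra.smul_def, ← ha]
  simp [Algebra.smul_def]


/-- A prime element of `A[X]` not divisible by `π` has positive degree. -/
theorem natDegree_pos_of_prime_not_dvd {π : A} (hπ : Irreducible π) (f : A[X]) (hf : Prime f)
    (hfπ : ¬ C π ∣ f) : 0 < f.natDegree := by
  by_contra h0
  have h0' : f.natDegree = 0 := by omega
  have hfC : f = C (f.coeff 0) := eq_C_of_natDegree_eq_zero h0'
  have hnu : ¬ IsUnit (f.coeff 0) := by
    intro hu
    have : IsUnit f := by rw [hfC]; exact hu.map C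
    exact hf.not_isUnit this
  have hmem : f.coeff 0 ∈ IsLocalRing.maximalIdeal A := (IsLocalRing.mem_maximalIdeal _).mpr hnu
  rw [hπ.maximalIdeal_eq, Ideal.mem_span_singleton] at hmem
  apply hfπ
  rw [hfC]
  exact map_dvd C hmem

/-- **Core-2.** Let `b` span `B` locally at the maximal ideal `𝔪 ∋ π` (i.e. `r B ⊆ span b` for
some `r ∉ 𝔪`), with discriminant `d` not divisible by `π`. Assume
that every prime `f` of `A[X]` of positive degree, not associated to some `X - c`, `c ∈ S`,
is unramified in `B[1/π]` (in the form: the intersection of the primes of `B` over `(f)` is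
`f B[1/π] ∩ B`). Then `d ∉ 𝔪` if `𝔪` contains no `X - c`, `c ∈ S`. -/
theorem discr_notMem_of_unramified (hBL : Function.Injective (algebraMap B L))
    {π : A} (hπ : Irreducible π) {n : ℕ} (b : Fin n → B) (d : A[X])
    (hd : algebraMap A[X] K d =
      (Matrix.of fun i j => Algebra.trace K L (algebraMap B L (b i * b j))).det)
    (hπd : ¬ C π ∣ d)
    (𝔪 : Ideal A[X]) [𝔪.IsMaximal]
    (r : A[X]) (hr𝔪 : r ∉ 𝔪)
    (hr : ∀ y : B, ∃ a : Fin n → A[X],
      algebraMap A[X] B r * y = ∑ i, algebraMap A[X] B (a i) * b i)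
    (S : Set A)
    (hunr : ∀ f : A[X], Irreducible f → 0 < f.natDegree →
      (∀ c ∈ S, ¬ Associated f (X - C c)) →
      ∀ x : B, (∀ 𝔮 : Ideal B, 𝔮.IsPrime →
          𝔮.comap (algebraMap A[X] B) = Ideal.span {f} → x ∈ 𝔮) →
        ∃ k : ℕ, algebraMap A[X] B f ∣ algebraMap A[X] B (C π) ^ k * x)
    (hS : ∀ c ∈ S, X - C c ∉ 𝔪) : d ∉ 𝔪 := by
  classical
  intro hd𝔪
  have hinjK : Function.Injective (algebraMap A[X] K) := IsFractionRing.injective A[X] K
  have h𝔪prime : 𝔪.IsPrime := Ideal.IsMaximal.isPrime ‹_›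
  obtain ⟨T, hT⟩ := exists_traceMatrix (P := A[X]) (K := K) (L := L) b
  have hdT : d = T.det := by
    apply hinjK
    rw [hd, RingHom.map_det]
    congr 1
    ext i j
    simp [hT i j]
  have hd0 : d ≠ 0 := fun h => hπd (h ▸ dvd_zero _)
  -- a prime factor of `d` in `𝔪`
  obtain ⟨f, hfmem, hf𝔪⟩ : ∃ f ∈ UniqueFactorizationMonoid.factors d, f ∈ 𝔪 := by
    have hassoc := UniqueFactorizationMonoid.factors_prod hd0
    have hprod : (UniqueFactorizationMonoid.factors d).prod ∈ 𝔪 :=
      Ideal.mem_of_dvd _ hassoc.symm.dvd hd𝔪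
    exact (h𝔪prime.multiset_prod_mem_iff_exists_mem _).mp hprod
  have hfprime : Prime f := UniqueFactorizationMonoid.prime_of_factor f hfmem
  have hfd : f ∣ d := UniqueFactorizationMonoid.dvd_of_mem_factors hfmem
  have hfπ : ¬ C π ∣ f := fun h => hπd (h.trans hfd)
  have hfdeg : 0 < f.natDegree := natDegree_pos_of_prime_not_dvd hπ f hfprime hfπ
  have hfS : ∀ c ∈ S, ¬ Associated f (X - C c) := by
    intro c hc hassoc
    exact hS c hc (Ideal.mem_of_dvd _ hassoc.dvd hf𝔪)
  have hfr : ¬ f ∣ r := fun h => hr𝔪 (Ideal.mem_of_dvd _ h hf𝔪)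
  have hπprime : Prime (C π : A[X]) := by
    have : Prime π := hπ.prime
    exact (Polynomial.prime_C_iff).mpr this
  have hfπ' : ¬ f ∣ C π := by
    intro h
    have hassoc : Associated f (C π) := hfprime.associated_of_dvd hπprime h
    exact hfπ hassoc.symm.dvd
  have hfπk : ∀ k : ℕ, ¬ f ∣ (C π) ^ k := fun k h => hfπ' (hfprime.dvd_of_dvd_pow h)
  have hchar : ∀ m : ℕ, m ≠ 0 → ¬ f ∣ (m : A[X]) := by
    intro m hm hdvd
    have hm0 : (m : A[X]) ≠ 0 := by exact_mod_cast hm
    have := natDegree_le_of_dvd hdvd hm0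
    simp at this
    omega
  -- kernel vector of the trace matrix modulo `f`
  haveI : (Ideal.span {f} : Ideal A[X]).IsPrime :=
    (Ideal.span_singleton_prime hfprime.ne_zero).mpr hfprime
  let q := Ideal.Quotient.mk (Ideal.span {f} : Ideal A[X])
  have hdetbar : (T.map q).det = 0 := by
    rw [← RingHom.mapMatrix_apply, ← RingHom.map_det]
    rw [← hdT]
    exact Ideal.Quotient.eq_zero_iff_mem.mpr (Ideal.mem_span_singleton.mpr hfd)
  obtain ⟨vbar, hvbar0, hvbar⟩ := Matrix.exists_vecMul_eq_zero_iff.mpr hdetbar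
  have hsurj : ∀ i, ∃ v : A[X], q v = vbar i := fun i => Ideal.Quotient.mk_surjective (vbar i)
  choose v hv using hsurj
  have hvf : ∀ j, f ∣ ∑ i, v i * T i j := by
    intro j
    have h1 := congrFun hvbar j
    simp only [Matrix.vecMul, dotProduct, Matrix.map_apply, Pi.zero_apply] at h1
    have h2 : q (∑ i, v i * T i j) = 0 := by
      rw [map_sum, ← h1]
      refine Finset.sum_congr rfl (fun i _ => ?_)
      rw [map_mul, hv i]
    exact Ideal.mem_span_singleton.mp (Ideal.Quotient.eq_zero_iff_mem.mp h2)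
  have hvnot : ∃ i, ¬ f ∣ v i := by
    by_contra hall
    simp only [not_exists, not_not] at hall
    apply hvbar0
    funext i
    rw [← hv i]
    exact Ideal.Quotient.eq_zero_iff_mem.mpr (Ideal.mem_span_singleton.mpr (hall i))
  -- the element `x`
  let x : B := ∑ i, algebraMap A[X] B (v i) * b i
  have htrx : ∀ j, Algebra.trace K L (algebraMap B L (x * b j)) =
      algebraMap A[X] K (∑ i, v i * T i j) := by
    intro j
    simp only [x]
    rw [Finset.sum_mul, map_sum, map_sum, map_sum]
    refine Finset.sum_congr rfl (fun i _ => ?_)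
    rw [mul_assoc, trace_algebraMap_mul, ← hT i j, ← map_mul]
  have hxtr : ∀ y : B, ∃ t : A[X], f ∣ t ∧
      algebraMap A[X] K t = Algebra.trace K L (algebraMap B L (x * y)) := by
    intro y
    have hint : IsIntegral A[X] (Algebra.trace K L (algebraMap B L (x * y))) :=
      Algebra.isIntegral_trace
        ((Algebra.IsIntegral.isIntegral (x * y)).map (IsScalarTower.toAlgHom A[X] B L))
    obtain ⟨t, ht⟩ := IsIntegrallyClosed.isIntegral_iff.mp hint
    refine ⟨t, ?_, ht⟩
    obtain ⟨c, hc⟩ := hr y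
    -- `r * t = ∑ j, c j * ∑ i, v i * T i j`
    have hrt : r * t = ∑ j, c j * ∑ i, v i * T i j := by
      apply hinjK
      rw [map_mul, ht, ← trace_algebraMap_mul]
      have h1 : algebraMap A[X] B r * (x * y) = ∑ j, algebraMap A[X] B (c j) * (x * b j) := by
        rw [mul_left_comm, hc, Finset.mul_sum]
        refine Finset.sum_congr rfl (fun j _ => ?_)
        ring
      rw [h1, map_sum, map_sum, map_sum]
      refine Finset.sum_congr rfl (fun j _ => ?_)
      rw [trace_algebraMap_mul, htrx j, ← map_mul]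
    have h2 : f ∣ r * t := by
      rw [hrt]
      exact Finset.dvd_sum (fun j _ => Dvd.dvd.mul_left (hvf j) _)
    exact (hfprime.dvd_or_dvd h2).resolve_left hfr
  have hxmem : ∀ 𝔮 : Ideal B, 𝔮.IsPrime →
      𝔮.comap (algebraMap A[X] B) = Ideal.span {f} → x ∈ 𝔮 := by
    intro 𝔮 h𝔮 h𝔮f
    exact mem_prime_of_trace_mul_mem (P := A[X]) (K := K) (L := L) hBL f hchar x hxtr 𝔮 h𝔮f
  obtain ⟨k, z, hz⟩ := hunr f hfprime.irreducible hfdeg hfS x hxmem
  obtain ⟨e, he⟩ := hr z
  -- compare coefficients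
  have hcoef : (fun i => r * (C π) ^ k * v i - f * e i) = 0 := by
    apply coeff_eq_zero_of_discr_ne_zero (P := A[X]) (K := K) (L := L) b T hT (hdT ▸ hd0)
    have h1 : ∑ i, algebraMap A[X] B (r * (C π) ^ k * v i - f * e i) * b i =
        algebraMap A[X] B r * (algebraMap A[X] B (C π) ^ k * x) -
          algebraMap A[X] B f * (algebraMap A[X] B r * z) := by
      rw [he, Finset.mul_sum]
      simp only [Finset.mul_sum, ← Finset.sum_sub_distrib]
      refine Finset.sum_congr rfl (fun i _ => ?_)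
      simp only [map_sub, map_mul, map_pow]
      ring
    rw [h1, hz]
    ring
  obtain ⟨i₀, hi₀⟩ := hvnot
  have h3 := congrFun hcoef i₀
  simp only [Pi.zero_apply, sub_eq_zero] at h3
  have h4 : f ∣ r * (C π) ^ k * v i₀ := ⟨e i₀, h3⟩
  rcases hfprime.dvd_or_dvd h4 with h5 | h5
  · rcases hfprime.dvd_or_dvd h5 with h6 | h6
    · exact hfr h6
    · exact hfπk k h6
  · exact hi₀ h5

end PolynomialBase

end Fermat.Agent.INJ
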