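import Mathlib

/-!
# (INJ) piece A3, part 2: base change of the discriminant along a "presentation"

A *presentation* of an `R`-algebra `C` is a finite `R`-linearly independent family `b : ι → C`
together with `s : R` such that `s • C ⊆ ⊕ R b i`.  For every `R`-field `k` in which `s` is
invertible, `k ⊗[R] C` is then free with basis `1 ⊗ b i`, and the discriminant of this basis is
`φ(s)^{-r} φ(D)` where `D ∈ R` is the determinant of the `s`-scaled trace matrix.
-/

set_option autoImplicit false
set_option linter.style.haveILetI false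
set_option linter.unusedSectionVars false

namespace Fermat.Agent.INJ

open Module TensorProduct

variable {R : Type*} {C : Type*} [CommRing R] [CommRing C] [Algebra R C]
variable {ι : Type*} [Fintype ι] [DecidableEq ι]

/-- `b` is `R`-linearly independent and `s • C` lies in its span. -/
structure IsPresentation (b : ι → C) (s : R) : Prop where
  indep : LinearIndependent R b
  span : ∀ x : C, s • x ∈ Submodule.span R (Set.range b)

namespace IsPresentation

variable {b : ι → C} {s : R} (P : IsPresentation b s)

/-- the coordinates of `s • x` in the family `b` -/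
noncomputable def coord : C →ₗ[R] (ι → R) :=
  (Basis.span P.indep).equivFun.toLinearMap ∘ₗ
    LinearMap.codRestrict (Submodule.span R (Set.range b)) (s • LinearMap.id) P.span

theorem sum_coord (x : C) : ∑ i, P.coord x i • b i = s • x := by
  have h := (Basis.span P.indep).sum_equivFun
    (⟨s • x, P.span x⟩ : Submodule.span R (Set.range b))
  have h2 := congrArg (Submodule.subtype _) h
  rw [map_sum] at h2
  simp only [map_smul, Submodule.subtype_apply, Basis.span_apply] at h2
  exact h2

theorem coord_unique (x : C) (a : ι → R) (h : ∑ i, a i • b i = s • x) : P.coord x = a := by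
  have h1 := P.sum_coord x
  rw [← h] at h1
  have h3 : ∑ i, (P.coord x i - a i) • b i = 0 := by
    simp only [sub_smul, Finset.sum_sub_distrib, h1, sub_self]
  have := Fintype.linearIndependent_iff.mp P.indep _ h3
  funext i
  exact sub_eq_zero.mp (this i)

theorem coord_basis (i : ι) : P.coord (b i) = Pi.single i s := by
  apply P.coord_unique
  rw [Finset.sum_eq_single i]
  · simp
  · intro j _ hj
    simp [Pi.single_eq_of_ne hj]
  · intro h; exact absurd (Finset.mem_univ i) h

/-- the `s`-scaled trace -/
noncomputable def strace (x : C) : R := ∑ j, P.coord (x * b j) j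

/-- the `s`-scaled discriminant -/
noncomputable def sdisc : R := Matrix.det (Matrix.of fun i j => P.strace (b i * b j))

section field

variable (k : Type*) [Field k] [Algebra R k]

/-- coordinates on the fibre -/
noncomputable def fibreCoord : (k ⊗[R] C) →ₗ[k] (ι → k) :=
  (algebraMap R k s)⁻¹ •
    ((TensorProduct.piScalarRight R k k ι).toLinearMap ∘ₗ (P.coord.baseChange k))

theorem fibreCoord_tmul (a : k) (x : C) (i : ι) :
    P.fibreCoord k (a ⊗ₜ[R] x) i = (algebraMap R k s)⁻¹ * (a * algebraMap R k (P.coord x i)) := by
  simp only [fibreCoord, LinearMap.smul_apply, LinearMap.coe_comp, LinearEquiv.coe_coe,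
    Function.comp_apply, LinearMap.baseChange_tmul, TensorProduct.piScalarRight_apply,
    TensorProduct.piScalarRightHom_tmul, Pi.smul_apply, smul_eq_mul]
  congr 1
  rw [Algebra.smul_def, mul_comm]

/-- the inverse of `fibreCoord` -/
noncomputable def fibreComb (b : ι → C) : (ι → k) →ₗ[k] (k ⊗[R] C) :=
  Fintype.linearCombination k (fun i => (1 : k) ⊗ₜ[R] b i)

variable {k}

/-- the fibre is free on `1 ⊗ b i` -/
noncomputable def fibreEquiv (hs : algebraMap R k s ≠ 0) : (k ⊗[R] C) ≃ₗ[k] (ι → k) :=
  LinearEquiv.ofLinearMap (P.fibreCoord k) (fibreComb k b)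
    (by
      apply LinearMap.ext
      intro v
      funext i
      simp only [LinearMap.coe_comp, Function.comp_apply, LinearMap.id_coe, id_eq, fibreComb,
        Fintype.linearCombination_apply, map_sum, map_smul, Finset.sum_apply, Pi.smul_apply,
        smul_eq_mul, fibreCoord_tmul, coord_basis, one_mul]
      rw [Finset.sum_eq_single i]
      · simp only [Pi.single_eq_same]
        field_simp
      · intro j _ hj
        simp [Pi.single_eq_of_ne (Ne.symm hj)]
      · intro h; exact absurd (Finset.mem_univ i) h)
    (by
      apply TensorProduct.AlgebraTensorModule.ext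
      intro a x
      simp only [LinearMap.coe_comp, Function.comp_apply, LinearMap.id_coe, id_eq, fibreComb,
        Fintype.linearCombination_apply, fibreCoord_tmul]
      have h1 : ∀ i, ((algebraMap R k s)⁻¹ * (a * algebraMap R k (P.coord x i))) • ((1 : k) ⊗ₜ[R] b i)
          = ((algebraMap R k s)⁻¹ * a) • ((1 : k) ⊗ₜ[R] (P.coord x i • b i)) := by
        intro i
        rw [TensorProduct.tmul_smul, TensorProduct.smul_tmul', TensorProduct.smul_tmul',
          TensorProduct.smul_tmul', smul_eq_mul, smul_eq_mul, Algebra.smul_def]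
        congr 1
        ring
      simp only [h1]
      rw [← Finset.smul_sum, ← TensorProduct.tmul_sum, P.sum_coord, TensorProduct.tmul_smul,
        TensorProduct.smul_tmul', TensorProduct.smul_tmul', smul_eq_mul, Algebra.smul_def]
      congr 1
      field_simp)

/-- the basis `1 ⊗ b i` of the fibre -/
noncomputable def fibreBasis (hs : algebraMap R k s ≠ 0) : Basis ι k (k ⊗[R] C) :=
  Basis.ofEquivFun (P.fibreEquiv hs)

theorem fibreBasis_apply (hs : algebraMap R k s ≠ 0) (i : ι) :
    P.fibreBasis hs i = (1 : k) ⊗ₜ[R] b i := by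
  rw [fibreBasis, Basis.coe_ofEquivFun]
  change (P.fibreEquiv hs).symm (Pi.single i 1) = _
  change fibreComb k b (Pi.single i 1) = _
  simp [fibreComb]

theorem fibreBasis_repr_tmul (hs : algebraMap R k s ≠ 0) (a : k) (x : C) (i : ι) :
    (P.fibreBasis hs).repr (a ⊗ₜ[R] x) i
      = (algebraMap R k s)⁻¹ * (a * algebraMap R k (P.coord x i)) := by
  rw [fibreBasis, Basis.ofEquivFun_repr_apply]
  exact P.fibreCoord_tmul k a x i

theorem tmul_eq_zero_iff (hs : algebraMap R k s ≠ 0) (x : C) :
    (1 : k) ⊗ₜ[R] x = 0 ↔ ∀ i, algebraMap R k (P.coord x i) = 0 := by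
  rw [← (P.fibreBasis hs).repr.map_eq_zero_iff]
  constructor
  · intro h i
    have := DFunLike.congr_fun h i
    rw [fibreBasis_repr_tmul, Finsupp.zero_apply, one_mul] at this
    exact (mul_eq_zero.mp this).resolve_left (inv_ne_zero hs)
  · intro h
    ext i
    rw [fibreBasis_repr_tmul, h i]
    simp

theorem trace_tmul (hs : algebraMap R k s ≠ 0) (x : C) :
    Algebra.trace k (k ⊗[R] C) ((1 : k) ⊗ₜ[R] x)
      = (algebraMap R k s)⁻¹ * algebraMap R k (P.strace x) := by
  rw [Algebra.trace_eq_matrix_trace (P.fibreBasis hs), Matrix.trace, strace, map_sum,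
    Finset.mul_sum]
  refine Finset.sum_congr rfl fun j _ => ?_
  rw [Matrix.diag_apply, Algebra.leftMulMatrix_eq_repr_mul, fibreBasis_apply,
    Algebra.TensorProduct.tmul_mul_tmul, one_mul, fibreBasis_repr_tmul, one_mul]

theorem det_traceMatrix (hs : algebraMap R k s ≠ 0) :
    (LinearMap.BilinForm.toMatrix (P.fibreBasis hs) (Algebra.traceForm k (k ⊗[R] C))).det
      = ((algebraMap R k s)⁻¹) ^ Fintype.card ι * algebraMap R k P.sdisc := by
  have h : LinearMap.BilinForm.toMatrix (P.fibreBasis hs) (Algebra.traceForm k (k ⊗[R] C))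
      = (algebraMap R k s)⁻¹ • (algebraMap R k).mapMatrix
          (Matrix.of fun i j => P.strace (b i * b j)) := by
    ext i j
    rw [Algebra.traceForm_toMatrix, fibreBasis_apply, fibreBasis_apply,
      Algebra.TensorProduct.tmul_mul_tmul, one_mul, trace_tmul P hs]
    simp
  rw [h, Matrix.det_smul, sdisc, RingHom.map_det]

/-- **Base change of the discriminant**: the trace form of the fibre `k ⊗ C` is nondegenerate
iff the image of the scaled discriminant is nonzero. -/
theorem traceForm_nondegenerate_iff (hs : algebraMap R k s ≠ 0) :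
    (Algebra.traceForm k (k ⊗[R] C)).Nondegenerate ↔ algebraMap R k P.sdisc ≠ 0 := by
  rw [LinearMap.BilinForm.nondegenerate_iff_det_ne_zero (P.fibreBasis hs), det_traceMatrix P hs]
  constructor
  · intro h h0
    exact h (by rw [h0, mul_zero])
  · intro h
    exact mul_ne_zero (pow_ne_zero _ (inv_ne_zero hs)) h

end field

end IsPresentation

end Fermat.Agent.INJ
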