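import Mathlib.RingTheory.Trace.Basic
import Mathlib.RingTheory.Artinian.Module
import Mathlib.LinearAlgebra.Trace

/-!
# (INJ) backup route (G-abs), piece DS-C0: the radical of the trace form is nil (char. 0)

`ds_isNilpotent_of_trace_mul_eq_zero`: `V` a finite-dimensional commutative algebra over a field
`E` of characteristic `0`; if `Tr (x * y) = 0` for all `y`, then `x` is nilpotent.

Proof (Fitting): for `k` large, `V = ker (x ^ k) ⊔ x ^ k • V`; write `1 = e₀ + e` accordingly.
Multiplication by `e` is a projection onto `x ^ k • V`, so `Tr e = dim (x ^ k • V)`; but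
`e ∈ x • V`, so `Tr e = 0`, hence `x ^ k • V = 0` and `x ^ k = 0`.
-/

set_option autoImplicit false

namespace Fermat.Agent.INJ

open LinearMap

theorem ds_isNilpotent_of_trace_mul_eq_zero {E V : Type*} [Field E] [CharZero E] [CommRing V]
    [Algebra E V] [Module.Finite E V] (x : V)
    (hx : ∀ y : V, Algebra.trace E V (x * y) = 0) : IsNilpotent x := by
  classical
  set f : Module.End E V := LinearMap.mulLeft E x with hf
  have hfpow : ∀ (n : ℕ) (v : V), (f ^ n) v = x ^ n * v := by
    intro n v
    induction n generalizing v with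
    | zero => simp
    | succ n ih =>
      rw [pow_succ, Module.End.mul_apply, ih, hf, LinearMap.mulLeft_apply, pow_succ]
      ring
  obtain ⟨N, hN⟩ := Filter.eventually_atTop.mp f.eventually_codisjoint_ker_pow_range_pow
  set k := N + 1 with hk
  have hcod : Codisjoint (LinearMap.ker (f ^ k)) (LinearMap.range (f ^ k)) :=
    hN k (Nat.le_succ N)
  have h1 : (1 : V) ∈ LinearMap.ker (f ^ k) ⊔ LinearMap.range (f ^ k) := by
    rw [codisjoint_iff.mp hcod]
    trivial
  obtain ⟨e₀, he₀, e, he, hsum⟩ := Submodule.mem_sup.mp h1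
  obtain ⟨y₀, hy₀⟩ := he
  rw [hfpow] at hy₀
  have he₀' : x ^ k * e₀ = 0 := by
    have := LinearMap.mem_ker.mp he₀
    rwa [hfpow] at this
  -- multiplication by `e` is a projection onto the range of `x ^ k`
  have hproj : LinearMap.IsProj (LinearMap.range (f ^ k)) (LinearMap.mulLeft E e) := by
    refine ⟨fun v => ?_, fun v hv => ?_⟩
    · refine ⟨y₀ * v, ?_⟩
      rw [hfpow, LinearMap.mulLeft_apply, ← hy₀, mul_assoc]
    · obtain ⟨w, rfl⟩ := hv
      rw [hfpow, LinearMap.mulLeft_apply]
      have he' : e = 1 - e₀ := by rw [← hsum]; ring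
      rw [he']
      have : e₀ * (x ^ k * w) = (x ^ k * e₀) * w := by ring
      rw [sub_mul, one_mul, this, he₀', zero_mul, sub_zero]
  have htr : LinearMap.trace E V (LinearMap.mulLeft E e)
      = (Module.finrank E (LinearMap.range (f ^ k)) : E) := hproj.trace
  have htr0 : LinearMap.trace E V (LinearMap.mulLeft E e) = 0 := by
    have h2 := hx (x ^ N * y₀)
    have h3 : x * (x ^ N * y₀) = e := by
      rw [← hy₀, hk, pow_succ]
      ring
    rw [h3] at h2
    exact h2
  rw [htr0] at htr
  have hrank : Module.finrank E (LinearMap.range (f ^ k)) = 0 := by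
    exact_mod_cast htr.symm
  have hbot : LinearMap.range (f ^ k) = ⊥ := by
    rw [← Submodule.finrank_eq_zero]
    exact hrank
  refine ⟨k, ?_⟩
  have h4 : x ^ k * 1 ∈ LinearMap.range (f ^ k) := ⟨1, hfpow k 1⟩
  rw [hbot, Submodule.mem_bot, mul_one] at h4
  exact h4

end Fermat.Agent.INJ
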