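import Mathlib

/-!
# (G-abs) / DS-corank: the corank of the reduction of a matrix bounds the order of its determinant

`𝒪` a commutative ring, `τ ∈ 𝒪` a prime element, `φ : 𝒪 → κ` a surjection onto a field with
kernel `(τ)`.  If the reduction `M̄` of a square matrix `M` kills a subspace `W` of dimension `k`,
then `τ ^ k ∣ det M`.
-/

set_option autoImplicit false

open Matrix

namespace Fermat.Agent.INJ

variable {𝒪 κ : Type*} [CommRing 𝒪] [Field κ]

/-- the first vectors of `Basis.sumExtend` are the given ones -/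
theorem ds_sumExtend_inl {K V ι : Type*} [DivisionRing K] [AddCommGroup V] [Module K V]
    {v : ι → V} (hv : LinearIndependent K v) (i : ι) :
    Module.Basis.sumExtend hv (Sum.inl i) = v i := by
  unfold Module.Basis.sumExtend
  simp only [Module.Basis.reindex_apply, Equiv.symm_symm, Module.Basis.coe_extend]
  rfl

/-- A matrix whose columns `j ∈ S` are divisible by `τ` has determinant divisible by
`τ ^ #S`. -/
theorem ds_pow_card_dvd_det_of_cols {ι : Type*} [Fintype ι] [DecidableEq ι] (τ : 𝒪)
    (N : Matrix ι ι 𝒪) (S : Finset ι) (h : ∀ i, ∀ j ∈ S, τ ∣ N i j) :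
    τ ^ S.card ∣ N.det := by
  classical
  choose! q hq using h
  set N' : Matrix ι ι 𝒪 := fun i j => if j ∈ S then q i j else N i j with hN'
  set Dg : ι → 𝒪 := fun j => if j ∈ S then τ else 1 with hDg
  have hmul : N = N' * Matrix.diagonal Dg := by
    ext i j
    rw [Matrix.mul_diagonal]
    by_cases hj : j ∈ S
    · simp only [hN', hDg, if_pos hj]
      rw [hq i j hj, mul_comm]
    · simp only [hN', hDg, if_neg hj, mul_one]
  have hprod : ∏ j, Dg j = τ ^ S.card := by
    simp only [hDg]
    rw [Finset.prod_ite_mem Finset.univ S (fun _ => τ)]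
    simp
  rw [hmul, Matrix.det_mul, Matrix.det_diagonal, hprod]
  exact Dvd.intro_left _ rfl

/-- **Corank lemma.** If the reduction of `M` modulo the prime `τ` kills a `k`-dimensional
subspace, then `τ ^ k ∣ det M`. -/
theorem ds_pow_finrank_dvd_det [IsDomain 𝒪] (φ : 𝒪 →+* κ) (hφ : Function.Surjective φ) {τ : 𝒪}
    (hτ : Prime τ) (hτ0 : φ τ = 0) (hker : ∀ a, φ a = 0 → τ ∣ a)
    {ι : Type*} [Fintype ι] [DecidableEq ι] (M : Matrix ι ι 𝒪)
    (W : Submodule κ (ι → κ)) (hW : ∀ w ∈ W, (M.map φ) *ᵥ w = 0) :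
    τ ^ Module.finrank κ W ∣ M.det := by
  classical
  -- a basis of `W`, viewed in `ι → κ`
  set k := Module.finrank κ W with hk
  let bW : Module.Basis (Fin k) κ W := Module.finBasis κ W
  let v : Fin k → (ι → κ) := fun i => (bW i : ι → κ)
  have hv : LinearIndependent κ v := by
    have := bW.linearIndependent
    exact this.map' W.subtype (Submodule.ker_subtype W)
  have hvW : ∀ i, v i ∈ W := fun i => (bW i).2
  -- extend to a basis of `ι → κ`
  let B₀ := Module.Basis.sumExtend hv
  have : Finite (Fin k ⊕ Module.Basis.sumExtendIndex hv) :=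
    (Module.Finite.finite_basis B₀)
  let _ : Fintype (Fin k ⊕ Module.Basis.sumExtendIndex hv) := Fintype.ofFinite _
  have hcard : Fintype.card (Fin k ⊕ Module.Basis.sumExtendIndex hv) = Fintype.card ι := by
    have h1 := Module.finrank_eq_card_basis B₀
    have h2 := Module.finrank_eq_card_basis (Pi.basisFun κ ι)
    rw [← h1, h2]
  let e : (Fin k ⊕ Module.Basis.sumExtendIndex hv) ≃ ι := Fintype.equivOfCardEq hcard
  let B : Module.Basis ι κ (ι → κ) := B₀.reindex e
  have hB : ∀ i : Fin k, B (e (Sum.inl i)) = v i := by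
    intro i
    simp only [B, Module.Basis.reindex_apply, Equiv.symm_apply_apply]
    exact ds_sumExtend_inl hv i
  -- the matrix of `B` and a lift to `𝒪`
  set Pbar : Matrix ι ι κ := (Pi.basisFun κ ι).toMatrix B with hPbar
  have hPbar_apply : ∀ i j, Pbar i j = B j i := by
    intro i j
    simp [hPbar, Module.Basis.toMatrix_apply]
  have hPbar_det : Pbar.det ≠ 0 := by
    have : IsUnit Pbar.det := by
      have h := (Pi.basisFun κ ι).invertibleToMatrix B
      exact (Matrix.isUnit_iff_isUnit_det _).mp (isUnit_of_invertible _)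
    exact this.ne_zero
  choose P hP using fun i j => hφ (Pbar i j)
  let P' : Matrix ι ι 𝒪 := Matrix.of P
  have hP' : P'.map φ = Pbar := by
    ext i j
    simp [P', hP]
  have hdetP : ¬ τ ∣ P'.det := by
    intro hdiv
    obtain ⟨c, hc⟩ := hdiv
    have : φ P'.det = 0 := by rw [hc, map_mul, hτ0, zero_mul]
    rw [RingHom.map_det, RingHom.mapMatrix_apply, hP'] at this
    exact hPbar_det this
  -- columns of `M * P'` indexed by `e (inl i)` are divisible by `τ`
  let S : Finset ι := Finset.univ.image (fun i : Fin k => e (Sum.inl i))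
  have hScard : S.card = k := by
    rw [Finset.card_image_of_injective]
    · simp
    · intro a b hab
      exact Sum.inl_injective (e.injective hab)
  have hcols : ∀ i, ∀ j ∈ S, τ ∣ (M * P') i j := by
    intro i j hj
    obtain ⟨a, -, rfl⟩ := Finset.mem_image.mp hj
    apply hker
    have h1 : φ ((M * P') i (e (Sum.inl a))) = ((M.map φ) * (P'.map φ)) i (e (Sum.inl a)) := by
      rw [← Matrix.map_mul]
      rfl
    rw [h1, hP']
    have h2 : ((M.map φ) * Pbar) i (e (Sum.inl a)) = ((M.map φ) *ᵥ (v a)) i := by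
      simp only [Matrix.mul_apply, Matrix.mulVec, dotProduct]
      refine Finset.sum_congr rfl (fun x _ => ?_)
      rw [hPbar_apply, hB]
    rw [h2, hW _ (hvW a)]
    rfl
  have hdvd := ds_pow_card_dvd_det_of_cols τ (M * P') S hcols
  rw [hScard, Matrix.det_mul] at hdvd
  exact hτ.pow_dvd_of_dvd_mul_right _ hdetP hdvd

/-- common denominators: a finite family of elements of a field generated by fractions of `𝒪` -/
theorem ds_common_denom (φ : 𝒪 →+* κ)
    (hfrac : ∀ a : κ, ∃ p q : 𝒪, φ q ≠ 0 ∧ φ q * a = φ p)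
    {α : Type*} [Fintype α] (a : α → κ) :
    ∃ q : 𝒪, φ q ≠ 0 ∧ ∀ i, ∃ p : 𝒪, φ q * a i = φ p := by
  classical
  choose p q hq hpq using fun i => hfrac (a i)
  refine ⟨∏ i, q i, ?_, fun i => ⟨(∏ j ∈ Finset.univ.erase i, q j) * p i, ?_⟩⟩
  · rw [map_prod]
    exact Finset.prod_ne_zero_iff.mpr (fun i _ => hq i)
  · rw [← Finset.prod_erase_mul Finset.univ q (Finset.mem_univ i), map_mul, map_mul, mul_assoc,
      hpq i]

/-- **Corank lemma, fraction version.** `φ : 𝒪 → κ` need not be surjective; it is enough that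
`κ` is generated by fractions of `𝒪`. -/
theorem ds_pow_finrank_dvd_det_frac [IsDomain 𝒪] (φ : 𝒪 →+* κ)
    (hfrac : ∀ a : κ, ∃ p q : 𝒪, φ q ≠ 0 ∧ φ q * a = φ p) {τ : 𝒪}
    (hτ : Prime τ) (hτ0 : φ τ = 0) (hker : ∀ a, φ a = 0 → τ ∣ a)
    {ι : Type*} [Fintype ι] [DecidableEq ι] (M : Matrix ι ι 𝒪)
    (W : Submodule κ (ι → κ)) (hW : ∀ w ∈ W, (M.map φ) *ᵥ w = 0) :
    τ ^ Module.finrank κ W ∣ M.det := by
  classical
  set k := Module.finrank κ W with hk
  let bW : Module.Basis (Fin k) κ W := Module.finBasis κ W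
  let v : Fin k → (ι → κ) := fun i => (bW i : ι → κ)
  have hv : LinearIndependent κ v := by
    have := bW.linearIndependent
    exact this.map' W.subtype (Submodule.ker_subtype W)
  have hvW : ∀ i, v i ∈ W := fun i => (bW i).2
  let B₀ := Module.Basis.sumExtend hv
  have : Finite (Fin k ⊕ Module.Basis.sumExtendIndex hv) :=
    (Module.Finite.finite_basis B₀)
  let _ : Fintype (Fin k ⊕ Module.Basis.sumExtendIndex hv) := Fintype.ofFinite _
  have hcard : Fintype.card (Fin k ⊕ Module.Basis.sumExtendIndex hv) = Fintype.card ι := by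
    have h1 := Module.finrank_eq_card_basis B₀
    have h2 := Module.finrank_eq_card_basis (Pi.basisFun κ ι)
    rw [← h1, h2]
  let e : (Fin k ⊕ Module.Basis.sumExtendIndex hv) ≃ ι := Fintype.equivOfCardEq hcard
  let B : Module.Basis ι κ (ι → κ) := B₀.reindex e
  have hB : ∀ i : Fin k, B (e (Sum.inl i)) = v i := by
    intro i
    simp only [B, Module.Basis.reindex_apply, Equiv.symm_apply_apply]
    exact ds_sumExtend_inl hv i
  set Pbar : Matrix ι ι κ := (Pi.basisFun κ ι).toMatrix B with hPbar
  have hPbar_apply : ∀ i j, Pbar i j = B j i := by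
    intro i j
    simp [hPbar, Module.Basis.toMatrix_apply]
  have hPbar_det : Pbar.det ≠ 0 := by
    have : IsUnit Pbar.det := by
      have h := (Pi.basisFun κ ι).invertibleToMatrix B
      exact (Matrix.isUnit_iff_isUnit_det _).mp (isUnit_of_invertible _)
    exact this.ne_zero
  -- clear denominators
  obtain ⟨q, hq, hqP⟩ := ds_common_denom φ hfrac (fun ij : ι × ι => Pbar ij.1 ij.2)
  choose P hP using fun i j => hqP (i, j)
  let P' : Matrix ι ι 𝒪 := Matrix.of P
  have hP' : P'.map φ = φ q • Pbar := by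
    ext i j
    simp only [P', Matrix.map_apply, Matrix.of_apply, Matrix.smul_apply, smul_eq_mul]
    exact (hP i j).symm
  have hdetP : ¬ τ ∣ P'.det := by
    intro hdiv
    obtain ⟨c, hc⟩ := hdiv
    have h0 : φ P'.det = 0 := by rw [hc, map_mul, hτ0, zero_mul]
    rw [RingHom.map_det, RingHom.mapMatrix_apply, hP', Matrix.det_smul] at h0
    exact mul_ne_zero (pow_ne_zero _ hq) hPbar_det h0
  let S : Finset ι := Finset.univ.image (fun i : Fin k => e (Sum.inl i))
  have hScard : S.card = k := by
    rw [Finset.card_image_of_injective]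
    · simp
    · intro a b hab
      exact Sum.inl_injective (e.injective hab)
  have hcols : ∀ i, ∀ j ∈ S, τ ∣ (M * P') i j := by
    intro i j hj
    obtain ⟨a, -, rfl⟩ := Finset.mem_image.mp hj
    apply hker
    have h1 : φ ((M * P') i (e (Sum.inl a))) = ((M.map φ) * (P'.map φ)) i (e (Sum.inl a)) := by
      rw [← Matrix.map_mul]
      rfl
    rw [h1, hP']
    have h2 : ((M.map φ) * (φ q • Pbar)) i (e (Sum.inl a)) = φ q * ((M.map φ) *ᵥ (v a)) i := by
      rw [Matrix.mul_smul, Matrix.smul_apply, smul_eq_mul]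
      congr 1
      simp only [Matrix.mul_apply, Matrix.mulVec, dotProduct]
      refine Finset.sum_congr rfl (fun x _ => ?_)
      rw [hPbar_apply, hB]
    rw [h2, hW _ (hvW a)]
    simp
  have hdvd := ds_pow_card_dvd_det_of_cols τ (M * P') S hcols
  rw [hScard, Matrix.det_mul] at hdvd
  exact hτ.pow_dvd_of_dvd_mul_right _ hdetP hdvd

end Fermat.Agent.INJ
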