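import Fermat.Agent.INJ.DiscSmoothCorank

/-!
# (G-abs) / DS-core: normality from a discriminant count

`𝒪` a domain, `τ ∈ 𝒪` a prime element with residue field `κ`, `A` a finite free `𝒪`-algebra.
**If the order of the discriminant of `A` at `τ` is at most the dimension of the nilradical of
the fibre `κ ⊗ A`** (it is always at least that), then `A` is "normal at `τ`": every injective
`𝒪`-algebra map `A → A'` into a finite free `𝒪`-algebra of the same rank is an isomorphism
locally at `τ` (`ds_core`, `ds_core_exists`).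

Proof: `disc A = det(f)² · disc A'`, `ord det f ≥ dim ker f̄`, `ord disc A' ≥ dim nil(κ ⊗ A')`
(the trace form kills nilpotents) and `dim nil(κ ⊗ A') ≥ dim nil(κ ⊗ A) − dim ker f̄`.
-/

set_option autoImplicit false
set_option linter.style.haveILetI false
set_option linter.unusedSectionVars false

open Matrix TensorProduct

namespace Fermat.Agent.INJ

section trace

variable {𝒪 A A' : Type*} [CommRing 𝒪] [IsDomain 𝒪] [CommRing A] [CommRing A']
  [Algebra 𝒪 A] [Algebra 𝒪 A'] {ι : Type*} [Fintype ι] [DecidableEq ι]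

/-- the matrix of an injective linear map between free modules of the same finite rank over a
domain has nonzero determinant -/
theorem ds_det_toMatrix_ne_zero (b : Module.Basis ι 𝒪 A) (b' : Module.Basis ι 𝒪 A')
    (f : A →ₗ[𝒪] A') (hf : Function.Injective f) : (LinearMap.toMatrix b b' f).det ≠ 0 := by
  intro h0
  obtain ⟨v, hv0, hv⟩ := Matrix.exists_mulVec_eq_zero_iff.mpr h0
  apply hv0
  set x : A := b.equivFun.symm v with hx
  have hxv : b.equivFun x = v := b.equivFun.apply_symm_apply v
  have h1 : f x = 0 := by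
    apply b'.equivFun.injective
    rw [map_zero]
    have := LinearMap.toMatrix_mulVec_repr b b' f x
    change (LinearMap.toMatrix b b' f) *ᵥ (b.equivFun x) = b'.equivFun (f x) at this
    rw [← this, hxv, hv]
  have h2 : x = 0 := hf (by rw [h1, map_zero])
  rw [← hxv, h2, map_zero]

/-- an injective algebra map between finite free algebras of the same rank over a domain preserves
traces -/
theorem ds_trace_eq (b : Module.Basis ι 𝒪 A) (b' : Module.Basis ι 𝒪 A')
    (f : A →ₐ[𝒪] A') (hf : Function.Injective f) (a : A) :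
    Algebra.trace 𝒪 A' (f a) = Algebra.trace 𝒪 A a := by
  set M := LinearMap.toMatrix b b' f.toLinearMap with hM
  have hdet : M.det ≠ 0 := ds_det_toMatrix_ne_zero b b' f.toLinearMap hf
  have hcomm : M * Algebra.leftMulMatrix b a = Algebra.leftMulMatrix b' (f a) * M := by
    rw [hM, Algebra.leftMulMatrix_apply, Algebra.leftMulMatrix_apply, ← LinearMap.toMatrix_comp,
      ← LinearMap.toMatrix_comp]
    congr 1
    ext x
    simp
  rw [Algebra.trace_eq_matrix_trace b, Algebra.trace_eq_matrix_trace b']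
  have h1 : M.det • (Algebra.leftMulMatrix b' (f a)).trace
      = M.det • (Algebra.leftMulMatrix b a).trace := by
    have e1 : (Algebra.leftMulMatrix b' (f a) * M * M.adjugate).trace
        = M.det • (Algebra.leftMulMatrix b' (f a)).trace := by
      rw [Matrix.mul_assoc, Matrix.mul_adjugate, Matrix.mul_smul, Matrix.mul_one,
        Matrix.trace_smul]
    have e2 : (M * Algebra.leftMulMatrix b a * M.adjugate).trace
        = M.det • (Algebra.leftMulMatrix b a).trace := by
      rw [Matrix.trace_mul_comm, ← Matrix.mul_assoc, Matrix.adjugate_mul, Matrix.smul_mul,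
        Matrix.one_mul, Matrix.trace_smul]
    rw [← e1, ← e2, hcomm]
  exact mul_left_cancel₀ hdet h1

/-- the discriminants of `b` and `b'` differ by the square of the determinant of `f` -/
theorem ds_discr_eq (b : Module.Basis ι 𝒪 A) (b' : Module.Basis ι 𝒪 A')
    (f : A →ₐ[𝒪] A') (hf : Function.Injective f) :
    Algebra.discr 𝒪 b = (LinearMap.toMatrix b b' f.toLinearMap).det ^ 2 * Algebra.discr 𝒪 b' := by
  set M := LinearMap.toMatrix b b' f.toLinearMap with hM
  rw [← Algebra.discr_of_matrix_vecMul (⇑b') M]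
  have hfb : (⇑b' ᵥ* M.map (algebraMap 𝒪 A')) = fun j => f (b j) := by
    funext j
    simp only [Matrix.vecMul, dotProduct, Matrix.map_apply, hM, LinearMap.toMatrix_apply]
    have := b'.sum_repr (f (b j))
    rw [← this]
    refine Finset.sum_congr rfl (fun i _ => ?_)
    simp [Algebra.smul_def, mul_comm]
  rw [hfb]
  have hT : Algebra.traceMatrix 𝒪 (fun j => f (b j)) = Algebra.traceMatrix 𝒪 (⇑b) := by
    ext i j
    simp only [Algebra.traceMatrix_apply, Algebra.traceForm_apply]
    rw [← map_mul, ds_trace_eq b b' f hf]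
  rw [Algebra.discr_def, Algebra.discr_def, hT]

end trace


section basechange

variable {𝒪 : Type*} [CommRing 𝒪] (κ : Type*) [Field κ] [Algebra 𝒪 κ]
  {A : Type*} [CommRing A] [Algebra 𝒪 A] {ι : Type*} [Fintype ι] [DecidableEq ι]

/-- trace of `1 ⊗ x` on the base change of a finite free algebra -/
theorem ds_trace_one_tmul (b : Module.Basis ι 𝒪 A) (x : A) :
    Algebra.trace κ (κ ⊗[𝒪] A) ((1 : κ) ⊗ₜ[𝒪] x) = algebraMap 𝒪 κ (Algebra.trace 𝒪 A x) := by
  haveI : Module.Free 𝒪 A := Module.Free.of_basis b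
  haveI : Module.Finite 𝒪 A := Module.Finite.of_basis b
  rw [Algebra.trace_apply, Algebra.trace_apply, ← LinearMap.trace_baseChange]
  congr 1
  apply TensorProduct.AlgebraTensorModule.curry_injective
  ext y
  simp

/-- the Gram matrix of the trace form of the fibre is the reduction of the Gram matrix -/
theorem ds_traceMatrix_baseChange (b : Module.Basis ι 𝒪 A) :
    Algebra.traceMatrix κ (Algebra.TensorProduct.basis κ b) = (Algebra.traceMatrix 𝒪 b).map (algebraMap 𝒪 κ) := by
  ext i j
  simp only [Algebra.traceMatrix_apply, Algebra.traceForm_apply, Matrix.map_apply,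
    Algebra.TensorProduct.basis_apply, Algebra.TensorProduct.tmul_mul_tmul, mul_one]
  exact ds_trace_one_tmul κ b _

/-- the reduced Gram matrix kills the coordinates of nilpotent elements -/
theorem ds_traceMatrix_mulVec_of_isNilpotent (b : Module.Basis ι 𝒪 A) (v : κ ⊗[𝒪] A)
    (hv : IsNilpotent v) :
    ((Algebra.traceMatrix 𝒪 b).map (algebraMap 𝒪 κ)) *ᵥ ((Algebra.TensorProduct.basis κ b).equivFun v) = 0 := by
  rw [← ds_traceMatrix_baseChange]
  funext i
  simp only [Matrix.mulVec, dotProduct, Algebra.traceMatrix_apply, Algebra.traceForm_apply,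
    Pi.zero_apply, Module.Basis.equivFun_apply]
  have h1 : ∑ j, Algebra.trace κ (κ ⊗[𝒪] A) (Algebra.TensorProduct.basis κ b i * Algebra.TensorProduct.basis κ b j)
      * (Algebra.TensorProduct.basis κ b).repr v j = Algebra.trace κ (κ ⊗[𝒪] A) (Algebra.TensorProduct.basis κ b i * v) := by
    conv_rhs => rw [← (Algebra.TensorProduct.basis κ b).sum_repr v]
    rw [Finset.mul_sum, map_sum]
    refine Finset.sum_congr rfl (fun j _ => ?_)
    rw [mul_smul_comm, map_smul, smul_eq_mul, mul_comm]
  rw [h1]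
  have h2 : IsNilpotent (Algebra.TensorProduct.basis κ b i * v) := (Commute.all _ _).isNilpotent_mul_left hv
  exact (Algebra.isNilpotent_trace_of_isNilpotent h2).eq_zero


/-- kernel form of the corank lemma for a linear map between free modules -/
theorem ds_pow_finrank_ker_dvd_det [IsDomain 𝒪] {τ : 𝒪} (hτ : Prime τ)
    (hκ : Function.Surjective (algebraMap 𝒪 κ))
    (hker : ∀ a : 𝒪, algebraMap 𝒪 κ a = 0 ↔ τ ∣ a)
    {A' : Type*} [CommRing A'] [Algebra 𝒪 A']
    (b : Module.Basis ι 𝒪 A) (b' : Module.Basis ι 𝒪 A') (g : A →ₗ[𝒪] A') :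
    τ ^ Module.finrank κ (LinearMap.ker (g.baseChange κ)) ∣ (LinearMap.toMatrix b b' g).det := by
  set W : Submodule κ (ι → κ) :=
    (LinearMap.ker (g.baseChange κ)).map (Algebra.TensorProduct.basis κ b).equivFun.toLinearMap with hW
  have hfr : Module.finrank κ W = Module.finrank κ (LinearMap.ker (g.baseChange κ)) :=
    LinearEquiv.finrank_map_eq _ _
  rw [← hfr]
  refine ds_pow_finrank_dvd_det (algebraMap 𝒪 κ) hκ hτ ((hker τ).mpr dvd_rfl)
    (fun a ha => (hker a).mp ha) _ W ?_
  rintro w ⟨v, hv, rfl⟩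
  have h1 := LinearMap.toMatrix_mulVec_repr (Algebra.TensorProduct.basis κ b) (Algebra.TensorProduct.basis κ b')
    (g.baseChange κ) v
  rw [LinearMap.toMatrix_baseChange] at h1
  change _ *ᵥ ((Algebra.TensorProduct.basis κ b).equivFun v) = _
  change _ *ᵥ ((Algebra.TensorProduct.basis κ b).equivFun v) = (Algebra.TensorProduct.basis κ b').equivFun _ at h1
  rw [h1, LinearMap.mem_ker.mp hv, map_zero]

/-- the order of the discriminant is at least the dimension of the nilradical of the fibre -/
theorem ds_pow_finrank_nilradical_dvd_discr [IsDomain 𝒪] {τ : 𝒪} (hτ : Prime τ)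
    (hκ : Function.Surjective (algebraMap 𝒪 κ))
    (hker : ∀ a : 𝒪, algebraMap 𝒪 κ a = 0 ↔ τ ∣ a)
    (b : Module.Basis ι 𝒪 A) :
    τ ^ Module.finrank κ ((nilradical (κ ⊗[𝒪] A)).restrictScalars κ) ∣ Algebra.discr 𝒪 b := by
  set W : Submodule κ (ι → κ) :=
    ((nilradical (κ ⊗[𝒪] A)).restrictScalars κ).map (Algebra.TensorProduct.basis κ b).equivFun.toLinearMap with hW
  have hfr : Module.finrank κ W
      = Module.finrank κ ((nilradical (κ ⊗[𝒪] A)).restrictScalars κ) :=
    LinearEquiv.finrank_map_eq _ _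
  rw [← hfr, Algebra.discr_def]
  refine ds_pow_finrank_dvd_det (algebraMap 𝒪 κ) hκ hτ ((hker τ).mpr dvd_rfl)
    (fun a ha => (hker a).mp ha) _ W ?_
  rintro w ⟨v, hv, rfl⟩
  exact ds_traceMatrix_mulVec_of_isNilpotent κ b v (mem_nilradical.mp hv)

end basechange

section core

variable {𝒪 : Type*} [CommRing 𝒪] [IsDomain 𝒪] (κ : Type*) [Field κ] [Algebra 𝒪 κ]
  {A A' : Type*} [CommRing A] [Algebra 𝒪 A] [CommRing A'] [Algebra 𝒪 A']
  {ι : Type*} [Fintype ι] [DecidableEq ι]

/-- nilpotents of the fibre of `A` map to nilpotents of the fibre of `A'` -/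
theorem ds_finrank_nilradical_le (b : Module.Basis ι 𝒪 A) (b' : Module.Basis ι 𝒪 A')
    (f : A →ₐ[𝒪] A') :
    Module.finrank κ ((nilradical (κ ⊗[𝒪] A)).restrictScalars κ)
      ≤ Module.finrank κ ((nilradical (κ ⊗[𝒪] A')).restrictScalars κ)
        + Module.finrank κ (LinearMap.ker (f.toLinearMap.baseChange κ)) := by
  haveI : Module.Finite κ (κ ⊗[𝒪] A) := Module.Finite.of_basis (Algebra.TensorProduct.basis κ b)
  haveI : Module.Finite κ (κ ⊗[𝒪] A') := Module.Finite.of_basis (Algebra.TensorProduct.basis κ b')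
  set N := (nilradical (κ ⊗[𝒪] A)).restrictScalars κ with hN
  set N' := (nilradical (κ ⊗[𝒪] A')).restrictScalars κ with hN'
  set g : (κ ⊗[𝒪] A) →ₗ[κ] (κ ⊗[𝒪] A') := f.toLinearMap.baseChange κ with hg
  -- `g` is multiplicative
  have hgalg : ∀ v : κ ⊗[𝒪] A, g v = Algebra.TensorProduct.map (AlgHom.id κ κ) f v := by
    intro v
    induction v using TensorProduct.induction_on with
    | zero => simp
    | tmul c x => simp [hg]
    | add x y hx hy => rw [map_add, map_add, hx, hy]
  have hmap : ∀ v ∈ N, g v ∈ N' := by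
    intro v hv
    rw [hN', Submodule.restrictScalars_mem, mem_nilradical, hgalg]
    rw [hN, Submodule.restrictScalars_mem, mem_nilradical] at hv
    exact hv.map _
  let gN : N →ₗ[κ] N' := (g.domRestrict N).codRestrict N' (fun v => hmap v v.2)
  have h1 := LinearMap.finrank_range_add_finrank_ker gN
  have h2 : Module.finrank κ (LinearMap.range gN) ≤ Module.finrank κ N' :=
    Submodule.finrank_le _
  have h3 : Module.finrank κ (LinearMap.ker gN) ≤ Module.finrank κ (LinearMap.ker g) := by
    let j : LinearMap.ker gN →ₗ[κ] LinearMap.ker g :=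
      LinearMap.codRestrict (LinearMap.ker g) (N.subtype ∘ₗ (LinearMap.ker gN).subtype)
        (fun v => by
          have h4 : ((gN v.1 : N') : κ ⊗[𝒪] A') = 0 := by
            rw [LinearMap.mem_ker.mp v.2]; rfl
          rw [LinearMap.mem_ker]
          exact h4)
    have hj : Function.Injective j := by
      intro v w hvw
      have := congrArg (Subtype.val) hvw
      simp only [j, LinearMap.codRestrict_apply, LinearMap.coe_comp, Function.comp_apply,
        Submodule.subtype_apply] at this
      exact Subtype.ext (Subtype.ext this)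
    exact LinearMap.finrank_le_finrank_of_injective hj
  omega

/-- **(G-abs), core.** If `ord_τ disc(A) ≤ dim nil(κ ⊗ A)`, then every injective algebra map
`f : A → A'` into a finite free algebra of the same rank has `τ ∤ det f`. -/
theorem ds_core {τ : 𝒪} (hτ : Prime τ)
    (hκ : Function.Surjective (algebraMap 𝒪 κ))
    (hker : ∀ a : 𝒪, algebraMap 𝒪 κ a = 0 ↔ τ ∣ a)
    (b : Module.Basis ι 𝒪 A) (b' : Module.Basis ι 𝒪 A')
    (f : A →ₐ[𝒪] A') (hf : Function.Injective f)
    (hd : ¬ τ ^ (Module.finrank κ ((nilradical (κ ⊗[𝒪] A)).restrictScalars κ) + 1)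
        ∣ Algebra.discr 𝒪 b) :
    ¬ τ ∣ (LinearMap.toMatrix b b' f.toLinearMap).det := by
  intro hdiv
  apply hd
  set M := LinearMap.toMatrix b b' f.toLinearMap with hM
  set c := Module.finrank κ (LinearMap.ker (f.toLinearMap.baseChange κ)) with hc
  set n := Module.finrank κ ((nilradical (κ ⊗[𝒪] A)).restrictScalars κ) with hn
  set n' := Module.finrank κ ((nilradical (κ ⊗[𝒪] A')).restrictScalars κ) with hn'
  have h1 : τ ^ c ∣ M.det := ds_pow_finrank_ker_dvd_det κ hτ hκ hker b b' f.toLinearMap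
  have h2 : τ ^ n' ∣ Algebra.discr 𝒪 b' := ds_pow_finrank_nilradical_dvd_discr κ hτ hκ hker b'
  have h3 : n ≤ n' + c := ds_finrank_nilradical_le κ b b' f
  have h4 : τ ^ (max c 1) ∣ M.det := by
    rcases Nat.lt_or_ge c 1 with hc1 | hc1
    · rw [max_eq_right hc1.le, pow_one]; exact hdiv
    · rw [max_eq_left hc1]; exact h1
  rw [ds_discr_eq b b' f hf]
  have h5 : τ ^ (2 * max c 1 + n') ∣ M.det ^ 2 * Algebra.discr 𝒪 b' := by
    rw [pow_add, pow_mul']
    exact mul_dvd_mul (pow_dvd_pow_of_dvd h4 2) h2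
  refine (pow_dvd_pow τ ?_).trans h5
  have : c ≤ max c 1 := le_max_left _ _
  have : 1 ≤ max c 1 := le_max_right _ _
  omega

/-- **(G-abs), core, element form**: `A'` is contained in `A` after inverting an element
prime to `τ`. -/
theorem ds_core_exists {τ : 𝒪} (hτ : Prime τ)
    (hκ : Function.Surjective (algebraMap 𝒪 κ))
    (hker : ∀ a : 𝒪, algebraMap 𝒪 κ a = 0 ↔ τ ∣ a)
    (b : Module.Basis ι 𝒪 A) (b' : Module.Basis ι 𝒪 A')
    (f : A →ₐ[𝒪] A') (hf : Function.Injective f)
    (hd : ¬ τ ^ (Module.finrank κ ((nilradical (κ ⊗[𝒪] A)).restrictScalars κ) + 1)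
        ∣ Algebra.discr 𝒪 b) :
    ∃ s : 𝒪, ¬ τ ∣ s ∧ ∀ y : A', ∃ x : A, f x = s • y := by
  set M := LinearMap.toMatrix b b' f.toLinearMap with hM
  refine ⟨M.det, ds_core κ hτ hκ hker b b' f hf hd, fun y => ?_⟩
  -- `x` has coordinates `adj(M) * coords(y)`
  refine ⟨b.equivFun.symm (M.adjugate *ᵥ (b'.equivFun y)), ?_⟩
  apply b'.equivFun.injective
  have h1 := LinearMap.toMatrix_mulVec_repr b b' f.toLinearMap
    (b.equivFun.symm (M.adjugate *ᵥ (b'.equivFun y)))
  change M *ᵥ (b.equivFun (b.equivFun.symm (M.adjugate *ᵥ (b'.equivFun y))))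
    = b'.equivFun (f _) at h1
  rw [← h1, LinearEquiv.apply_symm_apply, Matrix.mulVec_mulVec, Matrix.mul_adjugate,
    Matrix.smul_mulVec, Matrix.one_mulVec, map_smul]

end core

end Fermat.Agent.INJ
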