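import Fermat.Agent.INJ.DiscSmoothCorank
import Fermat.Agent.INJ.DiscSmoothC0
import Fermat.Agent.INJ.DiscPresentation

/-!
# (INJ) G-abs, piece DS-F2a: the exponent of `τ` in the scaled discriminant

For a presentation `P : IsPresentation b s` of `C` over a domain `R`, a prime `τ ∤ s` and a
characteristic-zero field `E ⊇ R / τ` generated by fractions: if `C` satisfies the trace-dual
criterion `(hT)` for `τ`-divisibility, then `v_τ(sdisc) ≤ dim_E nil(E ⊗ C)`.
-/

set_option autoImplicit false
set_option linter.style.haveILetI false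
set_option linter.unusedSectionVars false

open TensorProduct Matrix

namespace Fermat.Agent.INJ

namespace IsPresentation

variable {R : Type*} {C : Type*} [CommRing R] [CommRing C] [Algebra R C]
variable {ι : Type*} [Fintype ι] [DecidableEq ι]
variable {b : ι → C} {s : R} (P : IsPresentation b s)

/-- the scaled trace as a linear map -/
noncomputable def straceLin : C →ₗ[R] R where
  toFun := P.strace
  map_add' x y := by
    simp only [strace, add_mul, map_add, Pi.add_apply, Finset.sum_add_distrib]
  map_smul' r x := by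
    simp only [strace, smul_mul_assoc, map_smul, Pi.smul_apply, smul_eq_mul, RingHom.id_apply,
      Finset.mul_sum]

theorem straceLin_apply (x : C) : P.straceLin x = P.strace x := rfl

/-- the Gram matrix of the scaled trace -/
noncomputable def sgram : Matrix ι ι R := Matrix.of fun i j => P.strace (b i * b j)

theorem sdisc_eq_det_sgram : P.sdisc = P.sgram.det := rfl

theorem strace_comb_mul (v : ι → R) (c : C) :
    P.strace ((∑ i, v i • b i) * c) = ∑ i, v i * P.strace (b i * c) := by
  rw [← straceLin_apply, Finset.sum_mul, map_sum]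
  refine Finset.sum_congr rfl fun i _ => ?_
  rw [smul_mul_assoc, map_smul, smul_eq_mul, straceLin_apply]

theorem strace_comb_mul_basis (v : ι → R) (k : ι) :
    P.strace ((∑ i, v i • b i) * b k) = (P.sgram *ᵥ v) k := by
  rw [strace_comb_mul]
  simp only [Matrix.mulVec, dotProduct, sgram, Matrix.of_apply]
  refine Finset.sum_congr rfl fun i _ => ?_
  rw [mul_comm (b k) (b i), mul_comm]

theorem smul_strace_mul (z c : C) :
    s * P.strace (z * c) = ∑ k, P.coord c k * P.strace (z * b k) := by
  have h1 : P.strace (z * (s • c)) = s * P.strace (z * c) := by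
    rw [mul_smul_comm, ← straceLin_apply, map_smul, smul_eq_mul, straceLin_apply]
  rw [← h1, ← P.sum_coord c, Finset.mul_sum, ← straceLin_apply, map_sum]
  refine Finset.sum_congr rfl fun k _ => ?_
  rw [mul_smul_comm, map_smul, smul_eq_mul, straceLin_apply]

theorem coord_comb (v : ι → R) : P.coord (∑ i, v i • b i) = fun i => s * v i := by
  apply P.coord_unique
  rw [Finset.smul_sum]
  refine Finset.sum_congr rfl fun i _ => ?_
  rw [mul_smul]

/-- **Key induction**: under `(hT)`, `τ ^ (t + 1) ∣ sdisc` implies `τ ^ t ∣ adj(G)`. -/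
theorem pow_dvd_adjugate [IsDomain R] {τ : R} (hτ : Prime τ) (hsτ : ¬ τ ∣ s)
    (hT : ∀ z : C, (∀ c : C, τ ^ 2 ∣ P.strace (z * c)) → algebraMap R C τ ∣ z) :
    ∀ t : ℕ, τ ^ (t + 1) ∣ P.sdisc → ∀ i j, τ ^ t ∣ P.sgram.adjugate i j := by
  intro t
  induction t with
  | zero => intro _ i j; simp
  | succ t ih =>
    intro hd i j
    have ih' := ih ((pow_dvd_pow τ (Nat.le_succ _)).trans hd)
    choose v' hv' using fun i => ih' i j
    obtain ⟨q, hq⟩ := hd
    -- `G *ᵥ v' = τ² q e_j`
    have hGv : ∀ k, (P.sgram *ᵥ v') k = τ ^ 2 * q * (if k = j then 1 else 0) := by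
      intro k
      have h1 : (P.sgram * P.sgram.adjugate) k j = P.sdisc * (if k = j then 1 else 0) := by
        rw [Matrix.mul_adjugate, sdisc_eq_det_sgram, Matrix.smul_apply, Matrix.one_apply,
          smul_eq_mul]
      have h2 : (P.sgram * P.sgram.adjugate) k j = τ ^ t * (P.sgram *ᵥ v') k := by
        simp only [Matrix.mul_apply, Matrix.mulVec, dotProduct, Finset.mul_sum]
        refine Finset.sum_congr rfl fun x _ => ?_
        rw [hv' x]; ring
      have h3 : τ ^ t * (P.sgram *ᵥ v') k = τ ^ t * (τ ^ 2 * q * (if k = j then 1 else 0)) := by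
        rw [← h2, h1, hq]; ring
      exact mul_left_cancel₀ (pow_ne_zero _ hτ.ne_zero) h3
    set z' : C := ∑ i, v' i • b i with hz'
    have hzb : ∀ k, τ ^ 2 ∣ P.strace (z' * b k) := by
      intro k
      rw [hz', strace_comb_mul_basis, hGv, mul_assoc]
      exact dvd_mul_right _ _
    have hzc : ∀ c : C, τ ^ 2 ∣ P.strace (z' * c) := by
      intro c
      have h1 : τ ^ 2 ∣ s * P.strace (z' * c) := by
        rw [P.smul_strace_mul]
        exact Finset.dvd_sum fun k _ => Dvd.dvd.mul_left (hzb k) _
      exact hτ.pow_dvd_of_dvd_mul_left 2 hsτ h1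
    obtain ⟨w, hw⟩ := hT z' hzc
    have h1 : P.coord z' = fun i => s * v' i := P.coord_comb v'
    have h2 : P.coord z' = τ • P.coord w := by
      rw [hw, ← Algebra.smul_def, map_smul]
    have h3 : s * v' i = τ * P.coord w i := by
      have := congrFun (h1.symm.trans h2) i
      simpa using this
    have h4 : τ ∣ v' i := by
      have : τ ∣ s * v' i := ⟨_, h3⟩
      exact (hτ.dvd_or_dvd this).resolve_left hsτ
    obtain ⟨y, hy⟩ := h4
    refine ⟨y, ?_⟩
    rw [hv' i, hy]; ring

/-- the Gram matrix is symmetric -/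
theorem sgram_symm (i j : ι) : P.sgram i j = P.sgram j i := by
  simp only [sgram, Matrix.of_apply, mul_comm (b i) (b j)]

/-- the kernel of the reduced Gram matrix injects into the nilradical of the fibre
(characteristic zero) -/
theorem finrank_ker_sgram_le (E : Type*) [Field E] [CharZero E] [Algebra R E]
    (hs : algebraMap R E s ≠ 0) :
    Module.finrank E (LinearMap.ker (Matrix.mulVecLin (P.sgram.map (algebraMap R E))))
      ≤ Module.finrank E ((nilradical (E ⊗[R] C)).restrictScalars E) := by
  classical
  haveI : Module.Finite E (E ⊗[R] C) := Module.Finite.of_basis (P.fibreBasis hs)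
  set W := LinearMap.ker (Matrix.mulVecLin (P.sgram.map (algebraMap R E))) with hW
  set f : (ι → E) ≃ₗ[E] E ⊗[R] C := (P.fibreBasis hs).equivFun.symm with hf
  have hmap : W.map f.toLinearMap ≤ (nilradical (E ⊗[R] C)).restrictScalars E := by
    rintro x ⟨w, hw, rfl⟩
    rw [Submodule.restrictScalars_mem, mem_nilradical]
    apply ds_isNilpotent_of_trace_mul_eq_zero (E := E)
    intro y
    have hL : (Algebra.trace E (E ⊗[R] C)) ∘ₗ (LinearMap.mulLeft E (f w)) = 0 := by
      apply (P.fibreBasis hs).ext
      intro i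
      rw [LinearMap.comp_apply, LinearMap.mulLeft_apply, LinearMap.zero_apply]
      have hfw : f w = ∑ j, w j • P.fibreBasis hs j := by
        rw [hf, Module.Basis.equivFun_symm_apply]
      rw [hfw, Finset.sum_mul, map_sum]
      have hw' : (P.sgram.map (algebraMap R E)) *ᵥ w = 0 := hw
      have hwi := congrFun hw' i
      simp only [Matrix.mulVec, dotProduct, Matrix.map_apply, Pi.zero_apply] at hwi
      have : ∀ j, Algebra.trace E (E ⊗[R] C) (w j • P.fibreBasis hs j * P.fibreBasis hs i)
          = (algebraMap R E s)⁻¹ * (algebraMap R E (P.sgram i j) * w j) := by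
        intro j
        rw [smul_mul_assoc, map_smul, fibreBasis_apply, fibreBasis_apply,
          Algebra.TensorProduct.tmul_mul_tmul, one_mul, P.trace_tmul hs, smul_eq_mul,
          sgram_symm]
        simp only [sgram, Matrix.of_apply]
        ring
      rw [Finset.sum_congr rfl fun j _ => this j, ← Finset.mul_sum, hwi, mul_zero]
    have := LinearMap.congr_fun hL y
    simpa using this
  calc Module.finrank E W = Module.finrank E (W.map f.toLinearMap) :=
        (LinearEquiv.finrank_map_eq f W).symm
    _ ≤ _ := Submodule.finrank_mono hmap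

/-- **DS-F2a.**  Under `(hT)` (the trace-dual criterion for `τ`-divisibility) the exponent of `τ`
in the scaled discriminant is at most the dimension of the nilradical of the generic fibre of
`C / τ`. -/
theorem ds_sdisc_of_hT [IsDomain R] [WfDvdMonoid R] {τ : R} (hτ : Prime τ) (hsτ : ¬ τ ∣ s)
    (hd : P.sdisc ≠ 0)
    (E : Type*) [Field E] [CharZero E] [Algebra R E]
    (hE : RingHom.ker (algebraMap R E) = Ideal.span {τ})
    (hfrac : ∀ a : E, ∃ p q : R, algebraMap R E q ≠ 0 ∧ algebraMap R E q * a = algebraMap R E p)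
    (hT : ∀ z : C, (∀ c : C, τ ^ 2 ∣ P.strace (z * c)) → algebraMap R C τ ∣ z) :
    ¬ τ ^ (Module.finrank E ((nilradical (E ⊗[R] C)).restrictScalars E) + 1) ∣ P.sdisc := by
  classical
  intro hdiv
  set ν := Module.finrank E ((nilradical (E ⊗[R] C)).restrictScalars E) with hν
  have hker : ∀ a, algebraMap R E a = 0 → τ ∣ a := by
    intro a ha
    have h1 : a ∈ RingHom.ker (algebraMap R E) := ha
    rw [hE] at h1
    exact Ideal.mem_span_singleton.mp h1
  have hτ0 : algebraMap R E τ = 0 := by
    have h1 : τ ∈ RingHom.ker (algebraMap R E) := by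
      rw [hE]; exact Ideal.mem_span_singleton_self τ
    exact h1
  have hs : algebraMap R E s ≠ 0 := fun h => hsτ (hker s h)
  -- the exact exponent
  have hfin : FiniteMultiplicity τ P.sdisc := FiniteMultiplicity.of_not_isUnit hτ.not_isUnit hd
  obtain ⟨u, hu, hτu⟩ := hfin.exists_eq_pow_mul_and_not_dvd
  have ha1 : ν + 1 ≤ multiplicity τ P.sdisc := hfin.le_multiplicity_of_pow_dvd hdiv
  obtain ⟨a', ha'⟩ : ∃ a', multiplicity τ P.sdisc = a' + 1 :=
    ⟨multiplicity τ P.sdisc - 1, by omega⟩
  rw [ha'] at hu ha1
  have hνa : ν ≤ a' := by omega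
  -- divide the adjugate by `τ ^ a'`
  have hadj := P.pow_dvd_adjugate hτ hsτ hT a' ⟨u, hu⟩
  choose G' hG' using hadj
  -- `G * G' = (τ * u) • 1`
  have hGG : P.sgram * (Matrix.of G') = (τ * u) • (1 : Matrix ι ι R) := by
    ext i j
    have h1 : (P.sgram * P.sgram.adjugate) i j = P.sdisc * (if i = j then 1 else 0) := by
      rw [Matrix.mul_adjugate, sdisc_eq_det_sgram, Matrix.smul_apply, Matrix.one_apply,
        smul_eq_mul]
    have h2 : (P.sgram * P.sgram.adjugate) i j = τ ^ a' * (P.sgram * Matrix.of G') i j := by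
      simp only [Matrix.mul_apply, Matrix.of_apply, Finset.mul_sum]
      refine Finset.sum_congr rfl fun x _ => ?_
      rw [hG' x j]; ring
    have h3 : τ ^ a' * (P.sgram * Matrix.of G') i j
        = τ ^ a' * ((τ * u) • (1 : Matrix ι ι R)) i j := by
      rw [← h2, h1, hu, Matrix.smul_apply, Matrix.one_apply, smul_eq_mul]; ring
    exact mul_left_cancel₀ (pow_ne_zero _ hτ.ne_zero) h3
  -- determinants
  have hdet : P.sdisc * (Matrix.of G').det = (τ * u) ^ Fintype.card ι := by
    have := congrArg Matrix.det hGG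
    rw [Matrix.det_mul, Matrix.det_smul, Matrix.det_one, mul_one] at this
    rw [sdisc_eq_det_sgram]; exact this
  -- reduce modulo `τ`
  have hGG0 : (P.sgram.map (algebraMap R E)) * ((Matrix.of G').map (algebraMap R E)) = 0 := by
    rw [← Matrix.map_mul, hGG]
    ext i j
    simp only [Matrix.map_apply, Matrix.smul_apply, Matrix.one_apply, smul_eq_mul,
      Matrix.zero_apply]
    split_ifs
    · rw [mul_one, map_mul, hτ0, zero_mul]
    · rw [mul_zero, map_zero]
  set W' := LinearMap.ker (Matrix.mulVecLin ((Matrix.of G').map (algebraMap R E))) with hW'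
  set W := LinearMap.ker (Matrix.mulVecLin (P.sgram.map (algebraMap R E))) with hW
  have hcor : τ ^ Module.finrank E W' ∣ (Matrix.of G').det :=
    ds_pow_finrank_dvd_det_frac (algebraMap R E) hfrac hτ hτ0 hker (Matrix.of G') W'
      (fun w hw => hw)
  have hrange : LinearMap.range (Matrix.mulVecLin ((Matrix.of G').map (algebraMap R E))) ≤ W := by
    rintro x ⟨y, rfl⟩
    rw [hW, LinearMap.mem_ker, Matrix.mulVecLin_apply, Matrix.mulVecLin_apply,
      Matrix.mulVec_mulVec, hGG0, Matrix.zero_mulVec]
  have hrn := LinearMap.finrank_range_add_finrank_ker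
    (Matrix.mulVecLin ((Matrix.of G').map (algebraMap R E)))
  rw [Module.finrank_pi (R := E) (ι := ι)] at hrn
  have hWle : Module.finrank E W ≤ ν := P.finrank_ker_sgram_le E hs
  have hrle : Module.finrank E
      (LinearMap.range (Matrix.mulVecLin ((Matrix.of G').map (algebraMap R E))))
      ≤ Module.finrank E W := Submodule.finrank_mono hrange
  -- so `finrank W' + (a' + 1) > card ι`
  have hbig : Fintype.card ι + 1 ≤ Module.finrank E W' + (a' + 1) := by
    have : Module.finrank E W' =
        Module.finrank E (LinearMap.ker (Matrix.mulVecLin ((Matrix.of G').map (algebraMap R E)))) :=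
      rfl
    omega
  -- `τ ^ (card ι + 1) ∣ (τ u) ^ card ι`
  have h1 : τ ^ (Fintype.card ι + 1) ∣ (τ * u) ^ Fintype.card ι := by
    refine (pow_dvd_pow τ hbig).trans ?_
    rw [← hdet, hu, pow_add, mul_comm (τ ^ Module.finrank E W'), mul_assoc]
    obtain ⟨c, hc⟩ := hcor
    rw [hc]
    exact ⟨u * c, by ring⟩
  rw [mul_pow, pow_succ] at h1
  have h2 : τ ∣ u ^ Fintype.card ι :=
    (mul_dvd_mul_iff_left (pow_ne_zero _ hτ.ne_zero)).mp h1
  exact hτu (hτ.dvd_of_dvd_pow h2)

end IsPresentation

end Fermat.Agent.INJ
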