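import Fermat.Agent.INJ.DiscPresentation

/-!
# (G-abs) / DS-fibre: base change of a presentation to a ring in which `s` is a unit

Ring version of `IsPresentation.fibreBasis` (helper91): if `P : IsPresentation b s` and `S` is
an `R`-algebra in which `s` becomes a unit, then `S ⊗[R] C` is free over `S` with basis
`1 ⊗ b i` and the discriminant of this basis is `s⁻ʳ · (image of P.sdisc)`.
-/

set_option autoImplicit false
set_option linter.style.haveILetI false
set_option linter.unusedSectionVars false

namespace Fermat.Agent.INJ

open Module TensorProduct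

variable {R : Type*} {C : Type*} [CommRing R] [CommRing C] [Algebra R C]
variable {ι : Type*} [Fintype ι] [DecidableEq ι]

namespace IsPresentation

variable {b : ι → C} {s : R} (P : IsPresentation b s)
variable (S : Type*) [CommRing S] [Algebra R S]

/-- coordinates on the base change (ring version) -/
noncomputable def ringCoord (v : S) : (S ⊗[R] C) →ₗ[S] (ι → S) :=
  v • ((TensorProduct.piScalarRight R S S ι).toLinearMap ∘ₗ (P.coord.baseChange S))

theorem ringCoord_tmul (v : S) (a : S) (x : C) (i : ι) :
    P.ringCoord S v (a ⊗ₜ[R] x) i = v * (a * algebraMap R S (P.coord x i)) := by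
  simp only [ringCoord, LinearMap.smul_apply, LinearMap.coe_comp, LinearEquiv.coe_coe,
    Function.comp_apply, LinearMap.baseChange_tmul, TensorProduct.piScalarRight_apply,
    TensorProduct.piScalarRightHom_tmul, Pi.smul_apply, smul_eq_mul]
  congr 1
  rw [Algebra.smul_def, mul_comm]

variable {S}

/-- the base change is free on `1 ⊗ b i` -/
noncomputable def ringEquiv {v : S} (hv : v * algebraMap R S s = 1) :
    (S ⊗[R] C) ≃ₗ[S] (ι → S) :=
  LinearEquiv.ofLinearMap (P.ringCoord S v)
    (Fintype.linearCombination S (fun i => (1 : S) ⊗ₜ[R] b i))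
    (by
      apply LinearMap.ext
      intro w
      funext i
      simp only [LinearMap.coe_comp, Function.comp_apply, LinearMap.id_coe, id_eq,
        Fintype.linearCombination_apply, map_sum, map_smul, Finset.sum_apply, Pi.smul_apply,
        smul_eq_mul, ringCoord_tmul, coord_basis, one_mul]
      rw [Finset.sum_eq_single i]
      · simp only [Pi.single_eq_same]
        rw [hv, mul_one]
      · intro j _ hj
        simp [Pi.single_eq_of_ne (Ne.symm hj)]
      · intro h; exact absurd (Finset.mem_univ i) h)
    (by
      apply TensorProduct.AlgebraTensorModule.ext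
      intro a x
      simp only [LinearMap.coe_comp, Function.comp_apply, LinearMap.id_coe, id_eq,
        Fintype.linearCombination_apply, ringCoord_tmul]
      have h1 : ∀ i, (v * (a * algebraMap R S (P.coord x i))) • ((1 : S) ⊗ₜ[R] b i)
          = (v * a) • ((1 : S) ⊗ₜ[R] (P.coord x i • b i)) := by
        intro i
        rw [TensorProduct.tmul_smul, TensorProduct.smul_tmul', TensorProduct.smul_tmul',
          TensorProduct.smul_tmul', smul_eq_mul, smul_eq_mul, Algebra.smul_def]
        congr 1
        ring
      simp only [h1]
      rw [← Finset.smul_sum, ← TensorProduct.tmul_sum, P.sum_coord, TensorProduct.tmul_smul,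
        TensorProduct.smul_tmul', TensorProduct.smul_tmul', smul_eq_mul, Algebra.smul_def]
      congr 1
      calc v * a * (algebraMap R S s * 1) = a * (v * algebraMap R S s) := by ring
        _ = a := by rw [hv, mul_one])

/-- the basis `1 ⊗ b i` of the base change -/
noncomputable def ringBasis {v : S} (hv : v * algebraMap R S s = 1) : Basis ι S (S ⊗[R] C) :=
  Basis.ofEquivFun (P.ringEquiv hv)

theorem ringBasis_apply {v : S} (hv : v * algebraMap R S s = 1) (i : ι) :
    P.ringBasis hv i = (1 : S) ⊗ₜ[R] b i := by
  rw [ringBasis, Basis.coe_ofEquivFun]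
  change (P.ringEquiv hv).symm (Pi.single i 1) = _
  change Fintype.linearCombination S (fun i => (1 : S) ⊗ₜ[R] b i) (Pi.single i 1) = _
  simp

theorem ringBasis_repr_tmul {v : S} (hv : v * algebraMap R S s = 1) (a : S) (x : C) (i : ι) :
    (P.ringBasis hv).repr (a ⊗ₜ[R] x) i = v * (a * algebraMap R S (P.coord x i)) := by
  rw [ringBasis, Basis.ofEquivFun_repr_apply]
  exact P.ringCoord_tmul S v a x i

theorem ring_trace_tmul {v : S} (hv : v * algebraMap R S s = 1) (x : C) :
    Algebra.trace S (S ⊗[R] C) ((1 : S) ⊗ₜ[R] x) = v * algebraMap R S (P.strace x) := by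
  rw [Algebra.trace_eq_matrix_trace (P.ringBasis hv), Matrix.trace, strace, map_sum,
    Finset.mul_sum]
  refine Finset.sum_congr rfl fun j _ => ?_
  rw [Matrix.diag_apply, Algebra.leftMulMatrix_eq_repr_mul, ringBasis_apply,
    Algebra.TensorProduct.tmul_mul_tmul, one_mul, ringBasis_repr_tmul, one_mul]

/-- **Base change of the discriminant (ring version).** -/
theorem ring_discr {v : S} (hv : v * algebraMap R S s = 1) :
    Algebra.discr S (P.ringBasis hv) = v ^ Fintype.card ι * algebraMap R S P.sdisc := by
  have h : Algebra.traceMatrix S (P.ringBasis hv)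
      = v • (algebraMap R S).mapMatrix (Matrix.of fun i j => P.strace (b i * b j)) := by
    ext i j
    rw [Algebra.traceMatrix_apply, Algebra.traceForm_apply, ringBasis_apply, ringBasis_apply,
      Algebra.TensorProduct.tmul_mul_tmul, one_mul, ring_trace_tmul P hv]
    simp
  rw [Algebra.discr_def, h, Matrix.det_smul, sdisc, RingHom.map_det]

end IsPresentation

end Fermat.Agent.INJ
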