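import Fermat.Agent.INJ.DiscSmoothIdem
import Fermat.Agent.INJ.DiscSmoothFibre
import Fermat.Agent.INJ.DiscNakayama
import Fermat.Agent.INJ.LocDomain

/-!
# (G-abs) / DS-glue, stage A: from the discriminant of a presentation to `LocDomainAt`

`R` a domain, `π` prime with `R/π` a PID, `n = (π, τ)` a maximal ideal, `(b, s)` a presentation of
`C` with `s ≡ 1 mod π`.  If `P.sdisc ∉ (τ ^ (ν + 1), π)` where `ν = dim_{R/n} nil((R/n) ⊗ C)`,
then `LocDomainAt C π m` for every maximal ideal `m` of `C` over `n`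
(`ds_locDomainAt_of_sdisc`).  This is `ds_locDomain_fibre` applied to `(R/π) ⊗ C` over `R/π`.
-/

set_option autoImplicit false
set_option linter.style.haveILetI false
set_option linter.unusedSectionVars false

open TensorProduct

namespace Fermat.Agent.INJ

section nil

variable {κ V V' : Type*} [Field κ] [CommRing V] [CommRing V'] [Algebra κ V] [Algebra κ V']

/-- an algebra isomorphism preserves the dimension of the nilradical -/
theorem ds_finrank_nilradical_eq (e : V ≃ₐ[κ] V') :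
    Module.finrank κ ((nilradical V).restrictScalars κ)
      = Module.finrank κ ((nilradical V').restrictScalars κ) := by
  have h : ((nilradical V).restrictScalars κ).map e.toLinearEquiv.toLinearMap
      = (nilradical V').restrictScalars κ := by
    ext x
    simp only [Submodule.mem_map, Submodule.restrictScalars_mem, mem_nilradical,
      LinearEquiv.coe_coe, AlgEquiv.toLinearEquiv_apply]
    constructor
    · rintro ⟨y, hy, rfl⟩
      exact hy.map e
    · intro hx
      exact ⟨e.symm x, hx.map e.symm, e.apply_symm_apply x⟩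
  rw [← h]
  exact (LinearEquiv.finrank_map_eq e.toLinearEquiv _).symm

end nil

section glueA

variable {R : Type*} {C : Type*} [CommRing R] [IsDomain R] [CommRing C] [Algebra R C]

/-- **(G-abs), stage A.**  If the scaled discriminant of a presentation `(b, s)`, `s ≡ 1 mod π`,
is not in `(τ ^ (ν + 1), π)`, `ν = dim nil(C ⊗ R/n)`, `n = (π, τ)`, then `C / π` is a domain
locally at every maximal ideal `m` over `n`. -/
theorem ds_locDomainAt_of_sdisc
    {π : R} (hπ : Prime π) [IsPrincipalIdealRing (R ⧸ Ideal.span {π})]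
    (n : Ideal R) [n.IsMaximal] {τ : R} (hn : n = Ideal.span {π, τ}) (hτπ : ¬ π ∣ τ)
    {ι : Type*} [Fintype ι] [DecidableEq ι] {b : ι → C} {s : R} (P : IsPresentation b s)
    (hsπ : π ∣ s - 1)
    (hd : letI : Field (R ⧸ n) := Ideal.Quotient.field n
      ∀ g h : R, P.sdisc ≠
        τ ^ (Module.finrank (R ⧸ n) ((nilradical ((R ⧸ n) ⊗[R] C)).restrictScalars (R ⧸ n)) + 1) * g
          + π * h)
    (m : Ideal C) [m.IsMaximal] (hm : n.map (algebraMap R C) ≤ m) :
    LocDomainAt C (algebraMap R C π) m := by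
  classical
  letI : Field (R ⧸ n) := Ideal.Quotient.field n
  have hπn : π ∈ n := by rw [hn]; exact Ideal.subset_span (by simp)
  have hτn : τ ∈ n := by rw [hn]; exact Ideal.subset_span (by simp)
  have hle : Ideal.span {π} ≤ n := (Ideal.span_singleton_le_iff_mem _).mpr hπn
  haveI hprime : (Ideal.span {π}).IsPrime := (Ideal.span_singleton_prime hπ.ne_zero).mpr hπ
  -- the rings `𝒪 = R / π` and `κ = R / n`
  letI algκ : Algebra (R ⧸ Ideal.span {π}) (R ⧸ n) := (Ideal.Quotient.factor hle).toAlgebra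
  haveI : IsScalarTower R (R ⧸ Ideal.span {π}) (R ⧸ n) :=
    IsScalarTower.of_algebraMap_eq (fun a => rfl)
  have hκmk : ∀ a : R, algebraMap (R ⧸ Ideal.span {π}) (R ⧸ n)
      (Ideal.Quotient.mk (Ideal.span {π}) a) = Ideal.Quotient.mk n a := fun a => rfl
  set τb : R ⧸ Ideal.span {π} := Ideal.Quotient.mk _ τ with hτb
  have hτb0 : τb ≠ 0 := by
    rw [hτb, Ne, Ideal.Quotient.eq_zero_iff_mem, Ideal.mem_span_singleton]
    exact hτπ
  have hκsurj : Function.Surjective (algebraMap (R ⧸ Ideal.span {π}) (R ⧸ n)) := by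
    intro z
    obtain ⟨a, rfl⟩ := Ideal.Quotient.mk_surjective z
    exact ⟨Ideal.Quotient.mk _ a, hκmk a⟩
  have hker : ∀ a : R ⧸ Ideal.span {π},
      algebraMap (R ⧸ Ideal.span {π}) (R ⧸ n) a = 0 ↔ τb ∣ a := by
    intro a
    obtain ⟨a, rfl⟩ := Ideal.Quotient.mk_surjective a
    rw [hκmk, Ideal.Quotient.eq_zero_iff_mem, hn, Ideal.mem_span_pair]
    constructor
    · rintro ⟨x, y, hxy⟩
      refine ⟨Ideal.Quotient.mk _ y, ?_⟩
      rw [← hxy, map_add, map_mul, map_mul]
      have : Ideal.Quotient.mk (Ideal.span {π}) π = 0 :=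
        Ideal.Quotient.eq_zero_iff_mem.mpr (Ideal.mem_span_singleton_self π)
      rw [this, mul_zero, zero_add, mul_comm]
    · rintro ⟨y, hy⟩
      obtain ⟨y, rfl⟩ := Ideal.Quotient.mk_surjective y
      rw [hτb, ← map_mul, Ideal.Quotient.eq, Ideal.mem_span_singleton] at hy
      obtain ⟨x, hx⟩ := hy
      exact ⟨x, y, by linear_combination -hx⟩
  have hτbprime : Prime τb := by
    rw [← Ideal.span_singleton_prime hτb0]
    have hmax : (RingHom.ker (algebraMap (R ⧸ Ideal.span {π}) (R ⧸ n))).IsMaximal :=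
      RingHom.ker_isMaximal_of_surjective _ hκsurj
    have heq : RingHom.ker (algebraMap (R ⧸ Ideal.span {π}) (R ⧸ n)) = Ideal.span {τb} := by
      ext a
      rw [RingHom.mem_ker, hker, Ideal.mem_span_singleton]
    rw [← heq]
    exact hmax.isPrime
  -- the basis of `Ā = 𝒪 ⊗ C`
  have hv : (1 : R ⧸ Ideal.span {π}) * algebraMap R (R ⧸ Ideal.span {π}) s = 1 := by
    rw [one_mul]
    have : algebraMap R (R ⧸ Ideal.span {π}) (s - 1) = 0 :=
      Ideal.Quotient.eq_zero_iff_mem.mpr (Ideal.mem_span_singleton.mpr hsπ)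
    rw [map_sub, map_one, sub_eq_zero] at this
    exact this
  let bb := P.ringBasis hv
  have hdiscr : Algebra.discr (R ⧸ Ideal.span {π}) bb
      = Ideal.Quotient.mk (Ideal.span {π}) P.sdisc := by
    rw [P.ring_discr hv, one_pow, one_mul]; rfl
  -- the dimension of the nilradical
  have hfin := ds_finrank_nilradical_eq
    (Algebra.TensorProduct.cancelBaseChange R (R ⧸ Ideal.span {π}) (R ⧸ n) (R ⧸ n) C)
  have hd' : ¬ τb ^ (Module.finrank (R ⧸ n) ((nilradical
      ((R ⧸ n) ⊗[R ⧸ Ideal.span {π}] ((R ⧸ Ideal.span {π}) ⊗[R] C))).restrictScalars (R ⧸ n)) + 1)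
        ∣ Algebra.discr (R ⧸ Ideal.span {π}) bb := by
    rw [hfin, hdiscr]
    rintro ⟨g, hg⟩
    obtain ⟨g, rfl⟩ := Ideal.Quotient.mk_surjective g
    rw [hτb, ← map_pow, ← map_mul, Ideal.Quotient.eq, Ideal.mem_span_singleton] at hg
    obtain ⟨h, hh⟩ := hg
    exact hd g h (by linear_combination hh)
  -- apply the fibre form
  intro x y hxy
  have hxy0 : ((1 : R ⧸ Ideal.span {π}) ⊗ₜ[R] x) * ((1 : R ⧸ Ideal.span {π}) ⊗ₜ[R] y) = 0 := by
    rw [Algebra.TensorProduct.tmul_mul_tmul, one_mul]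
    exact (one_tmul_eq_zero_iff π (x * y)).mpr hxy
  obtain ⟨s', hs', U, V, hUV, hUx, hVy⟩ :=
    ds_locDomain_fibre (R ⧸ n) hτbprime hκsurj hker bb hd' _ _ hxy0
  obtain ⟨u, rfl⟩ := exists_one_tmul (Ideal.span {π}) U
  obtain ⟨v, rfl⟩ := exists_one_tmul (Ideal.span {π}) V
  obtain ⟨s₀, rfl⟩ := Ideal.Quotient.mk_surjective s'
  have hs₀ : s₀ ∉ n := by
    intro h
    apply hs'
    rw [← hker, hκmk]
    exact Ideal.Quotient.eq_zero_iff_mem.mpr h
  have hux : algebraMap R C π ∣ u * x := by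
    rw [← one_tmul_eq_zero_iff, ← hUx, Algebra.TensorProduct.tmul_mul_tmul, one_mul]
  have hvy : algebraMap R C π ∣ v * y := by
    rw [← one_tmul_eq_zero_iff, ← hVy, Algebra.TensorProduct.tmul_mul_tmul, one_mul]
  have huv : algebraMap R C π ∣ u + v - algebraMap R C s₀ := by
    rw [← one_tmul_eq_zero_iff, TensorProduct.tmul_sub, TensorProduct.tmul_add, hUV, sub_eq_zero,
      Algebra.TensorProduct.algebraMap_apply]
    rw [Algebra.algebraMap_eq_smul_one s₀, TensorProduct.tmul_smul]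
    rw [TensorProduct.smul_tmul', Algebra.smul_def, mul_one]
    rfl
  -- `s₀ ∉ m`
  have hcomap : m.comap (algebraMap R C) = n := by
    refine (Ideal.IsMaximal.eq_of_le ‹n.IsMaximal› ?_ (Ideal.le_comap_of_map_le hm)).symm
    exact Ideal.comap_ne_top _ (Ideal.IsMaximal.ne_top ‹m.IsMaximal›)
  have hs₀m : algebraMap R C s₀ ∉ m := fun h => hs₀ (by rw [← hcomap]; exact h)
  have hπm : algebraMap R C π ∈ m := hm (Ideal.mem_map_of_mem _ hπn)
  by_cases hu : u ∈ m
  · refine ⟨v, fun hv' => hs₀m ?_, Or.inr hvy⟩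
    obtain ⟨c, hc⟩ := huv
    have : algebraMap R C s₀ = u + v - algebraMap R C π * c := by rw [← hc]; ring
    rw [this]
    exact m.sub_mem (m.add_mem hu hv') (m.mul_mem_right _ hπm)
  · exact ⟨u, hu, Or.inl hux⟩

end glueA

end Fermat.Agent.INJ
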