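import Fermat.Agent.INJ.DiscSmoothCore

/-!
# (G-abs) / DS-idem: from the discriminant count to "locally a domain"

`𝒪` a PID, `τ` a prime element with residue field `κ`, `A` a finite free `𝒪`-algebra with
`ord_τ disc(A) ≤ dim_κ nil(κ ⊗ A)`.  Then `A` is locally a domain at `τ`:
`x * y = 0 → ∃ s ∉ (τ), ∃ u v, u + v = s ∧ u * x = 0 ∧ v * y = 0`  (`ds_locDomain_fibre`).

Proof: the support idempotent of `x` in `Frac(𝒪) ⊗ A` is `ε / γ` with `ε ∈ x A`, `γ ∈ 𝒪`,
`ε² = γ ε`, `ε x = γ x` (`ds_exists_quasi_idem`); apply `ds_core_exists` to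
`A → A/Ann(ε) × A/Ann(ε − γ)`.
-/

set_option autoImplicit false
set_option linter.style.haveILetI false
set_option linter.unusedSectionVars false

open Polynomial TensorProduct Matrix

namespace Fermat.Agent.INJ

section quasiIdem

variable {𝒪 A : Type*} [CommRing 𝒪] [IsDomain 𝒪] [CommRing A] [Algebra 𝒪 A]

/-- the support idempotent of `x`, with a denominator -/
theorem ds_exists_quasi_idem [IsReduced A] [Module.Finite 𝒪 A] (x : A) :
    ∃ (γ : 𝒪) (ε w : A), γ ≠ 0 ∧ ε * ε = γ • ε ∧ ε * x = γ • x ∧ ε = x * w := by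
  obtain ⟨p, hpm, hpx⟩ := (IsIntegral.of_finite 𝒪 x)
  have hp0 : p ≠ 0 := hpm.ne_zero
  obtain ⟨q, hpq, hq⟩ := p.exists_eq_pow_rootMultiplicity_mul_and_not_dvd hp0 0
  set k := p.rootMultiplicity 0 with hk
  have hγ : q.coeff 0 ≠ 0 := by
    intro h0
    apply hq
    rw [C_0, sub_zero]
    exact X_dvd_iff.mpr h0
  have hpx' : x ^ k * aeval x q = 0 := by
    have := hpx
    rw [← aeval_def, hpq, map_mul, map_pow, map_sub, aeval_X, aeval_C, map_zero, sub_zero] at this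
    exact this
  have hxq : x * aeval x q = 0 := by
    apply IsReduced.eq_zero
    refine ⟨k + 1, ?_⟩
    have : (x * aeval x q) ^ (k + 1) = (x ^ k * aeval x q) * (x * aeval x q ^ k) := by ring
    rw [this, hpx', zero_mul]
  have hqdec : aeval x q = aeval x q.divX * x + algebraMap 𝒪 A (q.coeff 0) := by
    conv_lhs => rw [← q.divX_mul_X_add]
    rw [map_add, map_mul, aeval_X, aeval_C]
  refine ⟨q.coeff 0, x * (- aeval x q.divX), - aeval x q.divX, hγ, ?_, ?_, rfl⟩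
  · -- `ε * ε = γ ε`
    have h1 : x * (aeval x q.divX * x + algebraMap 𝒪 A (q.coeff 0)) = 0 := by rw [← hqdec]; exact hxq
    rw [Algebra.smul_def]
    have : x * (- aeval x q.divX) * (x * (- aeval x q.divX))
        - algebraMap 𝒪 A (q.coeff 0) * (x * (- aeval x q.divX))
        = (aeval x q.divX) * (x * (aeval x q.divX * x + algebraMap 𝒪 A (q.coeff 0))) := by ring
    rw [← sub_eq_zero, this, h1, mul_zero]
  · have h1 : x * (aeval x q.divX * x + algebraMap 𝒪 A (q.coeff 0)) = 0 := by rw [← hqdec]; exact hxq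
    rw [Algebra.smul_def]
    have : x * (- aeval x q.divX) * x - algebraMap 𝒪 A (q.coeff 0) * x
        = - (x * (aeval x q.divX * x + algebraMap 𝒪 A (q.coeff 0))) := by ring
    rw [← sub_eq_zero, this, h1, neg_zero]

end quasiIdem

section reduced

variable {𝒪 A : Type*} [CommRing 𝒪] [IsDomain 𝒪] [CommRing A] [Algebra 𝒪 A]
  {ι : Type*} [Fintype ι] [DecidableEq ι]

/-- a finite free algebra over a domain with nonzero discriminant is reduced -/
theorem ds_isReduced_of_discr_ne_zero (b : Module.Basis ι 𝒪 A) (hd : Algebra.discr 𝒪 b ≠ 0) :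
    IsReduced A := by
  refine ⟨fun z hz => ?_⟩
  have h1 : (Algebra.traceMatrix 𝒪 b) *ᵥ (b.equivFun z) = 0 := by
    funext i
    simp only [Matrix.mulVec, dotProduct, Algebra.traceMatrix_apply, Algebra.traceForm_apply,
      Pi.zero_apply, Module.Basis.equivFun_apply]
    have h2 : ∑ j, Algebra.trace 𝒪 A (b i * b j) * b.repr z j = Algebra.trace 𝒪 A (b i * z) := by
      conv_rhs => rw [← b.sum_repr z]
      rw [Finset.mul_sum, map_sum]
      refine Finset.sum_congr rfl (fun j _ => ?_)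
      rw [mul_smul_comm, map_smul, smul_eq_mul, mul_comm]
    rw [h2]
    have h3 : IsNilpotent (b i * z) := (Commute.all _ _).isNilpotent_mul_left hz
    exact (Algebra.isNilpotent_trace_of_isNilpotent h3).eq_zero
  have h4 := Matrix.eq_zero_of_mulVec_eq_zero (by rwa [Algebra.discr_def] at hd) h1
  exact b.equivFun.map_eq_zero_iff.mp h4

end reduced

section main

variable {𝒪 : Type*} [CommRing 𝒪] [IsDomain 𝒪] [IsPrincipalIdealRing 𝒪]
  (κ : Type*) [Field κ] [Algebra 𝒪 κ]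
  {A : Type*} [CommRing A] [Algebra 𝒪 A] {ι : Type*} [Fintype ι] [DecidableEq ι]

/-- **(G-abs), fibre form.**  If `ord_τ disc(A) ≤ dim nil(κ ⊗ A)` then `A` is locally a domain
at `τ`. -/
theorem ds_locDomain_fibre {τ : 𝒪} (hτ : Prime τ)
    (hκ : Function.Surjective (algebraMap 𝒪 κ))
    (hker : ∀ a : 𝒪, algebraMap 𝒪 κ a = 0 ↔ τ ∣ a)
    (b : Module.Basis ι 𝒪 A)
    (hd : ¬ τ ^ (Module.finrank κ ((nilradical (κ ⊗[𝒪] A)).restrictScalars κ) + 1)
        ∣ Algebra.discr 𝒪 b)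
    (x y : A) (hxy : x * y = 0) :
    ∃ s : 𝒪, ¬ τ ∣ s ∧ ∃ u v : A, u + v = algebraMap 𝒪 A s ∧ u * x = 0 ∧ v * y = 0 := by
  classical
  haveI : Module.Free 𝒪 A := Module.Free.of_basis b
  haveI : Module.Finite 𝒪 A := Module.Finite.of_basis b
  have hd0 : Algebra.discr 𝒪 b ≠ 0 := fun h0 => hd (h0 ▸ dvd_zero _)
  haveI : IsReduced A := ds_isReduced_of_discr_ne_zero b hd0
  obtain ⟨γ, ε, w, hγ, hεε, hεx, hεw⟩ := ds_exists_quasi_idem (𝒪 := 𝒪) x
  have hεy : ε * y = 0 := by rw [hεw, mul_assoc, mul_comm w y, ← mul_assoc, hxy, zero_mul]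
  -- torsion-freeness
  have htf : ∀ (c : 𝒪) (a : A), c ≠ 0 → c • a = 0 → a = 0 := fun c a hc h =>
    (smul_eq_zero.mp h).resolve_left hc
  -- the two annihilators
  let I₁ : Ideal A := (Ideal.span {ε}).annihilator
  let I₂ : Ideal A := (Ideal.span {ε - algebraMap 𝒪 A γ}).annihilator
  have hI₁ : ∀ a : A, a ∈ I₁ ↔ a * ε = 0 := fun a => by
    simp only [I₁, Submodule.mem_annihilator_span_singleton, smul_eq_mul]
  have hI₂ : ∀ a : A, a ∈ I₂ ↔ a * (ε - algebraMap 𝒪 A γ) = 0 := fun a => by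
    simp only [I₂, Submodule.mem_annihilator_span_singleton, smul_eq_mul]
  have hεγ : ε * (ε - algebraMap 𝒪 A γ) = 0 := by
    rw [mul_sub, hεε, Algebra.smul_def, mul_comm ε, sub_self]
  -- the algebra `A'`
  let f : A →ₐ[𝒪] (A ⧸ I₁) × (A ⧸ I₂) :=
    AlgHom.prod (Ideal.Quotient.mkₐ 𝒪 I₁) (Ideal.Quotient.mkₐ 𝒪 I₂)
  have hf : Function.Injective f := by
    rw [injective_iff_map_eq_zero]
    intro a ha
    have h1 : a ∈ I₁ := Ideal.Quotient.eq_zero_iff_mem.mp (congrArg Prod.fst ha)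
    have h2 : a ∈ I₂ := Ideal.Quotient.eq_zero_iff_mem.mp (congrArg Prod.snd ha)
    rw [hI₁] at h1
    rw [hI₂, mul_sub, h1, zero_sub, neg_eq_zero] at h2
    apply htf γ a hγ
    rw [Algebra.smul_def, mul_comm]; exact h2
  -- torsion-freeness of the quotients
  haveI tf₁ : Module.IsTorsionFree 𝒪 (A ⧸ I₁) := by
    refine Module.IsTorsionFree.of_smul_eq_zero fun c z hcz => ?_
    obtain ⟨a, rfl⟩ := Ideal.Quotient.mk_surjective z
    by_cases hc : c = 0
    · exact Or.inl hc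
    right
    have h1 : c • a ∈ I₁ := by
      rw [← Ideal.Quotient.eq_zero_iff_mem]
      exact hcz
    rw [hI₁, smul_mul_assoc] at h1
    exact Ideal.Quotient.eq_zero_iff_mem.mpr ((hI₁ a).mpr (htf c _ hc h1))
  haveI tf₂ : Module.IsTorsionFree 𝒪 (A ⧸ I₂) := by
    refine Module.IsTorsionFree.of_smul_eq_zero fun c z hcz => ?_
    obtain ⟨a, rfl⟩ := Ideal.Quotient.mk_surjective z
    by_cases hc : c = 0
    · exact Or.inl hc
    right
    have h1 : c • a ∈ I₂ := by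
      rw [← Ideal.Quotient.eq_zero_iff_mem]
      exact hcz
    rw [hI₂, smul_mul_assoc] at h1
    exact Ideal.Quotient.eq_zero_iff_mem.mpr ((hI₂ a).mpr (htf c _ hc h1))
  haveI : Module.Finite 𝒪 (A ⧸ I₁) := Module.Finite.of_surjective
    (Ideal.Quotient.mkₐ 𝒪 I₁).toLinearMap Ideal.Quotient.mk_surjective
  haveI : Module.Finite 𝒪 (A ⧸ I₂) := Module.Finite.of_surjective
    (Ideal.Quotient.mkₐ 𝒪 I₂).toLinearMap Ideal.Quotient.mk_surjective
  haveI : Module.Free 𝒪 (A ⧸ I₁) := Module.free_of_finite_type_torsion_free'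
  haveI : Module.Free 𝒪 (A ⧸ I₂) := Module.free_of_finite_type_torsion_free'
  -- a linear injection back
  let g₁ : (A ⧸ I₁) →ₗ[𝒪] A :=
    Submodule.liftQ (I₁.restrictScalars 𝒪) (LinearMap.mulLeft 𝒪 ε) (by
      intro a ha
      rw [LinearMap.mem_ker, LinearMap.mulLeft_apply, mul_comm]
      exact (hI₁ a).mp ha)
  let g₂ : (A ⧸ I₂) →ₗ[𝒪] A :=
    Submodule.liftQ (I₂.restrictScalars 𝒪) (LinearMap.mulLeft 𝒪 (algebraMap 𝒪 A γ - ε)) (by
      intro a ha
      rw [LinearMap.mem_ker, LinearMap.mulLeft_apply, mul_comm]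
      have := (hI₂ a).mp ha
      rw [← neg_sub, mul_neg, this, neg_zero])
  have hg₁ : ∀ a : A, g₁ (Ideal.Quotient.mk I₁ a) = ε * a := fun a => rfl
  have hg₂ : ∀ a : A, g₂ (Ideal.Quotient.mk I₂ a) = (algebraMap 𝒪 A γ - ε) * a := fun a => rfl
  let g : ((A ⧸ I₁) × (A ⧸ I₂)) →ₗ[𝒪] A := g₁.coprod g₂
  have hg : Function.Injective g := by
    rw [injective_iff_map_eq_zero]
    rintro ⟨z₁, z₂⟩ hz
    obtain ⟨a₁, rfl⟩ := Ideal.Quotient.mk_surjective z₁
    obtain ⟨a₂, rfl⟩ := Ideal.Quotient.mk_surjective z₂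
    have hz' : ε * a₁ + (algebraMap 𝒪 A γ - ε) * a₂ = 0 := by
      have := hz
      simp only [g, LinearMap.coprod_apply] at this
      rwa [hg₁, hg₂] at this
    have hεγ' : ε * (algebraMap 𝒪 A γ - ε) = 0 := by
      rw [← neg_sub, mul_neg, hεγ, neg_zero]
    -- multiply by `ε` and by `γ - ε`
    have e1 : algebraMap 𝒪 A γ * (ε * a₁) = 0 := by
      have h := congrArg (fun t => ε * t) hz'
      simp only [mul_add, mul_zero] at h
      have h2 : ε * ((algebraMap 𝒪 A γ - ε) * a₂) = 0 := by rw [← mul_assoc, hεγ', zero_mul]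
      rw [h2, add_zero, ← mul_assoc, hεε, Algebra.smul_def, mul_assoc] at h
      exact h
    have e2 : algebraMap 𝒪 A γ * ((algebraMap 𝒪 A γ - ε) * a₂) = 0 := by
      have h := congrArg (fun t => (algebraMap 𝒪 A γ - ε) * t) hz'
      simp only [mul_add, mul_zero] at h
      have h2 : (algebraMap 𝒪 A γ - ε) * (ε * a₁) = 0 := by
        rw [← mul_assoc, mul_comm _ ε, hεγ', zero_mul]
      rw [h2, zero_add] at h
      have h3 : (algebraMap 𝒪 A γ - ε) * ((algebraMap 𝒪 A γ - ε) * a₂)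
          = algebraMap 𝒪 A γ * ((algebraMap 𝒪 A γ - ε) * a₂) - (ε * (algebraMap 𝒪 A γ - ε)) * a₂ := by
        ring
      rw [h3, hεγ', zero_mul, sub_zero] at h
      exact h
    have e1' : ε * a₁ = 0 := htf γ _ hγ (by rw [Algebra.smul_def]; exact e1)
    have e2' : (algebraMap 𝒪 A γ - ε) * a₂ = 0 := htf γ _ hγ (by rw [Algebra.smul_def]; exact e2)
    refine Prod.ext ?_ ?_
    · exact Ideal.Quotient.eq_zero_iff_mem.mpr ((hI₁ a₁).mpr (by rw [mul_comm]; exact e1'))
    · refine Ideal.Quotient.eq_zero_iff_mem.mpr ((hI₂ a₂).mpr ?_)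
      rw [← neg_sub, mul_neg, mul_comm, e2', neg_zero]
  -- ranks agree
  have hrank : Module.finrank 𝒪 ((A ⧸ I₁) × (A ⧸ I₂)) = Fintype.card ι := by
    have h1 : Module.finrank 𝒪 A = Fintype.card ι := Module.finrank_eq_card_basis b
    have h2 := LinearMap.finrank_le_finrank_of_injective (f := f.toLinearMap) hf
    have h3 := LinearMap.finrank_le_finrank_of_injective (f := g) hg
    omega
  let b₀ := Module.finBasis 𝒪 ((A ⧸ I₁) × (A ⧸ I₂))
  let b' : Module.Basis ι 𝒪 ((A ⧸ I₁) × (A ⧸ I₂)) :=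
    b₀.reindex (Fintype.equivOfCardEq (by rw [Fintype.card_fin, hrank]))
  obtain ⟨s, hs, hsur⟩ := ds_core_exists κ hτ hκ hker b b' f hf hd
  obtain ⟨e', he'⟩ := hsur (1, 0)
  -- `e' ≡ s mod I₁`, `e' ≡ 0 mod I₂`
  have h1 : (e' - algebraMap 𝒪 A s) * ε = 0 := by
    have := congrArg Prod.fst he'
    rw [← hI₁, ← Ideal.Quotient.eq_zero_iff_mem, map_sub, sub_eq_zero]
    simpa [f, Algebra.smul_def] using this
  have h2 : e' * (ε - algebraMap 𝒪 A γ) = 0 := by
    have := congrArg Prod.snd he'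
    rw [← hI₂, ← Ideal.Quotient.eq_zero_iff_mem]
    simpa [f] using this
  have h3 : algebraMap 𝒪 A γ * e' = algebraMap 𝒪 A s * ε := by
    have e1 : e' * ε = algebraMap 𝒪 A s * ε := by
      rw [sub_mul, sub_eq_zero] at h1; exact h1
    have e2 : e' * ε = e' * algebraMap 𝒪 A γ := by
      rw [mul_sub, sub_eq_zero] at h2; exact h2
    rw [mul_comm, ← e2, e1]
  refine ⟨s, hs, algebraMap 𝒪 A s - e', e', by ring, ?_, ?_⟩
  · apply htf γ _ hγ
    rw [Algebra.smul_def]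
    have : algebraMap 𝒪 A γ * ((algebraMap 𝒪 A s - e') * x)
        = algebraMap 𝒪 A s * (algebraMap 𝒪 A γ * x) - (algebraMap 𝒪 A γ * e') * x := by ring
    rw [this, h3, ← Algebra.smul_def γ x, ← hεx]; ring
  · apply htf γ _ hγ
    rw [Algebra.smul_def, ← mul_assoc, h3, mul_assoc, hεy, mul_zero]

end main

end Fermat.Agent.INJ
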