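import Fermat.Agent.INJ.DiscSmoothGlue
import Fermat.Agent.INJ.Disc

/-!
# (G-abs) / DS-glue, stage B: the discriminant at a closed point through which only `τ` ramifies

`ds_sdisc_ne_of_tame`: if `π ∤ sdisc`, `τ ^ (ν + 1) ∤ sdisc` and every other prime `f ∈ n` has a
characteristic-`0` reduced fibre, then `sdisc ∉ (τ ^ (ν + 1), π)`.
-/

set_option autoImplicit false
set_option linter.style.haveILetI false
set_option linter.unusedSectionVars false

open TensorProduct

namespace Fermat.Agent.INJ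

section glueB

variable {R : Type*} {C : Type*} [CommRing R] [IsDomain R] [UniqueFactorizationMonoid R]
  [CommRing C] [Algebra R C] [Module.Finite R C]
  {ι : Type*} [Fintype ι] [DecidableEq ι] {b : ι → C} {s : R}

/-- a prime with characteristic-`0` reduced fibre does not divide the scaled discriminant -/
theorem ds_not_dvd_sdisc_of_unr (P : IsPresentation b s) {f : R} (hf : Prime f) (hsf : ¬ f ∣ s)
    (hchar : ∀ m : ℕ, m ≠ 0 → ¬ f ∣ (m : R))
    (hred : ∀ x : C, algebraMap R C f ∣ x ^ 2 → ∃ a : R, ¬ f ∣ a ∧ algebraMap R C f ∣ a • x) :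
    ¬ f ∣ P.sdisc := by
  intro hfD
  haveI hIprime : (Ideal.span {f}).IsPrime := (Ideal.span_singleton_prime hf.ne_zero).mpr hf
  haveI : IsDomain (R ⧸ Ideal.span {f}) := Ideal.Quotient.isDomain _
  let κ := FractionRing (R ⧸ Ideal.span {f})
  have hκ : RingHom.ker (algebraMap R κ) = Ideal.span {f} := fractionRing_quotient_ker _
  have hkerf : ∀ a : R, algebraMap R κ a = 0 ↔ f ∣ a := fun a => by
    rw [← RingHom.mem_ker, hκ, Ideal.mem_span_singleton]
  have hsκ : algebraMap R κ s ≠ 0 := fun h => hsf ((hkerf s).mp h)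
  haveI : CharZero κ := charZero_of_inj_zero fun m hm => by
    by_contra hm0
    refine hchar m hm0 ((hkerf _).mp ?_)
    rw [map_natCast]; exact hm
  haveI : IsReduced (κ ⊗[R] C) :=
    isReduced_fibre P hf hκ (fractionRing_quotient_frac _) hsκ hred
  have hnd : (Algebra.traceForm κ (κ ⊗[R] C)).Nondegenerate :=
    traceForm_nondegenerate_of_isReduced
  exact (P.traceForm_nondegenerate_iff hsκ).mp hnd ((hkerf _).mpr hfD)

/-- **(G-abs), stage B.**  If `τ` is the only ramified prime through `n` and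
`ord_τ (sdisc) ≤ ν`, then `sdisc ∉ (τ ^ (ν + 1), π)`. -/
theorem ds_sdisc_ne_of_tame (P : IsPresentation b s)
    {π τ : R} (hπ : Prime π) (hτ : Prime τ) (hτπ : ¬ π ∣ τ)
    (n : Ideal R) [n.IsPrime] (hπn : π ∈ n) (hτn : τ ∈ n) (hsn : s ∉ n)
    (hπd : ¬ π ∣ P.sdisc) (ν : ℕ) (hτd : ¬ τ ^ (ν + 1) ∣ P.sdisc)
    (hunr : ∀ f : R, Prime f → f ∈ n → ¬ Associated f π → ¬ Associated f τ →
        (∀ m : ℕ, m ≠ 0 → ¬ f ∣ (m : R)) ∧
        ∀ x : C, algebraMap R C f ∣ x ^ 2 → ∃ a : R, ¬ f ∣ a ∧ algebraMap R C f ∣ a • x) :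
    ∀ g h : R, P.sdisc ≠ τ ^ (ν + 1) * g + π * h := by
  have hD0 : P.sdisc ≠ 0 := fun h => hπd (h ▸ dvd_zero π)
  -- `d = τ ^ a * u`, `τ ∤ u`
  have hfin : FiniteMultiplicity τ P.sdisc :=
    FiniteMultiplicity.of_not_isUnit hτ.not_isUnit hD0
  obtain ⟨u, hu, hτu⟩ := hfin.exists_eq_pow_mul_and_not_dvd
  set a := multiplicity τ P.sdisc with ha
  have haν : a ≤ ν := by
    by_contra hcon
    push Not at hcon
    apply hτd
    rw [hu]
    exact Dvd.dvd.mul_right (pow_dvd_pow τ hcon) u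
  have hu0 : u ≠ 0 := fun h => hD0 (by rw [hu, h, mul_zero])
  have hud : u ∣ P.sdisc := ⟨τ ^ a, by rw [hu]; ring⟩
  -- `u ∉ n`
  have hun : u ∉ n := by
    intro hun
    obtain ⟨F, hFprime, hFu⟩ := UniqueFactorizationMonoid.exists_prime_factors u hu0
    have hFn : F.prod ∈ n := by
      obtain ⟨w, hw⟩ := hFu.symm
      rw [← hw]; exact n.mul_mem_right _ hun
    obtain ⟨p, hpF, hpn⟩ := (Ideal.IsPrime.multiset_prod_mem_iff_exists_mem ‹n.IsPrime› F).mp hFn
    have hpu : p ∣ u := (Multiset.dvd_prod hpF).trans hFu.dvd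
    have hpD : p ∣ P.sdisc := hpu.trans hud
    have hpπ : ¬ Associated p π := fun h => hπd (h.symm.dvd.trans hpD)
    have hpτ : ¬ Associated p τ := fun h => hτu (h.symm.dvd.trans hpu)
    have hps : ¬ p ∣ s := fun h => hsn (by
      obtain ⟨c, hc⟩ := h
      rw [hc]; exact n.mul_mem_right _ hpn)
    obtain ⟨hchar, hred⟩ := hunr p (hFprime p hpF) hpn hpπ hpτ
    exact ds_not_dvd_sdisc_of_unr P (hFprime p hpF) hps hchar hred hpD
  -- conclusion
  intro g h hgh
  apply hun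
  obtain ⟨k, hk⟩ : ∃ k, ν + 1 = a + (k + 1) := ⟨ν - a, by omega⟩
  have h1 : τ ^ a * (u - τ ^ (k + 1) * g) = π * h := by
    have : τ ^ a * u = τ ^ (ν + 1) * g + π * h := by rw [← hu]; exact hgh
    rw [hk, pow_add] at this
    linear_combination this
  have h2 : π ∣ u - τ ^ (k + 1) * g := by
    have h3 : π ∣ τ ^ a * (u - τ ^ (k + 1) * g) := ⟨h, h1⟩
    rcases hπ.dvd_or_dvd h3 with h4 | h4
    · exact absurd (hπ.dvd_of_dvd_pow h4) hτπ
    · exact h4
  obtain ⟨c, hc⟩ := h2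
  have : u = π * c + τ ^ (k + 1) * g := by rw [← hc]; ring
  rw [this]
  refine n.add_mem (n.mul_mem_right _ hπn) (n.mul_mem_right _ ?_)
  rw [pow_succ]
  exact n.mul_mem_left _ hτn

end glueB

end Fermat.Agent.INJ
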