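/-
INJ (G-abs), piece DS-F3 (helper81): "nilpotents specialize".

For a finite `R`-algebra `C`, a prime element `τ` with `R/τ` a PID and `C/τC` torsion-free over
`R/τ`, the nilradical of the generic fibre `Frac(R/τ) ⊗ C` has dimension at most the dimension of
the nilradical of every closed fibre `(R/n) ⊗ C`, `τ ∈ n`.
-/
import Mathlib

set_option autoImplicit false
set_option linter.unusedVariables false
set_option linter.unusedSectionVars false

open TensorProduct

namespace Fermat.Agent.INJ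

section QuotTensor

variable {R C : Type*} [CommRing R] [CommRing C] [Algebra R C]

/-- `1 ⊗ c = 0` in `(R/I) ⊗ C` iff `c ∈ I C`. -/
theorem dsS_one_tmul_eq_zero_iff (I : Ideal R) (c : C) :
    ((1 : R ⧸ I) ⊗ₜ[R] c = 0) ↔ c ∈ I • (⊤ : Submodule R C) := by
  have h1 := quotTensorEquivQuotSMul_mk_tmul (M := C) I 1 c
  rw [map_one, one_smul] at h1
  constructor
  · intro h
    rw [h, map_zero] at h1
    exact (Submodule.Quotient.mk_eq_zero _).mp h1.symm
  · intro h
    have h2 : (quotTensorEquivQuotSMul C I) ((1 : R ⧸ I) ⊗ₜ[R] c) = 0 := by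
      rw [h1]; exact (Submodule.Quotient.mk_eq_zero _).mpr h
    exact (LinearEquiv.map_eq_zero_iff _).mp h2

/-- every element of `(R/I) ⊗ C` is of the form `1 ⊗ c`. -/
theorem dsS_exists_one_tmul (I : Ideal R) (z : (R ⧸ I) ⊗[R] C) :
    ∃ c : C, z = (1 : R ⧸ I) ⊗ₜ[R] c := by
  obtain ⟨c, hc⟩ := Submodule.Quotient.mk_surjective _ (quotTensorEquivQuotSMul C I z)
  refine ⟨c, ?_⟩
  have := congrArg (quotTensorEquivQuotSMul C I).symm hc
  rw [quotTensorEquivQuotSMul_symm_mk, LinearEquiv.symm_apply_apply] at this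
  exact this.symm

/-- `c ∈ (τ) C` iff `τ ∣ c`. -/
theorem dsS_mem_span_smul_top_iff (τ : R) (c : C) :
    c ∈ (Ideal.span {τ} : Ideal R) • (⊤ : Submodule R C) ↔ algebraMap R C τ ∣ c := by
  constructor
  · intro h
    refine Submodule.smul_induction_on h ?_ ?_
    · intro r hr n _
      obtain ⟨s, rfl⟩ := Ideal.mem_span_singleton.mp hr
      exact ⟨s • n, by rw [Algebra.smul_def, Algebra.smul_def, map_mul, mul_assoc]⟩
    · intro x y hx hy
      exact dvd_add hx hy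
  · rintro ⟨d, rfl⟩
    rw [← Algebra.smul_def]
    exact Submodule.smul_mem_smul (Ideal.mem_span_singleton_self τ) Submodule.mem_top

/-- `mk r • (1 ⊗ c) = 1 ⊗ r • c`. -/
theorem dsS_mk_smul_one_tmul (I : Ideal R) (r : R) (c : C) :
    (Ideal.Quotient.mk I r) • ((1 : R ⧸ I) ⊗ₜ[R] c) = (1 : R ⧸ I) ⊗ₜ[R] (r • c) := by
  rw [TensorProduct.smul_tmul', smul_eq_mul, mul_one, ← TensorProduct.smul_tmul]
  congr 1
  rw [Algebra.smul_def, mul_one]
  rfl

end QuotTensor

section Abstract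

variable {A W : Type*} [CommRing A] [IsDomain A] [CommRing W] [Algebra A W]

/-- the nilradical of `W` as an `A`-submodule -/
def dsSNil (A W : Type*) [CommRing A] [CommRing W] [Algebra A W] : Submodule A W :=
  (nilradical W).restrictScalars A

theorem dsS_mem_nil (w : W) : w ∈ dsSNil A W ↔ IsNilpotent w := Iff.rfl

/-- the nilradical is saturated in a torsion-free algebra -/
theorem dsS_sat (htf : ∀ (a : A) (w : W), a ≠ 0 → a • w = 0 → w = 0)
    (a : A) (w : W) (ha : a ≠ 0) (haw : a • w ∈ dsSNil A W) : w ∈ dsSNil A W := by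
  obtain ⟨k, hk⟩ := (dsS_mem_nil _).mp haw
  rw [smul_pow] at hk
  exact (dsS_mem_nil _).mpr ⟨k, htf (a ^ k) _ (pow_ne_zero k ha) hk⟩

/-- a combination of basis vectors of the nilradical that is divisible by `ϖ` in `W` has
coefficients divisible by `ϖ` -/
theorem dsS_indep (htf : ∀ (a : A) (w : W), a ≠ 0 → a • w = 0 → w = 0)
    {ν : ℕ} (b : Module.Basis (Fin ν) A (dsSNil A W)) (g : Fin ν → A) (ϖ : A) (w : W)
    (h : ((∑ i, g i • b i : dsSNil A W) : W) = ϖ • w) : ∀ i, ∃ β : A, g i = ϖ * β := by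
  have hrs : ∀ i, b.repr (∑ j, g j • b j) i = g i := fun i => by
    rw [Module.Basis.repr_sum_self]
  by_cases hϖ0 : ϖ = 0
  · rw [hϖ0, zero_smul] at h
    have h0 : (∑ i, g i • b i : dsSNil A W) = 0 := Submodule.coe_eq_zero.mp h
    intro i
    refine ⟨0, ?_⟩
    rw [← hrs i, h0, map_zero, mul_zero]
    rfl
  · have hwN : w ∈ dsSNil A W := dsS_sat htf ϖ w hϖ0 (by rw [← h]; exact Submodule.coe_mem _)
    have hy : (∑ i, g i • b i : dsSNil A W) = ϖ • (⟨w, hwN⟩ : dsSNil A W) :=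
      Subtype.ext (by rw [h]; rfl)
    intro i
    refine ⟨b.repr ⟨w, hwN⟩ i, ?_⟩
    rw [← hrs i, hy, map_smul]
    rfl

/-- the nilradical of a finite torsion-free algebra over a PID has a finite basis -/
theorem dsS_exists_basis [IsPrincipalIdealRing A] [Module.Finite A W]
    (htf : ∀ (a : A) (w : W), a ≠ 0 → a • w = 0 → w = 0) :
    ∃ ν : ℕ, Nonempty (Module.Basis (Fin ν) A (dsSNil A W)) := by
  classical
  have hTF : Module.IsTorsionFree A W :=
    ⟨fun r hr y₁ y₂ h => by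
      have hr0 : r ≠ 0 := hr.ne_zero
      have h1 : r • (y₁ - y₂) = 0 := by
        rw [smul_sub]
        exact sub_eq_zero.mpr h
      exact sub_eq_zero.mp (htf r _ hr0 h1)⟩
  have hnoeth : IsNoetherian A W := inferInstance
  have hfinN : Module.Finite A (dsSNil A W) := inferInstance
  have hTFN : Module.IsTorsionFree A (dsSNil A W) := inferInstance
  have hfreeN : Module.Free A (dsSNil A W) := Module.free_of_finite_type_torsion_free'
  exact ⟨_, ⟨(Module.Free.chooseBasis A (dsSNil A W)).reindex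
    (Fintype.equivFin (Module.Free.ChooseBasisIndex A (dsSNil A W)))⟩⟩

/-- functionals separate points of a finite torsion-free module over a PID -/
theorem dsS_exists_functional [IsPrincipalIdealRing A] {M : Type*} [AddCommGroup M] [Module A M]
    [Module.Finite A M] (htf : ∀ (a : A) (w : M), a ≠ 0 → a • w = 0 → w = 0)
    (w : M) (hw : w ≠ 0) : ∃ φ : M →ₗ[A] A, φ w ≠ 0 := by
  classical
  have hTF : Module.IsTorsionFree A M :=
    ⟨fun r hr y₁ y₂ h => by
      have hr0 : r ≠ 0 := hr.ne_zero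
      have h1 : r • (y₁ - y₂) = 0 := by
        rw [smul_sub]
        exact sub_eq_zero.mpr h
      exact sub_eq_zero.mp (htf r _ hr0 h1)⟩
  have hfree : Module.Free A M := Module.free_of_finite_type_torsion_free'
  let b := Module.Free.chooseBasis A M
  by_contra hcon
  rw [not_exists] at hcon
  apply hw
  apply b.repr.injective
  ext j
  have := hcon (b.coord j)
  rw [not_not] at this
  rw [map_zero]
  exact this

end Abstract

section Fibre

variable {R C : Type*} [CommRing R] [IsDomain R] [CommRing C] [Algebra R C]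

/-- `C/τC = (R/τ) ⊗ C` is torsion-free over `R/τ`. -/
theorem dsS_torsionFree {τ : R}
    (htfτ : ∀ f : R, ¬ τ ∣ f → ∀ x : C, algebraMap R C τ ∣ f • x → algebraMap R C τ ∣ x)
    (a : R ⧸ Ideal.span {τ}) (w : (R ⧸ Ideal.span {τ}) ⊗[R] C) (ha : a ≠ 0) (h : a • w = 0) :
    w = 0 := by
  obtain ⟨f, rfl⟩ := Ideal.Quotient.mk_surjective a
  obtain ⟨x, rfl⟩ := dsS_exists_one_tmul _ w
  have hf : ¬ τ ∣ f := fun hd =>
    ha (Ideal.Quotient.eq_zero_iff_mem.mpr (Ideal.mem_span_singleton.mpr hd))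
  rw [dsS_mk_smul_one_tmul, dsS_one_tmul_eq_zero_iff, dsS_mem_span_smul_top_iff] at h
  rw [dsS_one_tmul_eq_zero_iff, dsS_mem_span_smul_top_iff]
  exact htfτ f hf x h

/-- powers of `1 ⊗ c` -/
theorem dsS_one_tmul_pow {S : Type*} [CommRing S] [Algebra R S] (c : C) (k : ℕ) :
    ((1 : S) ⊗ₜ[R] c) ^ k = (1 : S) ⊗ₜ[R] (c ^ k) := by
  rw [Algebra.TensorProduct.tmul_pow, one_pow]

/-- if `τ ↦ 0` in `S`, then `1 ⊗ c = 0` in `S ⊗ C` for `τ ∣ c`. -/
theorem dsS_one_tmul_eq_zero_of_dvd {S : Type*} [CommRing S] [Algebra R S] {τ : R}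
    (hτ : algebraMap R S τ = 0) {c : C} (h : algebraMap R C τ ∣ c) : (1 : S) ⊗ₜ[R] c = 0 := by
  obtain ⟨d, rfl⟩ := h
  rw [← Algebra.smul_def, ← TensorProduct.smul_tmul, Algebra.smul_def, hτ, zero_mul,
    TensorProduct.zero_tmul]

/-- coefficients of a vanishing combination of basis vectors vanish -/
theorem dsS_basis_coeff_zero {A M ι : Type*} [CommRing A] [AddCommGroup M] [Module A M]
    [Fintype ι] (b : Module.Basis ι A M) (g : ι → A) (h : ∑ i, g i • b i = 0) : ∀ i, g i = 0 :=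
  Fintype.linearIndependent_iff.mp b.linearIndependent g h

/-- **Core**: a finite family `c` of elements of `C`, nilpotent modulo `τ`, which generates the
nilpotents modulo `τ` and stays independent modulo every maximal ideal `n ∋ τ`. -/
theorem dsS_core [Module.Finite R C] {τ : R} (hτ : Prime τ)
    [IsPrincipalIdealRing (R ⧸ Ideal.span {τ})]
    (htfτ : ∀ f : R, ¬ τ ∣ f → ∀ x : C, algebraMap R C τ ∣ f • x → algebraMap R C τ ∣ x)
    (n : Ideal R) [n.IsMaximal] (hτn : τ ∈ n) :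
    ∃ (ν : ℕ) (c : Fin ν → C),
      (∀ i, ∃ m : ℕ, algebraMap R C τ ∣ c i ^ m) ∧
      (∀ x : C, (∃ k : ℕ, algebraMap R C τ ∣ x ^ k) →
        ∃ a : Fin ν → R, algebraMap R C τ ∣ x - ∑ i, a i • c i) ∧
      (∀ a : Fin ν → R, (∑ i, a i • c i) ∈ n • (⊤ : Submodule R C) → ∀ i, a i ∈ n) := by
  classical
  have hprime : (Ideal.span {τ} : Ideal R).IsPrime :=
    (Ideal.span_singleton_prime hτ.ne_zero).mpr hτ
  have hdom : IsDomain (R ⧸ Ideal.span {τ}) := Ideal.Quotient.isDomain _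
  have htf : ∀ (a : R ⧸ Ideal.span {τ}) (w : (R ⧸ Ideal.span {τ}) ⊗[R] C),
      a ≠ 0 → a • w = 0 → w = 0 := fun a w ha h => dsS_torsionFree htfτ a w ha h
  have hfinW : Module.Finite (R ⧸ Ideal.span {τ}) ((R ⧸ Ideal.span {τ}) ⊗[R] C) :=
    Module.Finite.base_change R _ C
  obtain ⟨ν, ⟨b⟩⟩ := dsS_exists_basis (A := R ⧸ Ideal.span {τ})
    (W := (R ⧸ Ideal.span {τ}) ⊗[R] C) htf
  -- lifts
  have hlift : ∀ i : Fin ν, ∃ c : C,
      ((b i : dsSNil (R ⧸ Ideal.span {τ}) ((R ⧸ Ideal.span {τ}) ⊗[R] C)) :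
        (R ⧸ Ideal.span {τ}) ⊗[R] C) = (1 : R ⧸ Ideal.span {τ}) ⊗ₜ[R] c := fun i =>
    dsS_exists_one_tmul _ _
  choose c hc using hlift
  -- `1 ⊗ x ∈ N` iff `τ ∣ x ^ k` for some `k`
  have hmemN : ∀ x : C, ((1 : R ⧸ Ideal.span {τ}) ⊗ₜ[R] x ∈
      dsSNil (R ⧸ Ideal.span {τ}) ((R ⧸ Ideal.span {τ}) ⊗[R] C)) ↔
        ∃ k : ℕ, algebraMap R C τ ∣ x ^ k := by
    intro x
    rw [dsS_mem_nil]
    constructor
    · rintro ⟨k, hk⟩
      rw [dsS_one_tmul_pow, dsS_one_tmul_eq_zero_iff, dsS_mem_span_smul_top_iff] at hk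
      exact ⟨k, hk⟩
    · rintro ⟨k, hk⟩
      refine ⟨k, ?_⟩
      rw [dsS_one_tmul_pow, dsS_one_tmul_eq_zero_iff, dsS_mem_span_smul_top_iff]
      exact hk
  -- linear combinations
  have hsum : ∀ a : Fin ν → R, (1 : R ⧸ Ideal.span {τ}) ⊗ₜ[R] (∑ i, a i • c i) =
      ((∑ i, (Ideal.Quotient.mk (Ideal.span {τ}) (a i)) • b i :
        dsSNil (R ⧸ Ideal.span {τ}) ((R ⧸ Ideal.span {τ}) ⊗[R] C)) :
          (R ⧸ Ideal.span {τ}) ⊗[R] C) := by
    intro a
    rw [TensorProduct.tmul_sum, Submodule.coe_sum]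
    refine Finset.sum_congr rfl fun i _ => ?_
    rw [Submodule.coe_smul, hc, dsS_mk_smul_one_tmul]
  refine ⟨ν, c, ?_, ?_, ?_⟩
  · intro i
    exact (hmemN (c i)).mp (by rw [← hc]; exact (b i).2)
  · intro x hx
    have hxN := (hmemN x).mpr hx
    have hrepr := b.sum_repr ⟨_, hxN⟩
    choose a ha using fun i => Ideal.Quotient.mk_surjective (b.repr ⟨_, hxN⟩ i)
    refine ⟨a, ?_⟩
    rw [← dsS_mem_span_smul_top_iff, ← dsS_one_tmul_eq_zero_iff, TensorProduct.tmul_sub, hsum a,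
      sub_eq_zero]
    simp_rw [ha]
    rw [hrepr]
  · intro a ha
    obtain ⟨ϖ, hϖ⟩ := (IsPrincipalIdealRing.principal
      (Ideal.map (Ideal.Quotient.mk (Ideal.span {τ})) n)).principal
    have hτsub : Ideal.span {τ} ≤ n := (Ideal.span_singleton_le_iff_mem _).mpr hτn
    have hmem_n : ∀ r : R, Ideal.Quotient.mk (Ideal.span {τ}) r ∈
        Ideal.map (Ideal.Quotient.mk (Ideal.span {τ})) n → r ∈ n := by
      intro r hr
      obtain ⟨m, hm, hmr⟩ := (Ideal.mem_map_iff_of_surjective _ Ideal.Quotient.mk_surjective).mp hr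
      have h1 : m - r ∈ Ideal.span {τ} := Ideal.Quotient.eq.mp hmr
      have h2 := n.sub_mem hm (hτsub h1)
      simpa using h2
    have hnC : ∀ y ∈ n • (⊤ : Submodule R C), ∃ w : (R ⧸ Ideal.span {τ}) ⊗[R] C,
        (1 : R ⧸ Ideal.span {τ}) ⊗ₜ[R] y = ϖ • w := by
      intro y hy
      refine Submodule.smul_induction_on hy ?_ ?_
      · intro r hr x _
        have hr' : Ideal.Quotient.mk (Ideal.span {τ}) r ∈
            Ideal.map (Ideal.Quotient.mk (Ideal.span {τ})) n := Ideal.mem_map_of_mem _ hr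
        rw [hϖ] at hr'
        obtain ⟨α, hα⟩ := Ideal.mem_span_singleton'.mp hr'
        refine ⟨α • ((1 : R ⧸ Ideal.span {τ}) ⊗ₜ[R] x), ?_⟩
        rw [← dsS_mk_smul_one_tmul, ← hα, mul_comm, mul_smul]
      · rintro x y ⟨w₁, h₁⟩ ⟨w₂, h₂⟩
        exact ⟨w₁ + w₂, by rw [TensorProduct.tmul_add, h₁, h₂, smul_add]⟩
    obtain ⟨w, hw⟩ := hnC _ ha
    rw [hsum a] at hw
    have hβ := dsS_indep htf b (fun i => Ideal.Quotient.mk (Ideal.span {τ}) (a i)) ϖ w hw
    intro i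
    obtain ⟨β, hβi⟩ := hβ i
    apply hmem_n
    rw [hϖ, hβi]
    exact Ideal.mem_span_singleton'.mpr ⟨β, mul_comm _ _⟩

/-- the kernel of `C → E ⊗ C` is `τ C`. -/
theorem dsS_generic_ker [Module.Finite R C] {τ : R} (hτ : Prime τ)
    [IsPrincipalIdealRing (R ⧸ Ideal.span {τ})]
    (htfτ : ∀ f : R, ¬ τ ∣ f → ∀ x : C, algebraMap R C τ ∣ f • x → algebraMap R C τ ∣ x)
    (E : Type*) [Field E] [Algebra R E] (hE : RingHom.ker (algebraMap R E) = Ideal.span {τ})
    (y : C) (hy : (1 : E) ⊗ₜ[R] y = 0) : algebraMap R C τ ∣ y := by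
  classical
  have hprime : (Ideal.span {τ} : Ideal R).IsPrime :=
    (Ideal.span_singleton_prime hτ.ne_zero).mpr hτ
  have hdom : IsDomain (R ⧸ Ideal.span {τ}) := Ideal.Quotient.isDomain _
  have htf : ∀ (a : R ⧸ Ideal.span {τ}) (w : (R ⧸ Ideal.span {τ}) ⊗[R] C),
      a ≠ 0 → a • w = 0 → w = 0 := fun a w ha h => dsS_torsionFree htfτ a w ha h
  have hfinW : Module.Finite (R ⧸ Ideal.span {τ}) ((R ⧸ Ideal.span {τ}) ⊗[R] C) :=
    Module.Finite.base_change R _ C
  rw [← dsS_mem_span_smul_top_iff, ← dsS_one_tmul_eq_zero_iff]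
  by_contra hne
  obtain ⟨φ, hφ⟩ := dsS_exists_functional htf _ hne
  -- the map `A → E`
  let ι : (R ⧸ Ideal.span {τ}) →+* E :=
    Ideal.Quotient.lift (Ideal.span {τ}) (algebraMap R E) (fun a ha => by
      rw [← hE] at ha
      exact ha)
  have hι : Function.Injective ι := by
    rw [injective_iff_map_eq_zero]
    intro a ha
    obtain ⟨r, rfl⟩ := Ideal.Quotient.mk_surjective a
    have hr : r ∈ RingHom.ker (algebraMap R E) := ha
    rw [hE] at hr
    exact Ideal.Quotient.eq_zero_iff_mem.mpr hr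
  -- the `R`-linear functional `C → E`
  let ψ : C →ₗ[R] E :=
    { toFun := fun c => ι (φ ((1 : R ⧸ Ideal.span {τ}) ⊗ₜ[R] c))
      map_add' := fun c₁ c₂ => by
        rw [TensorProduct.tmul_add, map_add, map_add]
      map_smul' := fun r c => by
        rw [← dsS_mk_smul_one_tmul, map_smul, smul_eq_mul, map_mul, RingHom.id_apply,
          Algebra.smul_def]
        rfl }
  have h1 := LinearMap.liftBaseChange_tmul E ψ (1 : E) y
  rw [hy, map_zero, one_smul] at h1
  have h2 : ι (φ ((1 : R ⧸ Ideal.span {τ}) ⊗ₜ[R] y)) = 0 := h1.symm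
  exact hφ (hι (by rw [h2, map_zero]))

/-- clearing denominators in `E ⊗ C` -/
theorem dsS_clear_denom (E : Type*) [Field E] [Algebra R E]
    (hfrac : ∀ a : E, ∃ p q : R, algebraMap R E q ≠ 0 ∧ algebraMap R E q * a = algebraMap R E p)
    (z : E ⊗[R] C) :
    ∃ (q : R) (x : C), algebraMap R E q ≠ 0 ∧ (algebraMap R E q) • z = (1 : E) ⊗ₜ[R] x := by
  induction z using TensorProduct.induction_on with
  | zero => exact ⟨1, 0, by rw [map_one]; exact one_ne_zero, by rw [smul_zero, TensorProduct.tmul_zero]⟩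
  | tmul e x =>
    obtain ⟨p, q, hq, hpq⟩ := hfrac e
    refine ⟨q, p • x, hq, ?_⟩
    rw [TensorProduct.smul_tmul', smul_eq_mul, hpq, ← TensorProduct.smul_tmul, Algebra.smul_def,
      mul_one]
  | add z₁ z₂ h₁ h₂ =>
    obtain ⟨q₁, x₁, hq₁, e₁⟩ := h₁
    obtain ⟨q₂, x₂, hq₂, e₂⟩ := h₂
    refine ⟨q₁ * q₂, q₂ • x₁ + q₁ • x₂, ?_, ?_⟩
    · rw [map_mul]; exact mul_ne_zero hq₁ hq₂
    · rw [smul_add, map_mul, TensorProduct.tmul_add]
      congr 1
      · rw [mul_comm, mul_smul, e₁, TensorProduct.smul_tmul', smul_eq_mul, mul_one,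
          ← TensorProduct.smul_tmul, Algebra.smul_def, mul_one]
      · rw [mul_smul, e₂, TensorProduct.smul_tmul', smul_eq_mul, mul_one,
          ← TensorProduct.smul_tmul, Algebra.smul_def, mul_one]

/-- the generic fibre: the nilradical is spanned by the `1 ⊗ c i`. -/
theorem dsS_generic_le [Module.Finite R C] {τ : R} (hτ : Prime τ)
    [IsPrincipalIdealRing (R ⧸ Ideal.span {τ})]
    (htfτ : ∀ f : R, ¬ τ ∣ f → ∀ x : C, algebraMap R C τ ∣ f • x → algebraMap R C τ ∣ x)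
    (E : Type*) [Field E] [Algebra R E] (hE : RingHom.ker (algebraMap R E) = Ideal.span {τ})
    (hfrac : ∀ a : E, ∃ p q : R, algebraMap R E q ≠ 0 ∧ algebraMap R E q * a = algebraMap R E p)
    {ν : ℕ} (c : Fin ν → C)
    (hgen : ∀ x : C, (∃ k : ℕ, algebraMap R C τ ∣ x ^ k) →
        ∃ a : Fin ν → R, algebraMap R C τ ∣ x - ∑ i, a i • c i) :
    Module.finrank E ((nilradical (E ⊗[R] C)).restrictScalars E) ≤ ν := by
  classical
  have hτE : algebraMap R E τ = 0 := by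
    have : τ ∈ RingHom.ker (algebraMap R E) := by rw [hE]; exact Ideal.mem_span_singleton_self τ
    exact this
  have hle : (nilradical (E ⊗[R] C)).restrictScalars E ≤
      Submodule.span E (Set.range fun i => (1 : E) ⊗ₜ[R] c i) := by
    intro z hz
    have hz' : IsNilpotent z := hz
    obtain ⟨k, hk⟩ := hz'
    obtain ⟨q, x, hq, hqz⟩ := dsS_clear_denom E hfrac z
    have h1 : ((1 : E) ⊗ₜ[R] x) ^ k = 0 := by
      rw [← hqz, smul_pow, hk, smul_zero]
    rw [dsS_one_tmul_pow] at h1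
    have h2 := dsS_generic_ker hτ htfτ E hE _ h1
    obtain ⟨a, ha⟩ := hgen x ⟨k, h2⟩
    have h3 : (1 : E) ⊗ₜ[R] (x - ∑ i, a i • c i) = 0 := dsS_one_tmul_eq_zero_of_dvd hτE ha
    rw [TensorProduct.tmul_sub, sub_eq_zero, TensorProduct.tmul_sum] at h3
    have h4 : z = (algebraMap R E q)⁻¹ • ∑ i, (1 : E) ⊗ₜ[R] (a i • c i) := by
      rw [← h3, ← hqz, smul_smul, inv_mul_cancel₀ hq, one_smul]
    rw [h4]
    refine Submodule.smul_mem _ _ (Submodule.sum_mem _ fun i _ => ?_)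
    have h5 : (1 : E) ⊗ₜ[R] (a i • c i) = (algebraMap R E (a i)) • ((1 : E) ⊗ₜ[R] c i) := by
      rw [TensorProduct.smul_tmul', smul_eq_mul, mul_one, ← TensorProduct.smul_tmul,
        Algebra.smul_def, mul_one]
    rw [h5]
    exact Submodule.smul_mem _ _ (Submodule.subset_span ⟨i, rfl⟩)
  calc Module.finrank E ((nilradical (E ⊗[R] C)).restrictScalars E)
      ≤ Module.finrank E (Submodule.span E (Set.range fun i => (1 : E) ⊗ₜ[R] c i)) :=
        Submodule.finrank_mono hle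
    _ ≤ Fintype.card (Fin ν) := finrank_range_le_card _
    _ = ν := Fintype.card_fin ν

theorem dsS_isNoetherianRing_quot (n : Ideal R) [n.IsMaximal] : IsNoetherianRing (R ⧸ n) := by
  let _ := Ideal.Quotient.field n
  infer_instance

/-- the closed fibre: the `1 ⊗ c i` are independent nilpotents. -/
theorem dsS_special_ge [Module.Finite R C] {τ : R} (n : Ideal R) [n.IsMaximal] (hτn : τ ∈ n)
    {ν : ℕ} (c : Fin ν → C)
    (hnil : ∀ i, ∃ m : ℕ, algebraMap R C τ ∣ c i ^ m)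
    (hind : ∀ a : Fin ν → R, (∑ i, a i • c i) ∈ n • (⊤ : Submodule R C) → ∀ i, a i ∈ n) :
    ν ≤ Module.finrank (R ⧸ n) ((nilradical ((R ⧸ n) ⊗[R] C)).restrictScalars (R ⧸ n)) := by
  classical
  have hnoeth : IsNoetherianRing (R ⧸ n) := dsS_isNoetherianRing_quot n
  have hτ0 : algebraMap R (R ⧸ n) τ = 0 := Ideal.Quotient.eq_zero_iff_mem.mpr hτn
  have hmem : ∀ i, (1 : R ⧸ n) ⊗ₜ[R] c i ∈ (nilradical ((R ⧸ n) ⊗[R] C)).restrictScalars (R ⧸ n) := by
    intro i
    obtain ⟨m, hm⟩ := hnil i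
    exact ⟨m, by rw [dsS_one_tmul_pow]; exact dsS_one_tmul_eq_zero_of_dvd hτ0 hm⟩
  have hli : LinearIndependent (R ⧸ n) (fun i : Fin ν => ((1 : R ⧸ n) ⊗ₜ[R] c i : (R ⧸ n) ⊗[R] C)) := by
    refine Fintype.linearIndependent_iff.mpr ?_
    intro g hg
    choose a ha using fun i => Ideal.Quotient.mk_surjective (g i)
    have h2 : (1 : R ⧸ n) ⊗ₜ[R] (∑ i, a i • c i) = 0 := by
      rw [TensorProduct.tmul_sum, ← hg]
      refine Finset.sum_congr rfl fun i _ => ?_
      rw [← ha i, ← dsS_mk_smul_one_tmul]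
    have h3 := hind a ((dsS_one_tmul_eq_zero_iff n _).mp h2)
    intro i
    rw [← ha i]
    exact Ideal.Quotient.eq_zero_iff_mem.mpr (h3 i)
  have hspan : Submodule.span (R ⧸ n)
      (Set.range fun i : Fin ν => ((1 : R ⧸ n) ⊗ₜ[R] c i : (R ⧸ n) ⊗[R] C)) ≤
      (nilradical ((R ⧸ n) ⊗[R] C)).restrictScalars (R ⧸ n) := by
    rw [Submodule.span_le]
    rintro _ ⟨i, rfl⟩
    exact hmem i
  have h4 := finrank_span_eq_card hli
  rw [Fintype.card_fin] at h4
  rw [← h4]
  exact Submodule.finrank_mono hspan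

end Fibre

/-- **DS-F3: nilpotents specialize.** -/
theorem ds_finrank_nilradical_specialize
    {R C : Type*} [CommRing R] [IsDomain R] [CommRing C] [Algebra R C] [Module.Finite R C]
    {τ : R} (hτ : Prime τ) [IsPrincipalIdealRing (R ⧸ Ideal.span {τ})]
    (htfτ : ∀ f : R, ¬ τ ∣ f → ∀ x : C, algebraMap R C τ ∣ f • x → algebraMap R C τ ∣ x)
    (E : Type*) [Field E] [Algebra R E] (hE : RingHom.ker (algebraMap R E) = Ideal.span {τ})
    (hfrac : ∀ a : E, ∃ p q : R, algebraMap R E q ≠ 0 ∧ algebraMap R E q * a = algebraMap R E p)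
    (n : Ideal R) [n.IsMaximal] (hτn : τ ∈ n) :
    letI : Field (R ⧸ n) := Ideal.Quotient.field n
    Module.finrank E ((nilradical (E ⊗[R] C)).restrictScalars E)
      ≤ Module.finrank (R ⧸ n) ((nilradical ((R ⧸ n) ⊗[R] C)).restrictScalars (R ⧸ n)) := by
  obtain ⟨ν, c, hnil, hgen, hind⟩ := dsS_core hτ htfτ n hτn
  exact (dsS_generic_le hτ htfτ E hE hfrac c hgen).trans (dsS_special_ge n hτn c hnil hind)

end Fermat.Agent.INJ
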