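import Mathlib

/-!
# (INJ) DS-F2b: "tame different" in residue characteristic `0`

`ds_hT_integralClosure`: `R` a noetherian UFD with fraction field `K` (char `0`), `L/K` finite,
`C` the integral closure of `R` in `L`, `τ ∈ R` a prime element of residue characteristic `0`.
If `z ∈ C` has `Tr_{L/K}(z c) ∈ τ² R` for all `c ∈ C`, then `τ ∣ z` in `C`.

Route: localize at `τ` (`O := R_(τ)`, a DVR, realised as a subalgebra of `K`), `B` := integral
closure of `O` in `L` (Dedekind).  In residue characteristic `0` the different of `B/O` divides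
`τ B` (`dsT_differentIdeal_dvd_map`, from Mathlib's `not_dvd_differentIdeal_of_intTrace_not_mem`
applied to the full prime power `𝔓 ^ e`), hence `z / τ ∈ B`; descent from `O` to `R` by the
coefficients of the minimal polynomial (`dsT_isIntegral_descent`).
-/

set_option autoImplicit false
set_option linter.style.haveILetI false
set_option linter.unusedSectionVars false

namespace Fermat.Agent.INJ

open Module nonZeroDivisors Polynomial

attribute [local instance] FractionRing.liftAlgebra FractionRing.isScalarTower_liftAlgebra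

section Dedekind

variable {A B : Type*} [CommRing A] [CommRing B] [Algebra A B]
  [IsDedekindDomain A] [IsDedekindDomain B] [IsTorsionFree A B] [Module.Finite A B]
  [Algebra.IsSeparable (FractionRing A) (FractionRing B)]

/-- tame case: if the residue field `A/p` has characteristic `0` and `pB = P * Q` with `P ≠ ⊤`
coprime to `Q`, then `P` does not divide the different. -/
theorem dsT_not_dvd_differentIdeal {p : Ideal A} [p.IsMaximal] [CharZero (A ⧸ p)]
    (P Q : Ideal B) (hPtop : P ≠ ⊤) (hPQ : IsCoprime P Q)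
    (hP : P * Q = Ideal.map (algebraMap A B) p) :
    ¬ P ∣ differentIdeal A B := by
  letI : Field (A ⧸ p) := Ideal.Quotient.field p
  letI algP : Algebra (A ⧸ p) (B ⧸ P) := Ideal.Quotient.algebraQuotientOfLEComap (by
      rw [← Ideal.map_le_iff_le_comap, ← hP]
      exact Ideal.mul_le_left)
  letI algQ : Algebra (A ⧸ p) (B ⧸ Q) := Ideal.Quotient.algebraQuotientOfLEComap (by
      rw [← Ideal.map_le_iff_le_comap, ← hP]
      exact Ideal.mul_le_right)
  haveI : IsScalarTower A (A ⧸ p) (B ⧸ Q) := .of_algebraMap_eq' rfl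
  haveI : IsScalarTower A (A ⧸ p) (B ⧸ P) := .of_algebraMap_eq' rfl
  haveI : Module.Finite (A ⧸ p) (B ⧸ Q) :=
    Module.Finite.of_restrictScalars_finite A (A ⧸ p) (B ⧸ Q)
  haveI : Module.Finite (A ⧸ p) (B ⧸ P) :=
    Module.Finite.of_restrictScalars_finite A (A ⧸ p) (B ⧸ P)
  haveI : Nontrivial (B ⧸ P) := Ideal.Quotient.nontrivial_iff.2 hPtop
  let e : (B ⧸ p.map (algebraMap A B)) ≃ₐ[A ⧸ p] ((B ⧸ P) × B ⧸ Q) :=
    { __ := (Ideal.quotEquivOfEq hP.symm).trans (Ideal.quotientMulEquivQuotientProd P Q hPQ),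
      commutes' := Quotient.ind fun _ ↦ rfl }
  obtain ⟨y, hy⟩ := Ideal.Quotient.mk_surjective (e.symm ((1 : B ⧸ P), 0))
  refine not_dvd_differentIdeal_of_intTrace_not_mem A P Q hP y ?_ ?_
  · have := congr((e $hy).2)
    simp at this
    simpa [e, Ideal.Quotient.eq_zero_iff_mem] using this
  · rw [← Ideal.Quotient.eq_zero_iff_mem, ← Algebra.trace_quotient_eq_of_isDedekindDomain,
      hy, Algebra.trace_eq_of_algEquiv, Algebra.trace_prod_apply]
    have h1 : Algebra.trace (A ⧸ p) (B ⧸ P) 1 = (Module.finrank (A ⧸ p) (B ⧸ P) : A ⧸ p) := by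
      have := Algebra.trace_algebraMap (R := A ⧸ p) (S := B ⧸ P) (1 : A ⧸ p)
      simpa using this
    have hpos : 0 < Module.finrank (A ⧸ p) (B ⧸ P) := Module.finrank_pos
    simp only [h1, map_zero, add_zero]
    exact_mod_cast hpos.ne'


/-- tame case: the different divides `pB` if `A/p` has characteristic `0` and every nonzero
prime of `B` contains `pB` (e.g. `A` local). -/
theorem dsT_differentIdeal_dvd_map {p : Ideal A} [p.IsMaximal] [CharZero (A ⧸ p)] (hp : p ≠ ⊥)
    (hloc : ∀ P : Ideal B, P.IsPrime → P ≠ ⊥ → p.map (algebraMap A B) ≤ P) :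
    differentIdeal A B ∣ p.map (algebraMap A B) := by
  have hI0 : p.map (algebraMap A B) ≠ ⊥ := by
    rw [Ne, Ideal.map_eq_bot_iff_of_injective (FaithfulSMul.algebraMap_injective A B)]
    exact hp
  rw [UniqueFactorizationMonoid.dvd_iff_emultiplicity_le differentIdeal_ne_bot]
  intro 𝔓 h𝔓
  have h𝔓0 : 𝔓 ≠ ⊥ := h𝔓.ne_zero
  have h𝔓prime : 𝔓.IsPrime := (Ideal.prime_iff_isPrime h𝔓0).1 h𝔓
  have h𝔓max : 𝔓.IsMaximal := h𝔓prime.isMaximal h𝔓0
  have hfin : FiniteMultiplicity 𝔓 (p.map (algebraMap A B)) :=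
    FiniteMultiplicity.of_not_isUnit h𝔓.not_isUnit hI0
  obtain ⟨Q, hQ, hndvd⟩ := hfin.exists_eq_pow_mul_and_not_dvd
  set e := multiplicity 𝔓 (p.map (algebraMap A B)) with he
  have hdvd : 𝔓 ∣ p.map (algebraMap A B) := Ideal.dvd_iff_le.2 (hloc 𝔓 h𝔓prime h𝔓0)
  have he1 : e ≠ 0 := by
    rw [he]
    exact multiplicity_ne_zero.2 hdvd
  have hPtop : 𝔓 ^ e ≠ ⊤ := by
    intro h
    have : 𝔓 ^ e ≤ 𝔓 := Ideal.pow_le_self he1
    rw [h, top_le_iff] at this
    exact h𝔓prime.ne_top this
  have hcop : IsCoprime (𝔓 ^ e) Q := by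
    apply IsCoprime.pow_left
    rw [Ideal.isCoprime_iff_sup_eq]
    by_contra hne
    have hle : 𝔓 ⊔ Q ≤ 𝔓 := by
      have := h𝔓max.eq_of_le hne le_sup_left
      exact this.symm.le
    exact hndvd (Ideal.dvd_iff_le.2 (le_trans le_sup_right hle))
  have hnot : ¬ 𝔓 ^ e ∣ differentIdeal A B :=
    dsT_not_dvd_differentIdeal (𝔓 ^ e) Q hPtop hcop hQ.symm
  rw [hfin.emultiplicity_eq_multiplicity]
  exact (emultiplicity_lt_iff_not_dvd.2 hnot).le

end Dedekind

section Dual

variable (A K L B : Type*) [CommRing A] [Field K] [CommRing B] [Field L]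
  [Algebra A K] [Algebra B L] [Algebra A B] [Algebra K L] [Algebra A L]
  [IsScalarTower A K L] [IsScalarTower A B L]
  [IsDedekindDomain A] [IsFractionRing A K] [IsDedekindDomain B] [IsFractionRing B L]
  [FiniteDimensional K L] [Algebra.IsSeparable K L] [IsIntegralClosure B A L]

include K L in
theorem dsT_isSeparable_fractionRing [IsTorsionFree A B] :
    Algebra.IsSeparable (FractionRing A) (FractionRing B) := by
  have H : RingHom.comp (algebraMap (FractionRing A) (FractionRing B))
      ↑(FractionRing.algEquiv A K).symm.toRingEquiv =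
        RingHom.comp ↑(FractionRing.algEquiv B L).symm.toRingEquiv (algebraMap K L) := by
    apply IsLocalization.ringHom_ext A⁰
    ext
    simp only [RingHom.coe_comp, RingHom.coe_coe,
      AlgEquiv.coe_ringEquiv, Function.comp_apply, AlgEquiv.commutes,
      ← IsScalarTower.algebraMap_apply]
    rw [IsScalarTower.algebraMap_apply A B L, AlgEquiv.commutes, ← IsScalarTower.algebraMap_apply]
  exact Algebra.IsSeparable.of_equiv_equiv _ _ H

/-- tame case, in terms of the trace dual: if `Tr(x B) ⊆ A` and `t ∈ p` then `t x ∈ B`. -/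
theorem dsT_mul_mem_of_trace_mem {p : Ideal A} [p.IsMaximal] [CharZero (A ⧸ p)] (hp : p ≠ ⊥)
    (hloc : ∀ P : Ideal B, P.IsPrime → P ≠ ⊥ → p.map (algebraMap A B) ≤ P)
    {t : A} (ht : t ∈ p) {x : L}
    (hx : ∀ b : B, Algebra.trace K L (x * algebraMap B L b) ∈ (algebraMap A K).range) :
    ∃ b' : B, algebraMap B L b' = algebraMap A L t * x := by
  haveI : Module.Finite A B := IsIntegralClosure.finite A K L B
  haveI : IsTorsionFree A B := by
    have hinj : Function.Injective (algebraMap A B) := by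
      have h1 : Function.Injective (algebraMap A L) := by
        rw [IsScalarTower.algebraMap_eq A K L]
        exact (algebraMap K L).injective.comp (IsFractionRing.injective A K)
      rw [IsScalarTower.algebraMap_eq A B L] at h1
      exact Function.Injective.of_comp h1
    haveI : FaithfulSMul A B := (faithfulSMul_iff_algebraMap_injective A B).2 hinj
    infer_instance
  haveI := dsT_isSeparable_fractionRing A K L B
  have hdvd := dsT_differentIdeal_dvd_map (A := A) (B := B) hp hloc
  have htD : algebraMap A B t ∈ differentIdeal A B :=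
    (Ideal.dvd_iff_le.1 hdvd) (Ideal.mem_map_of_mem _ ht)
  have hne : (1 : FractionalIdeal B⁰ L) ≠ 0 := one_ne_zero
  have hxd : x ∈ FractionalIdeal.dual A K (1 : FractionalIdeal B⁰ L) := by
    rw [FractionalIdeal.mem_dual hne]
    intro a ha
    obtain ⟨b, rfl⟩ := (FractionalIdeal.mem_one_iff _).1 ha
    exact hx b
  have htD' : algebraMap B L (algebraMap A B t) ∈
      (FractionalIdeal.dual A K (1 : FractionalIdeal B⁰ L))⁻¹ := by
    rw [← coeIdeal_differentIdeal A K L B]
    exact (FractionalIdeal.mem_coeIdeal _).2 ⟨_, htD, rfl⟩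
  have hmul : algebraMap B L (algebraMap A B t) * x ∈
      (FractionalIdeal.dual A K (1 : FractionalIdeal B⁰ L))⁻¹ *
        FractionalIdeal.dual A K (1 : FractionalIdeal B⁰ L) :=
    FractionalIdeal.mul_mem_mul htD' hxd
  rw [inv_mul_cancel₀ (FractionalIdeal.dual_ne_zero A K hne)] at hmul
  obtain ⟨b', hb'⟩ := (FractionalIdeal.mem_one_iff _).1 hmul
  refine ⟨b', ?_⟩
  rw [hb', ← IsScalarTower.algebraMap_apply]

end Dual


section Descent

variable {R K L : Type*} [CommRing R] [IsDomain R] [UniqueFactorizationMonoid R]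
  [Field K] [Algebra R K] [IsFractionRing R K]
  [Field L] [Algebra K L] [Algebra R L] [IsScalarTower R K L]

/-- an element `a / s` (`τ ∤ s`) of `K` with `τ ^ k * (a / s) ∈ R` lies in `R` -/
theorem dsT_mem_range_of_pow_mul {τ : R} (hτ : Prime τ) {k : ℕ} {x : K}
    (hx : ∃ a s : R, ¬ τ ∣ s ∧ x * algebraMap R K s = algebraMap R K a)
    (hk : ∃ r : R, x * algebraMap R K τ ^ k = algebraMap R K r) :
    ∃ r' : R, algebraMap R K r' = x := by
  obtain ⟨a, s, hs, hxs⟩ := hx
  obtain ⟨r, hr⟩ := hk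
  have hinj := IsFractionRing.injective R K
  have hs0 : s ≠ 0 := fun h => hs (h ▸ dvd_zero τ)
  -- a * τ^k = r * s
  have h1 : a * τ ^ k = r * s := by
    apply hinj
    rw [map_mul, map_mul, map_pow, ← hxs, ← hr]
    ring
  have h2 : τ ^ k ∣ r * s := ⟨a, by rw [← h1]; ring⟩
  have h3 : τ ^ k ∣ r := hτ.pow_dvd_of_dvd_mul_right k hs h2
  obtain ⟨r', rfl⟩ := h3
  refine ⟨r', ?_⟩
  have hτk : algebraMap R K τ ^ k ≠ 0 := by
    apply pow_ne_zero
    exact (map_ne_zero_iff _ hinj).2 hτ.ne_zero
  apply mul_right_cancel₀ hτk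
  rw [hr, map_mul, map_pow]
  ring

end Descent


section Loc

variable {R : Type*} [CommRing R] [IsDomain R]

theorem dsTLoc_isPrime {τ : R} (hτ : Prime τ) : (Ideal.span {τ} : Ideal R).IsPrime :=
  (Ideal.span_singleton_prime hτ.ne_zero).2 hτ

variable (K : Type*) [Field K] [Algebra R K] [IsFractionRing R K]

/-- the localization of `R` at the prime element `τ`, as a subalgebra of `K` -/
noncomputable abbrev dsTLoc {τ : R} (hτ : Prime τ) : Subalgebra R K :=
  haveI := dsTLoc_isPrime hτ
  Localization.subalgebra.ofField K (Ideal.span {τ}).primeCompl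
    (Ideal.span {τ}).primeCompl_le_nonZeroDivisors

variable {K}

theorem dsTLoc_mem_iff {τ : R} (hτ : Prime τ) {x : K} :
    x ∈ dsTLoc K hτ ↔ ∃ a s : R, ¬ τ ∣ s ∧ x * algebraMap R K s = algebraMap R K a := by
  haveI := dsTLoc_isPrime hτ
  constructor
  · rintro ⟨a, s, hs, rfl⟩
    refine ⟨a, s, ?_, ?_⟩
    · intro h
      exact hs (Ideal.mem_span_singleton.2 h)
    · have hs0 : algebraMap R K s ≠ 0 := by
        refine (map_ne_zero_iff _ (IsFractionRing.injective R K)).2 ?_
        rintro rfl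
        exact hs (Ideal.zero_mem _)
      rw [mul_assoc, inv_mul_cancel₀ hs0, mul_one]
  · rintro ⟨a, s, hs, h⟩
    refine ⟨a, s, fun h' => hs (Ideal.mem_span_singleton.1 h'), ?_⟩
    have hs0 : algebraMap R K s ≠ 0 := by
      refine (map_ne_zero_iff _ (IsFractionRing.injective R K)).2 ?_
      rintro rfl
      exact hs (dvd_zero _)
    rw [← h, mul_assoc, mul_inv_cancel₀ hs0, mul_one]

variable {τ : R} (hτ : Prime τ)

theorem dsTLoc_atPrime :
    haveI := dsTLoc_isPrime hτ
    IsLocalization.AtPrime (dsTLoc K hτ) (Ideal.span {τ}) :=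
  haveI := dsTLoc_isPrime hτ
  Localization.subalgebra.isLocalization_ofField K (Ideal.span {τ}).primeCompl _

theorem dsTLoc_isLocalRing : IsLocalRing (dsTLoc K hτ) :=
  haveI := dsTLoc_isPrime hτ
  haveI := dsTLoc_atPrime (K := K) hτ
  IsLocalization.AtPrime.isLocalRing (dsTLoc K hτ) (Ideal.span {τ})

theorem dsTLoc_isNoetherianRing [IsNoetherianRing R] : IsNoetherianRing (dsTLoc K hτ) :=
  haveI := dsTLoc_isPrime hτ
  haveI := dsTLoc_atPrime (K := K) hτ
  IsLocalization.isNoetherianRing (Ideal.span {τ}).primeCompl (dsTLoc K hτ) inferInstance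

theorem dsTLoc_maximalIdeal :
    haveI := dsTLoc_isLocalRing (K := K) hτ
    IsLocalRing.maximalIdeal (dsTLoc K hτ) = Ideal.span {algebraMap R (dsTLoc K hτ) τ} := by
  haveI := dsTLoc_isPrime hτ
  haveI := dsTLoc_atPrime (K := K) hτ
  haveI := dsTLoc_isLocalRing (K := K) hτ
  rw [← IsLocalization.AtPrime.map_eq_maximalIdeal (Ideal.span {τ}) (dsTLoc K hτ), Ideal.map_span,
    Set.image_singleton]

theorem dsTLoc_isDedekindDomain [IsNoetherianRing R] : IsDedekindDomain (dsTLoc K hτ) := by
  haveI := dsTLoc_isLocalRing (K := K) hτ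
  haveI := dsTLoc_isNoetherianRing (K := K) hτ
  have hpr : (IsLocalRing.maximalIdeal (dsTLoc K hτ)).IsPrincipal :=
    ⟨⟨_, dsTLoc_maximalIdeal hτ⟩⟩
  exact ((tfae_of_isNoetherianRing_of_isLocalRing_of_isDomain (dsTLoc K hτ)).out 4 2).1 hpr

theorem dsTLoc_comap_maximalIdeal :
    haveI := dsTLoc_isLocalRing (K := K) hτ
    (IsLocalRing.maximalIdeal (dsTLoc K hτ)).comap (algebraMap R (dsTLoc K hτ)) =
      Ideal.span {τ} := by
  haveI := dsTLoc_isPrime hτ
  haveI := dsTLoc_atPrime (K := K) hτ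
  haveI := dsTLoc_isLocalRing (K := K) hτ
  exact IsLocalization.AtPrime.under_maximalIdeal (dsTLoc K hτ) (Ideal.span {τ})

theorem dsTLoc_charZero (hchar : ∀ m : ℕ, m ≠ 0 → ¬ τ ∣ (m : R)) :
    haveI := dsTLoc_isLocalRing (K := K) hτ
    CharZero (dsTLoc K hτ ⧸ IsLocalRing.maximalIdeal (dsTLoc K hτ)) := by
  haveI := dsTLoc_isLocalRing (K := K) hτ
  refine charZero_of_inj_zero fun n hn => ?_
  by_contra hn0
  have h1 : ((n : dsTLoc K hτ)) ∈ IsLocalRing.maximalIdeal (dsTLoc K hτ) := by
    rw [← Ideal.Quotient.eq_zero_iff_mem]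
    simpa using hn
  have h2 : (n : R) ∈
      (IsLocalRing.maximalIdeal (dsTLoc K hτ)).comap (algebraMap R (dsTLoc K hτ)) := by
    rw [Ideal.mem_comap, map_natCast]
    exact h1
  rw [dsTLoc_comap_maximalIdeal hτ, Ideal.mem_span_singleton] at h2
  exact hchar n hn0 h2

end Loc


section Main

variable {R K L : Type*} [CommRing R] [IsDomain R] [UniqueFactorizationMonoid R]
  [IsNoetherianRing R] [Field K] [Algebra R K] [IsFractionRing R K]
  [Field L] [Algebra K L] [Algebra R L] [IsScalarTower R K L]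

/-- descent of integrality from `R_(τ)` to `R` -/
theorem dsT_isIntegral_descent {τ : R} (hτ : Prime τ) {y : L}
    (hy : IsIntegral (dsTLoc K hτ) y) (hz : IsIntegral R (algebraMap R L τ * y)) :
    IsIntegral R y := by
  haveI := dsTLoc_isDedekindDomain (K := K) hτ
  have hyK : IsIntegral K y := hy.tower_top
  have h1 : minpoly K y = (minpoly (dsTLoc K hτ) y).map (algebraMap (dsTLoc K hτ) K) :=
    minpoly.isIntegrallyClosed_eq_field_fractions' K hy
  have hτK : algebraMap R K τ ≠ 0 :=
    (map_ne_zero_iff _ (IsFractionRing.injective R K)).2 hτ.ne_zero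
  have hzeq : algebraMap R L τ * y = (algebraMap R K τ) • y := by
    rw [Algebra.smul_def, ← IsScalarTower.algebraMap_apply]
  have h2 : minpoly K ((algebraMap R K τ) • y) =
      (minpoly R (algebraMap R L τ * y)).map (algebraMap R K) := by
    rw [← hzeq]
    exact minpoly.isIntegrallyClosed_eq_field_fractions' K hz
  have h3 : minpoly K ((algebraMap R K τ) • y) = (minpoly K y).scaleRoots (algebraMap R K τ) :=
    IsIntegrallyClosed.minpoly_smul hτK hyK
  have hcoeff : ∀ i, (minpoly K y).coeff i ∈ Set.range (algebraMap R K) := by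
    intro i
    have hO : (minpoly K y).coeff i ∈ dsTLoc K hτ := by
      rw [h1, coeff_map]
      exact Subtype.property _
    have hk : ∃ r : R, (minpoly K y).coeff i * algebraMap R K τ ^ ((minpoly K y).natDegree - i) =
        algebraMap R K r := by
      refine ⟨(minpoly R (algebraMap R L τ * y)).coeff i, ?_⟩
      rw [← coeff_scaleRoots, ← h3, h2, coeff_map]
    exact dsT_mem_range_of_pow_mul hτ ((dsTLoc_mem_iff hτ).1 hO) hk
  have hlifts : minpoly K y ∈ lifts (algebraMap R K) := (lifts_iff_coeff_lifts _).2 hcoeff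
  obtain ⟨g, hg, -, hgm⟩ := lifts_and_natDegree_eq_and_monic hlifts (minpoly.monic hyK)
  refine ⟨g, hgm, ?_⟩
  rw [← aeval_def, ← aeval_map_algebraMap K, hg, minpoly.aeval]


/-- **DS-F2b** (tame different, residue characteristic `0`): if `z ∈ C` has
`Tr_{L/K}(z c) ∈ τ² R` for all `c ∈ C`, then `τ ∣ z` in `C`. -/
theorem ds_hT_integralClosure [CharZero K] [FiniteDimensional K L]
    {τ : R} (hτ : Prime τ) (hchar : ∀ m : ℕ, m ≠ 0 → ¬ τ ∣ (m : R))
    (z : integralClosure R L)
    (hz : ∀ c : integralClosure R L, ∃ r : R,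
      algebraMap R K (τ ^ 2 * r) = Algebra.trace K L ((z : L) * (c : L))) :
    algebraMap R (integralClosure R L) τ ∣ z := by
  haveI hprime := dsTLoc_isPrime hτ
  haveI := dsTLoc_atPrime (K := K) hτ
  haveI := dsTLoc_isLocalRing (K := K) hτ
  haveI := dsTLoc_isDedekindDomain (K := K) hτ
  haveI := dsTLoc_charZero (K := K) hτ hchar
  have hinjK : Function.Injective (algebraMap R K) := IsFractionRing.injective R K
  have hτK : algebraMap R K τ ≠ 0 := (map_ne_zero_iff _ hinjK).2 hτ.ne_zero
  have hτL : algebraMap R L τ ≠ 0 := by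
    rw [IsScalarTower.algebraMap_apply R K L]
    exact (map_ne_zero_iff _ (algebraMap K L).injective).2 hτK
  haveI : IsDedekindDomain (integralClosure (dsTLoc K hτ) L) :=
    integralClosure.isDedekindDomain (dsTLoc K hτ) K L
  haveI : IsFractionRing (integralClosure (dsTLoc K hτ) L) L :=
    integralClosure.isFractionRing_of_finite_extension K L
  have hp0 : IsLocalRing.maximalIdeal (dsTLoc K hτ) ≠ ⊥ := by
    intro h
    have h1 : algebraMap R (dsTLoc K hτ) τ ∈ IsLocalRing.maximalIdeal (dsTLoc K hτ) := by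
      rw [dsTLoc_maximalIdeal hτ]; exact Ideal.mem_span_singleton_self _
    rw [h, Ideal.mem_bot] at h1
    apply hτK
    have := congrArg (algebraMap (dsTLoc K hτ) K) h1
    rwa [← IsScalarTower.algebraMap_apply, map_zero] at this
  have hτp : algebraMap R (dsTLoc K hτ) τ ∈ IsLocalRing.maximalIdeal (dsTLoc K hτ) := by
    rw [dsTLoc_maximalIdeal hτ]; exact Ideal.mem_span_singleton_self _
  have hloc : ∀ Q : Ideal (integralClosure (dsTLoc K hτ) L), Q.IsPrime → Q ≠ ⊥ →
      (IsLocalRing.maximalIdeal (dsTLoc K hτ)).map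
        (algebraMap (dsTLoc K hτ) (integralClosure (dsTLoc K hτ) L)) ≤ Q := by
    intro Q hQ hQ0
    rw [Ideal.map_le_iff_le_comap]
    have hc0 : Q.comap (algebraMap (dsTLoc K hτ) (integralClosure (dsTLoc K hτ) L)) ≠ ⊥ :=
      fun h => hQ0 (Ideal.eq_bot_of_comap_eq_bot h)
    have hcprime : (Q.comap (algebraMap (dsTLoc K hτ)
        (integralClosure (dsTLoc K hτ) L))).IsPrime := Ideal.comap_isPrime _ Q
    have hcmax := hcprime.isMaximal hc0
    exact (IsLocalRing.eq_maximalIdeal hcmax).symm.le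
  set x : L := (z : L) / (algebraMap R L τ) ^ 2 with hx
  have hxtr : ∀ b : integralClosure (dsTLoc K hτ) L,
      Algebra.trace K L (x * algebraMap (integralClosure (dsTLoc K hτ) L) L b) ∈
        (algebraMap (dsTLoc K hτ) K).range := by
    intro b
    obtain ⟨m, hm⟩ := IsIntegral.exists_multiple_integral_of_isLocalization
      (Ideal.span {τ}).primeCompl (Rₘ := dsTLoc K hτ) (b : L) b.2
    obtain ⟨r, hr⟩ := hz ⟨m • (b : L), hm⟩
    have hm0 : algebraMap R K (m : R) ≠ 0 := by
      refine (map_ne_zero_iff _ hinjK).2 ?_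
      intro h0
      exact m.2 (h0 ▸ Ideal.zero_mem _)
    have hmτ : ¬ τ ∣ (m : R) := fun h => m.2 (Ideal.mem_span_singleton.2 h)
    -- trace computation
    have e1 : (z : L) * (m • (b : L)) =
        (algebraMap R K (m : R) * algebraMap R K τ ^ 2) • (x * (b : L)) := by
      rw [hx, Algebra.smul_def, map_mul, map_pow, ← IsScalarTower.algebraMap_apply,
        ← IsScalarTower.algebraMap_apply, Submonoid.smul_def, Algebra.smul_def]
      field_simp
    have e2 : algebraMap R K (τ ^ 2 * r) =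
        (algebraMap R K (m : R) * algebraMap R K τ ^ 2) * Algebra.trace K L (x * (b : L)) := by
      rw [hr]
      show Algebra.trace K L ((z : L) * (m • (b : L))) = _
      rw [e1, map_smul, smul_eq_mul]
    have e3 : Algebra.trace K L (x * (b : L)) * algebraMap R K (m : R) = algebraMap R K r := by
      have hτ2 : algebraMap R K τ ^ 2 ≠ 0 := pow_ne_zero _ hτK
      apply mul_left_cancel₀ hτ2
      rw [map_mul, map_pow] at e2
      rw [e2]; ring
    have hmem : Algebra.trace K L (x * (b : L)) ∈ dsTLoc K hτ :=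
      (dsTLoc_mem_iff hτ).2 ⟨r, m, hmτ, e3⟩
    exact ⟨⟨_, hmem⟩, rfl⟩
  obtain ⟨b', hb'⟩ := dsT_mul_mem_of_trace_mem (dsTLoc K hτ) K L
    (integralClosure (dsTLoc K hτ) L) hp0 hloc hτp hxtr
  have hyeq : (b' : L) = (z : L) / algebraMap R L τ := by
    have : (b' : L) = algebraMap (dsTLoc K hτ) L (algebraMap R (dsTLoc K hτ) τ) * x := hb'
    rw [this, ← IsScalarTower.algebraMap_apply, hx]
    field_simp
  have hyO : IsIntegral (dsTLoc K hτ) ((z : L) / algebraMap R L τ) := hyeq ▸ b'.2
  have hyR : IsIntegral R ((z : L) / algebraMap R L τ) := by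
    refine dsT_isIntegral_descent hτ hyO ?_
    rw [mul_div_cancel₀ _ hτL]
    exact z.2
  refine ⟨⟨(z : L) / algebraMap R L τ, hyR⟩, Subtype.ext ?_⟩
  show (z : L) = algebraMap R L τ * ((z : L) / algebraMap R L τ)
  rw [mul_div_cancel₀ _ hτL]

end Main

end Fermat.Agent.INJ
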