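import Mathlib.RingTheory.PowerSeries.Basic
import Mathlib.Algebra.BigOperators.NatAntidiagonal
import Mathlib.Tactic

/-!
# INJ / B-I3 — certified truncated power series arithmetic on integer lists

`HMTr n F l` : the list `l : List ℤ` gives the coefficients `0, …, n-1` of `F : PowerSeries ℤ`
(entries beyond the length of `l` are read as `0`).  All list operations are defined by structural
recursion so that closed instances are evaluated by the kernel (`decide +kernel`).
-/

set_option autoImplicit false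

namespace Fermat.Agent.INJ.HM

open PowerSeries

/-- `hmConvAux l m k i = ∑_{j ≤ i} l[j] * m[k-j]`. -/
def hmConvAux (l m : List ℤ) (k : ℕ) : ℕ → ℤ
  | 0 => l.getD 0 0 * m.getD k 0
  | (i + 1) => hmConvAux l m k i + l.getD (i + 1) 0 * m.getD (k - (i + 1)) 0

/-- truncated product of two coefficient lists. -/
def hmMul (n : ℕ) (l m : List ℤ) : List ℤ := (List.range n).map fun k => hmConvAux l m k k

/-- truncated sum. -/
def hmAdd (n : ℕ) (l m : List ℤ) : List ℤ := (List.range n).map fun k => l.getD k 0 + m.getD k 0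

/-- truncated difference. -/
def hmSub (n : ℕ) (l m : List ℤ) : List ℤ := (List.range n).map fun k => l.getD k 0 - m.getD k 0

/-- scalar multiple. -/
def hmSmul (n : ℕ) (c : ℤ) (l : List ℤ) : List ℤ := (List.range n).map fun k => c * l.getD k 0

/-- dilation `q ↦ q^d`. -/
def hmDil (n d : ℕ) (l : List ℤ) : List ℤ :=
  (List.range n).map fun k => if k % d = 0 then l.getD (k / d) 0 else 0

/-- multiplication by `X^s`. -/
def hmShift (n s : ℕ) (l : List ℤ) : List ℤ :=
  (List.range n).map fun k => if s ≤ k then l.getD (k - s) 0 else 0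

/-- powers. -/
def hmPow (n : ℕ) (l : List ℤ) : ℕ → List ℤ
  | 0 => hmShift n 0 [1]
  | (k + 1) => hmMul n (hmPow n l k) l

/-- the list `l` gives the first `n` coefficients of `F`. -/
def HMTr (n : ℕ) (F : PowerSeries ℤ) (l : List ℤ) : Prop :=
  ∀ i, i < n → coeff i F = l.getD i 0

theorem hm_getD_map_range (n : ℕ) (f : ℕ → ℤ) {i : ℕ} (hi : i < n) :
    ((List.range n).map f).getD i 0 = f i := by
  rw [List.getD_eq_getElem?_getD, List.getElem?_map, List.getElem?_range hi]
  rfl

theorem hmConvAux_eq (l m : List ℤ) (k i : ℕ) :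
    hmConvAux l m k i = ∑ j ∈ Finset.range (i + 1), l.getD j 0 * m.getD (k - j) 0 := by
  induction i with
  | zero => simp [hmConvAux]
  | succ i ih => rw [hmConvAux, ih, Finset.sum_range_succ _ (i + 1)]

variable {n : ℕ} {F G : PowerSeries ℤ} {l m : List ℤ}

theorem HMTr.congr (h : HMTr n F l) {l' : List ℤ} (e : l = l') : HMTr n F l' := e ▸ h

theorem HMTr.mono (h : HMTr n F l) {n' : ℕ} (hn : n' ≤ n) : HMTr n' F l :=
  fun i hi => h i (lt_of_lt_of_le hi hn)

theorem HMTr.mul (hF : HMTr n F l) (hG : HMTr n G m) : HMTr n (F * G) (hmMul n l m) := by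
  intro i hi
  rw [hmMul, hm_getD_map_range n _ hi, hmConvAux_eq, coeff_mul,
    Finset.Nat.sum_antidiagonal_eq_sum_range_succ (fun a b => coeff a F * coeff b G) i]
  refine Finset.sum_congr rfl fun j hj => ?_
  have hj' : j < i + 1 := Finset.mem_range.mp hj
  rw [hF j (by omega), hG (i - j) (by omega)]

theorem HMTr.add (hF : HMTr n F l) (hG : HMTr n G m) : HMTr n (F + G) (hmAdd n l m) := by
  intro i hi
  rw [hmAdd, hm_getD_map_range n _ hi, map_add, hF i hi, hG i hi]

theorem HMTr.sub (hF : HMTr n F l) (hG : HMTr n G m) : HMTr n (F - G) (hmSub n l m) := by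
  intro i hi
  rw [hmSub, hm_getD_map_range n _ hi, map_sub, hF i hi, hG i hi]

theorem HMTr.smul (c : ℤ) (hF : HMTr n F l) : HMTr n (C c * F) (hmSmul n c l) := by
  intro i hi
  rw [hmSmul, hm_getD_map_range n _ hi, coeff_C_mul, hF i hi]

theorem HMTr.shift (s : ℕ) (hF : HMTr n F l) : HMTr n (X ^ s * F) (hmShift n s l) := by
  intro i hi
  rw [hmShift, hm_getD_map_range n _ hi, coeff_X_pow_mul']
  split_ifs with h
  · exact hF _ (by omega)
  · rfl

theorem HMTr.one (n : ℕ) : HMTr n (1 : PowerSeries ℤ) (hmShift n 0 [1]) := by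
  intro i hi
  rw [hmShift, hm_getD_map_range n _ hi, coeff_one]
  rcases i with _ | i
  · simp
  · simp

theorem HMTr.pow (hF : HMTr n F l) (k : ℕ) : HMTr n (F ^ k) (hmPow n l k) := by
  induction k with
  | zero => simpa [hmPow] using HMTr.one n
  | succ k ih => rw [pow_succ]; exact ih.mul hF

/-- formal dilation `F(q) ↦ F(q^d)` on integral power series. -/
noncomputable def hmDilPS (d : ℕ) (F : PowerSeries ℤ) : PowerSeries ℤ :=
  PowerSeries.mk fun k => if d ∣ k then coeff (k / d) F else 0

theorem coeff_hmDilPS (d : ℕ) (F : PowerSeries ℤ) (k : ℕ) :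
    coeff k (hmDilPS d F) = if d ∣ k then coeff (k / d) F else 0 := by
  rw [hmDilPS, coeff_mk]

theorem HMTr.dil {d : ℕ} (hd : 0 < d) (hF : HMTr n F l) :
    HMTr n (hmDilPS d F) (hmDil n d l) := by
  intro i hi
  rw [hmDil, hm_getD_map_range n _ hi, coeff_hmDilPS]
  by_cases h : d ∣ i
  · rw [if_pos h, if_pos (Nat.mod_eq_zero_of_dvd h)]
    exact hF _ (lt_of_le_of_lt (Nat.div_le_self i d) hi)
  · rw [if_neg h, if_neg (fun h' => h (Nat.dvd_of_mod_eq_zero h'))]

theorem HMTr.eq_zero (h : HMTr n F (List.replicate n 0)) : ∀ i, i < n → coeff i F = 0 := by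
  intro i hi
  rw [h i hi, List.getD_eq_getElem?_getD, List.getElem?_replicate]
  simp [hi]

end Fermat.Agent.INJ.HM
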