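import Fermat.Agent.INJ.HMSturm
import Mathlib.RingTheory.PowerSeries.Expand

/-!
# INJ / B-I3 — `q`-expansion of `f(Nz)` for a level-one form `f`; `hmDilPS` is multiplicative
-/

set_option autoImplicit false

noncomputable section

namespace Fermat.Agent.INJ.HM

open UpperHalfPlane ModularForm PowerSeries
open Fermat.Agent.S23 Fermat.Agent.S24 Fermat.Agent.S28
open scoped MatrixGroups ModularForm Manifold

local notation "𝕢" => Function.Periodic.qParam

/-- `q`-expansion of `z ↦ f (N z)`. -/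
theorem hm_qExp_comp_scaleN (N : ℕ) [NeZero N] {k : ℤ} (f : ModularForm 𝒮ℒ k) :
    qExpansion 1 (fun z => f (scaleN N z)) = thetaAlg_subst N (qExpansion 1 f) := by
  have hN : N ≠ 0 := NeZero.ne N
  ext n
  rw [thetaAlg_subst_coeff]
  set c : ℕ → ℂ := fun n => if N ∣ n then (qExpansion 1 f).coeff (n / N) else 0 with hc
  have hmf : IsMF (G0 N) k (fun z => f (scaleN N z)) := isMF_comp_scaleN N f
  have hcont : Continuous (fun z => f (scaleN N z)) := (mdiff_comp_scaleN N f.holo').continuous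
  refine (UpperHalfPlane.qExpansion_coeff_unique (c := c) (ContinuousMap.mk _ hcont)
    one_pos hmf.analyticAt_cuspFunction ?_ n).symm
  intro τ
  have h1 := hasSum_qExpansion (h := 1) one_pos
    (SlashInvariantFormClass.periodic_comp_ofComplex f one_mem_strictPeriods_SL)
    f.holo' (ModularFormClass.bdd_at_infty f) (scaleN N τ)
  rw [P7_qParam_scaleN] at h1
  have hinj : Function.Injective (fun m : ℕ => N * m) := fun a b hab =>
    Nat.eq_of_mul_eq_mul_left (Nat.pos_of_ne_zero hN) hab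
  change HasSum (fun m ↦ c m • 𝕢 1 τ ^ m) (f (scaleN N τ))
  rw [← hinj.hasSum_iff]
  · convert h1 using 2 with m
    simp only [Function.comp_apply, hc, dvd_mul_right, if_true, Nat.mul_div_cancel_left _
      (Nat.pos_of_ne_zero hN), pow_mul]
  · intro x hx
    have : ¬ N ∣ x := fun ⟨k, hk⟩ => hx ⟨k, hk.symm⟩
    simp [hc, this]

theorem hm_subst_eq0 (N : ℕ) (F : PowerSeries ℤ) :
    thetaAlg_subst N (hmC F) = hmC (hmDilPS N F) := by
  ext n
  rw [thetaAlg_subst_coeff, hmC, PowerSeries.coeff_map, PowerSeries.coeff_map, coeff_hmDilPS]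
  split_ifs <;> simp

/-- `E₄(N z)` as a function. -/
def hmE4N (N : ℕ) [NeZero N] : ℍ → ℂ := fun z => E₄ (scaleN N z)

theorem hm_isMF_E4N (N : ℕ) [NeZero N] : IsMF (G0 N) 4 (hmE4N N) := isMF_comp_scaleN N E₄

theorem hm_qExp_E4N (N : ℕ) [NeZero N] :
    qExpansion 1 (hmE4N N) = hmC (hmDilPS N ModularCurve.eisenstein4) := by
  unfold hmE4N
  rw [hm_qExp_comp_scaleN, hm_qExp_E4, hm_subst_eq0]

/-! ### `hmDilPS` is a ring homomorphism -/

theorem hmDilPS_eq_expand (N : ℕ) (hN : N ≠ 0) (F : PowerSeries ℤ) :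
    hmDilPS N F = PowerSeries.expand N hN F := by
  ext n
  rw [coeff_hmDilPS, PowerSeries.coeff_expand]

theorem hmDilPS_one (N : ℕ) (hN : N ≠ 0) : hmDilPS N (1 : PowerSeries ℤ) = 1 := by
  rw [hmDilPS_eq_expand N hN, map_one]

theorem hmDilPS_add (N : ℕ) (hN : N ≠ 0) (F G : PowerSeries ℤ) :
    hmDilPS N (F + G) = hmDilPS N F + hmDilPS N G := by
  simp only [hmDilPS_eq_expand N hN, map_add]

theorem hmDilPS_mul (N : ℕ) (hN : N ≠ 0) (F G : PowerSeries ℤ) :
    hmDilPS N (F * G) = hmDilPS N F * hmDilPS N G := by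
  simp only [hmDilPS_eq_expand N hN, map_mul]

theorem hmDilPS_pow (N : ℕ) (hN : N ≠ 0) (F : PowerSeries ℤ) (k : ℕ) :
    hmDilPS N (F ^ k) = hmDilPS N F ^ k := by
  simp only [hmDilPS_eq_expand N hN, map_pow]

end Fermat.Agent.INJ.HM
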