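import Fermat.Agent.INJ.HMList
import Fermat.Agent.S24.EtaExp
import Fermat.Prelude.Def_ModularCurve_X0

/-!
# INJ / B-I3 — coefficient tables for the prelude's formal series `eisenstein4`, `etaProd`,
`dedekindEtaUnit`, in the list calculus of `HMList`.
-/

set_option autoImplicit false

namespace Fermat.Agent.INJ.HM

open PowerSeries Filter Topology Fermat.Agent.S24

/-- coefficient list of `1 - X^(k+1)`. -/
def hmFactor (n k : ℕ) : List ℤ :=
  (List.range n).map fun i => if i = 0 then 1 else if i = k + 1 then -1 else 0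

/-- coefficient list of `∏_{j<k} (1 - X^(j+1))`. -/
def hmEta (n : ℕ) : ℕ → List ℤ
  | 0 => hmShift n 0 [1]
  | (k + 1) => hmMul n (hmEta n k) (hmFactor n k)

theorem hmTr_factor (n k : ℕ) :
    HMTr n (1 - (X : PowerSeries ℤ) ^ (k + 1)) (hmFactor n k) := by
  intro i hi
  rw [hmFactor, hm_getD_map_range n _ hi, map_sub, coeff_one, coeff_X_pow]
  by_cases h0 : i = 0
  · subst h0; simp
  · by_cases h1 : i = k + 1
    · subst h1; simp
    · simp [h0, h1]

theorem hmTr_etaFin (n k : ℕ) :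
    HMTr n (∏ j ∈ Finset.range k, (1 - (X : PowerSeries ℤ) ^ (j + 1))) (hmEta n k) := by
  induction k with
  | zero => simpa [hmEta] using HMTr.one n
  | succ k ih =>
    rw [Finset.prod_range_succ]
    exact ih.mul (hmTr_factor n k)

theorem hm_coeff_etaPolyZ_succ {N m : ℕ} (h : m ≤ N) :
    (etaPolyZ (N + 1)).coeff m = (etaPolyZ N).coeff m := by
  have e : etaPolyZ (N + 1) = etaPolyZ N - etaPolyZ N * Polynomial.X ^ (N + 1) := by
    rw [etaPolyZ, Finset.prod_range_succ, ← etaPolyZ]; ring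
  rw [e, Polynomial.coeff_sub, Polynomial.coeff_mul_X_pow', if_neg (by omega), sub_zero]

theorem hm_coeff_etaPolyZ_of_le {N m : ℕ} (h : m ≤ N) (M : ℕ) (hM : N ≤ M) :
    (etaPolyZ M).coeff m = (etaPolyZ N).coeff m := by
  induction M, hM using Nat.le_induction with
  | base => rfl
  | succ M hM ih => rw [hm_coeff_etaPolyZ_succ (le_trans h hM), ih]

theorem hm_coeff_etaProd {N m : ℕ} (h : m ≤ N) :
    ModularCurve.etaProd.coeff m = (etaPolyZ N).coeff m := by
  have h1 := tendsto_coeff_etaPolyZ m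
  have h2 : Tendsto (fun M : ℕ => (etaPolyZ M).coeff m) atTop (𝓝 ((etaPolyZ N).coeff m)) := by
    refine tendsto_atTop_of_eventually_const (i₀ := N) fun M hM => ?_
    exact hm_coeff_etaPolyZ_of_le h M hM
  exact tendsto_nhds_unique h1 h2

theorem hmTr_etaProd (n : ℕ) : HMTr n ModularCurve.etaProd (hmEta n n) := by
  intro i hi
  have h1 : coeff i ModularCurve.etaProd = (etaPolyZ n).coeff i := hm_coeff_etaProd hi.le
  rw [h1, ← Polynomial.coeff_coe, etaPolyZ_toPowerSeries]
  exact hmTr_etaFin n n i hi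

theorem hmTr_D (n : ℕ) : HMTr n ModularCurve.dedekindEtaUnit (hmPow n (hmEta n n) 24) :=
  (hmTr_etaProd n).pow 24

/-- `σ₃`-table entry, kernel-friendly. -/
def hmSigma3Aux (k : ℕ) : ℕ → ℤ
  | 0 => 0
  | (d + 1) => hmSigma3Aux k d + if k % (d + 1) = 0 then ((d + 1 : ℕ) : ℤ) ^ 3 else 0

/-- coefficient list of `eisenstein4`. -/
def hmE4 (n : ℕ) : List ℤ :=
  (List.range n).map fun k => if k = 0 then 1 else 240 * hmSigma3Aux k k

theorem hmSigma3Aux_eq (k D : ℕ) :
    hmSigma3Aux k D = ∑ d ∈ (Finset.range (D + 1)).filter (fun d => d ≠ 0 ∧ d ∣ k), (d : ℤ) ^ 3 := by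
  induction D with
  | zero =>
    rw [hmSigma3Aux]
    symm
    apply Finset.sum_eq_zero
    intro d hd
    simp only [Finset.mem_filter, Finset.mem_range] at hd
    omega
  | succ D ih =>
    rw [hmSigma3Aux, ih, Finset.range_add_one (n := D + 1), Finset.filter_insert]
    by_cases h : k % (D + 1) = 0
    · have hdvd : (D + 1) ∣ k := Nat.dvd_of_mod_eq_zero h
      rw [if_pos h, if_pos ⟨Nat.succ_ne_zero D, hdvd⟩, Finset.sum_insert, add_comm]
      simp
    · have hdvd : ¬ (D + 1) ∣ k := fun h' => h (Nat.mod_eq_zero_of_dvd h')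
      rw [if_neg h, if_neg (fun h' => hdvd h'.2), add_zero]

theorem hm_divisors_eq (k : ℕ) (hk : k ≠ 0) :
    k.divisors = (Finset.range (k + 1)).filter (fun d => d ≠ 0 ∧ d ∣ k) := by
  ext d
  simp only [Nat.mem_divisors, Finset.mem_filter, Finset.mem_range]
  constructor
  · rintro ⟨h1, h2⟩
    refine ⟨?_, ?_, h1⟩
    · exact Nat.lt_succ_of_le (Nat.le_of_dvd (Nat.pos_of_ne_zero hk) h1)
    · rintro rfl
      exact hk (Nat.eq_zero_of_zero_dvd h1)
  · rintro ⟨-, -, h3⟩
    exact ⟨h3, hk⟩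

theorem hmTr_E4 (n : ℕ) : HMTr n ModularCurve.eisenstein4 (hmE4 n) := by
  intro i hi
  rw [hmE4, hm_getD_map_range n _ hi, ModularCurve.eisenstein4, coeff_mk]
  by_cases h0 : i = 0
  · rw [if_pos h0, if_pos h0]
  · rw [if_neg h0, if_neg h0, hmSigma3Aux_eq, hm_divisors_eq i h0]

end Fermat.Agent.INJ.HM
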