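import Fermat.Agent.INJ.HMScale

/-!
# INJ / B-I3 — the level-2 Hauptmodul identity, formal power series form

With `E = eisenstein4`, `D = dedekindEtaUnit` (`Δ = q·D`), `D₂ = D(q²)`:

  `E³ · D · D₂ = (D + 256 q D₂)³`   in `ℤ[[q]]`,

i.e. `j · h² = (h + 256)³` for `h = Δ(z)/Δ(2z)`.  Proof: Sturm bound for the weight-36 form
`E₄³ Δ Δ(2·) − (Δ + 256 Δ(2·))³` on `Γ₀(2)` (10 coefficients).
-/

set_option autoImplicit false

noncomputable section

namespace Fermat.Agent.INJ.HM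

open UpperHalfPlane ModularForm PowerSeries
open Fermat.Agent.S23 Fermat.Agent.S24 Fermat.Agent.S28
open scoped MatrixGroups ModularForm Manifold

local notation "Δ" => ModularForm.discriminant

/-- the formal series `E³ D D₂ − (D + 256 q D₂)³`. -/
def hmF2 : PowerSeries ℤ :=
  ModularCurve.eisenstein4 ^ 3 * ModularCurve.dedekindEtaUnit *
      hmDilPS 2 ModularCurve.dedekindEtaUnit -
    (ModularCurve.dedekindEtaUnit +
      C (256 : ℤ) * (X ^ 1 * hmDilPS 2 ModularCurve.dedekindEtaUnit)) ^ 3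

/-- the table of `D = ∏(1-qⁿ)^24` up to `q⁶`. -/
def hmDtab7 : List ℤ := [1, -24, 252, -1472, 4830, -6048, -16744]

theorem hmTr_D7 : HMTr 7 ModularCurve.dedekindEtaUnit hmDtab7 :=
  (hmTr_D 7).congr (by decide +kernel)

theorem hmF2_trunc : ∀ i, i < 7 → coeff i hmF2 = 0 := by
  have hE := hmTr_E4 7
  have hD := hmTr_D7
  have hD2 := hD.dil (d := 2) (by norm_num)
  have h1 := ((hE.pow 3).mul hD).mul hD2
  have h2 := (hD.add ((hD2.shift 1).smul 256)).pow 3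
  have h3 := h1.sub h2
  exact HMTr.eq_zero (h3.congr (by decide +kernel))

/-- the analytic form `E₄³ Δ Δ(2·) − (Δ + 256 Δ(2·))³`. -/
def hmG2 : ℍ → ℂ :=
  (E₄ : ℍ → ℂ) ^ 3 * (Δ : ℍ → ℂ) * deltaNFun 2 - ((Δ : ℍ → ℂ) + (256 : ℂ) • deltaNFun 2) ^ 3

theorem hm_isMF_G2 : IsMF (G0 2) 36 hmG2 := by
  have hE : IsMF (G0 2) 4 (E₄ : ℍ → ℂ) := hm_isMF_E4 2
  have hΔ : IsMF (G0 2) 12 (Δ : ℍ → ℂ) := isMF_discriminant 2
  have hΔ2 : IsMF (G0 2) 12 (deltaNFun 2) := hm_isMF_DeltaN 2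
  have h1 := (((hE.pow 3).mul hΔ).mul hΔ2).of_weight_eq
    (show ((3 : ℕ) : ℤ) * 4 + 12 + 12 = 36 by norm_num)
  have h2 := ((hΔ.add (hΔ2.const_smul 256)).pow 3).of_weight_eq
    (show ((3 : ℕ) : ℤ) * 12 = 36 by norm_num)
  exact h1.sub h2

theorem hm_qExp_G2 : qExpansion 1 hmG2 = X ^ 3 * hmC hmF2 := by
  have hE : IsMF (G0 2) 4 (E₄ : ℍ → ℂ) := hm_isMF_E4 2
  have hΔ : IsMF (G0 2) 12 (Δ : ℍ → ℂ) := isMF_discriminant 2
  have hΔ2 : IsMF (G0 2) 12 (deltaNFun 2) := hm_isMF_DeltaN 2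
  have h1 := ((hE.pow 3).mul hΔ).mul hΔ2
  have h2 := (hΔ.add (hΔ2.const_smul 256)).pow 3
  rw [hmG2, h1.qExpansion_sub h2, ((hE.pow 3).mul hΔ).qExpansion_mul hΔ2,
    (hE.pow 3).qExpansion_mul hΔ, hE.qExpansion_pow,
    (hΔ.add (hΔ2.const_smul 256)).qExpansion_pow, hΔ.qExpansion_add (hΔ2.const_smul 256),
    hΔ2.qExpansion_smul, hm_qExp_E4, hm_qExp_Delta, hm_qExp_DeltaN, hmF2]
  rw [PowerSeries.smul_eq_C_mul]
  simp only [map_sub, map_mul, map_pow, map_add, PowerSeries.map_X, map_ofNat]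
  ring

/-- **Level 2 Hauptmodul identity**, formal form: `E³ D D₂ = (D + 256 q D₂)³`. -/
theorem hmF2_eq_zero : hmF2 = 0 := by
  have hq : qExpansion 1 hmG2 = 0 := by
    refine hm_sturm 2 hm_isMF_G2 9 ?_ ?_
    · rw [hm_index2]; decide
    · intro n hn
      rw [hm_qExp_G2, PowerSeries.coeff_X_pow_mul']
      split_ifs with h
      · rw [hmC, PowerSeries.coeff_map, hmF2_trunc _ (by omega)]
        simp
      · rfl
  rw [hm_qExp_G2] at hq
  have h2 : hmC hmF2 = 0 := by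
    rcases mul_eq_zero.mp hq with h | h
    · exact absurd h (pow_ne_zero 3 PowerSeries.X_ne_zero)
    · exact h
  exact hmC_injective (by rw [h2, map_zero])

theorem hm_level2_formal :
    ModularCurve.eisenstein4 ^ 3 * ModularCurve.dedekindEtaUnit *
        hmDilPS 2 ModularCurve.dedekindEtaUnit =
      (ModularCurve.dedekindEtaUnit +
        C (256 : ℤ) * (X ^ 1 * hmDilPS 2 ModularCurve.dedekindEtaUnit)) ^ 3 :=
  sub_eq_zero.mp hmF2_eq_zero

/-! ### the second identity `j(2z) · h = (h + 16)³` -/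

/-- the formal series `E(q²)³ D D₂ − (D + 16 q D₂)³`. -/
def hmF2b : PowerSeries ℤ :=
  hmDilPS 2 ModularCurve.eisenstein4 ^ 3 * ModularCurve.dedekindEtaUnit *
      hmDilPS 2 ModularCurve.dedekindEtaUnit -
    (ModularCurve.dedekindEtaUnit +
      C (16 : ℤ) * (X ^ 1 * hmDilPS 2 ModularCurve.dedekindEtaUnit)) ^ 3

theorem hmF2b_trunc : ∀ i, i < 7 → coeff i hmF2b = 0 := by
  have hE := (hmTr_E4 7).dil (d := 2) (by norm_num)
  have hD := hmTr_D7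
  have hD2 := hD.dil (d := 2) (by norm_num)
  have h1 := ((hE.pow 3).mul hD).mul hD2
  have h2 := (hD.add ((hD2.shift 1).smul 16)).pow 3
  have h3 := h1.sub h2
  exact HMTr.eq_zero (h3.congr (by decide +kernel))

/-- the analytic form `E₄(2·)³ Δ Δ(2·) − (Δ + 16 Δ(2·))³`. -/
def hmG2b : ℍ → ℂ :=
  hmE4N 2 ^ 3 * (Δ : ℍ → ℂ) * deltaNFun 2 - ((Δ : ℍ → ℂ) + (16 : ℂ) • deltaNFun 2) ^ 3

theorem hm_isMF_G2b : IsMF (G0 2) 36 hmG2b := by
  have hE : IsMF (G0 2) 4 (hmE4N 2) := hm_isMF_E4N 2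
  have hΔ : IsMF (G0 2) 12 (Δ : ℍ → ℂ) := isMF_discriminant 2
  have hΔ2 : IsMF (G0 2) 12 (deltaNFun 2) := hm_isMF_DeltaN 2
  have h1 := (((hE.pow 3).mul hΔ).mul hΔ2).of_weight_eq
    (show ((3 : ℕ) : ℤ) * 4 + 12 + 12 = 36 by norm_num)
  have h2 := ((hΔ.add (hΔ2.const_smul 16)).pow 3).of_weight_eq
    (show ((3 : ℕ) : ℤ) * 12 = 36 by norm_num)
  exact h1.sub h2

theorem hm_qExp_G2b : qExpansion 1 hmG2b = X ^ 3 * hmC hmF2b := by
  have hE : IsMF (G0 2) 4 (hmE4N 2) := hm_isMF_E4N 2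
  have hΔ : IsMF (G0 2) 12 (Δ : ℍ → ℂ) := isMF_discriminant 2
  have hΔ2 : IsMF (G0 2) 12 (deltaNFun 2) := hm_isMF_DeltaN 2
  have h1 := ((hE.pow 3).mul hΔ).mul hΔ2
  have h2 := (hΔ.add (hΔ2.const_smul 16)).pow 3
  rw [hmG2b, h1.qExpansion_sub h2, ((hE.pow 3).mul hΔ).qExpansion_mul hΔ2,
    (hE.pow 3).qExpansion_mul hΔ, hE.qExpansion_pow,
    (hΔ.add (hΔ2.const_smul 16)).qExpansion_pow, hΔ.qExpansion_add (hΔ2.const_smul 16),
    hΔ2.qExpansion_smul, hm_qExp_E4N, hm_qExp_Delta, hm_qExp_DeltaN, hmF2b]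
  rw [PowerSeries.smul_eq_C_mul]
  simp only [map_sub, map_mul, map_pow, map_add, PowerSeries.map_X, map_ofNat]
  ring

/-- a form of weight 36 on `Γ₀(2)` of the shape `q³ · F` vanishes as soon as `F ≡ 0 mod q⁷`. -/
theorem hm_level2_vanish {G : ℍ → ℂ} {F : PowerSeries ℤ} (hG : IsMF (G0 2) 36 G)
    (hq : qExpansion 1 G = X ^ 3 * hmC F) (hF : ∀ i, i < 7 → coeff i F = 0) : F = 0 := by
  have hq0 : qExpansion 1 G = 0 := by
    refine hm_sturm 2 hG 9 ?_ ?_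
    · rw [hm_index2]; decide
    · intro n hn
      rw [hq, PowerSeries.coeff_X_pow_mul']
      split_ifs with h
      · rw [hmC, PowerSeries.coeff_map, hF _ (by omega)]
        simp
      · rfl
  rw [hq] at hq0
  have h2 : hmC F = 0 := by
    rcases mul_eq_zero.mp hq0 with h | h
    · exact absurd h (pow_ne_zero 3 PowerSeries.X_ne_zero)
    · exact h
  exact hmC_injective (by rw [h2, map_zero])

theorem hm_level2b_formal :
    hmDilPS 2 ModularCurve.eisenstein4 ^ 3 * ModularCurve.dedekindEtaUnit *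
        hmDilPS 2 ModularCurve.dedekindEtaUnit =
      (ModularCurve.dedekindEtaUnit +
        C (16 : ℤ) * (X ^ 1 * hmDilPS 2 ModularCurve.dedekindEtaUnit)) ^ 3 :=
  sub_eq_zero.mp (hm_level2_vanish hm_isMF_G2b hm_qExp_G2b hmF2b_trunc)

end Fermat.Agent.INJ.HM
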