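import Fermat.Agent.INJ.InjH2Aux
import Fermat.Agent.INJ.LocalSetup
import Fermat.Agent.INJ.GaussHaupt
import Fermat.Agent.INJ.BGFinH
import Fermat.Agent.INJ.BGRamNF
import Fermat.Agent.INJ.InjDescentAux

/-!
# (INJ) instantiation INST-h2: `ℓ = 3`, the Hauptmodul line of `X₀(2)`

`stmtInjNF_h2 : InjCoreStmt → StmtInjNF N 3 p` for `2 ∣ N`, `3 ∤ N`, `p ≠ 3` prime.
Coordinate `t₀ = hm2`, `Σ = {0, -64}`, `e = N`.
-/

set_option autoImplicit false
set_option linter.style.haveILetI false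
set_option linter.unusedSectionVars false
set_option synthInstance.maxHeartbeats 400000
set_option maxHeartbeats 4000000

namespace Fermat.Agent.INJ

open Polynomial ModularCurve IntermediateField AlgebraicCurve Fermat.Agent.S24

/-- **INST-h2.** -/
theorem stmtInjNF_h2 (hcore : InjCoreStmt) {N p : ℕ} (hN : N ≠ 0) (h2 : 2 ∣ N) (h3 : ¬ 3 ∣ N)
    (hp : p.Prime) (hp3 : p ≠ 3) : StmtInjNF N 3 p := by
  classical
  intro A hA K₀ hfin hζp hζ6N Y₁ Y₂ h h₁ h₂ hred hne hpow hdiv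
  by_contra hnot
  haveI : NeZero N := ⟨hN⟩
  haveI : FiniteDimensional ℚ K₀ := hfin
  have hℓ : (3 : ℕ).Prime := Nat.prime_three
  haveI hdvr : IsDiscreteValuationRing (nfSub A K₀) := ls_isDVR A K₀ hℓ hA
  obtain ⟨π, hπ⟩ := IsDiscreteValuationRing.exists_irreducible (nfSub A K₀)
  have hrπ : nfRes A K₀ π = 0 := ls_res_irreducible A K₀ hπ
  have hr : ∀ a, nfRes A K₀ a = 0 → π ∣ a := fun a => ls_dvd_of_res_eq_zero A K₀ hπ a
  haveI : Fact (3 : ℕ).Prime := ⟨hℓ⟩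
  haveI : CharP (IsLocalRing.ResidueField A) 3 := ls_charP_residueField A hℓ hA
  haveI : PerfectRing (IsLocalRing.ResidueField A) 3 := nf_perfectRing_residueField A 3
  have hNE : ((N : ℕ) : K₀) ≠ 0 := Nat.cast_ne_zero.mpr hN
  have hNk : ((N : ℕ) : IsLocalRing.ResidueField A) ≠ 0 :=
    ls_natCast_residue_ne_zero A hℓ hA N h3
  have h2E : ((2 : ℕ) : K₀) ≠ 0 := Nat.cast_ne_zero.mpr (by norm_num)
  have h2k : ((2 : ℕ) : IsLocalRing.ResidueField A) ≠ 0 :=
    ls_natCast_residue_ne_zero A hℓ hA 2 (by norm_num)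
  -- key data over the `hm2`-line
  have hkeq := adjoin_hm2_eq (IsLocalRing.ResidueField A) h2k
  have hjk : jqModC (IsLocalRing.ResidueField A) ∈
      (IsLocalRing.ResidueField A)⟮hm2 (IsLocalRing.ResidueField A)⟯ := by
    rw [hkeq]; exact jqModC_mem_full _ 2
  obtain ⟨n, x, kd, -⟩ := exists_gaussKD_of_adjoin_eq (E := K₀) (nfRes A K₀) π hπ.ne_zero
    hπ.not_isUnit hr (N₀ := 2) (M := N) h2 hNE hNk hm2Z (adjoin_hm2_eq K₀ h2E) hkeq
    (transcendental_of_jqModC_mem _ hjk)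
  have hkt : coeffMap (nfRes A K₀) (coeffMap (Int.castRingHom (nfSub A K₀)) hm2Z)
      = hm2 (IsLocalRing.ResidueField A) := by
    rw [coeffMap_coeffMap]
    exact coeffMap_congr (RingHom.ext_int _ _) _
  have hEt : coeffMap (algebraMap (nfSub A K₀) K₀) (coeffMap (Int.castRingHom (nfSub A K₀)) hm2Z)
      = hm2 K₀ := by
    rw [coeffMap_coeffMap]
    exact coeffMap_congr (RingHom.ext_int _ _) _
  -- the elements `y₁`, `y₂`, `w`
  have hinj : Function.Injective (algebraMap (nfSub A K₀) K₀) := Subtype.val_injective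
  have hY₂ : Y₂ ≠ 0 := injH_ne_zero_of_red (nfRes A K₀) Y₂ hne
  have hY₁ : Y₁ ≠ 0 := injH_ne_zero_of_red (nfRes A K₀) Y₁ (by rw [hred]; exact hne)
  have hy₁' := injH_coeffMap_ne_zero (algebraMap (nfSub A K₀) K₀) hinj Y₁ hY₁
  have hy₂' := injH_coeffMap_ne_zero (algebraMap (nfSub A K₀) K₀) hinj Y₂ hY₂
  set y₁ : modularFunctionFieldFullC K₀ N := ⟨_, h₁⟩ with hy₁def
  set y₂ : modularFunctionFieldFullC K₀ N := ⟨_, h₂⟩ with hy₂def
  have hy₁ : y₁ ≠ 0 := fun h0 => hy₁' (congrArg Subtype.val h0)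
  have hy₂ : y₂ ≠ 0 := fun h0 => hy₂' (congrArg Subtype.val h0)
  have hw : h ^ p = ((y₁ / y₂ : modularFunctionFieldFullC K₀ N) : LaurentSeries K₀) :=
    injH_quot (modularFunctionFieldFullC K₀ N) h y₁ y₂ hy₂ hpow
  have hh0 : h ≠ 0 := injH_root_ne_zero h _ _ hy₁' hp.ne_zero hpow
  have hdivw := bgRamNF_hdiv_quot K₀ N p y₁ y₂ hy₁ hy₂ hdiv
  -- units and roots of unity
  have hp3' : ¬ 3 ∣ p := fun hd => hp3 ((Nat.prime_dvd_prime_iff_eq hℓ hp).mp hd).symm
  have hpπ : ¬ π ∣ ((p : ℕ) : nfSub A K₀) := fun hd =>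
    hπ.not_isUnit (isUnit_of_dvd_unit hd (ls_isUnit_natCast A K₀ hℓ hA p hp3'))
  obtain ⟨ζ, hζ⟩ := ls_exists_primitiveRoot A K₀ hp.ne_zero hζp
  obtain ⟨u, hζu⟩ := ls_exists_inv_zeta_sub_one A K₀ hℓ hA hp hp3 ζ hζ
  have hrootN : ∃ ζ : nfSub A K₀, IsPrimitiveRoot ζ N := by
    refine ls_exists_primitiveRoot A K₀ hN ?_
    obtain ⟨ζ₀, hζ₀⟩ := hζ6N
    exact ⟨ζ₀ ^ 6, hζ₀.pow (by positivity) rfl⟩
  -- the set `Σ = {0, -64}`
  set S : Finset (nfSub A K₀) := {0, -64} with hSdef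
  have hdist : ∀ c ∈ S, ∀ c' ∈ S, c ≠ c' → ¬ π ∣ c - c' := by
    intro c hc c' hc' hcc
    rw [hSdef, Finset.mem_insert, Finset.mem_singleton] at hc hc'
    have key : ∀ a b : ℤ, ¬ (3 : ℤ) ∣ a - b →
        ¬ π ∣ ((a : nfSub A K₀) - (b : nfSub A K₀)) := fun a b hab =>
      ls_not_dvd_intCast_sub A K₀ hℓ hA hπ.not_isUnit a b (by exact_mod_cast hab)
    rcases hc with rfl | rfl <;> rcases hc' with rfl | rfl
    · exact absurd rfl hcc
    · have := key 0 (-64) (by norm_num)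
      simpa using this
    · have := key (-64) 0 (by norm_num)
      simpa using this
    · exact absurd rfl hcc
  refine hcore (A₀ := nfSub A K₀) (E := K₀) (k := IsLocalRing.ResidueField A) (nfRes A K₀) N h
    hπ hrπ hr kd ?_ hp hpπ ζ u hζ hζu Y₁ Y₂ h₁ h₂ hred hne hpow hnot ?_ ?_ S hdist N
    (ls_isUnit_natCast A K₀ hℓ hA N h3) hrootN ?_
  · -- order of the coordinate
    rw [hEt]
    exact injH_order_hm2 K₀
  · -- (a) for `F_N`
    intro _ _
    exact kd.tsGoodBasis hπ.ne_zero hπ.not_isUnit hr hrπ 3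
      (by rw [hkt]; exact thetaFun_hm2_ne_zero _)
  · -- finiteness
    refine bgFinH_finiteDimensional_hm2 K₀ N (kumField K₀ N h) (le_kumField K₀ N h) h
      (mem_kumField_self K₀ N h) p hp.ne_zero ?_ (injH_kumField_le_sup K₀ N h) _ hEt
    rw [hw]
    exact (y₁ / y₂).2
  · -- (b), (b')
    intro _ _
    have hram := bgRamNF_h2line K₀ N h h2 p hp.ne_zero (y₁ / y₂) hw hh0 hdivw S ?_ ?_ ?_ N
      dvd_rfl
    · have heq : kumIncl K₀ N h (bgH2 K₀ N h2)
          = (⟨coeffMap (algebraMap (nfSub A K₀) K₀)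
              (coeffMap (Int.castRingHom (nfSub A K₀)) hm2Z), le_kumField K₀ N h kd.t_mem⟩ :
              kumField K₀ N h) := by
        apply Subtype.ext
        rw [coe_kumIncl, coe_bgH2]
        exact hEt.symm
      rw [← heq]
      exact hram
    · intro c hc
      rw [hSdef, Finset.mem_insert, Finset.mem_singleton] at hc
      rcases hc with rfl | rfl
      · left; exact map_zero _
      · right; rw [map_neg, map_ofNat]
    · exact ⟨0, by rw [hSdef]; simp, map_zero _⟩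
    · exact ⟨-64, by rw [hSdef]; simp, by rw [map_neg, map_ofNat]⟩

end Fermat.Agent.INJ
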