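import Fermat.Agent.INJ.InjCoreStmt
import Fermat.Agent.INJ.LocalSetup
import Fermat.Agent.INJ.InjDescentAux
import Fermat.Agent.INJ.BGRamNF
import Fermat.Agent.INJ.BGFinH
import Fermat.Agent.INJ.GaussHaupt

/-!
# (INJ) instantiation of the core over the Hauptmodul line of `X₀(3)` (`ℓ = 2`)

`stmtInjNF_h3 : InjCoreStmt → StmtInjNF N 2 p` for `3 ∣ N`, `2 ∤ N`, `p ≠ 2` prime.

The coordinate is `t₀ = hm3 = (η(z)/η(3z))¹² = q⁻¹ + …`, with `E(t₀) = F_3(E)`;
`Σ = {0, -27}` (the cusp `0` and the elliptic point of order `3`), `e = N`.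
-/

set_option autoImplicit false
set_option linter.style.haveILetI false
set_option linter.unusedSectionVars false
set_option synthInstance.maxHeartbeats 400000
set_option maxHeartbeats 1000000

namespace Fermat.Agent.INJ

open Polynomial ModularCurve IntermediateField AlgebraicCurve Fermat.Agent.S28

section Order

variable (K : Type*) [Field K]

/-- `hm3 = q⁻¹ + …` has order `-1`. -/
theorem injH3_order_hm3 : (hm3 K).order = -1 := by
  have hu : HahnSeries.ofPowerSeries ℤ K (hm3U.map (Int.castRingHom K)) ≠ 0 := by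
    intro h0
    have h1 : hm3U.map (Int.castRingHom K) = 0 :=
      HahnSeries.ofPowerSeries_injective (by rw [h0, map_zero])
    have h2 := congrArg PowerSeries.constantCoeff h1
    rw [← PowerSeries.coeff_zero_eq_constantCoeff_apply, PowerSeries.coeff_map,
      PowerSeries.coeff_zero_eq_constantCoeff_apply, constantCoeff_hm3U] at h2
    simp at h2
  have h0 : (HahnSeries.ofPowerSeries ℤ K (hm3U.map (Int.castRingHom K))).order = 0 := by
    apply le_antisymm
    · refine HahnSeries.order_le_of_coeff_ne_zero ?_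
      have : ((0 : ℕ) : ℤ) = 0 := rfl
      rw [← this, HahnSeries.ofPowerSeries_apply_coeff, PowerSeries.coeff_map,
        PowerSeries.coeff_zero_eq_constantCoeff_apply, constantCoeff_hm3U]
      simp
    · rw [HahnSeries.le_order_iff_forall hu]
      intro n hn
      exact ofPowerSeries_coeff_of_neg _ hn
  rw [hm3_eq, HahnSeries.order_mul (HahnSeries.single_ne_zero one_ne_zero) hu,
    HahnSeries.order_single one_ne_zero, h0, add_zero]

end Order

section Main

/-- **INST-h3.** The number-field form of (INJ) at `ℓ = 2`, over the Hauptmodul line of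
`X₀(3)`. -/
theorem stmtInjNF_h3 (hcore : InjCoreStmt) {N p : ℕ} (hN : N ≠ 0) (h3 : 3 ∣ N) (h2 : ¬ 2 ∣ N)
    (hp : p.Prime) (hp2 : p ≠ 2) : StmtInjNF N 2 p := by
  intro A hA K₀ hK₀fin hζp hζ6N Y₁ Y₂ h h₁ h₂ hred hne hrel hdiv
  by_contra hnot
  haveI : NeZero N := ⟨hN⟩
  haveI : FiniteDimensional ℚ K₀ := hK₀fin
  haveI hdvr : IsDiscreteValuationRing (nfSub A K₀) := ls_isDVR A K₀ Nat.prime_two hA
  haveI hchar : CharP (IsLocalRing.ResidueField A) 2 :=
    ls_charP_residueField A Nat.prime_two hA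
  haveI : Fact (Nat.Prime 2) := ⟨Nat.prime_two⟩
  haveI hperf : PerfectRing (IsLocalRing.ResidueField A) 2 := nf_perfectRing_residueField A 2
  obtain ⟨π, hπ⟩ := IsDiscreteValuationRing.exists_irreducible (nfSub A K₀)
  have hrπ : nfRes A K₀ π = 0 := ls_res_irreducible A K₀ hπ
  have hr : ∀ a, nfRes A K₀ a = 0 → π ∣ a := fun a ha => ls_dvd_of_res_eq_zero A K₀ hπ a ha
  have hNE : ((N : ℕ) : K₀) ≠ 0 := Nat.cast_ne_zero.mpr hN
  have hNk : ((N : ℕ) : IsLocalRing.ResidueField A) ≠ 0 :=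
    ls_natCast_residue_ne_zero A Nat.prime_two hA N h2
  have h3E : ((3 : ℕ) : K₀) ≠ 0 := natCast_ne_zero_of_dvd K₀ h3 hNE
  have h3k : ((3 : ℕ) : IsLocalRing.ResidueField A) ≠ 0 :=
    natCast_ne_zero_of_dvd (IsLocalRing.ResidueField A) h3 hNk
  -- the key data
  have hkeq := adjoin_hm3_eq (IsLocalRing.ResidueField A) h3k
  have hjk : jqModC (IsLocalRing.ResidueField A) ∈
      (IsLocalRing.ResidueField A)⟮hm3 (IsLocalRing.ResidueField A)⟯ := by
    rw [hkeq]
    exact jqModC_mem_full (IsLocalRing.ResidueField A) 3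
  obtain ⟨n, x, kd, -⟩ := exists_gaussKD_of_adjoin_eq (E := K₀) (nfRes A K₀) π hπ.ne_zero
    hπ.not_isUnit hr (N₀ := 3) (M := N) h3 hNE hNk hm3Z (adjoin_hm3_eq K₀ h3E) hkeq
    (transcendental_of_jqModC_mem (IsLocalRing.ResidueField A) hjk)
  have ht₀E : coeffMap (algebraMap (nfSub A K₀) K₀) (coeffMap (Int.castRingHom (nfSub A K₀)) hm3Z)
      = hm3 K₀ := hm3_map (K := nfSub A K₀) (algebraMap (nfSub A K₀) K₀)
  have ht₀k : coeffMap (nfRes A K₀) (coeffMap (Int.castRingHom (nfSub A K₀)) hm3Z)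
      = hm3 (IsLocalRing.ResidueField A) := hm3_map (K := nfSub A K₀) (nfRes A K₀)
  -- roots of unity
  obtain ⟨ζ, hζ⟩ := ls_exists_primitiveRoot A K₀ hp.ne_zero hζp
  obtain ⟨u, hu⟩ := ls_exists_inv_zeta_sub_one A K₀ Nat.prime_two hA hp hp2 ζ hζ
  have hζN : ∃ ζ : K₀, IsPrimitiveRoot ζ N := by
    obtain ⟨ζ', hζ'⟩ := hζ6N
    exact ⟨ζ' ^ 6, hζ'.pow (Nat.mul_pos (by norm_num) (Nat.pos_of_ne_zero hN)) rfl⟩
  have hζN' := ls_exists_primitiveRoot A K₀ hN hζN
  -- `p` is a unit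
  have hpu : IsUnit ((p : ℕ) : nfSub A K₀) :=
    ls_isUnit_natCast A K₀ Nat.prime_two hA p (fun hd =>
      hp2 ((Nat.prime_dvd_prime_iff_eq Nat.prime_two hp).mp hd).symm)
  have hπp : ¬ π ∣ ((p : ℕ) : nfSub A K₀) := fun hd => hπ.not_isUnit (isUnit_of_dvd_unit hd hpu)
  -- nonvanishing
  have hinjE : Function.Injective (coeffMap (algebraMap (nfSub A K₀) K₀)) :=
    coeffMap_inj_of_injective _ (IsFractionRing.injective (nfSub A K₀) K₀)
  have hY₂ : Y₂ ≠ 0 := by
    rintro rfl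
    exact hne (map_zero _)
  have hY₁ : Y₁ ≠ 0 := by
    rintro rfl
    rw [map_zero] at hred
    exact hne hred.symm
  have hY₂E : coeffMap (algebraMap (nfSub A K₀) K₀) Y₂ ≠ 0 := fun h0 =>
    hY₂ (hinjE (by rw [h0, map_zero]))
  have hY₁E : coeffMap (algebraMap (nfSub A K₀) K₀) Y₁ ≠ 0 := fun h0 =>
    hY₁ (hinjE (by rw [h0, map_zero]))
  have hh0 : h ≠ 0 := by
    rintro rfl
    rw [zero_pow hp.ne_zero, zero_mul] at hrel
    exact hY₁E hrel.symm
  set y₁ : modularFunctionFieldFullC K₀ N := ⟨_, h₁⟩ with hy₁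
  set y₂ : modularFunctionFieldFullC K₀ N := ⟨_, h₂⟩ with hy₂
  have hy₁0 : y₁ ≠ 0 := fun h0 => hY₁E (congrArg Subtype.val h0)
  have hy₂0 : y₂ ≠ 0 := fun h0 => hY₂E (congrArg Subtype.val h0)
  have hw : h ^ p = ((y₁ / y₂ : modularFunctionFieldFullC K₀ N) : LaurentSeries K₀) := by
    rw [IntermediateField.coe_div, eq_div_iff hY₂E]
    exact hrel
  have hwmem : h ^ p ∈ modularFunctionFieldFullC K₀ N := by
    rw [hw]
    exact (y₁ / y₂).2
  have hdivq := bgRamNF_hdiv_quot K₀ N p y₁ y₂ hy₁0 hy₂0 hdiv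
  -- the set `Σ`
  classical
  let S : Finset (nfSub A K₀) := {((0 : ℤ) : nfSub A K₀), ((-27 : ℤ) : nfSub A K₀)}
  refine hcore (A₀ := nfSub A K₀) (E := K₀) (k := IsLocalRing.ResidueField A)
    (nfRes A K₀) N h hπ hrπ hr kd ?_ hp hπp ζ u hζ hu Y₁ Y₂ h₁ h₂ hred hne hrel hnot ?_ ?_
    S ?_ N (ls_isUnit_natCast A K₀ Nat.prime_two hA N h2) hζN' ?_
  · -- the order of `t₀`
    rw [ht₀E]
    exact injH3_order_hm3 K₀
  · -- (a)
    intro _ _
    exact kd.tsGoodBasis hπ.ne_zero hπ.not_isUnit hr hrπ 2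
      (by rw [ht₀k]; exact thetaFun_hm3_ne_zero (IsLocalRing.ResidueField A))
  · -- finiteness
    refine bgFinH_finiteDimensional_hm3 K₀ N (kumField K₀ N h) (le_kumField K₀ N h) h
      (mem_kumField_self K₀ N h) p hp.ne_zero hwmem ?_ _ ht₀E
    rw [kumField, IntermediateField.adjoin_le_iff]
    rintro y (hy | hy)
    · exact (le_sup_left : modularFunctionFieldFullC K₀ N ≤ _) hy
    · rw [Set.mem_singleton_iff] at hy
      subst hy
      exact (le_sup_right : K₀⟮y⟯ ≤ modularFunctionFieldFullC K₀ N ⊔ K₀⟮y⟯)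
        (IntermediateField.mem_adjoin_simple_self K₀ y)
  · -- (c)
    intro c hc c' hc' hcc'
    simp only [S, Finset.mem_insert, Finset.mem_singleton] at hc hc'
    rcases hc with rfl | rfl <;> rcases hc' with rfl | rfl
    · exact absurd rfl hcc'
    · exact ls_not_dvd_intCast_sub A K₀ Nat.prime_two hA hπ.not_isUnit 0 (-27) (by norm_num)
    · exact ls_not_dvd_intCast_sub A K₀ Nat.prime_two hA hπ.not_isUnit (-27) 0 (by norm_num)
    · exact absurd rfl hcc'
  · -- (b), (b')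
    intro _ _
    have hram := bgRamNF_h3line K₀ N h h3 (A₀ := nfSub A K₀) p hp.ne_zero (y₁ / y₂) hw hh0 hdivq
      S ?_ ?_ ?_ N dvd_rfl
    · have hel : kumIncl K₀ N h (bgH3 K₀ N h3) =
          (⟨coeffMap (algebraMap (nfSub A K₀) K₀)
            (coeffMap (Int.castRingHom (nfSub A K₀)) hm3Z),
            le_kumField K₀ N h kd.t_mem⟩ : kumField K₀ N h) := by
        apply Subtype.ext
        rw [coe_kumIncl, coe_bgH3]
        exact ht₀E.symm
      rw [hel] at hram
      exact hram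
    · intro c hc
      simp only [S, Finset.mem_insert, Finset.mem_singleton] at hc
      rcases hc with rfl | rfl
      · left
        rw [map_intCast, Int.cast_zero]
      · right
        rw [map_intCast]
        norm_num
    · exact ⟨((0 : ℤ) : nfSub A K₀), by simp [S], by rw [map_intCast, Int.cast_zero]⟩
    · exact ⟨((-27 : ℤ) : nfSub A K₀), by simp [S], by rw [map_intCast]; norm_num⟩

end Main

end Fermat.Agent.INJ
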