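import Fermat.Agent.INJ.InjJ
import Fermat.Agent.INJ.InjH2
import Fermat.Agent.INJ.InjH3
import Fermat.Agent.INJ.InjCore
import Fermat.Agent.INJ.InjDescent
import Fermat.Agent.INJ.DescentLevel
import Fermat.Agent.INJ.TameSpec

/-!
# (INJ) final assembly, all residue characteristics

* `injAll_core : InjCoreStmt` (from the tame specialization theorem, Part A);
* `injAll_ge5`  : `StmtINJ N ℓ p` for `ℓ ∤ 6 N` (the `j`-line);
* `injAll_three` : `StmtINJ N 3 p` for `3 ∤ N` (Hauptmodul line of `X₀(2)` at level `lcm 2 N`);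
* `injAll_two_of_h3` : `StmtINJ N 2 p` for `2 ∤ N`, from the instantiation INST-h3;
* `stmtINJAll_of_h3` : `StmtINJAll` from INST-h3;
* `injAll_stmtINJAll : StmtINJAll` — **(INJ) is proved.**
-/

set_option autoImplicit false

namespace Fermat.Agent.INJ

/-- the line-independent core, unconditionally -/
theorem injAll_core : InjCoreStmt := injCoreStmt_of_tameSpec tameSpecStmt

/-- **(INJ) for `ℓ ≥ 5`.** -/
theorem injAll_ge5 {N ℓ p : ℕ} (hN : N ≠ 0) (hℓ : ℓ.Prime) (hp : p.Prime) (hℓN : ¬ ℓ ∣ N)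
    (hℓp : ℓ ≠ p) (hℓ2 : ℓ ≠ 2) (hℓ3 : ℓ ≠ 3) : StmtINJ N ℓ p := by
  refine stmtINJ_of_stmtInjNF hN hp (stmtInjNF_j injAll_core hN hℓ hp hℓp ?_)
  intro hd
  rcases (Nat.Prime.dvd_mul hℓ).mp hd with h6 | hN'
  · have h6' : (6 : ℕ) = 2 * 3 := by norm_num
    rw [h6'] at h6
    rcases (Nat.Prime.dvd_mul hℓ).mp h6 with h | h
    · exact hℓ2 ((Nat.prime_dvd_prime_iff_eq hℓ Nat.prime_two).mp h)
    · exact hℓ3 ((Nat.prime_dvd_prime_iff_eq hℓ Nat.prime_three).mp h)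
  · exact hℓN hN'

/-- **(INJ) for `ℓ = 3`.** -/
theorem injAll_three {N p : ℕ} (hN : N ≠ 0) (hp : p.Prime) (h3N : ¬ 3 ∣ N) (h3p : 3 ≠ p) :
    StmtINJ N 3 p := by
  refine stmtINJ_descent_three N p hN hp h3p ?_
  have hN' : Nat.lcm 2 N ≠ 0 := Nat.lcm_ne_zero (by norm_num) hN
  exact stmtINJ_of_stmtInjNF hN' hp
    (stmtInjNF_h2 injAll_core hN' (Nat.dvd_lcm_left 2 N) (dl_not_dvd_lcm_two h3N) hp
      (Ne.symm h3p))

/-- **(INJ) for `ℓ = 2`**, from INST-h3. -/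
theorem injAll_two_of_h3
    (h3 : ∀ {N p : ℕ}, N ≠ 0 → 3 ∣ N → ¬ 2 ∣ N → p.Prime → p ≠ 2 → StmtInjNF N 2 p)
    {N p : ℕ} (hN : N ≠ 0) (hp : p.Prime) (h2N : ¬ 2 ∣ N) (h2p : 2 ≠ p) :
    StmtINJ N 2 p := by
  refine stmtINJ_descent_two N p hN hp h2p ?_
  have hN' : Nat.lcm 3 N ≠ 0 := Nat.lcm_ne_zero (by norm_num) hN
  exact stmtINJ_of_stmtInjNF hN' hp
    (h3 hN' (Nat.dvd_lcm_left 3 N) (dl_not_dvd_lcm_three h2N) hp (Ne.symm h2p))

/-- **(INJ), all cases**, from INST-h3. -/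
theorem stmtINJAll_of_h3
    (h3 : ∀ {N p : ℕ}, N ≠ 0 → 3 ∣ N → ¬ 2 ∣ N → p.Prime → p ≠ 2 → StmtInjNF N 2 p) :
    StmtINJAll := by
  intro N ℓ p hN hℓ hp hℓN hℓp
  by_cases hℓ2 : ℓ = 2
  · subst hℓ2
    exact injAll_two_of_h3 h3 hN hp hℓN hℓp
  by_cases hℓ3 : ℓ = 3
  · subst hℓ3
    exact injAll_three hN hp hℓN hℓp
  exact injAll_ge5 hN hℓ hp hℓN hℓp hℓ2 hℓ3

/-- **(INJ)**: the whole statement, unconditionally. -/
theorem injAll_stmtINJAll : StmtINJAll :=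
  stmtINJAll_of_h3 (fun hN h3 h2 hp hp2 => stmtInjNF_h3 injAll_core hN h3 h2 hp hp2)

end Fermat.Agent.INJ
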