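import Fermat.Agent.INJ.InjCoreStmt
import Fermat.Agent.INJ.StmtNF
import Fermat.Agent.INJ.Hauptmodul

/-!
# (INJ) instantiation pieces INST-h2 / INST-h3: line-independent auxiliary lemmas

* `injH_order_hm2`, `injH_order_hm3` : the Hauptmoduln have order `-1`;
* `injH_kumField_le_sup` : `kumField E N h ≤ F_N ⊔ E(h)`;
* `injH_quot` : from `h ^ p * y₂ = y₁`, `y₂ ≠ 0`: `h ^ p = y₁ / y₂` in `F_N`;
* `injH_ne_zero_of_red` : a series with nonzero reduction is nonzero.
-/

set_option autoImplicit false

namespace Fermat.Agent.INJ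

open Polynomial ModularCurve IntermediateField AlgebraicCurve

section Order

variable (K : Type*) [Field K]

theorem injH_order_q_inv_mul_unit (u : PowerSeries ℤ) (hu : PowerSeries.constantCoeff u = 1) :
    (HahnSeries.single (-1 : ℤ) (1 : K) *
      HahnSeries.ofPowerSeries ℤ K (u.map (Int.castRingHom K))).order = -1 := by
  set y : LaurentSeries K := HahnSeries.ofPowerSeries ℤ K (u.map (Int.castRingHom K)) with hy
  have hcoeff : ∀ n : ℤ, (HahnSeries.single (-1 : ℤ) (1 : K) * y).coeff n = y.coeff (n + 1) := by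
    intro n
    have h := HahnSeries.coeff_single_mul_add (r := (1 : K)) (x := y) (a := n + 1) (b := (-1 : ℤ))
    rw [one_mul] at h
    rw [← h]
    congr 1
    ring
  have hy0 : y.coeff 0 = 1 := by
    have h := HahnSeries.ofPowerSeries_apply_coeff (Γ := ℤ) (R := K)
      (u.map (Int.castRingHom K)) 0
    rw [hy]
    simp only [Nat.cast_zero] at h
    rw [h, PowerSeries.coeff_map, PowerSeries.coeff_zero_eq_constantCoeff_apply, hu, map_one]
  have hyneg : ∀ n : ℤ, n < 0 → y.coeff n = 0 := by
    intro n hn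
    rw [hy]
    exact ofPowerSeries_coeff_of_neg _ hn
  have hne : HahnSeries.single (-1 : ℤ) (1 : K) * y ≠ 0 := by
    intro h0
    have := congrArg (fun z : LaurentSeries K => z.coeff (-1)) h0
    simp only [hcoeff, HahnSeries.coeff_zero] at this
    rw [show (-1 : ℤ) + 1 = 0 by norm_num, hy0] at this
    exact one_ne_zero this
  apply le_antisymm
  · apply HahnSeries.order_le_of_coeff_ne_zero
    rw [hcoeff, show (-1 : ℤ) + 1 = 0 by norm_num, hy0]
    exact one_ne_zero
  · rw [HahnSeries.le_order_iff_forall hne]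
    intro n hn
    rw [hcoeff]
    exact hyneg _ (by omega)

theorem injH_order_hm2 : (hm2 K).order = -1 := by
  rw [hm2_eq]
  exact injH_order_q_inv_mul_unit K hm2U constantCoeff_hm2U

theorem injH_order_hm3 : (hm3 K).order = -1 := by
  rw [hm3_eq]
  exact injH_order_q_inv_mul_unit K hm3U constantCoeff_hm3U

end Order

section Kum

variable (E : Type*) [Field E] (N : ℕ) (h : LaurentSeries E)

theorem injH_kumField_le_sup :
    kumField E N h ≤ modularFunctionFieldFullC E N ⊔ E⟮h⟯ := by
  rw [kumField, IntermediateField.adjoin_le_iff]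
  rintro y (hy | hy)
  · exact (le_sup_left : modularFunctionFieldFullC E N ≤ _) hy
  · rw [Set.mem_singleton_iff] at hy
    subst hy
    exact (le_sup_right : E⟮y⟯ ≤ modularFunctionFieldFullC E N ⊔ E⟮y⟯)
      (IntermediateField.mem_adjoin_simple_self E y)

end Kum

section Quot

variable {E : Type*} [Field E] (F : IntermediateField E (LaurentSeries E))

theorem injH_quot {p : ℕ} (h : LaurentSeries E) (y₁ y₂ : F) (hy₂ : y₂ ≠ 0)
    (hpow : h ^ p * (y₂ : LaurentSeries E) = (y₁ : LaurentSeries E)) :
    h ^ p = ((y₁ / y₂ : F) : LaurentSeries E) := by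
  have h2 : (y₂ : LaurentSeries E) ≠ 0 := fun h0 => hy₂ (Subtype.ext h0)
  rw [IntermediateField.coe_div, eq_div_iff h2]
  exact hpow

theorem injH_root_ne_zero {p : ℕ} (h : LaurentSeries E) (y₁ y₂ : LaurentSeries E) (hy₁ : y₁ ≠ 0)
    (hp : p ≠ 0) (hpow : h ^ p * y₂ = y₁) : h ≠ 0 := by
  rintro rfl
  rw [zero_pow hp, zero_mul] at hpow
  exact hy₁ hpow.symm

end Quot

section Red

variable {A k E : Type*} [CommRing A] [CommRing k] [CommRing E]

theorem injH_ne_zero_of_red (r : A →+* k) (Y : LaurentSeries A)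
    (hne : coeffMap r Y ≠ 0) : Y ≠ 0 := by
  rintro rfl
  exact hne (map_zero _)

theorem injH_coeffMap_ne_zero (f : A →+* E) (hf : Function.Injective f) (Y : LaurentSeries A)
    (hY : Y ≠ 0) : coeffMap f Y ≠ 0 := by
  intro h0
  apply hY
  ext n
  have := congrArg (fun z : LaurentSeries E => z.coeff n) h0
  simp only [coeffMap_coeff, HahnSeries.coeff_zero] at this
  rw [HahnSeries.coeff_zero]
  exact hf (by rw [this, map_zero])

end Red

end Fermat.Agent.INJ
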