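import Fermat.Agent.INJ.InjH2Aux
import Fermat.Agent.INJ.LocalSetup
import Fermat.Agent.INJ.GaussLevel
import Fermat.Agent.INJ.BGFin
import Fermat.Agent.INJ.BGRamNF
import Fermat.Agent.INJ.InjDescentAux

/-!
# (INJ) instantiation INST-j: `ℓ ∤ 6 N`, the `j`-line

`stmtInjNF_j : InjCoreStmt → StmtInjNF N ℓ p` for `ℓ ∤ 6 N`, `p ≠ ℓ` prime.
Coordinate `t₀ = j`, `Σ = {0, 1728}`, `e = 6 N`.
-/

set_option autoImplicit false
set_option linter.style.haveILetI false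
set_option linter.unusedSectionVars false
set_option synthInstance.maxHeartbeats 400000
set_option maxHeartbeats 4000000

namespace Fermat.Agent.INJ

open Polynomial ModularCurve IntermediateField AlgebraicCurve Fermat.Agent.S24

/-- **INST-j.** -/
theorem stmtInjNF_j (hcore : InjCoreStmt) {N ℓ p : ℕ} (hN : N ≠ 0) (hℓ : ℓ.Prime)
    (hp : p.Prime) (hℓp : ℓ ≠ p) (hℓ6N : ¬ ℓ ∣ 6 * N) : StmtInjNF N ℓ p := by
  classical
  intro A hA K₀ hfin hζp hζ6N Y₁ Y₂ h h₁ h₂ hred hne hpow hdiv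
  by_contra hnot
  haveI : NeZero N := ⟨hN⟩
  haveI : FiniteDimensional ℚ K₀ := hfin
  have hℓN : ¬ ℓ ∣ N := fun hd => hℓ6N (hd.mul_left 6)
  have hℓ6 : ¬ ℓ ∣ 6 := fun hd => hℓ6N (hd.mul_right N)
  have hℓ1728 : ¬ (ℓ : ℤ) ∣ 1728 := by
    intro hd
    have h1 : ℓ ∣ 1728 := by exact_mod_cast hd
    have h2 : (1728 : ℕ) = 6 ^ 3 * 8 := by norm_num
    rw [h2] at h1
    rcases (Nat.Prime.dvd_mul hℓ).mp h1 with h3 | h3
    · exact hℓ6 (hℓ.dvd_of_dvd_pow h3)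
    · have h4 : (8 : ℕ) = 2 ^ 3 := by norm_num
      rw [h4] at h3
      have h5 := hℓ.dvd_of_dvd_pow h3
      exact hℓ6 (h5.trans (by norm_num))
  haveI hdvr : IsDiscreteValuationRing (nfSub A K₀) := ls_isDVR A K₀ hℓ hA
  obtain ⟨π, hπ⟩ := IsDiscreteValuationRing.exists_irreducible (nfSub A K₀)
  have hrπ : nfRes A K₀ π = 0 := ls_res_irreducible A K₀ hπ
  have hr : ∀ a, nfRes A K₀ a = 0 → π ∣ a := fun a => ls_dvd_of_res_eq_zero A K₀ hπ a
  haveI : Fact ℓ.Prime := ⟨hℓ⟩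
  haveI : CharP (IsLocalRing.ResidueField A) ℓ := ls_charP_residueField A hℓ hA
  haveI : PerfectRing (IsLocalRing.ResidueField A) ℓ := nf_perfectRing_residueField A ℓ
  have hNk : ((N : ℕ) : IsLocalRing.ResidueField A) ≠ 0 :=
    ls_natCast_residue_ne_zero A hℓ hA N hℓN
  -- key data over the `j`-line
  obtain ⟨x, kd⟩ := exists_gaussKD_j (E := K₀) (nfRes A K₀) π hπ.ne_zero hπ.not_isUnit hr N hNk
  have hkt : coeffMap (nfRes A K₀) (jqModC (nfSub A K₀)) = jqModC (IsLocalRing.ResidueField A) :=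
    coeffMap_jqModC _
  have hEt : coeffMap (algebraMap (nfSub A K₀) K₀) (jqModC (nfSub A K₀)) = jqModC K₀ :=
    coeffMap_jqModC _
  -- the elements `y₁`, `y₂`, `w`
  have hinj : Function.Injective (algebraMap (nfSub A K₀) K₀) := Subtype.val_injective
  have hY₂ : Y₂ ≠ 0 := injH_ne_zero_of_red (nfRes A K₀) Y₂ hne
  have hY₁ : Y₁ ≠ 0 := injH_ne_zero_of_red (nfRes A K₀) Y₁ (by rw [hred]; exact hne)
  have hy₁' := injH_coeffMap_ne_zero (algebraMap (nfSub A K₀) K₀) hinj Y₁ hY₁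
  have hy₂' := injH_coeffMap_ne_zero (algebraMap (nfSub A K₀) K₀) hinj Y₂ hY₂
  set y₁ : modularFunctionFieldFullC K₀ N := ⟨_, h₁⟩ with hy₁def
  set y₂ : modularFunctionFieldFullC K₀ N := ⟨_, h₂⟩ with hy₂def
  have hy₁ : y₁ ≠ 0 := fun h0 => hy₁' (congrArg Subtype.val h0)
  have hy₂ : y₂ ≠ 0 := fun h0 => hy₂' (congrArg Subtype.val h0)
  have hw : h ^ p = ((y₁ / y₂ : modularFunctionFieldFullC K₀ N) : LaurentSeries K₀) :=
    injH_quot (modularFunctionFieldFullC K₀ N) h y₁ y₂ hy₂ hpow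
  have hh0 : h ≠ 0 := injH_root_ne_zero h _ _ hy₁' hp.ne_zero hpow
  have hdivw := bgRamNF_hdiv_quot K₀ N p y₁ y₂ hy₁ hy₂ hdiv
  -- units and roots of unity
  have hpℓ' : ¬ ℓ ∣ p := fun hd => hℓp ((Nat.prime_dvd_prime_iff_eq hℓ hp).mp hd)
  have hpπ : ¬ π ∣ ((p : ℕ) : nfSub A K₀) := fun hd =>
    hπ.not_isUnit (isUnit_of_dvd_unit hd (ls_isUnit_natCast A K₀ hℓ hA p hpℓ'))
  obtain ⟨ζ, hζ⟩ := ls_exists_primitiveRoot A K₀ hp.ne_zero hζp
  obtain ⟨u, hζu⟩ := ls_exists_inv_zeta_sub_one A K₀ hℓ hA hp (Ne.symm hℓp) ζ hζ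
  have h6N : 6 * N ≠ 0 := mul_ne_zero (by norm_num) hN
  have hroot : ∃ ζ : nfSub A K₀, IsPrimitiveRoot ζ (6 * N) :=
    ls_exists_primitiveRoot A K₀ h6N hζ6N
  -- the set `Σ = {0, 1728}`
  set S : Finset (nfSub A K₀) := {0, 1728} with hSdef
  have hdist : ∀ c ∈ S, ∀ c' ∈ S, c ≠ c' → ¬ π ∣ c - c' := by
    intro c hc c' hc' hcc
    rw [hSdef, Finset.mem_insert, Finset.mem_singleton] at hc hc'
    have key : ∀ a b : ℤ, ¬ (ℓ : ℤ) ∣ a - b →
        ¬ π ∣ ((a : nfSub A K₀) - (b : nfSub A K₀)) := fun a b hab =>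
      ls_not_dvd_intCast_sub A K₀ hℓ hA hπ.not_isUnit a b hab
    rcases hc with rfl | rfl <;> rcases hc' with rfl | rfl
    · exact absurd rfl hcc
    · have := key 0 1728 (by rw [zero_sub, dvd_neg]; exact hℓ1728)
      simpa using this
    · have := key 1728 0 (by rw [sub_zero]; exact hℓ1728)
      simpa using this
    · exact absurd rfl hcc
  refine hcore (A₀ := nfSub A K₀) (E := K₀) (k := IsLocalRing.ResidueField A) (nfRes A K₀) N h
    hπ hrπ hr kd ?_ hp hpπ ζ u hζ hζu Y₁ Y₂ h₁ h₂ hred hne hpow hnot ?_ ?_ S hdist (6 * N)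
    (ls_isUnit_natCast A K₀ hℓ hA (6 * N) hℓ6N) hroot ?_
  · -- order of the coordinate
    rw [hEt]
    exact bgConst_order_jqModC K₀
  · -- (a) for `F_N`
    intro _ _
    exact kd.tsGoodBasis hπ.ne_zero hπ.not_isUnit hr hrπ ℓ
      (by rw [hkt]; exact thetaFun_jqModC_ne_zero _)
  · -- finiteness
    refine bgFin_finiteDimensional_of_root_sup K₀ N (kumField K₀ N h) (le_kumField K₀ N h) h
      (mem_kumField_self K₀ N h) p hp.ne_zero ?_ (injH_kumField_le_sup K₀ N h) _ hEt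
    rw [hw]
    exact (y₁ / y₂).2
  · -- (b), (b')
    intro _ _
    have hram := bgRamNF_jline K₀ N h p hp.ne_zero (y₁ / y₂) hw hh0 hdivw S ?_ ?_ ?_ (6 * N)
      (Dvd.intro _ rfl) (Dvd.intro_left _ rfl)
    · have heq : kumIncl K₀ N h (bgJ K₀ N)
          = (⟨coeffMap (algebraMap (nfSub A K₀) K₀) (jqModC (nfSub A K₀)),
              le_kumField K₀ N h kd.t_mem⟩ : kumField K₀ N h) := by
        apply Subtype.ext
        rw [coe_kumIncl]
        exact hEt.symm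
      rw [← heq]
      exact hram
    · intro c hc
      rw [hSdef, Finset.mem_insert, Finset.mem_singleton] at hc
      rcases hc with rfl | rfl
      · left; exact map_zero _
      · right; rw [map_ofNat]
    · exact ⟨0, by rw [hSdef]; simp, map_zero _⟩
    · exact ⟨1728, by rw [hSdef]; simp, by rw [map_ofNat]⟩

end Fermat.Agent.INJ
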