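import Fermat.Agent.INJ.NTamePoly
import Fermat.Agent.INJ.AbhyankarPlace

/-!
# INJ piece T4b: the hypotheses of (N-good) for the Kummer base change `(Lf(s), s)`

Setting of `NTameStmt` (TSPlan.lean): `τ : Lf`, `c : A₀`, `L' = Lf(s)`, `s ^ e = τ - c`,
the ramification indices of `Lf` over `τ = c` divide `e`, and every irreducible `r ∈ A₀[τ]` through
the point `m` is unramified at the places `P` with `ord_P (τ - c) = 0`.

`Fermat.Agent.INJ.NTame.ntame_places`: then every irreducible `r' ∈ A₀[s]` through a point `m'`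
over `m` is unramified in `L'`: `0 < ord_{P'} r' → ord_{P'} r' = 1`.

Proof: `r' = f(s)`, `f` irreducible in `A₀[X]`.
* `ord_{P'} s < 0` is impossible (leading term).
* `ord_{P'} s > 0`: Abhyankar (`AbhP.place_ord_root_eq_one`) gives `ord s = 1`; `f(0) = 0`, so
  `f ~ X`.
* `ord_{P'} s = 0`: `P'` restricts to a place `P` of `Lf` with the same `ord`
  (`AbhP.exists_place_restrict_unramified`); `f ∣ g (X ^ e + c)` with `g` irreducible
  (`exists_irreducible_comp_dvd`), `r := g(τ) ∈ m`, `ord_P r = 1`, so `ord_{P'} f(s) ≤ 1`.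
-/

set_option autoImplicit false
set_option linter.unusedSectionVars false

open AlgebraicCurve WithZero Polynomial

namespace Fermat.Agent.INJ.NTame

open Fermat.Agent.S24 Fermat.Agent.INJ.AbhP

section val

variable {A₀ K : Type*} [CommRing A₀] [Field K] [Algebra A₀ K] (v : Valuation K ℤᵐ⁰)

theorem val_aeval_le_one (hA : ∀ a : A₀, v (algebraMap A₀ K a) ≤ 1) {s : K} (hs : v s ≤ 1)
    (h : A₀[X]) : v (aeval s h) ≤ 1 := by
  rw [aeval_eq_sum_range]
  refine v.map_sum_le fun i _ => ?_
  rw [Algebra.smul_def, map_mul, map_pow]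
  exact mul_le_one' (hA _) (pow_le_one' hs i)

theorem val_aeval_of_one_lt (hA : ∀ a : A₀, a ≠ 0 → v (algebraMap A₀ K a) = 1) {s : K}
    (hs : 1 < v s) {f : A₀[X]} (hf : f ≠ 0) : v (aeval s f) = v s ^ f.natDegree := by
  have hs0 : v s ≠ 0 := (zero_lt_one.trans hs).ne'
  have hlead : v (f.coeff f.natDegree • s ^ f.natDegree) = v s ^ f.natDegree := by
    rw [Algebra.smul_def, map_mul, hA (f.coeff f.natDegree) (leadingCoeff_ne_zero.mpr hf),
      one_mul, map_pow]
  have hlt : v (∑ i ∈ Finset.range f.natDegree, f.coeff i • s ^ i) < v s ^ f.natDegree := by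
    refine v.map_sum_lt (pow_ne_zero _ hs0) fun i hi => ?_
    rw [Algebra.smul_def, map_mul, map_pow]
    have h1 : v (algebraMap A₀ K (f.coeff i)) ≤ 1 := by
      rcases eq_or_ne (f.coeff i) 0 with h0 | h0
      · rw [h0, map_zero, map_zero]; exact zero_le_one
      · exact (hA _ h0).le
    calc v (algebraMap A₀ K (f.coeff i)) * v s ^ i ≤ 1 * v s ^ i := by gcongr
      _ = v s ^ i := one_mul _
      _ < v s ^ f.natDegree := pow_lt_pow_right₀ hs (Finset.mem_range.mp hi)
  rw [aeval_eq_sum_range, Finset.sum_range_succ, add_comm,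
    Valuation.map_add_eq_of_lt_left v (by rw [hlead]; exact hlt), hlead]

theorem coeff_zero_eq_zero_of_val_lt_one (hA : ∀ a : A₀, a ≠ 0 → v (algebraMap A₀ K a) = 1)
    {s : K} (hs : v s < 1) {f : A₀[X]} (hf : v (aeval s f) < 1) : f.coeff 0 = 0 := by
  by_contra h0
  have hA' : ∀ a : A₀, v (algebraMap A₀ K a) ≤ 1 := fun a => by
    rcases eq_or_ne a 0 with h | h
    · rw [h, map_zero, map_zero]; exact zero_le_one
    · exact (hA a h).le
  have hdec : aeval s f = aeval s f.divX * s + algebraMap A₀ K (f.coeff 0) := by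
    conv_lhs => rw [← divX_mul_X_add f]
    simp
  have h1 : v (aeval s f.divX * s) < 1 := by
    rw [map_mul]
    calc v (aeval s f.divX) * v s ≤ 1 * v s := by
          gcongr
          exact val_aeval_le_one v hA' hs.le _
      _ = v s := one_mul _
      _ < 1 := hs
  have h2 : v (aeval s f) = 1 := by
    rw [hdec, add_comm, Valuation.map_add_eq_of_lt_left v (by rw [hA _ h0]; exact h1), hA _ h0]
  rw [h2] at hf
  exact lt_irrefl _ hf

end val

section ord

variable {A₀ E L' : Type*} [CommRing A₀] [IsDomain A₀] [Field E] [Algebra A₀ E]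
  [IsFractionRing A₀ E] [Field L'] [Algebra E L'] [Algebra A₀ L'] [IsScalarTower A₀ E L']

theorem adic_algebraMap_base (P' : Place E L') {a : A₀} (ha : a ≠ 0) :
    P'.adicValuation (algebraMap A₀ L' a) = 1 := by
  rw [IsScalarTower.algebraMap_apply A₀ E L']
  exact adic_const P' (by
    rwa [ne_eq, map_eq_zero_iff _ (IsFractionRing.injective A₀ E)])

theorem ord_lt_zero_iff (P' : Place E L') {x : L'} (hx : x ≠ 0) :
    P'.ord x < 0 ↔ 1 < P'.adicValuation x := by
  rw [adic_eq_exp P' hx, ← WithZero.exp_zero, WithZero.exp_lt_exp]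
  omega

theorem ord_pos_iff_adic (P' : Place E L') {x : L'} (hx : x ≠ 0) :
    0 < P'.ord x ↔ P'.adicValuation x < 1 := by
  rw [adic_eq_exp P' hx, ← WithZero.exp_zero, WithZero.exp_lt_exp]
  omega

theorem ord_nonneg_iff_adic (P' : Place E L') {x : L'} (hx : x ≠ 0) :
    0 ≤ P'.ord x ↔ P'.adicValuation x ≤ 1 := by
  rw [adic_eq_exp P' hx, ← WithZero.exp_zero, WithZero.exp_le_exp]
  omega

/-- `ord (h(s)) ≥ 0` at a place where `ord s ≥ 0`. -/
theorem ord_aeval_nonneg (P' : Place E L') {s : L'} (hs : 0 ≤ P'.ord s) (h : A₀[X]) :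
    0 ≤ P'.ord (aeval s h) := by
  rcases eq_or_ne (aeval s h) 0 with h0 | h0
  · rw [h0, Place.ord_zero]
  · rw [ord_nonneg_iff_adic P' h0]
    refine val_aeval_le_one _ (fun a => ?_) ?_ h
    · rcases eq_or_ne a 0 with h | h
      · rw [h, map_zero, map_zero]; exact zero_le_one
      · exact (adic_algebraMap_base P' h).le
    · rcases eq_or_ne s 0 with h | h
      · rw [h, map_zero]; exact zero_le_one
      · exact (ord_nonneg_iff_adic P' h).mp hs

/-- `ord (f(s)) ≤ 0` at a place where `ord s < 0`. -/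
theorem ord_aeval_nonpos_of_neg (P' : Place E L') {s : L'} (hs : P'.ord s < 0) (f : A₀[X]) :
    P'.ord (aeval s f) ≤ 0 := by
  rcases eq_or_ne (aeval s f) 0 with h0 | h0
  · rw [h0, Place.ord_zero]
  · have hs0 : s ≠ 0 := by
      rintro rfl
      rw [Place.ord_zero] at hs
      exact lt_irrefl _ hs
    have hf : f ≠ 0 := by
      rintro rfl
      exact h0 (map_zero _)
    have h1 : 1 < P'.adicValuation s := (ord_lt_zero_iff P' hs0).mp hs
    have h2 := val_aeval_of_one_lt P'.adicValuation (fun a ha => adic_algebraMap_base P' ha) h1 hf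
    by_contra hcon
    push Not at hcon
    have h3 := (ord_pos_iff_adic P' h0).mp hcon
    rw [h2] at h3
    exact absurd h3 (not_lt.mpr (one_le_pow₀ h1.le))

/-- At a place where `ord s > 0`, `ord (f(s)) > 0` forces `f(0) = 0`. -/
theorem coeff_zero_eq_zero_of_ord_pos (P' : Place E L') {s : L'} (hs : 0 < P'.ord s)
    {f : A₀[X]} (hf : 0 < P'.ord (aeval s f)) : f.coeff 0 = 0 := by
  have hs0 : s ≠ 0 := by
    rintro rfl
    rw [Place.ord_zero] at hs
    exact lt_irrefl _ hs
  have hf0 : aeval s f ≠ 0 := by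
    intro h
    rw [h, Place.ord_zero] at hf
    exact lt_irrefl _ hf
  exact coeff_zero_eq_zero_of_val_lt_one P'.adicValuation
    (fun a ha => adic_algebraMap_base P' ha) ((ord_pos_iff_adic P' hs0).mp hs)
    ((ord_pos_iff_adic P' hf0).mp hf)

end ord

section main

variable {A₀ E Lf L' : Type*} [CommRing A₀] [IsDomain A₀] [UniqueFactorizationMonoid A₀]
  [Field E] [Algebra A₀ E] [IsFractionRing A₀ E] [CharZero E]
  [Field Lf] [Algebra E Lf] [Algebra A₀ Lf] [IsScalarTower A₀ E Lf]
  [Field L'] [Algebra E L'] [Algebra Lf L'] [Algebra A₀ L']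
  [IsScalarTower E Lf L'] [IsScalarTower A₀ E L'] [IsScalarTower A₀ Lf L']

/-- **T4b.**  The unramifiedness hypothesis of `NGoodStmt` for `(L', s)` at an ideal `m'` lying
over `m`, from the hypotheses of `NTameStmt` for `(Lf, τ)` at `m`. -/
theorem ntame_places (τ : Lf) (hτ : Transcendental E τ) (c : A₀) (e : ℕ) (he : e ≠ 0)
    (s : L') (hs : s ^ e = algebraMap Lf L' (τ - algebraMap A₀ Lf c))
    (hgen : IntermediateField.adjoin Lf {s} = ⊤) (hstr : Transcendental E s)
    (htame : ∀ P : Place E Lf, 0 < P.ord (τ - algebraMap A₀ Lf c) →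
      P.ord (τ - algebraMap A₀ Lf c) ∣ (e : ℤ))
    (m : Ideal (integralClosure (Algebra.adjoin A₀ {τ}) Lf))
    (m' : Ideal (integralClosure (Algebra.adjoin A₀ {s}) L'))
    (hmm' : ∀ (x : integralClosure (Algebra.adjoin A₀ {τ}) Lf)
      (x' : integralClosure (Algebra.adjoin A₀ {s}) L'),
      (x' : L') = algebraMap Lf L' (x : Lf) → x' ∈ m' → x ∈ m)
    (hunr : ∀ (P : Place E Lf) (r : Algebra.adjoin A₀ {τ}), Irreducible r →
      algebraMap (Algebra.adjoin A₀ {τ}) (integralClosure (Algebra.adjoin A₀ {τ}) Lf) r ∈ m →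
      0 < P.ord (r : Lf) → P.ord (τ - algebraMap A₀ Lf c) = 0 → P.ord (r : Lf) = 1)
    (P' : Place E L') (r' : Algebra.adjoin A₀ {s}) (hr' : Irreducible r')
    (hr'm : algebraMap (Algebra.adjoin A₀ {s}) (integralClosure (Algebra.adjoin A₀ {s}) L') r'
      ∈ m')
    (hpos : 0 < P'.ord (r' : L')) : P'.ord (r' : L') = 1 := by
  classical
  have hinj : Function.Injective (algebraMap A₀ E) := IsFractionRing.injective A₀ E
  have hsA : Transcendental A₀ s := hstr.restrictScalars hinj
  have hτA : Transcendental A₀ τ := hτ.restrictScalars hinj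
  obtain ⟨f, rfl⟩ := exists_eq_adjoinEquiv hsA r'
  have hf : Irreducible f := (irreducible_adjoinEquiv_iff hsA f).mp hr'
  rw [adjoinEquiv_coe] at hpos ⊢
  have hs0 : s ≠ 0 := fun h => hstr (h ▸ isAlgebraic_zero)
  have hφτ : algebraMap Lf L' τ = s ^ e + algebraMap A₀ L' c := by
    rw [hs, map_sub, ← IsScalarTower.algebraMap_apply A₀ Lf L']
    ring
  rcases lt_trichotomy (P'.ord s) 0 with hneg | hzero | hspos
  · -- the pole of `s`
    exfalso
    have := ord_aeval_nonpos_of_neg P' hneg f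
    omega
  · -- `ord s = 0`: unramified base change
    obtain ⟨P, hP⟩ := exists_place_restrict_unramified (E := E)
      (τ - algebraMap A₀ Lf c) s e he hs hs0 hgen P' hzero
    obtain ⟨g, hg, h, hfg⟩ := exists_irreducible_comp_dvd e he c hf
    have key : algebraMap Lf L' (aeval τ g) = aeval s f * aeval s h := by
      rw [← map_mul, ← hfg, aeval_comp, ← aeval_algebraMap_apply, hφτ]
      simp
    have hr : Irreducible (adjoinEquiv hτA g) := (irreducible_adjoinEquiv_iff hτA g).mpr hg
    have hrm : algebraMap (Algebra.adjoin A₀ {τ}) (integralClosure (Algebra.adjoin A₀ {τ}) Lf)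
        (adjoinEquiv hτA g) ∈ m := by
      refine hmm' _ (algebraMap (Algebra.adjoin A₀ {s})
        (integralClosure (Algebra.adjoin A₀ {s}) L') (adjoinEquiv hsA f) *
        algebraMap (Algebra.adjoin A₀ {s})
        (integralClosure (Algebra.adjoin A₀ {s}) L') (adjoinEquiv hsA h)) ?_
        (m'.mul_mem_right _ hr'm)
      exact key.symm
    have hg0 : aeval τ g ≠ 0 := fun h0 => hg.ne_zero (transcendental_iff.mp hτA g h0)
    have hprod : aeval s f * aeval s h ≠ 0 := by
      rw [← key]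
      simpa using hg0
    have hf0 : aeval s f ≠ 0 := left_ne_zero_of_mul hprod
    have hh0 : aeval s h ≠ 0 := right_ne_zero_of_mul hprod
    have hPr : P.ord (aeval τ g) = P'.ord (aeval s f) + P'.ord (aeval s h) := by
      rw [← hP, key, Place.ord_mul P' hf0 hh0]
    have h0 : 0 ≤ P'.ord (aeval s h) := ord_aeval_nonneg P' hzero.ge h
    have hτc : P.ord (τ - algebraMap A₀ Lf c) = 0 := by
      rw [← hP, ← hs, ← zpow_natCast, Place.ord_zpow, hzero, mul_zero]
    have h1 := hunr P (adjoinEquiv hτA g) hr hrm (by rw [adjoinEquiv_coe]; omega) hτc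
    rw [adjoinEquiv_coe] at h1
    omega
  · -- `ord s > 0`: Abhyankar
    have h1 := place_ord_root_eq_one (E := E) (τ - algebraMap A₀ Lf c) s e he hs hgen htame
      P' hspos
    have hc0 : f.coeff 0 = 0 := coeff_zero_eq_zero_of_ord_pos P' hspos hpos
    obtain ⟨q, hq⟩ : X ∣ f := X_dvd_iff.mpr hc0
    have hqu : IsUnit q := (hf.isUnit_or_isUnit hq).resolve_left not_isUnit_X
    obtain ⟨u, hu, rfl⟩ := Polynomial.isUnit_iff.mp hqu
    have hu0 : algebraMap A₀ L' u ≠ 0 := by
      rw [IsScalarTower.algebraMap_apply A₀ E L']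
      simpa [map_eq_zero_iff _ hinj] using hu.ne_zero
    have hou : P'.ord (algebraMap A₀ L' u) = 0 := by
      rw [IsScalarTower.algebraMap_apply A₀ E L']
      exact PlaceAux.ord_algebraMap P' _
    rw [hq, map_mul, aeval_X, aeval_C, Place.ord_mul P' hs0 hu0, h1, hou, add_zero]

end main

end Fermat.Agent.INJ.NTame
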