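import Mathlib.RingTheory.Ideal.GoingUp
import Mathlib.RingTheory.Polynomial.UniqueFactorization
import Mathlib.RingTheory.Algebraic.Basic
import Mathlib.RingTheory.Adjoin.Polynomial.Basic
import Mathlib.Algebra.Polynomial.Eval.Irreducible

/-!
# INJ piece T4b, polynomial part

* `Fermat.Agent.INJ.NTame.exists_ne_zero_dvd_of_isIntegralElem`: for a ring
  homomorphism `φ : A → B` into a domain, every nonzero `x : B` integral over `φ` divides the
  image of a nonzero element of `A`.
* `Fermat.Agent.INJ.NTame.exists_irreducible_comp_dvd`: over a UFD `A`, every irreducible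
  `f ∈ A[X]` divides `g (X ^ e + c)` for some irreducible `g ∈ A[X]` (`e ≠ 0`).
* `Fermat.Agent.INJ.NTame.adjoinEquiv`: `A[X] ≃ₐ[A] Algebra.adjoin A {x}` for transcendental `x`.
-/

set_option autoImplicit false
set_option linter.unusedSectionVars false
set_option linter.style.haveILetI false

namespace Fermat.Agent.INJ.NTame

open Polynomial

/-- A nonzero element integral over a ring homomorphism divides the image of a
nonzero element. -/
theorem exists_ne_zero_dvd_of_isIntegralElem {A B : Type*} [CommRing A] [CommRing B] [IsDomain B]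
    (φ : A →+* B) {x : B} (hx0 : x ≠ 0) (hx : φ.IsIntegralElem x) :
    ∃ a : A, a ≠ 0 ∧ x ∣ φ a := by
  let _ : Algebra A B := φ.toAlgebra
  have _ : Nontrivial A := φ.domain_nontrivial
  have hx' : IsIntegral A x := hx
  have h := Ideal.comap_ne_bot_of_integral_mem (R := A) (I := Ideal.span {x}) hx0
    (Ideal.mem_span_singleton_self x) hx'
  obtain ⟨a, ha, ha0⟩ := Submodule.exists_mem_ne_zero_of_ne_bot h
  refine ⟨a, ha0, ?_⟩
  have : φ a ∈ Ideal.span {x} := ha
  exact Ideal.mem_span_singleton.mp this

section comp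

variable {A : Type*} [CommRing A] [IsDomain A]

theorem compRingHom_injective (e : ℕ) (he : e ≠ 0) (c : A) :
    Function.Injective (compRingHom (X ^ e + C c : A[X])) := by
  rw [injective_iff_map_eq_zero]
  intro p hp
  have hp' : p.comp (X ^ e + C c) = 0 := hp
  rcases comp_eq_zero_iff.mp hp' with h | ⟨-, h⟩
  · exact h
  · exfalso
    have hd : (X ^ e + C c : A[X]).natDegree = e := natDegree_X_pow_add_C
    have : (X ^ e + C c : A[X]).natDegree = 0 := by rw [h, natDegree_C]
    exact he (hd ▸ this)

theorem isIntegralElem_compRingHom (e : ℕ) (he : e ≠ 0) (c : A) (f : A[X]) :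
    (compRingHom (X ^ e + C c : A[X])).IsIntegralElem f := by
  set φ := compRingHom (X ^ e + C c : A[X]) with hφ
  have hX : φ.IsIntegralElem (X : A[X]) := by
    refine ⟨X ^ e - C (X - C c), monic_X_pow_sub_C _ he, ?_⟩
    simp [hφ, compRingHom]
  have hC : ∀ a : A, φ.IsIntegralElem (C a : A[X]) := fun a => by
    have : (C a : A[X]) = φ (C a) := by simp [hφ, compRingHom]
    rw [this]
    exact φ.isIntegralElem_map
  induction f using Polynomial.induction_on' with
  | add p q hp hq => exact RingHom.IsIntegralElem.add φ hp hq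
  | monomial n a =>
    rw [← C_mul_X_pow_eq_monomial]
    refine RingHom.IsIntegralElem.mul φ (hC a) ?_
    induction n with
    | zero => rw [pow_zero]; exact φ.isIntegralElem_one
    | succ n ih => rw [pow_succ]; exact RingHom.IsIntegralElem.mul φ ih hX

/-- Over a UFD, every irreducible polynomial `f` divides `g (X ^ e + c)` for some irreducible
`g`. -/
theorem exists_irreducible_comp_dvd [UniqueFactorizationMonoid A] (e : ℕ) (he : e ≠ 0) (c : A)
    {f : A[X]} (hf : Irreducible f) :
    ∃ g : A[X], Irreducible g ∧ f ∣ g.comp (X ^ e + C c) := by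
  obtain ⟨g₀, hg₀, hdvd⟩ := exists_ne_zero_dvd_of_isIntegralElem
    (compRingHom (X ^ e + C c : A[X])) hf.ne_zero
    (isIntegralElem_compRingHom e he c f)
  obtain ⟨F, hF, hFg⟩ := UniqueFactorizationMonoid.exists_prime_factors g₀ hg₀
  have hfp : Prime f := UniqueFactorizationMonoid.irreducible_iff_prime.mp hf
  have h1 : f ∣ (compRingHom (X ^ e + C c : A[X])) F.prod :=
    hdvd.trans (map_dvd _ hFg.symm.dvd)
  rw [map_multiset_prod] at h1
  obtain ⟨a, ha, hfa⟩ := hfp.exists_mem_multiset_dvd h1
  obtain ⟨g, hg, rfl⟩ := Multiset.mem_map.mp ha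
  exact ⟨g, (hF g hg).irreducible, hfa⟩

end comp

section chart

variable {A B : Type*} [CommRing A] [CommRing B] [Algebra A B]

/-- The chart `A[X] ≃ Algebra.adjoin A {x}` for a transcendental element `x`. -/
noncomputable def adjoinEquiv {x : B} (hx : Transcendental A x) :
    A[X] ≃ₐ[A] Algebra.adjoin A {x} :=
  AlgEquiv.ofBijective
    ((aeval x).codRestrict (Algebra.adjoin A {x}) fun p => aeval_mem_adjoin_singleton A x)
    ⟨fun p q h => transcendental_iff_injective.mp hx (congrArg Subtype.val h), fun y => by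
      obtain ⟨p, hp⟩ : (y : B) ∈ (aeval x : A[X] →ₐ[A] B).range := by
        rw [← Algebra.adjoin_singleton_eq_range_aeval]; exact y.2
      exact ⟨p, Subtype.ext hp⟩⟩

@[simp]
theorem adjoinEquiv_coe {x : B} (hx : Transcendental A x) (p : A[X]) :
    ((adjoinEquiv hx p : Algebra.adjoin A {x}) : B) = aeval x p := rfl

theorem exists_eq_adjoinEquiv {x : B} (hx : Transcendental A x) (r : Algebra.adjoin A {x}) :
    ∃ p : A[X], adjoinEquiv hx p = r := (adjoinEquiv hx).surjective r

theorem irreducible_adjoinEquiv_iff {x : B} (hx : Transcendental A x) (p : A[X]) :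
    Irreducible (adjoinEquiv hx p) ↔ Irreducible p :=
  MulEquiv.irreducible_iff (adjoinEquiv hx : A[X] ≃* Algebra.adjoin A {x})

end chart

end Fermat.Agent.INJ.NTame
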