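import Fermat.Agent.INJ.TSPlan
import Fermat.Agent.INJ.KummerSetup
import Fermat.Agent.INJ.NTamePlaces

/-!
# INJ piece T4: `NTameStmt` from `NGoodStmt`, the Kummer setup (T4a), the places (T4b) and the
descent to invariants (T4c)

`NTameDescentStmt` is the exact statement of T4c: if `π` is locally prime in
`C' = integralClosure A₀[s] L'` at every maximal ideal `m'` over `m`, then `π` is locally prime in
`C = integralClosure A₀[τ] Lf` at `m` (`L'/Lf` finite Galois, `s ^ e = τ - c`).

`nTameStmt_of : NGoodStmt → NTameDescentStmt → NTameStmt`.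
-/

set_option autoImplicit false
set_option linter.style.haveILetI false

namespace Fermat.Agent.INJ

open Polynomial IntermediateField AlgebraicCurve

universe u

/-- **T4c (statement)**: descent of local primeness of `π` along the Kummer base change. -/
def NTameDescentStmt : Prop :=
  ∀ (A₀ E Lf L' : Type u) [CommRing A₀] [IsDomain A₀] [IsDiscreteValuationRing A₀]
    [Field E] [Algebra A₀ E] [IsFractionRing A₀ E] [CharZero E]
    [Field Lf] [Algebra E Lf] [Algebra A₀ Lf] [IsScalarTower A₀ E Lf]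
    [Field L'] [Algebra E L'] [Algebra Lf L'] [Algebra A₀ L']
    [IsScalarTower E Lf L'] [IsScalarTower A₀ E L'] [IsScalarTower A₀ Lf L']
    [FiniteDimensional Lf L'] [IsGalois Lf L']
    (π : A₀) (τ : Lf) (c : A₀) (e : ℕ) (_ : e ≠ 0) (s : L')
    (_ : s ^ e = algebraMap Lf L' (τ - algebraMap A₀ Lf c))
    (m : Ideal (integralClosure (Algebra.adjoin A₀ {τ}) Lf)) (_ : m.IsMaximal)
    (_ : algebraMap A₀ (integralClosure (Algebra.adjoin A₀ {τ}) Lf) π ∈ m)
    (_ : ∀ m' : Ideal (integralClosure (Algebra.adjoin A₀ {s}) L'), m'.IsMaximal →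
       algebraMap A₀ (integralClosure (Algebra.adjoin A₀ {s}) L') π ∈ m' →
       (∀ (x : integralClosure (Algebra.adjoin A₀ {τ}) Lf)
          (x' : integralClosure (Algebra.adjoin A₀ {s}) L'),
          (x' : L') = algebraMap Lf L' (x : Lf) → (x' ∈ m' ↔ x ∈ m)) →
       LocDomainAt (integralClosure (Algebra.adjoin A₀ {s}) L')
         (algebraMap A₀ (integralClosure (Algebra.adjoin A₀ {s}) L') π) m'),
    LocDomainAt (integralClosure (Algebra.adjoin A₀ {τ}) Lf)
      (algebraMap A₀ (integralClosure (Algebra.adjoin A₀ {τ}) Lf) π) m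

/-- **T4.**  (N-tame) follows from (N-good) and the descent T4c. -/
theorem nTameStmt_of (hN : NGoodStmt.{u}) (hD : NTameDescentStmt.{u}) : NTameStmt.{u} := by
  intro A₀ E Lf _ _ _ _ _ _ _ _ _ _ _ π hπ τ hτ _ hgb c e he hζ htame hP₀ m hmax hπm _ hunr
  have he0 : e ≠ 0 := by
    rintro rfl
    simp at he
  obtain ⟨L', hF, hAE, hAL, hAA, hT1, hT2, hT3, s, hs, hgen, hstr, hfd, hgb', hfdL, hgal⟩ :=
    exists_kummerSetup π hπ τ hτ hgb c e he hζ hP₀
  letI := hF
  letI := hAE
  letI := hAL
  letI := hAA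
  haveI := hT1
  haveI := hT2
  haveI := hT3
  haveI := hfd
  haveI := hfdL
  haveI := hgal
  refine hD A₀ E Lf L' π τ c e he0 s hs m hmax hπm ?_
  intro m' hm' hπm' hcompat
  refine hN A₀ E L' π hπ s hstr hgb' m' hm' hπm' ?_
  intro P' r' hr' hr'm hpos
  exact NTame.ntame_places τ hτ c e he0 s hs hgen hstr htame m m'
    (fun x x' hx hx' => (hcompat x x' hx).mp hx') hunr P' r' hr' hr'm hpos

end Fermat.Agent.INJ
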