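import Fermat.Agent.INJ.TSPlan

/-!
# (INJ) piece NORM: normality of the special fibre `C / π` — definitions and local-to-global

`NormalAt C p m` : the ring `C / p` is integrally closed (in its total ring of fractions) locally
at the ideal `m`, in element form: a "fraction" `a / b` which satisfies a monic equation
`(a/b)^n + c_{n-1} (a/b)^{n-1} + … + c_0 = 0` modulo `p` (homogenized:
`p ∣ a^n + ∑_{i<n} c_i a^i b^{n-i}`) is a fraction `d / s` with `s ∉ m`, i.e. `p ∣ s a - b d`.
No hypothesis on `b` is needed: for `b ≡ 0` the statement says that `C / p` is reduced at `m`.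

* `normal_of_forall_maximal` : `NormalAt` at all maximal ideals `m ∋ p` gives the global element
  form `∃ d, p ∣ a - b d`;
* `isIntegrallyClosed_quotient_of_normal` : for `p` prime the global element form gives
  `IsIntegrallyClosed (C ⧸ Ideal.span {p})`;
* `NGoodNormalStmt`, `NTameNormalStmt` : the statements (N-good), (N-tame) of `TSPlan.lean` with
  conclusion `NormalAt` in place of `LocDomainAt`.
-/

set_option autoImplicit false
set_option linter.style.haveILetI false

namespace Fermat.Agent.INJ.Norm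

open Polynomial IntermediateField AlgebraicCurve

universe u

/-- the homogenized monic relation `a^n + ∑_{i<n} c_i a^i b^{n-i}` -/
def homRel {C : Type*} [CommRing C] (a b : C) (n : ℕ) (c : ℕ → C) : C :=
  a ^ n + ∑ i ∈ Finset.range n, c i * a ^ i * b ^ (n - i)

theorem homRel_def {C : Type*} [CommRing C] (a b : C) (n : ℕ) (c : ℕ → C) :
    homRel a b n c = a ^ n + ∑ i ∈ Finset.range n, c i * a ^ i * b ^ (n - i) := rfl

/-- ring homomorphisms commute with `homRel` -/
theorem map_homRel {C D : Type*} [CommRing C] [CommRing D] (φ : C →+* D)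
    (a b : C) (n : ℕ) (c : ℕ → C) :
    φ (homRel a b n c) = homRel (φ a) (φ b) n (fun i => φ (c i)) := by
  simp only [homRel, map_add, map_pow, map_sum, map_mul]

/-- `C / p` is integrally closed locally at `m` (element form). -/
def NormalAt (C : Type*) [CommRing C] (p : C) (m : Ideal C) : Prop :=
  ∀ (a b : C) (n : ℕ) (c : ℕ → C), p ∣ homRel a b n c →
    ∃ s : C, s ∉ m ∧ ∃ d : C, p ∣ s * a - b * d

/-- `C / p` is integrally closed (global element form). -/
def Normal (C : Type*) [CommRing C] (p : C) : Prop :=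
  ∀ (a b : C) (n : ℕ) (c : ℕ → C), p ∣ homRel a b n c → ∃ d : C, p ∣ a - b * d

variable {C : Type*} [CommRing C]

/-- Local-to-global: `NormalAt` at every maximal ideal containing `p` gives `Normal`. -/
theorem normal_of_forall_maximal {p : C}
    (h : ∀ m : Ideal C, m.IsMaximal → p ∈ m → NormalAt C p m) : Normal C p := by
  intro a b n c hrel
  let I : Ideal C :=
    { carrier := {s | ∃ d : C, p ∣ s * a - b * d}
      add_mem' := by
        rintro s₁ s₂ ⟨d₁, h₁⟩ ⟨d₂, h₂⟩
        refine ⟨d₁ + d₂, ?_⟩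
        have : (s₁ + s₂) * a - b * (d₁ + d₂) = (s₁ * a - b * d₁) + (s₂ * a - b * d₂) := by ring
        rw [this]; exact dvd_add h₁ h₂
      zero_mem' := ⟨0, by simp⟩
      smul_mem' := by
        rintro r s ⟨d, hd⟩
        refine ⟨r * d, ?_⟩
        have : r • s * a - b * (r * d) = r * (s * a - b * d) := by rw [smul_eq_mul]; ring
        rw [this]; exact Dvd.dvd.mul_left hd r }
  have hpI : p ∈ I := ⟨0, by rw [mul_zero, sub_zero]; exact dvd_mul_right p a⟩
  have htop : I = ⊤ := by
    by_contra hne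
    obtain ⟨m, hm, hle⟩ := Ideal.exists_le_maximal _ hne
    obtain ⟨s, hs, hsI⟩ := h m hm (hle hpI) a b n c hrel
    exact hs (hle hsI)
  have h1 : (1 : C) ∈ I := by rw [htop]; trivial
  obtain ⟨d, hd⟩ := h1
  exact ⟨d, by rwa [one_mul] at hd⟩

/-- `Normal` implies `NormalAt` at every proper ideal. -/
theorem Normal.normalAt {p : C} (h : Normal C p) (m : Ideal C) (hm : m ≠ ⊤) : NormalAt C p m := by
  intro a b n c hrel
  obtain ⟨d, hd⟩ := h a b n c hrel
  exact ⟨1, fun h1 => hm ((Ideal.eq_top_iff_one m).mpr h1), d, by rwa [one_mul]⟩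

/-- `NormalAt` implies that `C / p` is reduced at `m`. -/
theorem NormalAt.reduced {p : C} {m : Ideal C} (h : NormalAt C p m) {a : C} {n : ℕ}
    (ha : p ∣ a ^ n) : ∃ s : C, s ∉ m ∧ p ∣ s * a := by
  have hrel : p ∣ homRel a 0 n (fun _ => 0) := by
    rw [homRel_def]
    simpa using ha
  obtain ⟨s, hs, d, hd⟩ := h a 0 n _ hrel
  exact ⟨s, hs, by simpa using hd⟩

/-- evaluation of a monic polynomial, homogenized: `b ^ n * f (a / b)` -/
theorem eval₂_div_mul_pow_eq_homRel {Q K : Type*} [CommRing Q] [Field K] (φ : Q →+* K)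
    {f : Q[X]} (hf : f.Monic) (A B : Q) (hB : φ B ≠ 0) :
    eval₂ φ (φ A / φ B) f * φ B ^ f.natDegree = φ (homRel A B f.natDegree f.coeff) := by
  rw [map_homRel, homRel_def, eval₂_eq_sum_range, Finset.sum_range_succ, hf.coeff_natDegree,
    map_one, one_mul, add_mul, add_comm, Finset.sum_mul]
  congr 1
  · rw [div_pow, div_mul_cancel₀ _ (pow_ne_zero _ hB)]
  · refine Finset.sum_congr rfl fun i hi => ?_
    have hi' : i < f.natDegree := Finset.mem_range.mp hi
    have : φ B ^ f.natDegree = φ B ^ i * φ B ^ (f.natDegree - i) := by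
      rw [← pow_add]; congr 1; omega
    rw [this, div_pow]
    field_simp

/-- For `p` prime, the global element form of normality says that `C / p` is an integrally closed
domain. -/
theorem isIntegrallyClosed_quotient_of_normal {p : C} (hp : Prime p) (h : Normal C p) :
    IsIntegrallyClosed (C ⧸ Ideal.span {p}) := by
  haveI : (Ideal.span {p}).IsPrime := (Ideal.span_singleton_prime hp.ne_zero).mpr hp
  haveI : IsDomain (C ⧸ Ideal.span {p}) := Ideal.Quotient.isDomain _
  refine (isIntegrallyClosed_iff (FractionRing (C ⧸ Ideal.span {p}))).mpr ?_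
  intro x hx
  obtain ⟨A, B, hB, rfl⟩ := IsFractionRing.div_surjective (A := C ⧸ Ideal.span {p}) x
  obtain ⟨f, hf, hfx⟩ := hx
  have hinj : Function.Injective
      (algebraMap (C ⧸ Ideal.span {p}) (FractionRing (C ⧸ Ideal.span {p}))) :=
    IsFractionRing.injective _ _
  have hB0 : algebraMap (C ⧸ Ideal.span {p}) (FractionRing (C ⧸ Ideal.span {p})) B ≠ 0 :=
    (map_ne_zero_iff _ hinj).mpr (nonZeroDivisors.ne_zero hB)
  have hrel := eval₂_div_mul_pow_eq_homRel
    (algebraMap (C ⧸ Ideal.span {p}) (FractionRing (C ⧸ Ideal.span {p}))) hf A B hB0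
  rw [hfx, zero_mul] at hrel
  have hrel0 : homRel A B f.natDegree f.coeff = 0 := by
    apply hinj
    rw [← hrel, map_zero]
  obtain ⟨a, rfl⟩ := Ideal.Quotient.mk_surjective A
  obtain ⟨b, rfl⟩ := Ideal.Quotient.mk_surjective B
  have hc : ∀ i, ∃ ci : C, Ideal.Quotient.mk (Ideal.span {p}) ci = f.coeff i :=
    fun i => Ideal.Quotient.mk_surjective _
  choose c hc using hc
  have hrelC : p ∣ homRel a b f.natDegree c := by
    rw [← Ideal.mem_span_singleton, ← Ideal.Quotient.eq_zero_iff_mem, map_homRel]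
    have : (fun i => Ideal.Quotient.mk (Ideal.span {p}) (c i)) = f.coeff := funext hc
    rw [this]
    exact hrel0
  obtain ⟨d, hd⟩ := h a b f.natDegree c hrelC
  refine ⟨Ideal.Quotient.mk (Ideal.span {p}) d, ?_⟩
  rw [eq_div_iff hB0, ← map_mul]
  congr 1
  rw [← sub_eq_zero, ← map_mul, ← map_sub, Ideal.Quotient.eq_zero_iff_mem,
    Ideal.mem_span_singleton]
  have : d * b - a = -(a - b * d) := by ring
  rw [this]
  exact (dvd_neg).mpr hd

/-- Conversely, an integrally closed domain `C / p` gives the element form. -/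
theorem normal_of_isIntegrallyClosed_quotient {p : C} (hp : Prime p)
    (h : IsIntegrallyClosed (C ⧸ Ideal.span {p})) : Normal C p := by
  haveI : (Ideal.span {p}).IsPrime := (Ideal.span_singleton_prime hp.ne_zero).mpr hp
  haveI : IsDomain (C ⧸ Ideal.span {p}) := Ideal.Quotient.isDomain _
  intro a b n c hrel
  by_cases hb : p ∣ b
  · -- `b ≡ 0`: then `a ^ n ≡ 0`, so `a ≡ 0`
    have hsum : p ∣ ∑ i ∈ Finset.range n, c i * a ^ i * b ^ (n - i) := by
      refine Finset.dvd_sum fun i hi => ?_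
      have hi' : i < n := Finset.mem_range.mp hi
      exact Dvd.dvd.mul_left (dvd_pow hb (by omega)) _
    have han : p ∣ a ^ n := by
      rw [homRel_def] at hrel
      exact (dvd_add_left hsum).mp hrel
    have ha : p ∣ a := hp.dvd_of_dvd_pow han
    refine ⟨0, ?_⟩
    rw [mul_zero, sub_zero]; exact ha
  · set Q := C ⧸ Ideal.span {p}
    set K := FractionRing Q
    have hinj : Function.Injective (algebraMap Q K) := IsFractionRing.injective _ _
    have hB : Ideal.Quotient.mk (Ideal.span {p}) b ≠ 0 := by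
      rw [Ne, Ideal.Quotient.eq_zero_iff_mem, Ideal.mem_span_singleton]
      exact hb
    have hB0 : algebraMap Q K (Ideal.Quotient.mk (Ideal.span {p}) b) ≠ 0 :=
      (map_ne_zero_iff _ hinj).mpr hB
    set φ : C →+* K := (algebraMap Q K).comp (Ideal.Quotient.mk (Ideal.span {p})) with hφ
    have hφb : φ b ≠ 0 := hB0
    have hφrel : φ (homRel a b n c) = 0 := by
      rw [hφ, RingHom.comp_apply]
      rw [Ideal.Quotient.eq_zero_iff_mem.mpr (Ideal.mem_span_singleton.mpr hrel), map_zero]
    -- the monic polynomial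
    let g : Q[X] := X ^ n + ∑ i : Fin n, Polynomial.C (Ideal.Quotient.mk (Ideal.span {p}) (c i))
      * X ^ (i : ℕ)
    have hg : g.Monic := monic_X_pow_add (degree_sum_fin_lt _)
    have hint : IsIntegral Q (φ a / φ b) := by
      refine ⟨g, hg, ?_⟩
      have h1 : eval₂ (algebraMap Q K) (φ a / φ b) g * φ b ^ n = 0 := by
        rw [← hφrel, map_homRel, homRel_def]
        simp only [g, eval₂_add, eval₂_pow, eval₂_X, eval₂_finsetSum, eval₂_mul, eval₂_C]
        rw [add_mul, div_pow, div_mul_cancel₀ _ (pow_ne_zero _ hφb), Finset.sum_mul,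
          Finset.sum_range]
        congr 1
        refine Finset.sum_congr rfl fun i _ => ?_
        have : φ b ^ n = φ b ^ (i : ℕ) * φ b ^ (n - (i : ℕ)) := by
          rw [← pow_add]; congr 1; have := i.2; omega
        rw [this, div_pow]
        have hφc : algebraMap Q K (Ideal.Quotient.mk (Ideal.span {p}) (c i)) = φ (c i) := rfl
        rw [hφc, mul_assoc, ← mul_assoc (φ a ^ (i : ℕ) / φ b ^ (i : ℕ)),
          div_mul_cancel₀ _ (pow_ne_zero _ hφb), mul_assoc]
      exact (mul_eq_zero.mp h1).resolve_right (pow_ne_zero _ hφb)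
    obtain ⟨D, hD⟩ := (isIntegrallyClosed_iff K).mp h hint
    obtain ⟨d, rfl⟩ := Ideal.Quotient.mk_surjective D
    refine ⟨d, ?_⟩
    rw [← Ideal.mem_span_singleton, ← Ideal.Quotient.eq_zero_iff_mem]
    apply hinj
    rw [map_zero, map_sub, map_mul, map_sub, map_mul, hD]
    show φ a - φ b * (φ a / φ b) = 0
    rw [mul_div_cancel₀ _ hφb, sub_self]

/-- **(N-good), normal form**: `C / π` is normal at a point over which `Lf` is unramified. -/
def NGoodNormalStmt : Prop :=
  ∀ (A₀ E Lf : Type u) [CommRing A₀] [IsDomain A₀] [IsDiscreteValuationRing A₀]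
    [Field E] [Algebra A₀ E] [IsFractionRing A₀ E] [CharZero E]
    [Field Lf] [Algebra E Lf] [Algebra A₀ Lf] [IsScalarTower A₀ E Lf]
    (π : A₀) (_ : Irreducible π) (τ : Lf) (_ : Transcendental E τ) [FiniteDimensional E⟮τ⟯ Lf]
    (_ : TSGoodBasis (E := E) π τ)
    (m : Ideal (integralClosure (Algebra.adjoin A₀ {τ}) Lf)) (_ : m.IsMaximal)
    (_ : algebraMap A₀ (integralClosure (Algebra.adjoin A₀ {τ}) Lf) π ∈ m)
    (_ : ∀ (P : Place E Lf) (r : Algebra.adjoin A₀ {τ}), Irreducible r →
        algebraMap (Algebra.adjoin A₀ {τ}) (integralClosure (Algebra.adjoin A₀ {τ}) Lf) r ∈ m →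
        0 < P.ord (r : Lf) → P.ord (r : Lf) = 1),
    NormalAt (integralClosure (Algebra.adjoin A₀ {τ}) Lf)
      (algebraMap A₀ (integralClosure (Algebra.adjoin A₀ {τ}) Lf) π) m

/-- **(N-tame), normal form**: `C / π` is normal at a point over a tame branch point `τ = c`. -/
def NTameNormalStmt : Prop :=
  ∀ (A₀ E Lf : Type u) [CommRing A₀] [IsDomain A₀] [IsDiscreteValuationRing A₀]
    [Field E] [Algebra A₀ E] [IsFractionRing A₀ E] [CharZero E]
    [Field Lf] [Algebra E Lf] [Algebra A₀ Lf] [IsScalarTower A₀ E Lf]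
    (π : A₀) (_ : Irreducible π) (τ : Lf) (_ : Transcendental E τ) [FiniteDimensional E⟮τ⟯ Lf]
    (_ : TSGoodBasis (E := E) π τ)
    (c : A₀) (e : ℕ) (_ : IsUnit (e : A₀)) (_ : ∃ ζ : A₀, IsPrimitiveRoot ζ e)
    (_ : ∀ P : Place E Lf, 0 < P.ord (τ - algebraMap A₀ Lf c) →
        P.ord (τ - algebraMap A₀ Lf c) ∣ (e : ℤ))
    (_ : ∃ P₀ : Place E Lf, P₀.ord (τ - algebraMap A₀ Lf c) = 1 ∨
        P₀.ord (τ - algebraMap A₀ Lf c) = -1)
    (m : Ideal (integralClosure (Algebra.adjoin A₀ {τ}) Lf)) (_ : m.IsMaximal)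
    (_ : algebraMap A₀ (integralClosure (Algebra.adjoin A₀ {τ}) Lf) π ∈ m)
    (_ : ∀ r₀ : Algebra.adjoin A₀ {τ}, (r₀ : Lf) = τ - algebraMap A₀ Lf c →
        algebraMap (Algebra.adjoin A₀ {τ}) (integralClosure (Algebra.adjoin A₀ {τ}) Lf) r₀ ∈ m)
    (_ : ∀ (P : Place E Lf) (r : Algebra.adjoin A₀ {τ}), Irreducible r →
        algebraMap (Algebra.adjoin A₀ {τ}) (integralClosure (Algebra.adjoin A₀ {τ}) Lf) r ∈ m →
        0 < P.ord (r : Lf) → P.ord (τ - algebraMap A₀ Lf c) = 0 → P.ord (r : Lf) = 1),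
    NormalAt (integralClosure (Algebra.adjoin A₀ {τ}) Lf)
      (algebraMap A₀ (integralClosure (Algebra.adjoin A₀ {τ}) Lf) π) m

end Fermat.Agent.INJ.Norm
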