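import Mathlib
import Fermat.Agent.INJ.DiscLocal
import Fermat.Agent.INJ.NormalDefs

/-!
# (INJ) piece NORM, N1: closed fibre reduced ⇒ `C / π` is normal at `m`

Setting of `DiscLocal.lean`: `R` Noetherian, `R / π` a principal ideal ring, `C` a finite
`R`-algebra, torsion-free modulo `π`, `n ∋ π` a maximal ideal of `R` with reduced closed fibre
`C / n C`, `m ⊇ n C` a maximal ideal of `C`.

* `exists_localFibre` : the local ring `T = (C / π)_m`, packaged: a Noetherian local domain whose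
  maximal ideal is generated by the image of an element `γ₀ ∈ m` which comes from `R`
  (so `T` is a field or a discrete valuation ring), with the map `ι : C → T`.
* `localFibre_principal` : `∀ x ∈ m, ∃ u ∉ m, ∃ a b, u * x = π * a + γ₀ * b`  (`m = (π, γ₀)` locally).
* `normalAt_of_closedFibre_reduced` : `NormalAt C π m`.
-/

set_option autoImplicit false
set_option linter.style.haveILetI false

namespace Fermat.Agent.INJ.Norm

open Polynomial Fermat.Agent.INJ

universe v w

section Main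

variable {R : Type w} {C : Type v} [CommRing R] [CommRing C] [Algebra R C] [Module.Finite R C]

/-- **The local ring of the special fibre at `m`**, packaged. -/
theorem exists_localFibre [IsNoetherianRing R]
    {π : R} [IsPrincipalIdealRing (R ⧸ Ideal.span {π})]
    (htf : ∀ f : R, ¬ π ∣ f → ∀ x : C, algebraMap R C π ∣ f • x → algebraMap R C π ∣ x)
    (n : Ideal R) [n.IsMaximal] (hπn : π ∈ n)
    (hred : ∀ x : C, x ^ 2 ∈ n.map (algebraMap R C) → x ∈ n.map (algebraMap R C))
    (m : Ideal C) [m.IsMaximal] (hm : n.map (algebraMap R C) ≤ m) :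
    ∃ (T : Type v) (_ : CommRing T) (_ : IsLocalRing T) (_ : IsNoetherianRing T) (_ : IsDomain T)
      (ι : C →+* T),
      (∀ u : C, u ∉ m → IsUnit (ι u)) ∧
      (∀ x : C, ι x = 0 ↔ ∃ u : C, u ∉ m ∧ algebraMap R C π ∣ u * x) ∧
      (∀ z : T, ∃ (x s : C), s ∉ m ∧ z * ι s = ι x) ∧
      (∀ x : C, ι x ∈ IsLocalRing.maximalIdeal T ↔ x ∈ m) ∧
      ∃ g : R, g ∈ n ∧ IsLocalRing.maximalIdeal T = Ideal.span {ι (algebraMap R C g)} := by
  -- Step 1: `n = (π, g)`
  have hπle : Ideal.span {π} ≤ n := (Ideal.span_singleton_le_iff_mem _).mpr hπn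
  obtain ⟨g, hgn, hg⟩ : ∃ g : R, g ∈ n ∧ ∀ x ∈ n, ∃ a b : R, x = π * a + g * b := by
    have hprinc : (n.map (Ideal.Quotient.mk (Ideal.span {π}))).IsPrincipal :=
      IsPrincipalIdealRing.principal _
    obtain ⟨G, hG⟩ := hprinc
    obtain ⟨g, rfl⟩ := Ideal.Quotient.mk_surjective G
    have hgn : g ∈ n := by
      apply (mem_map_mk_iff (Ideal.span {π}) n hπle g).mp
      rw [hG]
      exact Submodule.mem_span_singleton_self _
    refine ⟨g, hgn, fun x hx => ?_⟩
    have hx' : Ideal.Quotient.mk (Ideal.span {π}) x ∈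
        n.map (Ideal.Quotient.mk (Ideal.span {π})) := Ideal.mem_map_of_mem _ hx
    rw [hG, Submodule.mem_span_singleton] at hx'
    obtain ⟨B, hB⟩ := hx'
    obtain ⟨b, rfl⟩ := Ideal.Quotient.mk_surjective B
    rw [smul_eq_mul, ← map_mul] at hB
    have h1 : x - b * g ∈ Ideal.span {π} := Ideal.Quotient.eq.mp hB.symm
    obtain ⟨a, ha⟩ := Ideal.mem_span_singleton.mp h1
    exact ⟨a, b, by rw [← ha]; ring⟩
  set ϖ : C := algebraMap R C π with hϖ
  set γ₀ : C := algebraMap R C g with hγ₀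
  have hϖm : ϖ ∈ m := hm (Ideal.mem_map_of_mem _ hπn)
  have hγ₀m : γ₀ ∈ m := hm (Ideal.mem_map_of_mem _ hgn)
  have hϖle : Ideal.span {ϖ} ≤ m := (Ideal.span_singleton_le_iff_mem _).mpr hϖm
  -- Step 2: `n C = (ϖ, γ₀)`
  have hnC : ∀ z ∈ n.map (algebraMap R C), ∃ c₁ c₂ : C, z = ϖ * c₁ + γ₀ * c₂ := by
    intro z hz
    refine Submodule.span_induction (p := fun z _ => ∃ c₁ c₂ : C, z = ϖ * c₁ + γ₀ * c₂)
      ?_ ?_ ?_ ?_ hz
    · rintro _ ⟨x, hx, rfl⟩
      obtain ⟨a, b, rfl⟩ := hg x hx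
      exact ⟨algebraMap R C a, algebraMap R C b, by simp [hϖ, hγ₀]⟩
    · exact ⟨0, 0, by simp⟩
    · rintro _ _ _ _ ⟨a₁, a₂, rfl⟩ ⟨b₁, b₂, rfl⟩
      exact ⟨a₁ + b₁, a₂ + b₂, by ring⟩
    · rintro c _ _ ⟨a₁, a₂, rfl⟩
      exact ⟨c * a₁, c * a₂, by rw [smul_eq_mul]; ring⟩
  -- Step 3: the local ring `T = (C / ϖ)_m`
  haveI : IsNoetherianRing C := IsNoetherianRing.of_finite R C
  haveI hmax : (m.map (Ideal.Quotient.mk (Ideal.span {ϖ}))).IsMaximal :=
    isMaximal_map_mk _ m hϖle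
  let T := Localization.AtPrime (m.map (Ideal.Quotient.mk (Ideal.span {ϖ})))
  haveI hTN : IsNoetherianRing T :=
    IsLocalization.isNoetherianRing (m.map (Ideal.Quotient.mk (Ideal.span {ϖ}))).primeCompl T
      inferInstance
  let ι : C →+* T := (algebraMap (C ⧸ Ideal.span {ϖ}) T).comp (Ideal.Quotient.mk (Ideal.span {ϖ}))
  have hιunit : ∀ u : C, u ∉ m → IsUnit (ι u) := by
    intro u hu
    exact IsLocalization.map_units T
      (⟨Ideal.Quotient.mk (Ideal.span {ϖ}) u, fun h => hu ((mem_map_mk_iff _ m hϖle u).mp h)⟩ :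
        (m.map (Ideal.Quotient.mk (Ideal.span {ϖ}))).primeCompl)
  have hιzero : ∀ x : C, ι x = 0 ↔ ∃ u : C, u ∉ m ∧ ϖ ∣ u * x := by
    intro x
    show algebraMap (C ⧸ Ideal.span {ϖ}) T (Ideal.Quotient.mk (Ideal.span {ϖ}) x) = 0 ↔ _
    rw [IsLocalization.map_eq_zero_iff (m.map (Ideal.Quotient.mk (Ideal.span {ϖ}))).primeCompl]
    constructor
    · rintro ⟨⟨U, hU⟩, hUx⟩
      obtain ⟨u, rfl⟩ := Ideal.Quotient.mk_surjective U
      refine ⟨u, fun hu => hU ((mem_map_mk_iff _ m hϖle u).mpr hu), ?_⟩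
      rw [← Ideal.mem_span_singleton, ← Ideal.Quotient.eq_zero_iff_mem, map_mul]
      exact hUx
    · rintro ⟨u, hu, hux⟩
      refine ⟨⟨Ideal.Quotient.mk _ u, fun h => hu ((mem_map_mk_iff _ m hϖle u).mp h)⟩, ?_⟩
      show Ideal.Quotient.mk (Ideal.span {ϖ}) u * Ideal.Quotient.mk (Ideal.span {ϖ}) x = 0
      rw [← map_mul, Ideal.Quotient.eq_zero_iff_mem, Ideal.mem_span_singleton]
      exact hux
  have hιsurj : ∀ z : T, ∃ (x s : C), s ∉ m ∧ z * ι s = ι x := by
    intro z
    obtain ⟨X, ⟨S, hS⟩, rfl⟩ :=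
      IsLocalization.exists_mk'_eq (m.map (Ideal.Quotient.mk (Ideal.span {ϖ}))).primeCompl z
    obtain ⟨x, rfl⟩ := Ideal.Quotient.mk_surjective X
    obtain ⟨s, rfl⟩ := Ideal.Quotient.mk_surjective S
    refine ⟨x, s, fun hs => hS ((mem_map_mk_iff _ m hϖle s).mpr hs), ?_⟩
    exact IsLocalization.mk'_spec T _ _
  have hιmem : ∀ x : C, ι x ∈ IsLocalRing.maximalIdeal T ↔ x ∈ m := by
    intro x
    show algebraMap (C ⧸ Ideal.span {ϖ}) T (Ideal.Quotient.mk (Ideal.span {ϖ}) x) ∈ _ ↔ _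
    rw [IsLocalization.AtPrime.to_map_mem_maximal_iff T
      (m.map (Ideal.Quotient.mk (Ideal.span {ϖ})))]
    exact mem_map_mk_iff _ m hϖle x
  have hιϖ : ι ϖ = 0 := by
    show algebraMap (C ⧸ Ideal.span {ϖ}) T (Ideal.Quotient.mk (Ideal.span {ϖ}) ϖ) = 0
    rw [Ideal.Quotient.eq_zero_iff_mem.mpr (Ideal.mem_span_singleton_self ϖ), map_zero]
  -- Step 4: the maximal ideal of `T` is generated by `γ = ι γ₀`
  have hγ : IsLocalRing.maximalIdeal T = Ideal.span {ι γ₀} := by
    apply le_antisymm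
    · intro z hz
      obtain ⟨x, s, hs, hzs⟩ := hιsurj z
      have hxm : x ∈ m := by
        rw [← hιmem, ← hzs]
        exact Ideal.mul_mem_right _ _ hz
      obtain ⟨u, hu, hux⟩ := exists_notMem_mul_mem_of_reduced n hred m hm x hxm
      obtain ⟨c₁, c₂, hc⟩ := hnC _ hux
      rw [Ideal.mem_span_singleton]
      have h1 : ι γ₀ ∣ z * (ι s * ι u) := by
        refine ⟨ι c₂, ?_⟩
        calc z * (ι s * ι u) = ι (u * x) := by rw [← mul_assoc, hzs, map_mul]; ring
          _ = ι γ₀ * ι c₂ := by rw [hc, map_add, map_mul, map_mul, hιϖ]; ring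
      exact (IsUnit.dvd_mul_right ((hιunit s hs).mul (hιunit u hu))).mp h1
    · rw [Ideal.span_singleton_le_iff_mem, hιmem]
      exact hγ₀m
  -- Step 5: `T` is a domain
  have hdom : IsDomain T := by
    by_cases hπg : π ∣ g
    · -- degenerate case: `n = (π)`, `T` is a field
      have h0 : ι γ₀ = 0 := by
        obtain ⟨a, ha⟩ := hπg
        have : γ₀ = ϖ * algebraMap R C a := by rw [hγ₀, hϖ, ha, map_mul]
        rw [this, map_mul, hιϖ, zero_mul]
      rw [h0, Ideal.span_singleton_eq_bot.mpr rfl] at hγ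
      exact (IsLocalRing.isField_iff_maximalIdeal_eq.mpr hγ).isDomain
    · apply isDomain_of_maximalIdeal_eq_span_of_regular (ι γ₀) hγ
      intro z hz
      obtain ⟨x, s, hs, hzs⟩ := hιsurj z
      have h1 : ι (γ₀ * x) = 0 := by
        rw [map_mul, ← hzs, ← mul_assoc, hz, zero_mul]
      obtain ⟨u, hu, hux⟩ := (hιzero _).mp h1
      have h2 : ϖ ∣ g • (u * x) := by
        rw [Algebra.smul_def]
        have : algebraMap R C g * (u * x) = u * (γ₀ * x) := by rw [hγ₀]; ring
        rw [this]; exact hux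
      have h3 : ϖ ∣ u * x := htf g hπg _ h2
      have h4 : ι x = 0 := (hιzero x).mpr ⟨u, hu, h3⟩
      have h5 : z * ι s = 0 := by rw [hzs, h4]
      exact (IsUnit.mul_left_eq_zero (hιunit s hs)).mp h5
  exact ⟨T, inferInstance, inferInstance, hTN, hdom, ι, hιunit, hιzero, hιsurj, hιmem,
    g, hgn, hγ⟩

/-- **`m = (π, g)` locally at `m`** (the special fibre is regular of dimension `≤ 1` at `m`):
the element form of "`(C / π)_m` is a field or a discrete valuation ring with uniformizer `g`". -/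
theorem localFibre_principal [IsNoetherianRing R]
    {π : R} [IsPrincipalIdealRing (R ⧸ Ideal.span {π})]
    (htf : ∀ f : R, ¬ π ∣ f → ∀ x : C, algebraMap R C π ∣ f • x → algebraMap R C π ∣ x)
    (n : Ideal R) [n.IsMaximal] (hπn : π ∈ n)
    (hred : ∀ x : C, x ^ 2 ∈ n.map (algebraMap R C) → x ∈ n.map (algebraMap R C))
    (m : Ideal C) [m.IsMaximal] (hm : n.map (algebraMap R C) ≤ m) :
    ∃ g : R, g ∈ n ∧ ∀ x ∈ m, ∃ u : C, u ∉ m ∧ ∃ a b : C,
      u * x = algebraMap R C π * a + algebraMap R C g * b := by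
  obtain ⟨T, _, _, _, _, ι, hιunit, hιzero, hιsurj, hιmem, g, hgn, hγ⟩ :=
    exists_localFibre htf n hπn hred m hm
  refine ⟨g, hgn, fun x hx => ?_⟩
  have h1 : ι x ∈ Ideal.span {ι (algebraMap R C g)} := by rw [← hγ]; exact (hιmem x).mpr hx
  obtain ⟨z, hz⟩ := Ideal.mem_span_singleton.mp h1
  obtain ⟨y, s, hs, hzs⟩ := hιsurj z
  have h2 : ι (s * x - algebraMap R C g * y) = 0 := by
    rw [map_sub, map_mul, map_mul, hz, ← hzs]; ring
  obtain ⟨u, hu, a, ha⟩ := (hιzero _).mp h2
  refine ⟨u * s, fun hus => ?_, a, u * y, ?_⟩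
  · rcases (Ideal.IsMaximal.isPrime inferInstance).mem_or_mem hus with h | h
    · exact hu h
    · exact hs h
  · rw [← ha]; ring

/-- **N1.**  Closed fibre reduced `⇒` the special fibre `C / π` is normal at every maximal ideal
of `C` over the closed point `n`. -/
theorem normalAt_of_closedFibre_reduced [IsNoetherianRing R]
    {π : R} [IsPrincipalIdealRing (R ⧸ Ideal.span {π})]
    (htf : ∀ f : R, ¬ π ∣ f → ∀ x : C, algebraMap R C π ∣ f • x → algebraMap R C π ∣ x)
    (n : Ideal R) [n.IsMaximal] (hπn : π ∈ n)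
    (hred : ∀ x : C, x ^ 2 ∈ n.map (algebraMap R C) → x ∈ n.map (algebraMap R C))
    (m : Ideal C) [m.IsMaximal] (hm : n.map (algebraMap R C) ≤ m) :
    NormalAt C (algebraMap R C π) m := by
  obtain ⟨T, _, _, _, _, ι, hιunit, hιzero, hιsurj, hιmem, g, hgn, hγ⟩ :=
    exists_localFibre htf n hπn hred m hm
  have hmprime : m.IsPrime := Ideal.IsMaximal.isPrime inferInstance
  -- `T` is integrally closed
  have hprinc : (IsLocalRing.maximalIdeal T).IsPrincipal := ⟨⟨ι (algebraMap R C g), hγ⟩⟩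
  have hic : IsIntegrallyClosed T := by
    have h43 : (IsLocalRing.maximalIdeal T).IsPrincipal →
        (IsIntegrallyClosed T ∧
          ∀ P : Ideal T, P ≠ ⊥ → P.IsPrime → P = IsLocalRing.maximalIdeal T) :=
      ((tfae_of_isNoetherianRing_of_isLocalRing_of_isDomain (R := T)).out 4 3).mp
    exact (h43 hprinc).1
  intro a b k c hrel
  have hrelT : homRel (ι a) (ι b) k (fun i => ι (c i)) = 0 := by
    rw [← map_homRel]
    exact (hιzero _).mpr ⟨1, fun h1 => (Ideal.IsMaximal.ne_top inferInstance)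
      ((Ideal.eq_top_iff_one m).mpr h1), by rw [one_mul]; exact hrel⟩
  by_cases hb : ι b = 0
  · -- `b` vanishes at `m`: then so does `a`
    have hsum : ∑ i ∈ Finset.range k, ι (c i) * ι a ^ i * ι b ^ (k - i) = 0 := by
      refine Finset.sum_eq_zero fun i hi => ?_
      have hi' : i < k := Finset.mem_range.mp hi
      rw [hb, zero_pow (by omega), mul_zero]
    rw [homRel_def, hsum, add_zero] at hrelT
    have ha : ι a = 0 := eq_zero_of_pow_eq_zero hrelT
    obtain ⟨u, hu, hua⟩ := (hιzero a).mp ha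
    exact ⟨u, hu, 0, by rw [mul_zero, sub_zero]; exact hua⟩
  · set K := FractionRing T
    have hinj : Function.Injective (algebraMap T K) := IsFractionRing.injective _ _
    have hb0 : algebraMap T K (ι b) ≠ 0 := (map_ne_zero_iff _ hinj).mpr hb
    let f : T[X] := X ^ k + ∑ i : Fin k, Polynomial.C (ι (c i)) * X ^ (i : ℕ)
    have hf : f.Monic := monic_X_pow_add (degree_sum_fin_lt _)
    have hint : IsIntegral T (algebraMap T K (ι a) / algebraMap T K (ι b)) := by
      refine ⟨f, hf, ?_⟩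
      have h1 : eval₂ (algebraMap T K) (algebraMap T K (ι a) / algebraMap T K (ι b)) f
          * algebraMap T K (ι b) ^ k = 0 := by
        have h0 : algebraMap T K (homRel (ι a) (ι b) k (fun i => ι (c i))) = 0 := by
          rw [hrelT, map_zero]
        rw [← h0, map_homRel, homRel_def]
        simp only [f, eval₂_add, eval₂_pow, eval₂_X, eval₂_finsetSum, eval₂_mul, eval₂_C]
        rw [add_mul, div_pow, div_mul_cancel₀ _ (pow_ne_zero _ hb0), Finset.sum_mul,
          Finset.sum_range]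
        congr 1
        refine Finset.sum_congr rfl fun i _ => ?_
        have : algebraMap T K (ι b) ^ k
            = algebraMap T K (ι b) ^ (i : ℕ) * algebraMap T K (ι b) ^ (k - (i : ℕ)) := by
          rw [← pow_add]; congr 1; have := i.2; omega
        rw [this, div_pow, mul_assoc,
          ← mul_assoc (algebraMap T K (ι a) ^ (i : ℕ) / algebraMap T K (ι b) ^ (i : ℕ)),
          div_mul_cancel₀ _ (pow_ne_zero _ hb0), mul_assoc]
      exact (mul_eq_zero.mp h1).resolve_right (pow_ne_zero _ hb0)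
    obtain ⟨z, hz⟩ := (isIntegrallyClosed_iff K).mp hic hint
    have hzab : ι a = ι b * z := by
      apply hinj
      rw [map_mul, hz, mul_div_cancel₀ _ hb0]
    obtain ⟨y, s, hs, hzs⟩ := hιsurj z
    have h2 : ι (s * a - b * y) = 0 := by
      rw [map_sub, map_mul, map_mul, hzab, ← hzs]; ring
    obtain ⟨u, hu, hdiv⟩ := (hιzero _).mp h2
    refine ⟨u * s, fun hus => ?_, u * y, ?_⟩
    · rcases hmprime.mem_or_mem hus with h | h
      · exact hu h
      · exact hs h
    · have : u * s * a - b * (u * y) = u * (s * a - b * y) := by ring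
      rw [this]; exact hdiv

end Main

end Fermat.Agent.INJ.Norm
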