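import Fermat.Agent.INJ.NGood
import Fermat.Agent.INJ.NormalLocal

/-!
# (INJ) piece NORM, N1 for the charts: `NGoodNormalStmt`

`nGood_core` : under the hypotheses of (N-good) (`NGoodStmt`, `TSPlan.lean`) the abstract
hypotheses of `DiscLocal.lean` / `NormalLocal.lean` hold for `R = A₀[τ]`,
`C = integralClosure R Lf`, `n = m ∩ R` (continuation-passing form, so that every local
consequence of "closed fibre reduced" can be drawn from one copy of the set-up).

* `nGoodNormalStmt : NGoodNormalStmt` — the special fibre is normal at `m`;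
* `nGood_principal` — `m = (π, g)` locally at `m`, with `g ∈ A₀[τ]`.
-/

set_option autoImplicit false
set_option linter.style.haveILetI false

namespace Fermat.Agent.INJ.Norm

open Polynomial IntermediateField AlgebraicCurve Fermat.Agent.INJ

universe u

/-- **The set-up of (N-good)**, in continuation-passing form. -/
theorem nGood_core
    {A₀ E Lf : Type u} [CommRing A₀] [IsDomain A₀] [IsDiscreteValuationRing A₀]
    [Field E] [Algebra A₀ E] [IsFractionRing A₀ E] [CharZero E]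
    [Field Lf] [Algebra E Lf] [Algebra A₀ Lf] [IsScalarTower A₀ E Lf]
    (π : A₀) (hπ : Irreducible π) (τ : Lf) (hτ : Transcendental E τ) [FiniteDimensional E⟮τ⟯ Lf]
    (hgb : TSGoodBasis (E := E) π τ)
    (m : Ideal (integralClosure (Algebra.adjoin A₀ {τ}) Lf)) (hmax : m.IsMaximal)
    (hπm : algebraMap A₀ (integralClosure (Algebra.adjoin A₀ {τ}) Lf) π ∈ m)
    (hpl : ∀ (P : Place E Lf) (r : Algebra.adjoin A₀ {τ}), Irreducible r →
        algebraMap (Algebra.adjoin A₀ {τ}) (integralClosure (Algebra.adjoin A₀ {τ}) Lf) r ∈ m →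
        0 < P.ord (r : Lf) → P.ord (r : Lf) = 1)
    (Q : Prop)
    (hQ : Module.Finite ↥(Algebra.adjoin A₀ {τ}) ↥(integralClosure ↥(Algebra.adjoin A₀ {τ}) Lf) →
      IsNoetherianRing ↥(Algebra.adjoin A₀ {τ}) →
      IsPrincipalIdealRing (↥(Algebra.adjoin A₀ {τ}) ⧸
        Ideal.span {algebraMap A₀ ↥(Algebra.adjoin A₀ {τ}) π}) →
      (∀ f : ↥(Algebra.adjoin A₀ {τ}), ¬ algebraMap A₀ ↥(Algebra.adjoin A₀ {τ}) π ∣ f →
        ∀ x : ↥(integralClosure ↥(Algebra.adjoin A₀ {τ}) Lf),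
          algebraMap ↥(Algebra.adjoin A₀ {τ}) ↥(integralClosure ↥(Algebra.adjoin A₀ {τ}) Lf)
            (algebraMap A₀ ↥(Algebra.adjoin A₀ {τ}) π) ∣ f • x →
          algebraMap ↥(Algebra.adjoin A₀ {τ}) ↥(integralClosure ↥(Algebra.adjoin A₀ {τ}) Lf)
            (algebraMap A₀ ↥(Algebra.adjoin A₀ {τ}) π) ∣ x) →
      (m.comap (algebraMap ↥(Algebra.adjoin A₀ {τ})
        ↥(integralClosure ↥(Algebra.adjoin A₀ {τ}) Lf))).IsMaximal →
      algebraMap A₀ ↥(Algebra.adjoin A₀ {τ}) π ∈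
        m.comap (algebraMap ↥(Algebra.adjoin A₀ {τ})
          ↥(integralClosure ↥(Algebra.adjoin A₀ {τ}) Lf)) →
      (∀ x : ↥(integralClosure ↥(Algebra.adjoin A₀ {τ}) Lf),
        x ^ 2 ∈ (m.comap (algebraMap ↥(Algebra.adjoin A₀ {τ})
            ↥(integralClosure ↥(Algebra.adjoin A₀ {τ}) Lf))).map
          (algebraMap ↥(Algebra.adjoin A₀ {τ}) ↥(integralClosure ↥(Algebra.adjoin A₀ {τ}) Lf)) →
        x ∈ (m.comap (algebraMap ↥(Algebra.adjoin A₀ {τ})
            ↥(integralClosure ↥(Algebra.adjoin A₀ {τ}) Lf))).map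
          (algebraMap ↥(Algebra.adjoin A₀ {τ}) ↥(integralClosure ↥(Algebra.adjoin A₀ {τ}) Lf))) →
      algebraMap A₀ ↥(integralClosure ↥(Algebra.adjoin A₀ {τ}) Lf) π =
        algebraMap ↥(Algebra.adjoin A₀ {τ}) ↥(integralClosure ↥(Algebra.adjoin A₀ {τ}) Lf)
          (algebraMap A₀ ↥(Algebra.adjoin A₀ {τ}) π) →
      Q) : Q := by
  haveI := hmax
  -- the base ring `R = A₀[τ]`
  haveI hufm := chart_ufm (A₀ := A₀) (E := E) (τ := τ) hτ
  haveI hic := chart_isIntegrallyClosed (A₀ := A₀) (E := E) (τ := τ) hτ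
  haveI hnoeth := chart_isNoetherianRing (A₀ := A₀) (E := E) (τ := τ) hτ
  have hπR : Prime (algebraMap A₀ ↥(Algebra.adjoin A₀ {τ}) π) := chart_prime hτ hπ
  haveI hpir := chart_quotient_isPrincipalIdealRing (A₀ := A₀) (E := E) (τ := τ) hτ hπ
  -- the fraction field
  letI := FractionRing.liftAlgebra ↥(Algebra.adjoin A₀ {τ}) Lf
  haveI hfd := ChartGB.finiteDimensional_fractionRing (A₀ := A₀) (E := E) τ
  haveI hsep := ChartGB.isSeparable_fractionRing (A₀ := A₀) (E := E) τ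
  haveI hfin : Module.Finite ↥(Algebra.adjoin A₀ {τ})
      ↥(integralClosure ↥(Algebra.adjoin A₀ {τ}) Lf) :=
    IsIntegralClosure.finite ↥(Algebra.adjoin A₀ {τ}) (FractionRing ↥(Algebra.adjoin A₀ {τ})) Lf
      ↥(integralClosure ↥(Algebra.adjoin A₀ {τ}) Lf)
  -- `π` is regular on `C`
  have hπC0 : algebraMap ↥(Algebra.adjoin A₀ {τ}) ↥(integralClosure ↥(Algebra.adjoin A₀ {τ}) Lf)
      (algebraMap A₀ ↥(Algebra.adjoin A₀ {τ}) π) ≠ 0 := by
    intro h0
    have := FaithfulSMul.algebraMap_injective ↥(Algebra.adjoin A₀ {τ})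
      ↥(integralClosure ↥(Algebra.adjoin A₀ {τ}) Lf) (h0.trans (map_zero _).symm)
    exact hπR.ne_zero this
  have hreg : ∀ x : ↥(integralClosure ↥(Algebra.adjoin A₀ {τ}) Lf),
      algebraMap ↥(Algebra.adjoin A₀ {τ}) ↥(integralClosure ↥(Algebra.adjoin A₀ {τ}) Lf)
        (algebraMap A₀ ↥(Algebra.adjoin A₀ {τ}) π) * x = 0 → x = 0 := by
    intro x hx
    rcases mul_eq_zero.mp hx with h | h
    · exact absurd h hπC0
    · exact h
  -- A1
  have htf : ∀ f : ↥(Algebra.adjoin A₀ {τ}), ¬ algebraMap A₀ ↥(Algebra.adjoin A₀ {τ}) π ∣ f →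
      ∀ x : ↥(integralClosure ↥(Algebra.adjoin A₀ {τ}) Lf),
        algebraMap ↥(Algebra.adjoin A₀ {τ}) ↥(integralClosure ↥(Algebra.adjoin A₀ {τ}) Lf)
          (algebraMap A₀ ↥(Algebra.adjoin A₀ {τ}) π) ∣ f • x →
        algebraMap ↥(Algebra.adjoin A₀ {τ}) ↥(integralClosure ↥(Algebra.adjoin A₀ {τ}) Lf)
          (algebraMap A₀ ↥(Algebra.adjoin A₀ {τ}) π) ∣ x :=
    fun f hf x hx => integralClosure_dvd_of_dvd_smul hπR hf x hx
  -- A2: generic trace form
  haveI hprime : (Ideal.span {algebraMap A₀ ↥(Algebra.adjoin A₀ {τ}) π}).IsPrime :=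
    (Ideal.span_singleton_prime hπR.ne_zero).mpr hπR
  obtain ⟨N, b, hb⟩ := ChartGB.exists_goodBasis_of_TSGoodBasis (A₀ := A₀) (E := E) τ hτ π hgb
  have hk := fractionRing_quotient_ker
    (Ideal.span {algebraMap A₀ ↥(Algebra.adjoin A₀ {τ}) π})
  have hgen := Comp.GoodBasis.traceForm_nondegenerate hb
    (FractionRing (↥(Algebra.adjoin A₀ {τ}) ⧸
      Ideal.span {algebraMap A₀ ↥(Algebra.adjoin A₀ {τ}) π})) hk
  -- the closed point `n = m ∩ R`
  haveI hnmax : (m.comap (algebraMap ↥(Algebra.adjoin A₀ {τ})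
      ↥(integralClosure ↥(Algebra.adjoin A₀ {τ}) Lf))).IsMaximal :=
    Ideal.isMaximal_comap_of_isIntegral_of_isMaximal m
  have htower : algebraMap A₀ ↥(integralClosure ↥(Algebra.adjoin A₀ {τ}) Lf) π =
      algebraMap ↥(Algebra.adjoin A₀ {τ}) ↥(integralClosure ↥(Algebra.adjoin A₀ {τ}) Lf)
        (algebraMap A₀ ↥(Algebra.adjoin A₀ {τ}) π) :=
    IsScalarTower.algebraMap_apply A₀ ↥(Algebra.adjoin A₀ {τ})
      ↥(integralClosure ↥(Algebra.adjoin A₀ {τ}) Lf) π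
  have hπn : algebraMap A₀ ↥(Algebra.adjoin A₀ {τ}) π ∈
      m.comap (algebraMap ↥(Algebra.adjoin A₀ {τ})
        ↥(integralClosure ↥(Algebra.adjoin A₀ {τ}) Lf)) := by
    rw [Ideal.mem_comap, ← htower]
    exact hπm
  -- T2: the fibres at the height-one primes through `n`
  have hunr : ∀ f : ↥(Algebra.adjoin A₀ {τ}), Prime f →
      f ∈ m.comap (algebraMap ↥(Algebra.adjoin A₀ {τ})
        ↥(integralClosure ↥(Algebra.adjoin A₀ {τ}) Lf)) →
      ¬ Associated f (algebraMap A₀ ↥(Algebra.adjoin A₀ {τ}) π) →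
      (∀ k : ℕ, k ≠ 0 → ¬ f ∣ (k : ↥(Algebra.adjoin A₀ {τ}))) ∧
      ∀ x : ↥(integralClosure ↥(Algebra.adjoin A₀ {τ}) Lf),
        algebraMap ↥(Algebra.adjoin A₀ {τ}) ↥(integralClosure ↥(Algebra.adjoin A₀ {τ}) Lf) f
          ∣ x ^ 2 →
        ∃ a : ↥(Algebra.adjoin A₀ {τ}), ¬ f ∣ a ∧
          algebraMap ↥(Algebra.adjoin A₀ {τ}) ↥(integralClosure ↥(Algebra.adjoin A₀ {τ}) Lf) f
            ∣ a • x := by
    intro f hfp hfn hfπ
    exact hunr_of_places hπ τ hτ hπR.irreducible f hfp hfπ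
      (fun P _ hpos => hpl P f hfp.irreducible (Ideal.mem_comap.mp hfn) hpos)
  have hred := closedFibre_reduced hπR hreg htf _ hk hgen
    (m.comap (algebraMap ↥(Algebra.adjoin A₀ {τ})
      ↥(integralClosure ↥(Algebra.adjoin A₀ {τ}) Lf))) hπn hunr
  exact hQ hfin hnoeth hpir htf hnmax hπn hred htower

/-- **N1 for the charts.**  `NGoodNormalStmt` holds. -/
theorem nGoodNormalStmt : NGoodNormalStmt.{u} := by
  intro A₀ E Lf _ _ _ _ _ _ _ _ _ _ _ π hπ τ hτ _ hgb m hmax hπm hpl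
  refine nGood_core π hπ τ hτ hgb m hmax hπm hpl _ ?_
  intro hfin hnoeth hpir htf hnmax hπn hred htower
  haveI := hmax
  rw [htower]
  exact normalAt_of_closedFibre_reduced htf _ hπn hred m Ideal.map_comap_le

/-- **`m = (π, g)` locally**, at a point over which `Lf` is unramified: there is `g ∈ A₀[τ]`,
`g ∈ m`, such that every `x ∈ m` satisfies `u x = π a + g b` with `u ∉ m`. -/
theorem nGood_principal
    {A₀ E Lf : Type u} [CommRing A₀] [IsDomain A₀] [IsDiscreteValuationRing A₀]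
    [Field E] [Algebra A₀ E] [IsFractionRing A₀ E] [CharZero E]
    [Field Lf] [Algebra E Lf] [Algebra A₀ Lf] [IsScalarTower A₀ E Lf]
    (π : A₀) (hπ : Irreducible π) (τ : Lf) (hτ : Transcendental E τ) [FiniteDimensional E⟮τ⟯ Lf]
    (hgb : TSGoodBasis (E := E) π τ)
    (m : Ideal (integralClosure (Algebra.adjoin A₀ {τ}) Lf)) (hmax : m.IsMaximal)
    (hπm : algebraMap A₀ (integralClosure (Algebra.adjoin A₀ {τ}) Lf) π ∈ m)
    (hpl : ∀ (P : Place E Lf) (r : Algebra.adjoin A₀ {τ}), Irreducible r →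
        algebraMap (Algebra.adjoin A₀ {τ}) (integralClosure (Algebra.adjoin A₀ {τ}) Lf) r ∈ m →
        0 < P.ord (r : Lf) → P.ord (r : Lf) = 1) :
    ∃ g : ↥(Algebra.adjoin A₀ {τ}),
      algebraMap ↥(Algebra.adjoin A₀ {τ}) ↥(integralClosure ↥(Algebra.adjoin A₀ {τ}) Lf) g ∈ m ∧
      ∀ x ∈ m, ∃ u : ↥(integralClosure ↥(Algebra.adjoin A₀ {τ}) Lf), u ∉ m ∧
        ∃ a b : ↥(integralClosure ↥(Algebra.adjoin A₀ {τ}) Lf),
          u * x = algebraMap A₀ ↥(integralClosure ↥(Algebra.adjoin A₀ {τ}) Lf) π * a +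
            algebraMap ↥(Algebra.adjoin A₀ {τ}) ↥(integralClosure ↥(Algebra.adjoin A₀ {τ}) Lf) g
              * b := by
  refine nGood_core π hπ τ hτ hgb m hmax hπm hpl _ ?_
  intro hfin hnoeth hpir htf hnmax hπn hred htower
  haveI := hmax
  obtain ⟨g, hgn, hg⟩ := localFibre_principal htf _ hπn hred m Ideal.map_comap_le
  refine ⟨g, Ideal.mem_comap.mp hgn, fun x hx => ?_⟩
  obtain ⟨u, hu, a, b, hab⟩ := hg x hx
  exact ⟨u, hu, a, b, by rw [htower]; exact hab⟩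

end Fermat.Agent.INJ.Norm
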