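import Fermat.Agent.INJ.NormalDefs
import Fermat.Agent.INJ.KummerSetup
import Fermat.Agent.INJ.NTamePlaces

/-!
# (INJ) piece NORM, N3: `NTameNormalStmt` from `NGoodNormalStmt` and the descent of normality

Mirror of `NTameWire.lean` with `NormalAt` in place of `LocDomainAt`.

* `kummer_card` : for `L' = Lf(s)`, `s ^ e = a`, `X ^ e - a` irreducible, `L' / Lf` Galois:
  `Nat.card (L' ≃ₐ[Lf] L') = e`;
* `NTameNormalDescentStmt` : the statement of the descent (N2, concrete form): normality of
  `C' / π` at the maximal ideals `m'` over `m` implies normality of `C / π` at `m`, when the order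
  of the Galois group is a unit of `A₀`;
* `nTameNormalStmt_of : NGoodNormalStmt → NTameNormalDescentStmt → NTameNormalStmt`.
-/

set_option autoImplicit false
set_option linter.style.haveILetI false

namespace Fermat.Agent.INJ.Norm

open Polynomial IntermediateField AlgebraicCurve

universe u

/-- The Galois group of the Kummer extension `Lf(s) / Lf`, `s ^ e = a`, `X ^ e - a` irreducible,
has order `e`. -/
theorem kummer_card {Lf L' : Type*} [Field Lf] [Field L'] [Algebra Lf L']
    [FiniteDimensional Lf L'] [IsGalois Lf L']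
    {e : ℕ} (he : e ≠ 0) {a : Lf} (hirr : Irreducible (X ^ e - C a : Lf[X])) (s : L')
    (hs : s ^ e = algebraMap Lf L' a) (hgen : IntermediateField.adjoin Lf {s} = ⊤) :
    Nat.card (L' ≃ₐ[Lf] L') = e := by
  have hint : IsIntegral Lf s := IsIntegral.of_finite Lf s
  have hmin : (X ^ e - C a : Lf[X]) = minpoly Lf s := by
    refine minpoly.eq_of_irreducible_of_monic hirr ?_ (monic_X_pow_sub_C a he)
    rw [map_sub, map_pow, aeval_X, aeval_C, hs, sub_self]
  rw [IsGalois.card_aut_eq_finrank, ← IntermediateField.finrank_top', ← hgen,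
    IntermediateField.adjoin.finrank hint, ← hmin, natDegree_X_pow_sub_C]

/-- **N2, concrete statement**: descent of normality of the special fibre along the Kummer base
change, when the order of the Galois group is invertible. -/
def NTameNormalDescentStmt : Prop :=
  ∀ (A₀ E Lf L' : Type u) [CommRing A₀] [IsDomain A₀] [IsDiscreteValuationRing A₀]
    [Field E] [Algebra A₀ E] [IsFractionRing A₀ E] [CharZero E]
    [Field Lf] [Algebra E Lf] [Algebra A₀ Lf] [IsScalarTower A₀ E Lf]
    [Field L'] [Algebra E L'] [Algebra Lf L'] [Algebra A₀ L']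
    [IsScalarTower E Lf L'] [IsScalarTower A₀ E L'] [IsScalarTower A₀ Lf L']
    [FiniteDimensional Lf L'] [IsGalois Lf L']
    (π : A₀) (τ : Lf) (c : A₀) (e : ℕ) (_ : e ≠ 0) (s : L')
    (_ : s ^ e = algebraMap Lf L' (τ - algebraMap A₀ Lf c))
    (_ : IsUnit ((Nat.card (L' ≃ₐ[Lf] L') : ℕ) : A₀))
    (m : Ideal (integralClosure (Algebra.adjoin A₀ {τ}) Lf)) (_ : m.IsMaximal)
    (_ : algebraMap A₀ (integralClosure (Algebra.adjoin A₀ {τ}) Lf) π ∈ m)
    (_ : ∀ m' : Ideal (integralClosure (Algebra.adjoin A₀ {s}) L'), m'.IsMaximal →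
       algebraMap A₀ (integralClosure (Algebra.adjoin A₀ {s}) L') π ∈ m' →
       (∀ (x : integralClosure (Algebra.adjoin A₀ {τ}) Lf)
          (x' : integralClosure (Algebra.adjoin A₀ {s}) L'),
          (x' : L') = algebraMap Lf L' (x : Lf) → (x' ∈ m' ↔ x ∈ m)) →
       NormalAt (integralClosure (Algebra.adjoin A₀ {s}) L')
         (algebraMap A₀ (integralClosure (Algebra.adjoin A₀ {s}) L') π) m'),
    NormalAt (integralClosure (Algebra.adjoin A₀ {τ}) Lf)
      (algebraMap A₀ (integralClosure (Algebra.adjoin A₀ {τ}) Lf) π) m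

/-- **N3.**  (N-tame, normal form) follows from (N-good, normal form) and the descent N2. -/
theorem nTameNormalStmt_of (hN : NGoodNormalStmt.{u}) (hD : NTameNormalDescentStmt.{u}) :
    NTameNormalStmt.{u} := by
  intro A₀ E Lf _ _ _ _ _ _ _ _ _ _ _ π hπ τ hτ _ hgb c e he hζ htame hP₀ m hmax hπm _ hunr
  have he0 : e ≠ 0 := by
    rintro rfl
    simp at he
  have hirr : Irreducible (X ^ e - C (τ - algebraMap A₀ Lf c) : Lf[X]) := by
    obtain ⟨P₀, hP₀'⟩ := hP₀
    exact irreducible_X_pow_sub_C_of_ord he0 P₀ hP₀'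
  obtain ⟨L', hF, hAE, hAL, hAA, hT1, hT2, hT3, s, hs, hgen, hstr, hfd, hgb', hfdL, hgal⟩ :=
    exists_kummerSetup π hπ τ hτ hgb c e he hζ hP₀
  letI := hF
  letI := hAE
  letI := hAL
  letI := hAA
  haveI := hT1
  haveI := hT2
  haveI := hT3
  haveI := hfd
  haveI := hfdL
  haveI := hgal
  have hcard : IsUnit ((Nat.card (L' ≃ₐ[Lf] L') : ℕ) : A₀) := by
    rw [kummer_card he0 hirr s hs hgen]
    exact he
  refine hD A₀ E Lf L' π τ c e he0 s hs hcard m hmax hπm ?_
  intro m' hm' hπm' hcompat
  refine hN A₀ E L' π hπ s hstr hgb' m' hm' hπm' ?_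
  intro P' r' hr' hr'm hpos
  exact NTame.ntame_places τ hτ c e he0 s hs hgen hstr htame m m'
    (fun x x' hx hx' => (hcompat x x' hx).mp hx') hunr P' r' hr' hr'm hpos

end Fermat.Agent.INJ.Norm
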