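import Mathlib
import Fermat.Agent.INJ.Invariants
import Fermat.Agent.INJ.NormalDefs

/-!
# (INJ) piece NORM, N2 (abstract): normality of the special fibre descends to invariants

`C = (C')^G` for a finite group `G` whose order is invertible in `C`, `C ∩ π C' = π C`.
If `C' / π` is normal at a prime `m'` (element form `NormalAt`), then `C / π` is normal at
`m' ∩ C`.

Proof: for `a, b ∈ C` the ideal `I = {t ∈ C' | ∃ d', π ∣ t a - b d'}` is `G`-stable and not
contained in `m'`, hence (prime avoidance) contains `t` outside all conjugates of `m'`; its norm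
`N ∈ C` lies in `I` and outside `m'`; averaging `π ∣ N a - b d'` over `G` gives
`π ∣ |G| N a - b Tr(d')` in `C'`, hence in `C`.
-/

set_option autoImplicit false
set_option linter.style.haveILetI false
set_option linter.unusedSectionVars false

open scoped Pointwise

namespace Fermat.Agent.INJ.Norm

open Fermat.Agent.INJ

variable {C C' : Type*} [CommRing C] [CommRing C'] [Algebra C C']

/-- the trace `∑ g, g • x` is invariant -/
theorem smul_sum_perm' {G : Type*} [Group G] [Fintype G] [MulSemiringAction G C'] (x : C')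
    (g : G) : g • ∑ h : G, h • x = ∑ h : G, h • x := by
  rw [Finset.smul_sum]
  simp only [smul_smul]
  exact Fintype.sum_bijective (g * ·) (Group.mulLeft_bijective g) _ _ (fun _ => rfl)

/-- **N2 (abstract).**  Normality of the special fibre descends to the ring of invariants of a
finite group of invertible order. -/
theorem normalAt_under (G : Type*) [Group G] [Finite G] [MulSemiringAction G C']
    [SMulCommClass G C C'] [Algebra.IsInvariant C C' G] (π : C)
    (hdesc : ∀ c : C, algebraMap C C' π ∣ algebraMap C C' c → π ∣ c)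
    (v : C) (hv : v * (Nat.card G : C) = 1)
    (m' : Ideal C') [m'.IsPrime] (h : NormalAt C' (algebraMap C C' π) m') :
    NormalAt C π (m'.under C) := by
  classical
  cases nonempty_fintype G
  intro a b n c hrel
  have hrel' : algebraMap C C' π ∣
      homRel (algebraMap C C' a) (algebraMap C C' b) n (fun i => algebraMap C C' (c i)) := by
    rw [← map_homRel]
    exact map_dvd (algebraMap C C') hrel
  obtain ⟨s, hs, d₀, hd₀⟩ := h _ _ n _ hrel'
  -- divisibility by `π` is `G`-stable
  have hπg : ∀ (g : G) (z : C'), algebraMap C C' π ∣ z → algebraMap C C' π ∣ g • z := by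
    rintro g z ⟨w, rfl⟩
    exact ⟨g • w, by rw [smul_mul', smul_algebraMap]⟩
  -- the ideal of denominators
  let I : Ideal C' :=
    { carrier := {t | ∃ d' : C', algebraMap C C' π ∣ t * algebraMap C C' a
        - algebraMap C C' b * d'}
      add_mem' := by
        rintro t₁ t₂ ⟨d₁, h₁⟩ ⟨d₂, h₂⟩
        refine ⟨d₁ + d₂, ?_⟩
        have : (t₁ + t₂) * algebraMap C C' a - algebraMap C C' b * (d₁ + d₂)
            = (t₁ * algebraMap C C' a - algebraMap C C' b * d₁)
              + (t₂ * algebraMap C C' a - algebraMap C C' b * d₂) := by ring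
        rw [this]; exact dvd_add h₁ h₂
      zero_mem' := ⟨0, by simp⟩
      smul_mem' := by
        rintro r t ⟨d', hd'⟩
        refine ⟨r * d', ?_⟩
        have : r • t * algebraMap C C' a - algebraMap C C' b * (r * d')
            = r * (t * algebraMap C C' a - algebraMap C C' b * d') := by
          rw [smul_eq_mul]; ring
        rw [this]; exact Dvd.dvd.mul_left hd' r }
  have hI : ∀ t : C', t ∈ I ↔ ∃ d' : C', algebraMap C C' π ∣ t * algebraMap C C' a
      - algebraMap C C' b * d' := fun t => Iff.rfl
  have hIg : ∀ (g : G) (t : C'), t ∈ I → g • t ∈ I := by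
    rintro g t ⟨d', hd'⟩
    refine ⟨g • d', ?_⟩
    have := hπg g _ hd'
    rwa [smul_sub, smul_mul', smul_mul', smul_algebraMap, smul_algebraMap] at this
  have hnot : ¬ ((I : Set C') ⊆
      ⋃ g ∈ ((Finset.univ : Finset G) : Set G), ((g • m' : Ideal C') : Set C')) := by
    rw [Ideal.subset_union_prime (1 : G) (1 : G)
      (fun g _ _ _ => Ideal.IsPrime.smul (I := m') g)]
    rintro ⟨g, -, hg⟩
    have h1 : g • s ∈ I := hIg g s ⟨d₀, hd₀⟩
    exact hs (Ideal.smul_mem_pointwise_smul_iff.mp (hg h1))
  obtain ⟨t, htI, htQ⟩ := Set.not_subset.mp hnot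
  have htQ' : ∀ g : G, t ∉ g • m' := fun g hmem =>
    htQ (Set.mem_biUnion (Finset.mem_coe.mpr (Finset.mem_univ g)) hmem)
  -- the norm of `t`
  obtain ⟨N, hN⟩ := Algebra.IsInvariant.isInvariant (A := C) (G := G)
    (∏ g : G, g • t) (Finset.smul_prod_perm t)
  have hNm : N ∉ m'.under C := by
    intro hNQ
    have : ∏ g : G, g • t ∈ m' := by rw [← hN]; exact hNQ
    obtain ⟨g, -, hg⟩ := (Ideal.IsPrime.prod_mem_iff (p := m')).mp this
    exact htQ' g⁻¹ (Ideal.mem_inv_pointwise_smul_iff.mpr hg)
  have hNI : algebraMap C C' N ∈ I := by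
    rw [hN, ← Finset.mul_prod_erase Finset.univ _ (Finset.mem_univ (1 : G)), one_smul]
    exact I.mul_mem_right _ htI
  obtain ⟨d', hd'⟩ := (hI _).mp hNI
  -- the trace of `d'`
  obtain ⟨D, hD⟩ := Algebra.IsInvariant.isInvariant (A := C) (G := G)
    (∑ g : G, g • d') (smul_sum_perm' d')
  have hsum : algebraMap C C' π ∣
      ∑ g : G, g • (algebraMap C C' N * algebraMap C C' a - algebraMap C C' b * d') :=
    Finset.dvd_sum fun g _ => hπg g _ hd'
  have hcalc : ∑ g : G, g • (algebraMap C C' N * algebraMap C C' a - algebraMap C C' b * d')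
      = algebraMap C C' ((Nat.card G : C) * (N * a) - b * D) := by
    simp only [smul_sub, smul_mul', smul_algebraMap]
    rw [Finset.sum_sub_distrib, Finset.sum_const, ← Finset.mul_sum, Finset.card_univ,
      ← Nat.card_eq_fintype_card, map_sub, map_mul, map_mul, map_mul, map_natCast, hD,
      nsmul_eq_mul]
  rw [hcalc] at hsum
  have hC := hdesc _ hsum
  refine ⟨N, hNm, v * D, ?_⟩
  have : N * a - b * (v * D) = v * ((Nat.card G : C) * (N * a) - b * D) := by
    have h1 : v * ((Nat.card G : C) * (N * a) - b * D)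
        = (v * (Nat.card G : C)) * (N * a) - b * (v * D) := by ring
    rw [h1, hv, one_mul]
  rw [this]
  exact Dvd.dvd.mul_left hC v

end Fermat.Agent.INJ.Norm
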