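import Mathlib
import Fermat.Agent.INJ.NTameDescent
import Fermat.Agent.INJ.NormalUnder
import Fermat.Agent.INJ.NormalTame
import Fermat.Agent.INJ.NormalGood

/-!
# (INJ) piece NORM, N2 (concrete): descent of normality along the Kummer cover `s ^ e = τ - c`

Mirror of `NTameDescent.lean` (`NTame.ntame_descent`) with `NormalAt` in place of `LocDomainAt`,
using `normalAt_under` (`NormalUnder.lean`); the order of the Galois group must be a unit of `A₀`.

* `ntame_descent_normal` — the descent;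
* `nTameNormalDescentStmt : NTameNormalDescentStmt` (statement of `NormalTame.lean`);
* `nTameNormalStmt : NTameNormalStmt` — **(N-tame), normal form, unconditional**.
-/

set_option autoImplicit false
set_option linter.style.haveILetI false

namespace Fermat.Agent.INJ.Norm

open Polynomial Fermat.Agent.INJ

universe u

/-- **N2 (descent).**  `NormalAt C' π m'` for the maximal ideals `m'` of `C'` over `m` implies
`NormalAt C π m`, when the order of the Galois group is a unit of `A₀`. -/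
theorem ntame_descent_normal
    {A₀ E Lf L' : Type u} [CommRing A₀] [IsDomain A₀]
    [Field E] [Algebra A₀ E] [Field Lf] [Algebra E Lf] [Algebra A₀ Lf] [IsScalarTower A₀ E Lf]
    [Field L'] [Algebra E L'] [Algebra Lf L'] [Algebra A₀ L']
    [IsScalarTower E Lf L'] [IsScalarTower A₀ E L'] [IsScalarTower A₀ Lf L']
    [FiniteDimensional Lf L'] [IsGalois Lf L']
    (π : A₀) (τ : Lf) (c : A₀) (e : ℕ) (he : e ≠ 0) (s : L')
    (hs : s ^ e = algebraMap Lf L' (τ - algebraMap A₀ Lf c))
    (hcard : IsUnit ((Nat.card (L' ≃ₐ[Lf] L') : ℕ) : A₀))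
    (m : Ideal (integralClosure (Algebra.adjoin A₀ {τ}) Lf)) (hm : m.IsMaximal)
    (hπm : algebraMap A₀ (integralClosure (Algebra.adjoin A₀ {τ}) Lf) π ∈ m)
    (hloc : ∀ m' : Ideal (integralClosure (Algebra.adjoin A₀ {s}) L'), m'.IsMaximal →
       algebraMap A₀ (integralClosure (Algebra.adjoin A₀ {s}) L') π ∈ m' →
       (∀ (x : integralClosure (Algebra.adjoin A₀ {τ}) Lf)
          (x' : integralClosure (Algebra.adjoin A₀ {s}) L'),
          (x' : L') = algebraMap Lf L' (x : Lf) → (x' ∈ m' ↔ x ∈ m)) →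
       NormalAt (integralClosure (Algebra.adjoin A₀ {s}) L')
         (algebraMap A₀ (integralClosure (Algebra.adjoin A₀ {s}) L') π) m') :
    NormalAt (integralClosure (Algebra.adjoin A₀ {τ}) Lf)
      (algebraMap A₀ (integralClosure (Algebra.adjoin A₀ {τ}) Lf) π) m := by
  classical
  haveI := hm
  -- integrality transfer
  have hint_up : ∀ x : Lf, IsIntegral ↥(Algebra.adjoin A₀ {τ}) x →
      IsIntegral ↥(Algebra.adjoin A₀ {s}) (algebraMap Lf L' x) := fun x hx =>
    NTame.isIntegral_adjoin_s_of_isIntegral τ c e s hs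
      (hx.map (IsScalarTower.toAlgHom ↥(Algebra.adjoin A₀ {τ}) Lf L'))
  have hint_g : ∀ (g : L' ≃ₐ[Lf] L') (x' : L'), IsIntegral ↥(Algebra.adjoin A₀ {s}) x' →
      IsIntegral ↥(Algebra.adjoin A₀ {s}) (g x') := fun g x' hx' =>
    NTame.isIntegral_adjoin_s_of_isIntegral τ c e s hs
      ((NTame.isIntegral_of_isIntegral_adjoin_s τ c e he s hs hx').map
        ((g : L' →ₐ[Lf] L').restrictScalars ↥(Algebra.adjoin A₀ {τ})))
  -- the inclusion `C → C'`
  let ι : ↥(integralClosure ↥(Algebra.adjoin A₀ {τ}) Lf) →+*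
      ↥(integralClosure ↥(Algebra.adjoin A₀ {s}) L') :=
    { toFun := fun x => ⟨algebraMap Lf L' (x : Lf), hint_up _ x.2⟩
      map_one' := Subtype.ext (by simp)
      map_mul' := fun x y => Subtype.ext (by simp)
      map_zero' := Subtype.ext (by simp)
      map_add' := fun x y => Subtype.ext (by simp) }
  have hι : ∀ x, ((ι x : ↥(integralClosure ↥(Algebra.adjoin A₀ {s}) L')) : L') =
      algebraMap Lf L' (x : Lf) := fun _ => rfl
  letI : Algebra ↥(integralClosure ↥(Algebra.adjoin A₀ {τ}) Lf)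
      ↥(integralClosure ↥(Algebra.adjoin A₀ {s}) L') := ι.toAlgebra
  have hιinj : Function.Injective ι := by
    intro x y hxy
    apply Subtype.ext
    apply (algebraMap Lf L').injective
    rw [← hι, ← hι, hxy]
  -- the group action on `C'`
  letI : MulSemiringAction (L' ≃ₐ[Lf] L') ↥(integralClosure ↥(Algebra.adjoin A₀ {s}) L') :=
    { smul := fun g x => ⟨g (x : L'), hint_g g _ x.2⟩
      one_smul := fun x => Subtype.ext rfl
      mul_smul := fun g h x => Subtype.ext rfl
      smul_zero := fun g => Subtype.ext (map_zero g)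
      smul_add := fun g x y => Subtype.ext (map_add g _ _)
      smul_one := fun g => Subtype.ext (map_one g)
      smul_mul := fun g x y => Subtype.ext (map_mul g _ _) }
  have hsmul : ∀ (g : L' ≃ₐ[Lf] L') (x : ↥(integralClosure ↥(Algebra.adjoin A₀ {s}) L')),
      ((g • x : ↥(integralClosure ↥(Algebra.adjoin A₀ {s}) L')) : L') = g (x : L') :=
    fun _ _ => rfl
  haveI : SMulCommClass (L' ≃ₐ[Lf] L') ↥(integralClosure ↥(Algebra.adjoin A₀ {τ}) Lf)
      ↥(integralClosure ↥(Algebra.adjoin A₀ {s}) L') := by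
    refine ⟨fun g x y => Subtype.ext ?_⟩
    rw [hsmul, Algebra.smul_def, Algebra.smul_def]
    show g ((ι x : L') * (y : L')) = (ι x : L') * ((g • y : _) : L')
    rw [map_mul, hι, AlgEquiv.commutes, hsmul]
  haveI : Algebra.IsInvariant ↥(integralClosure ↥(Algebra.adjoin A₀ {τ}) Lf)
      ↥(integralClosure ↥(Algebra.adjoin A₀ {s}) L') (L' ≃ₐ[Lf] L') := by
    refine ⟨fun x' hx' => ?_⟩
    have hfix : ∀ g : L' ≃ₐ[Lf] L', g (x' : L') = (x' : L') := fun g => by
      have := congrArg Subtype.val (hx' g)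
      exact this
    obtain ⟨y, hy, hyx⟩ := inv_exists_of_fixed (R := ↥(Algebra.adjoin A₀ {τ}))
      (NTame.isIntegral_of_isIntegral_adjoin_s τ c e he s hs x'.2) hfix
    exact ⟨⟨y, hy⟩, Subtype.ext hyx⟩
  -- `C ∩ π C' = π C`
  have hdesc : ∀ y : ↥(integralClosure ↥(Algebra.adjoin A₀ {τ}) Lf),
      algebraMap ↥(integralClosure ↥(Algebra.adjoin A₀ {τ}) Lf)
          ↥(integralClosure ↥(Algebra.adjoin A₀ {s}) L')
          (algebraMap A₀ ↥(integralClosure ↥(Algebra.adjoin A₀ {τ}) Lf) π) ∣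
        algebraMap ↥(integralClosure ↥(Algebra.adjoin A₀ {τ}) Lf)
          ↥(integralClosure ↥(Algebra.adjoin A₀ {s}) L') y →
      algebraMap A₀ ↥(integralClosure ↥(Algebra.adjoin A₀ {τ}) Lf) π ∣ y := by
    rintro y ⟨d', hd'⟩
    have h1 : algebraMap Lf L' (y : Lf) =
        (algebraMap A₀ ↥(Algebra.adjoin A₀ {τ}) π) • (d' : L') := by
      have h2 := congrArg Subtype.val hd'
      have h3 : algebraMap Lf L' (y : Lf) =
          algebraMap Lf L' (algebraMap A₀ Lf π) * (d' : L') := h2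
      rw [h3, Algebra.smul_def]
      rfl
    obtain ⟨d, hd, hyd⟩ := inv_dvd_descends (R := ↥(Algebra.adjoin A₀ {τ})) y.2
      (NTame.isIntegral_of_isIntegral_adjoin_s τ c e he s hs d'.2) h1
    refine ⟨⟨d, hd⟩, Subtype.ext ?_⟩
    rw [hyd, Algebra.smul_def]
    rfl
  -- a maximal ideal `m'` over `m`
  haveI : Algebra.IsIntegral ↥(integralClosure ↥(Algebra.adjoin A₀ {τ}) Lf)
      ↥(integralClosure ↥(Algebra.adjoin A₀ {s}) L') :=
    Algebra.IsInvariant.isIntegral _ _ (L' ≃ₐ[Lf] L')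
  have hker : RingHom.ker (algebraMap ↥(integralClosure ↥(Algebra.adjoin A₀ {τ}) Lf)
      ↥(integralClosure ↥(Algebra.adjoin A₀ {s}) L')) ≤ m := by
    intro x hx
    have : x = 0 := hιinj (by rw [map_zero]; exact hx)
    rw [this]; exact m.zero_mem
  obtain ⟨m', hm'max, hm'⟩ := Ideal.exists_ideal_over_maximal_of_isIntegral m hker
  haveI := hm'max
  have hcompat : ∀ (x : ↥(integralClosure ↥(Algebra.adjoin A₀ {τ}) Lf))
      (x' : ↥(integralClosure ↥(Algebra.adjoin A₀ {s}) L')),
      (x' : L') = algebraMap Lf L' (x : Lf) → (x' ∈ m' ↔ x ∈ m) := by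
    intro x x' hxx'
    have : x' = ι x := Subtype.ext hxx'
    rw [this, ← hm']
    rfl
  have hπm' : algebraMap A₀ ↥(integralClosure ↥(Algebra.adjoin A₀ {s}) L') π ∈ m' := by
    refine (hcompat (algebraMap A₀ _ π) (algebraMap A₀ _ π) ?_).mpr hπm
    show algebraMap A₀ L' π = algebraMap Lf L' (algebraMap A₀ Lf π)
    rw [← IsScalarTower.algebraMap_apply A₀ Lf L']
  have h1 := hloc m' hm'max hπm' hcompat
  have hπeq : algebraMap ↥(integralClosure ↥(Algebra.adjoin A₀ {τ}) Lf)
      ↥(integralClosure ↥(Algebra.adjoin A₀ {s}) L')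
      (algebraMap A₀ ↥(integralClosure ↥(Algebra.adjoin A₀ {τ}) Lf) π) =
      algebraMap A₀ ↥(integralClosure ↥(Algebra.adjoin A₀ {s}) L') π := by
    apply Subtype.ext
    show algebraMap Lf L' (algebraMap A₀ Lf π) = algebraMap A₀ L' π
    rw [← IsScalarTower.algebraMap_apply A₀ Lf L']
  have h2 : NormalAt ↥(integralClosure ↥(Algebra.adjoin A₀ {s}) L')
      (algebraMap ↥(integralClosure ↥(Algebra.adjoin A₀ {τ}) Lf)
        ↥(integralClosure ↥(Algebra.adjoin A₀ {s}) L')
        (algebraMap A₀ ↥(integralClosure ↥(Algebra.adjoin A₀ {τ}) Lf) π)) m' := by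
    rw [hπeq]
    exact h1
  obtain ⟨u, hu⟩ := hcard.exists_left_inv
  have hv : algebraMap A₀ ↥(integralClosure ↥(Algebra.adjoin A₀ {τ}) Lf) u *
      ((Nat.card (L' ≃ₐ[Lf] L') : ℕ) : ↥(integralClosure ↥(Algebra.adjoin A₀ {τ}) Lf)) = 1 := by
    rw [← map_natCast (algebraMap A₀ ↥(integralClosure ↥(Algebra.adjoin A₀ {τ}) Lf)),
      ← map_mul, hu, map_one]
  have h3 := normalAt_under (L' ≃ₐ[Lf] L')
    (algebraMap A₀ ↥(integralClosure ↥(Algebra.adjoin A₀ {τ}) Lf) π) hdesc _ hv m' h2
  have hunder : m'.under ↥(integralClosure ↥(Algebra.adjoin A₀ {τ}) Lf) = m := hm'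
  rw [hunder] at h3
  exact h3

/-- **N2.**  The descent statement of `NormalTame.lean`. -/
theorem nTameNormalDescentStmt : NTameNormalDescentStmt.{u} := by
  intro A₀ E Lf L' _ _ _ _ _ _ _ _ _ _ _ _ _ _ _ _ _ _ _ _ π τ c e he s hs hcard m hm hπm hloc
  exact ntame_descent_normal (E := E) π τ c e he s hs hcard m hm hπm hloc

/-- **(N-tame), normal form.**  The special fibre is normal at the points over a tame branch
point. -/
theorem nTameNormalStmt : NTameNormalStmt.{u} :=
  nTameNormalStmt_of nGoodNormalStmt nTameNormalDescentStmt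

end Fermat.Agent.INJ.Norm
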