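import Mathlib
import Fermat.Agent.INJ.NormalDefs

/-!
# (INJ) piece NORM, N4 (abstract): transfer of normality and primeness through an overlap

Two charts `i₁ : C₁ → B`, `i₂ : C₂ → B` of a curve with overlap `B = C₁[1/θ] = C₂[1/σ]`,
`θ σ = 1` in `B`, an element `p` (`= i₁ p₁ = i₂ p₂`) such that both charts are saturated in `B`
with respect to divisibility by `p`.  Then

* `normalAt_of_normal_overlap` : `Normal C₁ p₁` implies `NormalAt C₂ p₂ m` at every prime `m ∌ σ`;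
* `dvd_or_dvd_of_prime_overlap` : `Prime p₁` implies `p₂ ∣ x * y → p₂ ∣ x ∨ p₂ ∣ y`.

Special case `C₂ = B`, `i₂ = id`: normality and primeness pass to the localization `C₁[1/θ]`.
-/

set_option autoImplicit false
set_option linter.style.haveILetI false

namespace Fermat.Agent.INJ.Norm

variable {C₁ C₂ B : Type*} [CommRing C₁] [CommRing C₂] [CommRing B]

/-- denominators can be enlarged -/
theorem overlap_pow_up (i₁ : C₁ →+* B) (θ : C₁) {x : B} {k : ℕ} {c : C₁}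
    (hc : i₁ c = i₁ θ ^ k * x) {K : ℕ} (hK : k ≤ K) : ∃ c' : C₁, i₁ c' = i₁ θ ^ K * x := by
  refine ⟨θ ^ (K - k) * c, ?_⟩
  rw [map_mul, map_pow, hc, ← mul_assoc, ← pow_add, Nat.sub_add_cancel hK]

/-- a unit of the overlap can be cancelled in a divisibility -/
theorem overlap_dvd_cancel {p T S x : B} (hTS : T * S = 1) (k : ℕ) (h : p ∣ T ^ k * x) :
    p ∣ x := by
  have h1 : x = S ^ k * (T ^ k * x) := by
    rw [← mul_assoc, ← mul_pow, mul_comm S T, hTS, one_pow, one_mul]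
  rw [h1]
  exact Dvd.dvd.mul_left h _

/-- **Transfer of normality through the overlap.** -/
theorem normalAt_of_normal_overlap (i₁ : C₁ →+* B) (i₂ : C₂ →+* B) (p₁ : C₁) (p₂ : C₂)
    (hp : i₁ p₁ = i₂ p₂) (θ : C₁) (σ : C₂) (hθσ : i₁ θ * i₂ σ = 1)
    (hloc₁ : ∀ b : B, ∃ (k : ℕ) (c : C₁), i₁ c = i₁ θ ^ k * b)
    (hloc₂ : ∀ b : B, ∃ (k : ℕ) (c : C₂), i₂ c = i₂ σ ^ k * b)
    (hsat₁ : ∀ z : C₁, i₁ p₁ ∣ i₁ z → p₁ ∣ z)
    (hsat₂ : ∀ z : C₂, i₂ p₂ ∣ i₂ z → p₂ ∣ z)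
    (h₁ : Normal C₁ p₁) (m : Ideal C₂) [m.IsPrime] (hσ : σ ∉ m) : NormalAt C₂ p₂ m := by
  classical
  intro a b n c hrel
  have hσθ : i₂ σ * i₁ θ = 1 := by rw [mul_comm]; exact hθσ
  -- common denominator
  obtain ⟨ka, a₀, ha₀⟩ := hloc₁ (i₂ a)
  obtain ⟨kb, b₀, hb₀⟩ := hloc₁ (i₂ b)
  have hc : ∀ i : ℕ, ∃ (k : ℕ) (c₀ : C₁), i₁ c₀ = i₁ θ ^ k * i₂ (c i) := fun i => hloc₁ _
  choose kc c₀ hc₀ using hc
  set K : ℕ := ka + kb + ∑ i ∈ Finset.range n, kc i with hK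
  have hKa : ka ≤ K := by omega
  have hKb : kb ≤ K := by omega
  have hKc : ∀ i, i < n → kc i ≤ K := by
    intro i hi
    have : kc i ≤ ∑ i ∈ Finset.range n, kc i :=
      Finset.single_le_sum (f := kc) (fun _ _ => Nat.zero_le _) (Finset.mem_range.mpr hi)
    omega
  obtain ⟨a₁, ha₁⟩ := overlap_pow_up i₁ θ ha₀ hKa
  obtain ⟨b₁, hb₁⟩ := overlap_pow_up i₁ θ hb₀ hKb
  have hc' : ∀ i : ℕ, ∃ c₁ : C₁, i < n → i₁ c₁ = i₁ θ ^ K * i₂ (c i) := by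
    intro i
    by_cases hi : i < n
    · obtain ⟨c₁, hc₁⟩ := overlap_pow_up i₁ θ (hc₀ i) (hKc i hi)
      exact ⟨c₁, fun _ => hc₁⟩
    · exact ⟨0, fun h => absurd h hi⟩
  choose c₁ hc₁ using hc'
  -- the relation on the first chart
  have hrelB : i₁ (homRel (θ ^ K * a₁) b₁ n (fun i => c₁ i * θ ^ (K * (n - i - 1))))
      = i₁ θ ^ (2 * K * n) * i₂ (homRel a b n c) := by
    rw [map_homRel, map_homRel, homRel_def, homRel_def, mul_add, Finset.mul_sum]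
    congr 1
    · rw [map_mul, map_pow, ha₁]; ring
    · refine Finset.sum_congr rfl fun i hi => ?_
      have hi' : i < n := Finset.mem_range.mp hi
      obtain ⟨j, rfl⟩ : ∃ j, n = i + 1 + j := ⟨n - i - 1, by omega⟩
      have e1 : i + 1 + j - i = j + 1 := by omega
      have e2 : j + 1 - 1 = j := by omega
      rw [map_mul, map_mul, map_pow, map_pow, ha₁, hb₁, hc₁ i hi', e1, e2]
      ring
  have hdiv₁ : p₁ ∣ homRel (θ ^ K * a₁) b₁ n (fun i => c₁ i * θ ^ (K * (n - i - 1))) := by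
    apply hsat₁
    rw [hrelB, hp]
    exact Dvd.dvd.mul_left (map_dvd i₂ hrel) _
  obtain ⟨d₁, hd₁⟩ := h₁ _ _ _ _ hdiv₁
  -- back to the overlap
  have hB : i₂ p₂ ∣ i₁ θ ^ (2 * K) * (i₂ a - i₂ b * (i₂ σ ^ K * i₁ d₁)) := by
    have h2 := map_dvd i₁ hd₁
    rw [hp, map_sub, map_mul, map_mul, map_pow, ha₁, hb₁] at h2
    have h3 : i₁ θ ^ (2 * K) * (i₂ a - i₂ b * (i₂ σ ^ K * i₁ d₁))
        = i₁ θ ^ K * (i₁ θ ^ K * i₂ a) - i₁ θ ^ K * i₂ b * i₁ d₁ * (i₁ θ * i₂ σ) ^ K := by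
      ring
    rw [h3, hθσ, one_pow, mul_one]
    exact h2
  have hB' : i₂ p₂ ∣ i₂ a - i₂ b * (i₂ σ ^ K * i₁ d₁) := overlap_dvd_cancel hθσ _ hB
  obtain ⟨j, d₂, hd₂⟩ := hloc₂ (i₂ σ ^ K * i₁ d₁)
  refine ⟨σ ^ j, fun h => hσ (Ideal.IsPrime.mem_of_pow_mem inferInstance j h), d₂, ?_⟩
  apply hsat₂
  rw [map_sub, map_mul, map_mul, map_pow, hd₂]
  have : i₂ σ ^ j * i₂ a - i₂ b * (i₂ σ ^ j * (i₂ σ ^ K * i₁ d₁))
      = i₂ σ ^ j * (i₂ a - i₂ b * (i₂ σ ^ K * i₁ d₁)) := by ring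
  rw [this]
  exact Dvd.dvd.mul_left hB' _

/-- **Transfer of primeness through the overlap.** -/
theorem dvd_or_dvd_of_prime_overlap (i₁ : C₁ →+* B) (i₂ : C₂ →+* B) (p₁ : C₁) (p₂ : C₂)
    (hp : i₁ p₁ = i₂ p₂) (θ : C₁) (σ : C₂) (hθσ : i₁ θ * i₂ σ = 1)
    (hloc₁ : ∀ b : B, ∃ (k : ℕ) (c : C₁), i₁ c = i₁ θ ^ k * b)
    (hsat₁ : ∀ z : C₁, i₁ p₁ ∣ i₁ z → p₁ ∣ z)
    (hsat₂ : ∀ z : C₂, i₂ p₂ ∣ i₂ z → p₂ ∣ z)
    (h₁ : Prime p₁) {x y : C₂} (hxy : p₂ ∣ x * y) : p₂ ∣ x ∨ p₂ ∣ y := by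
  obtain ⟨kx, x₁, hx₁⟩ := hloc₁ (i₂ x)
  obtain ⟨ky, y₁, hy₁⟩ := hloc₁ (i₂ y)
  have h1 : p₁ ∣ x₁ * y₁ := by
    apply hsat₁
    rw [map_mul, hx₁, hy₁, hp]
    have : i₁ θ ^ kx * i₂ x * (i₁ θ ^ ky * i₂ y) = i₁ θ ^ kx * i₁ θ ^ ky * i₂ (x * y) := by
      rw [map_mul]; ring
    rw [this]
    exact Dvd.dvd.mul_left (map_dvd i₂ hxy) _
  rcases h₁.dvd_or_dvd h1 with h | h
  · left
    apply hsat₂
    have h2 := map_dvd i₁ h
    rw [hx₁, hp] at h2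
    exact overlap_dvd_cancel hθσ _ h2
  · right
    apply hsat₂
    have h2 := map_dvd i₁ h
    rw [hy₁, hp] at h2
    exact overlap_dvd_cancel hθσ _ h2

end Fermat.Agent.INJ.Norm
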