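import Fermat.Agent.INJ.NormalDescent
import Fermat.Agent.INJ.TSLocal
import Fermat.Agent.INJ.TameSpec

/-!
# (INJ) piece NORM, N4 (a), (b): normality of the special fibre of the chart `t`

Under the hypotheses of the tame specialization theorem (`TameSpecStmt`):

* `chart_normalAt` : `NormalAt C π m` at every maximal ideal `m ∋ π` of the chart
  `C = integralClosure A₀[τ] Lf` (copy of `chart_locDomainAt`);
* `chart_inv_normalAt` : the same for the chart `t⁻¹` at the maximal ideals `m ∋ π, t⁻¹`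
  (copy of `chart_inv_locDomainAt`);
* `tameSpec_normal` : `Normal C₁ π`;
* `tameSpec_isIntegrallyClosed` : `IsIntegrallyClosed (C₁ ⧸ Ideal.span {π})`;
* `tameSpec_isDomain` : `IsDomain (C₁ ⧸ Ideal.span {π})`.
-/

set_option autoImplicit false
set_option linter.unusedSectionVars false
set_option linter.style.haveILetI false

namespace Fermat.Agent.INJ.Norm

open Polynomial IntermediateField AlgebraicCurve Fermat.Agent.S24 Fermat.Agent.INJ

universe u

section Local

variable {A₀ E Lf : Type u} [CommRing A₀] [IsDomain A₀] [IsDiscreteValuationRing A₀]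
  [Field E] [Algebra A₀ E] [IsFractionRing A₀ E] [CharZero E]
  [Field Lf] [Algebra E Lf] [Algebra A₀ Lf] [IsScalarTower A₀ E Lf]
  {π : A₀} {τ : Lf}

/-- **Chart `τ`, all points**: `NormalAt` at every maximal ideal containing `π`. -/
theorem chart_normalAt
    (hπ : Irreducible π) (hτ : Transcendental E τ) [FiniteDimensional E⟮τ⟯ Lf]
    (hgood : TSGoodBasis (E := E) π τ)
    (S : Finset A₀) (hS : ∀ c ∈ S, ∀ c' ∈ S, c ≠ c' → ¬ π ∣ c - c')
    (hb : TSUnramified (E := E) τ S)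
    (e : ℕ) (he : IsUnit (e : A₀)) (hζ : ∃ ζ : A₀, IsPrimitiveRoot ζ e)
    (htame : ∀ P : Place E Lf, ∀ c ∈ S, 0 < P.ord (τ - algebraMap A₀ Lf c) →
      P.ord (τ - algebraMap A₀ Lf c) ∣ (e : ℤ))
    (hP₀ : ∀ c ∈ S, ∃ P₀ : Place E Lf, P₀.ord (τ - algebraMap A₀ Lf c) = 1 ∨
      P₀.ord (τ - algebraMap A₀ Lf c) = -1)
    (m : Ideal (integralClosure (Algebra.adjoin A₀ {τ}) Lf)) (hm : m.IsMaximal)
    (hπm : algebraMap A₀ (integralClosure (Algebra.adjoin A₀ {τ}) Lf) π ∈ m) :
    NormalAt (integralClosure (Algebra.adjoin A₀ {τ}) Lf)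
      (algebraMap A₀ (integralClosure (Algebra.adjoin A₀ {τ}) Lf) π) m := by
  by_cases hc : ∃ c ∈ S, chartElt hτ (X - C c) ∈ m
  · obtain ⟨c, hcS, hcm⟩ := hc
    refine nTameNormalStmt A₀ E Lf π hπ τ hτ hgood c e he hζ (fun P hP => htame P c hcS hP)
      (hP₀ c hcS) m hm hπm ?_ ?_
    · intro r₀ hr₀
      have : r₀ = chartEquiv hτ (X - C c) := by
        apply Subtype.ext
        rw [hr₀, chartEquiv_coe, map_sub, aeval_X, aeval_C]
      rw [this]
      exact hcm
    · intro P r hr hrm hrP hPc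
      refine ord_eq_one_of_unramified hτ S hb m P r hr hrm hrP ?_
      intro c' hc'S hc'm
      by_cases hcc : c = c'
      · rw [← hcc]; exact hPc
      · exfalso
        have hsub : chartElt hτ (C (c' - c)) ∈ m := by
          have : (C (c' - c) : A₀[X]) = (X - C c) - (X - C c') := by
            rw [C_sub]; ring
          rw [this, chartElt_sub]
          exact m.sub_mem hcm hc'm
        rw [chartElt_C] at hsub
        have hdvd : π ∣ c' - c := dvd_of_algebraMap_mem hπ m hm.ne_top hsub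
        exact hS c' hc'S c hcS (Ne.symm hcc) hdvd
  · refine nGoodNormalStmt A₀ E Lf π hπ τ hτ hgood m hm hπm ?_
    intro P r hr hrm hrP
    refine ord_eq_one_of_unramified hτ S hb m P r hr hrm hrP ?_
    intro c' hc'S hc'm
    exact absurd ⟨c', hc'S, hc'm⟩ hc

/-- **Chart `t⁻¹`, points at infinity**: `NormalAt` at the maximal ideals containing
`π` and `t⁻¹`. -/
theorem chart_inv_normalAt
    (hπ : Irreducible π) {t : Lf} (ht : Transcendental E t) (hinv : Transcendental E t⁻¹)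
    [FiniteDimensional E⟮t⁻¹⟯ Lf]
    (hgood : TSGoodBasis (E := E) π t⁻¹)
    (S : Finset A₀) (hb : TSUnramified (E := E) t S)
    (e : ℕ) (he : IsUnit (e : A₀)) (hζ : ∃ ζ : A₀, IsPrimitiveRoot ζ e)
    (htame : ∀ P : Place E Lf, P.ord t < 0 → P.ord t ∣ (e : ℤ))
    (hP₀ : ∃ P₀ : Place E Lf, P₀.ord t = -1)
    (m : Ideal (integralClosure (Algebra.adjoin A₀ {t⁻¹}) Lf)) (hm : m.IsMaximal)
    (hπm : algebraMap A₀ (integralClosure (Algebra.adjoin A₀ {t⁻¹}) Lf) π ∈ m)
    (hσm : chartElt hinv X ∈ m) :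
    NormalAt (integralClosure (Algebra.adjoin A₀ {t⁻¹}) Lf)
      (algebraMap A₀ (integralClosure (Algebra.adjoin A₀ {t⁻¹}) Lf) π) m := by
  have ht0 : t ≠ 0 := by
    rintro rfl
    exact ht isAlgebraic_zero
  have hsub0 : ∀ x : Lf, x - algebraMap A₀ Lf 0 = x := fun x => by rw [map_zero, sub_zero]
  refine nTameNormalStmt A₀ E Lf π hπ t⁻¹ hinv hgood 0 e he hζ ?_ ?_ m hm hπm ?_ ?_
  · intro P hP
    rw [hsub0] at hP ⊢
    rw [P.ord_inv] at hP ⊢
    exact (Int.neg_dvd).mpr (htame P (by omega))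
  · obtain ⟨P₀, hP₀⟩ := hP₀
    refine ⟨P₀, Or.inl ?_⟩
    rw [hsub0, P₀.ord_inv, hP₀]; rfl
  · intro r₀ hr₀
    have : r₀ = chartEquiv hinv X := by
      apply Subtype.ext
      rw [hr₀, hsub0, chartEquiv_coe, aeval_X]
    rw [this]
    exact hσm
  · intro P r hr hrm hrP hPc
    rw [hsub0, P.ord_inv] at hPc
    have htP : P.ord t = 0 := by omega
    obtain ⟨f, hf, rfl⟩ := exists_irreducible_poly hinv hr
    rw [chartEquiv_coe] at hrP ⊢
    have hall : ∀ c ∈ S, P.ord (t - algebraMap A₀ Lf c) = 0 := by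
      intro c hc
      by_contra hne
      have hpos : 0 < P.ord (t - algebraMap A₀ Lf c) :=
        lt_of_le_of_ne (ord_sub_const_nonneg P htP.ge c) (Ne.symm hne)
      have hval : aeval t⁻¹ (C c * X - 1 : A₀[X]) = - (t⁻¹ * (t - algebraMap A₀ Lf c)) := by
        rw [map_sub, map_mul, aeval_C, aeval_X, map_one]
        field_simp
        ring
      have hne0 : t - algebraMap A₀ Lf c ≠ 0 := by
        intro h0; rw [h0] at hpos; simp at hpos
      have hpos' : 0 < P.ord (aeval t⁻¹ (C c * X - 1 : A₀[X])) := by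
        rw [hval, PlaceAux.ord_neg, P.ord_mul (inv_ne_zero ht0) hne0, P.ord_inv, htP]
        simpa using hpos
      have hdvd : f ∣ (C c * X - 1) := centre_dvd_int P t⁻¹ hf hrP hpos'
      have hmem : chartElt hinv (C c * X - 1) ∈ m := chartElt_mem_of_dvd hinv hdvd m hrm
      rw [chartElt_sub, chartElt_mul, chartElt_one] at hmem
      have h1 : (1 : integralClosure (Algebra.adjoin A₀ {t⁻¹}) Lf) ∈ m := by
        have h2 := m.sub_mem (m.mul_mem_left (chartElt hinv (C c)) hσm) hmem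
        simpa using h2
      exact hm.ne_top ((Ideal.eq_top_iff_one m).mpr h1)
    obtain ⟨g, hg⟩ := hb P htP.ge hall
    obtain ⟨g', hg'⟩ := exists_poly_inv_ord_eq_one P ht0 htP hg
    exact centre_ord_eq_one_int P t⁻¹ hf hrP hg'

end Local

section Global

variable {A₀ E Lf : Type u} [CommRing A₀] [IsDomain A₀] [IsDiscreteValuationRing A₀]
  [Field E] [Algebra A₀ E] [IsFractionRing A₀ E] [CharZero E]
  [Field Lf] [Algebra E Lf] [Algebra A₀ Lf] [IsScalarTower A₀ E Lf]

/-- the place at infinity serves every branch point -/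
theorem exists_place_of_inf {t : Lf} (ht0 : t ≠ 0) (hP₀ : ∃ P₀ : Place E Lf, P₀.ord t = -1)
    (c : A₀) : ∃ P₀ : Place E Lf, P₀.ord (t - algebraMap A₀ Lf c) = 1 ∨
      P₀.ord (t - algebraMap A₀ Lf c) = -1 := by
  obtain ⟨P₀, hP₀⟩ := hP₀
  refine ⟨P₀, Or.inr ?_⟩
  rcases eq_or_ne (algebraMap A₀ Lf c) 0 with h0 | h0
  · rw [h0, sub_zero]; exact hP₀
  · rw [sub_eq_add_neg]
    rw [Fermat.Agent.S24.PlaceAux.ord_add_eq_of_lt P₀ ht0 (neg_ne_zero.mpr h0)]
    · exact hP₀
    · rw [Fermat.Agent.S24.PlaceAux.ord_neg, centre_ord_algebraMap, hP₀]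
      norm_num

/-- **N4 (b), element form.**  Under the hypotheses of the tame specialization theorem the
special fibre of the chart `t` is normal. -/
theorem tameSpec_normal
    (π : A₀) (hπ : Irreducible π) (t : Lf) (ht : Transcendental E t) [FiniteDimensional E⟮t⟯ Lf]
    (hgood : TSGoodBasis (E := E) π t)
    (S : Finset A₀) (hS : ∀ c ∈ S, ∀ c' ∈ S, c ≠ c' → ¬ π ∣ c - c')
    (hb : TSUnramified (E := E) t S)
    (e : ℕ) (he : IsUnit (e : A₀)) (hζ : ∃ ζ : A₀, IsPrimitiveRoot ζ e)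
    (htame : TSTame (E := E) t S e)
    (hP₀ : ∃ P₀ : Place E Lf, P₀.ord t = -1) :
    Normal (integralClosure (Algebra.adjoin A₀ {t}) Lf)
      (algebraMap A₀ (integralClosure (Algebra.adjoin A₀ {t}) Lf) π) := by
  have ht0 : t ≠ 0 := by
    rintro rfl
    exact ht isAlgebraic_zero
  exact normal_of_forall_maximal (fun m hm hπm =>
    chart_normalAt hπ ht hgood S hS hb e he hζ htame.1
      (fun c _ => exists_place_of_inf ht0 hP₀ c) m hm hπm)

/-- **N4 (b).**  Under the hypotheses of the tame specialization theorem the special fibre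
`C₁ / π` of the chart `t` is an integrally closed domain. -/
theorem tameSpec_isIntegrallyClosed
    (π : A₀) (hπ : Irreducible π) (t : Lf) (ht : Transcendental E t) [FiniteDimensional E⟮t⟯ Lf]
    (hcl : ∀ x : Lf, IsAlgebraic E x → x ∈ (algebraMap E Lf).range)
    (hgood : TSGoodBasis (E := E) π t)
    (S : Finset A₀) (hS : ∀ c ∈ S, ∀ c' ∈ S, c ≠ c' → ¬ π ∣ c - c')
    (hb : TSUnramified (E := E) t S)
    (e : ℕ) (he : IsUnit (e : A₀)) (hζ : ∃ ζ : A₀, IsPrimitiveRoot ζ e)
    (htame : TSTame (E := E) t S e)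
    (hP₀ : ∃ P₀ : Place E Lf, P₀.ord t = -1) :
    IsIntegrallyClosed (integralClosure (Algebra.adjoin A₀ {t}) Lf ⧸
      Ideal.span {algebraMap A₀ (integralClosure (Algebra.adjoin A₀ {t}) Lf) π}) :=
  isIntegrallyClosed_quotient_of_normal
    (tameSpecStmt A₀ E Lf π hπ t ht hcl hgood S hS hb e he hζ htame hP₀)
    (tameSpec_normal π hπ t ht hgood S hS hb e he hζ htame hP₀)

/-- Under the hypotheses of the tame specialization theorem the special fibre `C₁ / π` of the
chart `t` is a domain. -/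
theorem tameSpec_isDomain
    (π : A₀) (hπ : Irreducible π) (t : Lf) (ht : Transcendental E t) [FiniteDimensional E⟮t⟯ Lf]
    (hcl : ∀ x : Lf, IsAlgebraic E x → x ∈ (algebraMap E Lf).range)
    (hgood : TSGoodBasis (E := E) π t)
    (S : Finset A₀) (hS : ∀ c ∈ S, ∀ c' ∈ S, c ≠ c' → ¬ π ∣ c - c')
    (hb : TSUnramified (E := E) t S)
    (e : ℕ) (he : IsUnit (e : A₀)) (hζ : ∃ ζ : A₀, IsPrimitiveRoot ζ e)
    (htame : TSTame (E := E) t S e)
    (hP₀ : ∃ P₀ : Place E Lf, P₀.ord t = -1) :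
    IsDomain (integralClosure (Algebra.adjoin A₀ {t}) Lf ⧸
      Ideal.span {algebraMap A₀ (integralClosure (Algebra.adjoin A₀ {t}) Lf) π}) := by
  have hp := tameSpecStmt A₀ E Lf π hπ t ht hcl hgood S hS hb e he hζ htame hP₀
  haveI : (Ideal.span {algebraMap A₀ (integralClosure (Algebra.adjoin A₀ {t}) Lf) π}).IsPrime :=
    (Ideal.span_singleton_prime hp.ne_zero).mpr hp
  exact Ideal.Quotient.isDomain _

end Global

end Fermat.Agent.INJ.Norm
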