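import Fermat.Agent.INJ.TSGlue
import Fermat.Agent.INJ.NormalOverlap

/-!
# (INJ) piece NORM, N4 (c): the chart at infinity

Charts `C₁ = integralClosure A₀[t]`, `C₂ = integralClosure A₀[t⁻¹]` of `Lf`, overlap
`B = integralClosure A₀[t, t⁻¹] = C₁[1/t] = C₂[1/t⁻¹]`; both charts are saturated in `B` for
divisibility by `π` (`tsg_sat`).

* `chart_inv_normalAt_of_normal` : `Normal C₁ π` gives `NormalAt C₂ π m` at the primes `m ∌ t⁻¹`;
* `chart_inv_normal_of` : `Normal C₁ π` and `NormalAt C₂ π m` at the maximal ideals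
  `m ∋ π, t⁻¹` give `Normal C₂ π`;
* `chart_inv_prime_of` : `Prime π` in `C₁` gives `Prime π` in `C₂`;
* `chart_inv_isIntegrallyClosed_of` : hence `IsIntegrallyClosed (C₂ ⧸ span {π})`.
-/

set_option autoImplicit false
set_option linter.unusedSectionVars false
set_option linter.style.haveILetI false

namespace Fermat.Agent.INJ.Norm

open Polynomial IntermediateField AlgebraicCurve Fermat.Agent.INJ

universe u

section Inv

variable {A₀ E Lf : Type u} [CommRing A₀] [IsDomain A₀] [IsDiscreteValuationRing A₀]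
  [Field E] [Algebra A₀ E] [IsFractionRing A₀ E] [CharZero E]
  [Field Lf] [Algebra E Lf] [Algebra A₀ Lf] [IsScalarTower A₀ E Lf]
  {π : A₀}

/-- the inclusions of integral closures are compatible with the structure maps -/
theorem tsgIncl_algebraMap {R R' : Subalgebra A₀ Lf} (h : R ≤ R') (a : A₀) :
    tsgIncl h (algebraMap A₀ (integralClosure R Lf) a)
      = algebraMap A₀ (integralClosure R' Lf) a :=
  Subtype.ext rfl

/-- the overlap is the localization of the chart `A₀[u]` at `u` -/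
theorem overlap_loc {u u' : Lf} (hu : Transcendental E u) (huu' : u * u' = 1)
    {R' : Subalgebra A₀ Lf} (hR' : R' = Algebra.adjoin A₀ {u, u'})
    (hsub : Algebra.adjoin A₀ ({u} : Set Lf) ≤ R') (b : integralClosure R' Lf) :
    ∃ (k : ℕ) (c : integralClosure (Algebra.adjoin A₀ {u}) Lf),
      tsgIncl hsub c = tsgIncl hsub (chartElt hu X) ^ k * b := by
  subst hR'
  obtain ⟨k, hk⟩ := zch_exists_pow_mul_isIntegral huu' b.2
  refine ⟨k, ⟨_, hk⟩, Subtype.ext ?_⟩
  rw [Subalgebra.coe_mul, SubmonoidClass.coe_pow, tsgIncl_coe, tsgIncl_coe, chartElt_coe,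
    aeval_X]

/-- the chart `A₀[u]` is saturated in the overlap -/
theorem overlap_sat (hπ : Irreducible π) {u u' : Lf} (hu : Transcendental E u)
    (huu' : u * u' = 1)
    {R' : Subalgebra A₀ Lf} (hR' : R' = Algebra.adjoin A₀ {u, u'})
    (hsub : Algebra.adjoin A₀ ({u} : Set Lf) ≤ R')
    (z : integralClosure (Algebra.adjoin A₀ {u}) Lf)
    (hz : tsgIncl hsub (algebraMap A₀ (integralClosure (Algebra.adjoin A₀ {u}) Lf) π) ∣
      tsgIncl hsub z) :
    algebraMap A₀ (integralClosure (Algebra.adjoin A₀ {u}) Lf) π ∣ z := by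
  subst hR'
  rw [tsgIncl_algebraMap] at hz
  obtain ⟨y', hy', hzy'⟩ := (tsg_dvd_iff _ _).mp hz
  rw [tsgIncl_coe] at hzy'
  exact (tsg_dvd_iff _ _).mpr ⟨y', tsg_sat hπ hu huu' z.2 hy' hzy', hzy'⟩

/-- the two coordinates are inverse to each other on the overlap -/
theorem overlap_mul {u u' : Lf} (hu : Transcendental E u) (hu' : Transcendental E u')
    (huu' : u * u' = 1) {R' : Subalgebra A₀ Lf}
    (hsub : Algebra.adjoin A₀ ({u} : Set Lf) ≤ R')
    (hsub' : Algebra.adjoin A₀ ({u'} : Set Lf) ≤ R') :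
    tsgIncl hsub (chartElt hu X) * tsgIncl hsub' (chartElt hu' X) = 1 := by
  apply Subtype.ext
  rw [Subalgebra.coe_mul, tsgIncl_coe, tsgIncl_coe, chartElt_coe, chartElt_coe, aeval_X, aeval_X]
  exact huu'

/-- **Chart at infinity, finite points**: `NormalAt` at the primes not containing `t⁻¹`, from
the normality of the finite chart. -/
theorem chart_inv_normalAt_of_normal (hπ : Irreducible π) {t : Lf} (ht : Transcendental E t)
    (hinv : Transcendental E t⁻¹)
    (h₁ : Normal (integralClosure (Algebra.adjoin A₀ {t}) Lf)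
      (algebraMap A₀ (integralClosure (Algebra.adjoin A₀ {t}) Lf) π))
    (m : Ideal (integralClosure (Algebra.adjoin A₀ {t⁻¹}) Lf)) [m.IsPrime]
    (hσ : chartElt hinv X ∉ m) :
    NormalAt (integralClosure (Algebra.adjoin A₀ {t⁻¹}) Lf)
      (algebraMap A₀ (integralClosure (Algebra.adjoin A₀ {t⁻¹}) Lf) π) m := by
  have ht0 : t ≠ 0 := by
    rintro rfl
    exact ht isAlgebraic_zero
  have htt' : t * t⁻¹ = 1 := mul_inv_cancel₀ ht0
  have ht't : t⁻¹ * t = 1 := inv_mul_cancel₀ ht0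
  have hsub₁ : Algebra.adjoin A₀ ({t} : Set Lf) ≤ Algebra.adjoin A₀ {t, t⁻¹} :=
    Algebra.adjoin_mono (by intro x hx; exact Or.inl hx)
  have hsub₂ : Algebra.adjoin A₀ ({t⁻¹} : Set Lf) ≤ Algebra.adjoin A₀ {t, t⁻¹} :=
    Algebra.adjoin_mono (by intro x hx; exact Or.inr hx)
  have hR₂ : Algebra.adjoin A₀ ({t, t⁻¹} : Set Lf) = Algebra.adjoin A₀ {t⁻¹, t} := by
    rw [Set.pair_comm]
  exact normalAt_of_normal_overlap (tsgIncl hsub₁) (tsgIncl hsub₂)
    (algebraMap A₀ (integralClosure (Algebra.adjoin A₀ {t}) Lf) π)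
    (algebraMap A₀ (integralClosure (Algebra.adjoin A₀ {t⁻¹}) Lf) π)
    ((tsgIncl_algebraMap hsub₁ π).trans (tsgIncl_algebraMap hsub₂ π).symm)
    (chartElt ht X) (chartElt hinv X) (overlap_mul ht hinv htt' hsub₁ hsub₂)
    (overlap_loc ht htt' rfl hsub₁) (overlap_loc hinv ht't hR₂ hsub₂)
    (overlap_sat hπ ht htt' rfl hsub₁) (overlap_sat hπ hinv ht't hR₂ hsub₂) h₁ m hσ

/-- **Chart at infinity**: `Normal C₂ π` from the normality of the finite chart and the
normality at the points at infinity. -/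
theorem chart_inv_normal_of (hπ : Irreducible π) {t : Lf} (ht : Transcendental E t)
    (hinv : Transcendental E t⁻¹)
    (h₁ : Normal (integralClosure (Algebra.adjoin A₀ {t}) Lf)
      (algebraMap A₀ (integralClosure (Algebra.adjoin A₀ {t}) Lf) π))
    (hinf : ∀ m : Ideal (integralClosure (Algebra.adjoin A₀ {t⁻¹}) Lf), m.IsMaximal →
      algebraMap A₀ (integralClosure (Algebra.adjoin A₀ {t⁻¹}) Lf) π ∈ m →
      chartElt hinv X ∈ m →
      NormalAt (integralClosure (Algebra.adjoin A₀ {t⁻¹}) Lf)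
        (algebraMap A₀ (integralClosure (Algebra.adjoin A₀ {t⁻¹}) Lf) π) m) :
    Normal (integralClosure (Algebra.adjoin A₀ {t⁻¹}) Lf)
      (algebraMap A₀ (integralClosure (Algebra.adjoin A₀ {t⁻¹}) Lf) π) := by
  refine normal_of_forall_maximal fun m hm hπm => ?_
  by_cases hσ : chartElt hinv X ∈ m
  · exact hinf m hm hπm hσ
  · haveI := hm.isPrime
    exact chart_inv_normalAt_of_normal hπ ht hinv h₁ m hσ

/-- **Chart at infinity**: `π` is prime in `C₂` if it is prime in `C₁`. -/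
theorem chart_inv_prime_of (hπ : Irreducible π) {t : Lf} (ht : Transcendental E t)
    (hinv : Transcendental E t⁻¹)
    (h₁ : Prime (algebraMap A₀ (integralClosure (Algebra.adjoin A₀ {t}) Lf) π)) :
    Prime (algebraMap A₀ (integralClosure (Algebra.adjoin A₀ {t⁻¹}) Lf) π) := by
  have ht0 : t ≠ 0 := by
    rintro rfl
    exact ht isAlgebraic_zero
  have htt' : t * t⁻¹ = 1 := mul_inv_cancel₀ ht0
  have ht't : t⁻¹ * t = 1 := inv_mul_cancel₀ ht0
  have hsub₁ : Algebra.adjoin A₀ ({t} : Set Lf) ≤ Algebra.adjoin A₀ {t, t⁻¹} :=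
    Algebra.adjoin_mono (by intro x hx; exact Or.inl hx)
  have hsub₂ : Algebra.adjoin A₀ ({t⁻¹} : Set Lf) ≤ Algebra.adjoin A₀ {t, t⁻¹} :=
    Algebra.adjoin_mono (by intro x hx; exact Or.inr hx)
  have hR₂ : Algebra.adjoin A₀ ({t, t⁻¹} : Set Lf) = Algebra.adjoin A₀ {t⁻¹, t} := by
    rw [Set.pair_comm]
  have hinj := zch_algebraMap_injective (A₀ := A₀) (E := E) (L := Lf)
  have hπ0 : algebraMap A₀ Lf π ≠ 0 := (map_ne_zero_iff _ hinj).mpr hπ.ne_zero
  refine ⟨?_, tsg_not_isUnit hinv hπ, ?_⟩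
  · intro h0
    apply hπ0
    have := congrArg Subtype.val h0
    exact this
  · intro x y hxy
    exact dvd_or_dvd_of_prime_overlap (tsgIncl hsub₁) (tsgIncl hsub₂)
      (algebraMap A₀ (integralClosure (Algebra.adjoin A₀ {t}) Lf) π)
      (algebraMap A₀ (integralClosure (Algebra.adjoin A₀ {t⁻¹}) Lf) π)
      ((tsgIncl_algebraMap hsub₁ π).trans (tsgIncl_algebraMap hsub₂ π).symm)
      (chartElt ht X) (chartElt hinv X) (overlap_mul ht hinv htt' hsub₁ hsub₂)
      (overlap_loc ht htt' rfl hsub₁)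
      (overlap_sat hπ ht htt' rfl hsub₁) (overlap_sat hπ hinv ht't hR₂ hsub₂) h₁ hxy

/-- **Chart at infinity**: the special fibre of `C₂` is an integrally closed domain. -/
theorem chart_inv_isIntegrallyClosed_of (hπ : Irreducible π) {t : Lf} (ht : Transcendental E t)
    (hinv : Transcendental E t⁻¹)
    (hp₁ : Prime (algebraMap A₀ (integralClosure (Algebra.adjoin A₀ {t}) Lf) π))
    (h₁ : Normal (integralClosure (Algebra.adjoin A₀ {t}) Lf)
      (algebraMap A₀ (integralClosure (Algebra.adjoin A₀ {t}) Lf) π))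
    (hinf : ∀ m : Ideal (integralClosure (Algebra.adjoin A₀ {t⁻¹}) Lf), m.IsMaximal →
      algebraMap A₀ (integralClosure (Algebra.adjoin A₀ {t⁻¹}) Lf) π ∈ m →
      chartElt hinv X ∈ m →
      NormalAt (integralClosure (Algebra.adjoin A₀ {t⁻¹}) Lf)
        (algebraMap A₀ (integralClosure (Algebra.adjoin A₀ {t⁻¹}) Lf) π) m) :
    IsIntegrallyClosed (integralClosure (Algebra.adjoin A₀ {t⁻¹}) Lf ⧸
      Ideal.span {algebraMap A₀ (integralClosure (Algebra.adjoin A₀ {t⁻¹}) Lf) π}) :=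
  isIntegrallyClosed_quotient_of_normal (chart_inv_prime_of hπ ht hinv hp₁)
    (chart_inv_normal_of hπ ht hinv h₁ hinf)

end Inv

end Fermat.Agent.INJ.Norm
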