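import Fermat.Agent.INJ.NormalSpec
import Fermat.Agent.INJ.NormalSpecInv

/-!
# (INJ) piece NORM, N4: the special fibre of the chart at infinity is an integrally closed domain

Under the hypotheses of the tame specialization theorem (`TameSpecStmt`), for the chart
`C₂ = integralClosure A₀[t⁻¹] Lf`:

* `tameSpec_inv_prime` : `Prime π` in `C₂`;
* `tameSpec_inv_normal` : `Normal C₂ π`;
* `tameSpec_inv_isDomain`, `tameSpec_inv_isIntegrallyClosed` : `C₂ ⧸ span {π}` is an integrally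
  closed domain.

(The chart `t` is in `NormalSpec.lean`: `tameSpecStmt`, `tameSpec_normal`, `tameSpec_isDomain`,
`tameSpec_isIntegrallyClosed`.)
-/

set_option autoImplicit false
set_option linter.unusedSectionVars false
set_option linter.style.haveILetI false

namespace Fermat.Agent.INJ.Norm

open Polynomial IntermediateField AlgebraicCurve Fermat.Agent.INJ

universe u

section Final

variable {A₀ E Lf : Type u} [CommRing A₀] [IsDomain A₀] [IsDiscreteValuationRing A₀]
  [Field E] [Algebra A₀ E] [IsFractionRing A₀ E] [CharZero E]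
  [Field Lf] [Algebra E Lf] [Algebra A₀ Lf] [IsScalarTower A₀ E Lf]

/-- **N4, chart at infinity**: `π` is a prime element of `C₂`. -/
theorem tameSpec_inv_prime
    (π : A₀) (hπ : Irreducible π) (t : Lf) (ht : Transcendental E t) [FiniteDimensional E⟮t⟯ Lf]
    (hcl : ∀ x : Lf, IsAlgebraic E x → x ∈ (algebraMap E Lf).range)
    (hgood : TSGoodBasis (E := E) π t)
    (S : Finset A₀) (hS : ∀ c ∈ S, ∀ c' ∈ S, c ≠ c' → ¬ π ∣ c - c')
    (hb : TSUnramified (E := E) t S)
    (e : ℕ) (he : IsUnit (e : A₀)) (hζ : ∃ ζ : A₀, IsPrimitiveRoot ζ e)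
    (htame : TSTame (E := E) t S e)
    (hP₀ : ∃ P₀ : Place E Lf, P₀.ord t = -1) :
    Prime (algebraMap A₀ (integralClosure (Algebra.adjoin A₀ {t⁻¹}) Lf) π) :=
  chart_inv_prime_of hπ ht (zch_transcendental_inv ht)
    (tameSpecStmt A₀ E Lf π hπ t ht hcl hgood S hS hb e he hζ htame hP₀)

/-- **N4, chart at infinity, element form**: the special fibre of `C₂` is normal. -/
theorem tameSpec_inv_normal
    (π : A₀) (hπ : Irreducible π) (t : Lf) (ht : Transcendental E t) [FiniteDimensional E⟮t⟯ Lf]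
    (hgood : TSGoodBasis (E := E) π t)
    (S : Finset A₀) (hS : ∀ c ∈ S, ∀ c' ∈ S, c ≠ c' → ¬ π ∣ c - c')
    (hb : TSUnramified (E := E) t S)
    (e : ℕ) (he : IsUnit (e : A₀)) (hζ : ∃ ζ : A₀, IsPrimitiveRoot ζ e)
    (htame : TSTame (E := E) t S e)
    (hP₀ : ∃ P₀ : Place E Lf, P₀.ord t = -1) :
    Normal (integralClosure (Algebra.adjoin A₀ {t⁻¹}) Lf)
      (algebraMap A₀ (integralClosure (Algebra.adjoin A₀ {t⁻¹}) Lf) π) := by
  have hinv : Transcendental E t⁻¹ := zch_transcendental_inv ht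
  haveI : FiniteDimensional E⟮t⁻¹⟯ Lf := tsg_finiteDimensional_of_eq (zch_adjoin_inv t)
  have hgood' : TSGoodBasis (E := E) π t⁻¹ := ChartInv.tsGoodBasis_inv hπ ht hgood
  exact chart_inv_normal_of hπ ht hinv
    (tameSpec_normal π hπ t ht hgood S hS hb e he hζ htame hP₀)
    (fun m hm hπm hσm =>
      chart_inv_normalAt hπ ht hinv hgood' S hb e he hζ htame.2 hP₀ m hm hπm hσm)

/-- **N4, chart at infinity**: the special fibre of `C₂` is integrally closed. -/
theorem tameSpec_inv_isIntegrallyClosed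
    (π : A₀) (hπ : Irreducible π) (t : Lf) (ht : Transcendental E t) [FiniteDimensional E⟮t⟯ Lf]
    (hcl : ∀ x : Lf, IsAlgebraic E x → x ∈ (algebraMap E Lf).range)
    (hgood : TSGoodBasis (E := E) π t)
    (S : Finset A₀) (hS : ∀ c ∈ S, ∀ c' ∈ S, c ≠ c' → ¬ π ∣ c - c')
    (hb : TSUnramified (E := E) t S)
    (e : ℕ) (he : IsUnit (e : A₀)) (hζ : ∃ ζ : A₀, IsPrimitiveRoot ζ e)
    (htame : TSTame (E := E) t S e)
    (hP₀ : ∃ P₀ : Place E Lf, P₀.ord t = -1) :
    IsIntegrallyClosed (integralClosure (Algebra.adjoin A₀ {t⁻¹}) Lf ⧸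
      Ideal.span {algebraMap A₀ (integralClosure (Algebra.adjoin A₀ {t⁻¹}) Lf) π}) :=
  isIntegrallyClosed_quotient_of_normal
    (tameSpec_inv_prime π hπ t ht hcl hgood S hS hb e he hζ htame hP₀)
    (tameSpec_inv_normal π hπ t ht hgood S hS hb e he hζ htame hP₀)

/-- **N4, chart at infinity**: the special fibre of `C₂` is a domain. -/
theorem tameSpec_inv_isDomain
    (π : A₀) (hπ : Irreducible π) (t : Lf) (ht : Transcendental E t) [FiniteDimensional E⟮t⟯ Lf]
    (hcl : ∀ x : Lf, IsAlgebraic E x → x ∈ (algebraMap E Lf).range)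
    (hgood : TSGoodBasis (E := E) π t)
    (S : Finset A₀) (hS : ∀ c ∈ S, ∀ c' ∈ S, c ≠ c' → ¬ π ∣ c - c')
    (hb : TSUnramified (E := E) t S)
    (e : ℕ) (he : IsUnit (e : A₀)) (hζ : ∃ ζ : A₀, IsPrimitiveRoot ζ e)
    (htame : TSTame (E := E) t S e)
    (hP₀ : ∃ P₀ : Place E Lf, P₀.ord t = -1) :
    IsDomain (integralClosure (Algebra.adjoin A₀ {t⁻¹}) Lf ⧸
      Ideal.span {algebraMap A₀ (integralClosure (Algebra.adjoin A₀ {t⁻¹}) Lf) π}) := by
  have hp := tameSpec_inv_prime π hπ t ht hcl hgood S hS hb e he hζ htame hP₀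
  haveI : (Ideal.span
      {algebraMap A₀ (integralClosure (Algebra.adjoin A₀ {t⁻¹}) Lf) π}).IsPrime :=
    (Ideal.span_singleton_prime hp.ne_zero).mpr hp
  exact Ideal.Quotient.isDomain _

end Final

end Fermat.Agent.INJ.Norm
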