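import Fermat.Agent.INJ.TSStmt
import Fermat.Agent.S24.GaloisCount

/-!
# (INJ) piece B2-b: hypotheses `(b)`, `(b')` of the tame specialization theorem from
ramification data over the algebraic closure

Setting: `E ⊆ K` fields of characteristic `0`, `K / E` algebraic; `F₀ / E` a function field,
`Fb / K` its constant field extension (`F₀ ⊆ Fb`), `Lf / F₀` an extension (Kummer).  Given
* `hkum`: every place of `Lf / E` restricts to a place of `F₀ / E` with the same `ord` on `F₀`
  (piece B2-kum, `KummerUnram.lean`);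
* `hext`: every place of `F₀ / E` extends to a place of `Fb / K` with the same `ord` on `F₀`
  (piece B2-ext, `PlaceExt.lean`);
* the ramification data of `Fb` over the `t`-line over `K` (for `t = j`: `RamJ.lean`),
we get `TSUnramified t S` and `TSTame t S e` for `Lf / E`.
-/

set_option autoImplicit false

namespace Fermat.Agent.INJ

open Polynomial IntermediateField AlgebraicCurve Fermat.Agent.S24

universe u

section Assemble

variable {A₀ E Lf : Type u} {K F₀ Fb : Type*}
  [CommRing A₀] [Field E] [Algebra A₀ E] [Field Lf] [Algebra E Lf] [Algebra A₀ Lf]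
  [IsScalarTower A₀ E Lf]
  [Field K] [Algebra E K] [Field F₀] [Algebra E F₀] [Algebra F₀ Lf] [IsScalarTower E F₀ Lf]
  [Field Fb] [Algebra K Fb] [Algebra F₀ Fb] [Algebra E Fb] [IsScalarTower E F₀ Fb]
  [IsScalarTower E K Fb]

/-- The order of `g(t)` at a place over `t = c₀`, for a separable `g` with root `c₀`. -/
theorem ramB_ord_aeval_separable (v : Place K Fb) (tb : Fb) (c₀ : K)
    (hv : 0 < v.ord (tb - algebraMap K Fb c₀)) (g : K[X]) (hsep : g.Separable)
    (hroot : g.IsRoot c₀) :
    v.ord (aeval tb g) = v.ord (tb - algebraMap K Fb c₀) := by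
  have hg0 : g ≠ 0 := hsep.ne_zero
  have hcomp : g.comp (X + C c₀) ≠ 0 := by
    intro h
    have := congrArg (fun p : K[X] => p.comp (X - C c₀)) h
    simp only [comp_assoc, add_comp, X_comp, C_comp, sub_add_cancel, comp_X, zero_comp] at this
    exact hg0 this
  have hmult : (g.comp (X + C c₀)).rootMultiplicity 0 = 1 := by
    rw [← rootMultiplicity_eq_rootMultiplicity]
    have h1 := rootMultiplicity_le_one_of_separable hsep c₀
    have h2 : 0 < g.rootMultiplicity c₀ := (rootMultiplicity_pos hg0).mpr hroot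
    omega
  have hval : aeval (tb - algebraMap K Fb c₀) (g.comp (X + C c₀)) = aeval tb g := by
    rw [aeval_comp]
    simp
  obtain ⟨-, h⟩ := place_ord_aeval v hv (g.comp (X + C c₀)) hcomp
  rw [hval, hmult] at h
  simpa using h

variable (A₀ E K) in
/-- **B2-b**: hypotheses `(b)` and `(b')` of Part A from the ramification data over `K`. -/
theorem ramB_assemble [CharZero E] [Algebra.IsAlgebraic E K]
    (t₀ : F₀) (S : Finset A₀) (e : ℕ)
    (hkum : ∀ P : Place E Lf, ∃ Q : Place E F₀,
      ∀ y : F₀, P.ord (algebraMap F₀ Lf y) = Q.ord y)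
    (hext : ∀ Q : Place E F₀, ∃ v : Place K Fb,
      ∀ y : F₀, v.ord (algebraMap F₀ Fb y) = Q.ord y)
    (hcases : ∀ v : Place K Fb, 0 ≤ v.ord (algebraMap F₀ Fb t₀) →
      ∃ c₀ : K, 0 < v.ord (algebraMap F₀ Fb t₀ - algebraMap K Fb c₀))
    (hgen : ∀ (v : Place K Fb) (c₀ : K),
      (∀ c ∈ S, c₀ ≠ algebraMap E K (algebraMap A₀ E c)) →
      0 < v.ord (algebraMap F₀ Fb t₀ - algebraMap K Fb c₀) →
      v.ord (algebraMap F₀ Fb t₀ - algebraMap K Fb c₀) = 1)
    (htame : ∀ (v : Place K Fb), ∀ c ∈ S,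
      0 < v.ord (algebraMap F₀ Fb t₀ - algebraMap K Fb (algebraMap E K (algebraMap A₀ E c))) →
      v.ord (algebraMap F₀ Fb t₀ - algebraMap K Fb (algebraMap E K (algebraMap A₀ E c))) ∣ (e : ℤ))
    (hinf : ∀ v : Place K Fb, v.ord (algebraMap F₀ Fb t₀) < 0 →
      v.ord (algebraMap F₀ Fb t₀) ∣ (e : ℤ)) :
    TSUnramified (E := E) (algebraMap F₀ Lf t₀) S ∧
      TSTame (E := E) (algebraMap F₀ Lf t₀) S e := by
  -- transfer of `ord`
  have htrans : ∀ P : Place E Lf, ∃ v : Place K Fb,
      ∀ y : F₀, P.ord (algebraMap F₀ Lf y) = v.ord (algebraMap F₀ Fb y) := by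
    intro P
    obtain ⟨Q, hQ⟩ := hkum P
    obtain ⟨v, hv⟩ := hext Q
    exact ⟨v, fun y => by rw [hQ, hv]⟩
  have hconstL : ∀ c : A₀, algebraMap F₀ Lf t₀ - algebraMap A₀ Lf c =
      algebraMap F₀ Lf (t₀ - algebraMap E F₀ (algebraMap A₀ E c)) := by
    intro c
    rw [map_sub, ← IsScalarTower.algebraMap_apply E F₀ Lf, ← IsScalarTower.algebraMap_apply A₀ E Lf]
  have hconstb : ∀ c : E, algebraMap F₀ Fb (t₀ - algebraMap E F₀ c) =
      algebraMap F₀ Fb t₀ - algebraMap K Fb (algebraMap E K c) := by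
    intro c
    rw [map_sub, ← IsScalarTower.algebraMap_apply E F₀ Fb, ← IsScalarTower.algebraMap_apply E K Fb]
  refine ⟨?_, ?_, ?_⟩
  · -- unramified outside `S`
    intro P hP0 hPS
    obtain ⟨v, hv⟩ := htrans P
    have hv0 : 0 ≤ v.ord (algebraMap F₀ Fb t₀) := by rw [← hv]; exact hP0
    obtain ⟨c₀, hc₀⟩ := hcases v hv0
    have hnotS : ∀ c ∈ S, c₀ ≠ algebraMap E K (algebraMap A₀ E c) := by
      rintro c hc rfl
      have h1 := hPS c hc
      rw [hconstL, hv, hconstb] at h1
      omega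
    have hone := hgen v c₀ hnotS hc₀
    have hint : IsIntegral E c₀ := (Algebra.IsAlgebraic.isAlgebraic c₀).isIntegral
    refine ⟨minpoly E c₀, ?_⟩
    have hsep : ((minpoly E c₀).map (algebraMap E K)).Separable :=
      (minpoly.irreducible hint).separable.map
    have hroot : ((minpoly E c₀).map (algebraMap E K)).IsRoot c₀ := by
      rw [IsRoot, eval_map, ← aeval_def]
      exact minpoly.aeval E c₀
    have hkey := ramB_ord_aeval_separable v (algebraMap F₀ Fb t₀) c₀ hc₀ _ hsep hroot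
    rw [aeval_map_algebraMap] at hkey
    have h2 : aeval (algebraMap F₀ Lf t₀) (minpoly E c₀)
        = algebraMap F₀ Lf (aeval t₀ (minpoly E c₀)) := (aeval_algebraMap_apply Lf t₀ _)
    have h3 : aeval (algebraMap F₀ Fb t₀) (minpoly E c₀)
        = algebraMap F₀ Fb (aeval t₀ (minpoly E c₀)) := (aeval_algebraMap_apply Fb t₀ _)
    rw [h2, hv, ← h3, hkey, hone]
  · -- tame over `S`
    intro P c hc hpos
    obtain ⟨v, hv⟩ := htrans P
    rw [hconstL, hv, hconstb] at hpos ⊢
    exact htame v c hc hpos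
  · -- tame over `∞`
    intro P hneg
    obtain ⟨v, hv⟩ := htrans P
    rw [hv] at hneg ⊢
    exact hinf v hneg

end Assemble

end Fermat.Agent.INJ
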