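import Fermat.Agent.S24.GaloisCount
import Fermat.Agent.S24.DegreeCount

/-!
# (INJ) B2-T, auxiliary `ord` arithmetic at a place

`K` a field, `F / K` a field extension, `v : Place K F`, `h : F`.
* `ramH_ord_sub_const` : `0 < ord (h - c₀)`, `c ≠ c₀` ⇒ `ord (h - c) = 0`, `h - c ≠ 0`;
* `ramH_ord_add_const_of_neg` : `ord h < 0` ⇒ `ord (h + c) = ord h`;
* `ramH_ord_aeval` : `0 < ord (h - c₀)`, `Φ ≠ 0` ⇒ `ord Φ(h) = mult_{c₀} Φ · ord (h - c₀)`.
-/

set_option autoImplicit false

namespace Fermat.Agent.INJ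

open Polynomial AlgebraicCurve Fermat.Agent.S24

section Aux

variable {K F : Type*} [Field K] [Field F] [Algebra K F]

theorem ramH_ne_zero_of_ord_ne (v : Place K F) {x : F} (hx : v.ord x ≠ 0) : x ≠ 0 := by
  rintro rfl
  simp at hx

theorem ramH_ord_sub_const (v : Place K F) (h : F) (c₀ c : K)
    (hv : 0 < v.ord (h - algebraMap K F c₀)) (hc : c ≠ c₀) :
    h - algebraMap K F c ≠ 0 ∧ v.ord (h - algebraMap K F c) = 0 := by
  have hdec : h - algebraMap K F c = algebraMap K F (c₀ - c) + (h - algebraMap K F c₀) := by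
    rw [map_sub]; ring
  have hcc : algebraMap K F (c₀ - c) ≠ 0 := by
    rw [Ne, map_eq_zero, sub_eq_zero]
    exact fun h' => hc h'.symm
  have hord : v.ord (h - algebraMap K F c) = 0 := by
    rw [hdec]
    exact place_ord_add_eq_zero v (place_ord_algebraMap v _) hcc (Or.inr hv)
  refine ⟨?_, hord⟩
  intro h0
  rw [hdec] at h0
  have h1 : h - algebraMap K F c₀ = algebraMap K F (c - c₀) := by
    have : h - algebraMap K F c₀ = -algebraMap K F (c₀ - c) := eq_neg_of_add_eq_zero_right h0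
    rw [this, ← map_neg, neg_sub]
  rw [h1, place_ord_algebraMap] at hv
  exact lt_irrefl _ hv

theorem ramH_ord_add_const_of_neg (v : Place K F) (h : F) (c : K) (hv : v.ord h < 0) :
    h + algebraMap K F c ≠ 0 ∧ v.ord (h + algebraMap K F c) = v.ord h := by
  have hh0 : h ≠ 0 := ramH_ne_zero_of_ord_ne v hv.ne
  have hdec : h + algebraMap K F c = h * (1 + algebraMap K F c * h⁻¹) := by
    field_simp
  have hunit : v.ord (1 + algebraMap K F c * h⁻¹) = 0 := by
    have h1 : v.ord (1 : F) = 0 := v.ord_one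
    refine place_ord_add_eq_zero v h1 one_ne_zero ?_
    by_cases hc : c = 0
    · left; rw [hc, map_zero, zero_mul]
    · right
      have hc' : algebraMap K F c ≠ 0 := by rwa [Ne, map_eq_zero]
      rw [v.ord_mul hc' (inv_ne_zero hh0), place_ord_algebraMap, v.ord_inv]
      omega
  have hne : (1 + algebraMap K F c * h⁻¹) ≠ 0 := by
    intro h0
    have h2 : algebraMap K F c * h⁻¹ = -1 := by linear_combination h0
    have h3 : algebraMap K F c = -h := by
      have h5 : algebraMap K F c = (algebraMap K F c * h⁻¹) * h := by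
        rw [mul_assoc, inv_mul_cancel₀ hh0, mul_one]
      rw [h5, h2]; ring
    have h4 : v.ord (algebraMap K F c) = v.ord h := by
      rw [h3]
      have : -h = (-1 : F) * h := by ring
      rw [this, v.ord_mul (by simp) hh0]
      have hneg : v.ord (-1 : F) = 0 := by
        have := place_ord_algebraMap v (-1 : K)
        simpa using this
      rw [hneg, zero_add]
    rw [place_ord_algebraMap] at h4
    omega
  refine ⟨?_, ?_⟩
  · rw [hdec]; exact mul_ne_zero hh0 hne
  · rw [hdec, v.ord_mul hh0 hne, hunit, add_zero]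

theorem ramH_ord_aeval (v : Place K F) (h : F) (c₀ : K)
    (hv : 0 < v.ord (h - algebraMap K F c₀)) (Φ : K[X]) (hΦ : Φ ≠ 0) :
    aeval h Φ ≠ 0 ∧
      v.ord (aeval h Φ) = (Φ.rootMultiplicity c₀ : ℤ) * v.ord (h - algebraMap K F c₀) := by
  have hcomp : Φ.comp (X + C c₀) ≠ 0 := by
    intro h'
    have := congrArg (fun p : K[X] => p.comp (X - C c₀)) h'
    simp only [comp_assoc, add_comp, X_comp, C_comp, sub_add_cancel, comp_X, zero_comp] at this
    exact hΦ this
  have hval : aeval (h - algebraMap K F c₀) (Φ.comp (X + C c₀)) = aeval h Φ := by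
    rw [aeval_comp]
    simp
  obtain ⟨h1, h2⟩ := place_ord_aeval v hv (Φ.comp (X + C c₀)) hcomp
  rw [hval, ← rootMultiplicity_eq_rootMultiplicity] at h2
  rw [hval] at h1
  exact ⟨h1, h2⟩

/-- positive integers: `m * k = 1`, `0 < k` ⇒ `k = 1` -/
theorem ramH_eq_one_of_mul_eq_one {m : ℕ} {k : ℤ} (hk : 0 < k) (h : (m : ℤ) * k = 1) :
    k = 1 := by
  have hd : k ∣ 1 := ⟨m, by rw [mul_comm]; exact h.symm⟩
  exact Int.eq_one_of_dvd_one hk.le hd

/-- `(n k) ∣ n`, `0 < k`, `0 < n` ⇒ `k = 1` -/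
theorem ramH_eq_one_of_mul_dvd {n k : ℤ} (hn : 0 < n) (hk : 0 < k) (h : n * k ∣ n) : k = 1 := by
  have hd : k ∣ 1 := by
    have h1 : n * k ∣ n * 1 := by rwa [mul_one]
    exact (mul_dvd_mul_iff_left hn.ne').mp h1
  exact Int.eq_one_of_dvd_one hk.le hd

end Aux

end Fermat.Agent.INJ
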