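import Fermat.Agent.INJ.RamHAux
import Fermat.Agent.INJ.RamJ

/-!
# (INJ) B2-T: the generic fibre of `F_N` over a line `x` with `j · A(x) = B(x)`

`x : FF N`, `A B : ℚ̄[X]` with `j · A(x) = B(x)`.  At a place `v` with `0 < ord_v (x - c₀)` where
`A(c₀) ≠ 0`, `B(c₀) ≠ 0`, `B(c₀) ≠ 1728 · A(c₀)` (i.e. `j(c₀) ≠ ∞, 0, 1728`), `ord_v (x - c₀) = 1`.
Also: `x` is not constant.
-/

set_option autoImplicit false

namespace Fermat.Agent.INJ

open Polynomial AlgebraicCurve IntermediateField Fermat.Agent.S24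

section Rel

variable (N : ℕ) [NeZero N]

/-- `x` with `j · A(x) = B(x)`, `A(x) ≠ 0` is not a constant. -/
theorem ramH_rel_sub_ne_zero (x : FF N) (A B : Kb[X])
    (hrel : jF N * aeval x A = aeval x B) (hA : aeval x A ≠ 0) (c : Kb) :
    x - algebraMap Kb (FF N) c ≠ 0 := by
  intro h0
  have hx : x = algebraMap Kb (FF N) c := sub_eq_zero.mp h0
  rw [hx, aeval_algebraMap_apply_eq_algebraMap_eval,
    aeval_algebraMap_apply_eq_algebraMap_eval] at hrel
  rw [hx, aeval_algebraMap_apply_eq_algebraMap_eval] at hA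
  have hj : jF N - algebraMap Kb (FF N) (B.eval c / A.eval c) = 0 := by
    rw [map_div₀, sub_eq_zero, eq_div_iff hA]
    exact hrel
  exact jF_sub_ne_zero N _ hj

/-- The order of `j - c` at a place over `x = c₀`, `c = B(c₀)/A(c₀)`. -/
theorem ramH_rel_ord (x : FF N) (A B : Kb[X])
    (hrel : jF N * aeval x A = aeval x B) (v : Place Kb (FF N)) (c₀ : Kb)
    (hv : 0 < v.ord (x - algebraMap Kb (FF N) c₀))
    (hA : A.eval c₀ ≠ 0) :
    ∃ m : ℕ, 0 < m ∧ v.ord (jF N - algebraMap Kb (FF N) (B.eval c₀ / A.eval c₀))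
      = (m : ℤ) * v.ord (x - algebraMap Kb (FF N) c₀) := by
  set c : Kb := B.eval c₀ / A.eval c₀ with hc
  have hA0 : A ≠ 0 := by
    rintro rfl
    simp at hA
  obtain ⟨hAx, hAord⟩ := ramH_ord_aeval v x c₀ hv A hA0
  have hmA : A.rootMultiplicity c₀ = 0 := rootMultiplicity_eq_zero hA
  rw [hmA, Nat.cast_zero, zero_mul] at hAord
  set Φ : Kb[X] := B - C c * A with hΦ
  have hΦx : (jF N - algebraMap Kb (FF N) c) * aeval x A = aeval x Φ := by
    rw [hΦ, map_sub, map_mul, aeval_C, sub_mul, hrel]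
  have hΦ0 : Φ ≠ 0 := by
    intro h
    rw [h, map_zero] at hΦx
    rcases mul_eq_zero.mp hΦx with h1 | h1
    · exact jF_sub_ne_zero N c h1
    · exact hAx h1
  have hroot : Φ.IsRoot c₀ := by
    rw [IsRoot, hΦ, eval_sub, eval_mul, eval_C, hc, div_mul_cancel₀ _ hA, sub_self]
  obtain ⟨hΦne, hΦord⟩ := ramH_ord_aeval v x c₀ hv Φ hΦ0
  refine ⟨Φ.rootMultiplicity c₀, (rootMultiplicity_pos hΦ0).mpr hroot, ?_⟩
  have h1 := congrArg v.ord hΦx
  rw [v.ord_mul (jF_sub_ne_zero N c) hAx, hAord, add_zero, hΦord] at h1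
  exact h1

/-- **Generic fibre**: unramified. -/
theorem ramH_rel_gen (x : FF N) (A B : Kb[X])
    (hrel : jF N * aeval x A = aeval x B) (v : Place Kb (FF N)) (c₀ : Kb)
    (hv : 0 < v.ord (x - algebraMap Kb (FF N) c₀))
    (hA : A.eval c₀ ≠ 0) (hB0 : B.eval c₀ ≠ 0) (hB1728 : B.eval c₀ ≠ 1728 * A.eval c₀) :
    v.ord (x - algebraMap Kb (FF N) c₀) = 1 := by
  obtain ⟨m, hm, hord⟩ := ramH_rel_ord N x A B hrel v c₀ hv hA
  have hc0 : B.eval c₀ / A.eval c₀ ≠ 0 := div_ne_zero hB0 hA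
  have hc1728 : B.eval c₀ / A.eval c₀ ≠ 1728 := by
    intro h
    rw [div_eq_iff hA] at h
    exact hB1728 h
  have hpos : 0 < v.ord (jF N - algebraMap Kb (FF N) (B.eval c₀ / A.eval c₀)) := by
    rw [hord]
    exact mul_pos (by exact_mod_cast hm) hv
  have h1 := ramJ_gen N _ hc0 hc1728 v hpos
  rw [hord] at h1
  exact ramH_eq_one_of_mul_eq_one hv h1

/-- Every place with `0 ≤ ord x` lies over a finite point of the `x`-line. -/
theorem ramH_rel_cases (x : FF N) (hx : ∀ c : Kb, x - algebraMap Kb (FF N) c ≠ 0)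
    (v : Place Kb (FF N)) (hv : 0 ≤ v.ord x) :
    ∃ c₀ : Kb, 0 < v.ord (x - algebraMap Kb (FF N) c₀) := by
  have hmem : x ∈ v.toValuationSubring := PlaceAux.mem_of_ord_nonneg v hv
  obtain ⟨R⟩ := exists_realization N
  have htr := transcendental_jF N
  have hfin : FiniteDimensional Kb⟮jF N⟯ (FF N) := (principal_inputs N R).2.1
  have halg : Algebra.IsAlgebraic Kb⟮jF N⟯ (FF N) := Algebra.IsAlgebraic.of_finite _ _
  obtain ⟨c, hc⟩ := exists_sub_mem_nonunits (jF N) htr halg v _ hmem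
  exact ⟨c, (PlaceAux.ord_pos_iff_mem_nonunits v (hx c)).mpr hc⟩

end Rel

end Fermat.Agent.INJ
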