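import Fermat.Agent.INJ.TSLocal
import Fermat.Agent.INJ.ZariskiCharts
import Fermat.Agent.INJ.TorsionFree
import Fermat.Agent.INJ.ChartFinite
import Fermat.Agent.INJ.ChartInvBasis
import Fermat.Agent.INJ.NGood

/-!
# (INJ) A5: the final assembly of the tame specialization theorem

`tameSpec_of_local`: `NGoodStmt` + `NTameStmt` imply `TameSpecStmt`.

Charts `C₁ = integralClosure A₀[t]`, `C₂ = integralClosure A₀[t⁻¹]`, overlap
`B = integralClosure A₀[t, t⁻¹]`; the abstract glue is `dvd_or_dvd_of_locDomain`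
(LocDomain.lean), Zariski connectedness is `zariski_connected_charts` (A6), the local
statements come from `chart_locDomainAt` / `chart_inv_locDomainAt` (TSLocal.lean), and the chart
at infinity has a good basis by `ChartInv.tsGoodBasis_inv`.
-/

set_option autoImplicit false
set_option linter.unusedSectionVars false
set_option linter.style.haveILetI false

namespace Fermat.Agent.INJ

open Polynomial IntermediateField AlgebraicCurve

universe u

section Glue

variable {A₀ E Lf : Type u} [CommRing A₀] [IsDomain A₀] [IsDiscreteValuationRing A₀]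
  [Field E] [Algebra A₀ E] [IsFractionRing A₀ E] [CharZero E]
  [Field Lf] [Algebra E Lf] [Algebra A₀ Lf] [IsScalarTower A₀ E Lf]
  {π : A₀}

/-- divisibility by `π` in an integral closure, elementwise -/
theorem tsg_dvd_iff (R : Subalgebra A₀ Lf) (x : integralClosure R Lf) :
    algebraMap A₀ (integralClosure R Lf) π ∣ x ↔
      ∃ y : Lf, IsIntegral R y ∧ (x : Lf) = algebraMap A₀ Lf π * y := by
  constructor
  · rintro ⟨d, hd⟩
    exact ⟨d.1, d.2, congrArg Subtype.val hd⟩
  · rintro ⟨y, hy, hxy⟩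
    exact ⟨⟨y, hy⟩, Subtype.ext hxy⟩

/-- the inclusion of integral closures for `R ≤ R'` -/
noncomputable def tsgIncl {R R' : Subalgebra A₀ Lf} (h : R ≤ R') :
    integralClosure R Lf →+* integralClosure R' Lf where
  toFun x := ⟨x.1, zch_isIntegral_mono h x.2⟩
  map_one' := rfl
  map_mul' _ _ := rfl
  map_zero' := rfl
  map_add' _ _ := rfl

theorem tsgIncl_coe {R R' : Subalgebra A₀ Lf} (h : R ≤ R') (x : integralClosure R Lf) :
    ((tsgIncl h x : integralClosure R' Lf) : Lf) = (x : Lf) := rfl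

/-- finite-dimensionality is invariant under equality of intermediate fields -/
theorem tsg_finiteDimensional_of_eq {K K' : IntermediateField E Lf} (h : K = K')
    [FiniteDimensional K Lf] : FiniteDimensional K' Lf := by
  subst h; infer_instance

/-- `π` does not divide a power of the coordinate -/
theorem tsg_not_dvd_pow {τ : Lf} (hτ : Transcendental E τ) (hπ : Irreducible π) (k : ℕ) :
    ¬ algebraMap A₀ (Algebra.adjoin A₀ {τ}) π ∣ (chartEquiv hτ (X : A₀[X])) ^ k := by
  intro h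
  have h1 := (chart_prime hτ hπ).dvd_of_dvd_pow h
  rw [← chartEquiv_C hτ] at h1
  have h2 : (C π : A₀[X]) ∣ X := by
    obtain ⟨d, hd⟩ := h1
    refine ⟨(chartEquiv hτ).symm d, ?_⟩
    apply (chartEquiv hτ).injective
    rw [hd, map_mul, AlgEquiv.apply_symm_apply]
  rw [Polynomial.C_dvd_iff_dvd_coeff] at h2
  have h3 := h2 1
  rw [coeff_X_one] at h3
  exact hπ.not_isUnit (isUnit_of_dvd_one h3)

/-- saturation: an element of the chart `A₀[u]` which is divisible by `π` on the overlap is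
divisible by `π` on the chart -/
theorem tsg_sat (hπ : Irreducible π) {u u' : Lf} (hu : Transcendental E u) (huu' : u * u' = 1)
    {x y : Lf} (hx : IsIntegral (Algebra.adjoin A₀ {u}) x)
    (hy : IsIntegral (Algebra.adjoin A₀ {u, u'}) y) (hxy : x = algebraMap A₀ Lf π * y) :
    IsIntegral (Algebra.adjoin A₀ {u}) y := by
  obtain ⟨k, hk⟩ := zch_exists_pow_mul_isIntegral huu' hy
  haveI := chart_isIntegrallyClosed (A₀ := A₀) (E := E) hu
  have hπR := chart_prime hu hπ
  have hf := tsg_not_dvd_pow hu hπ k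
  have hinj := zch_algebraMap_injective (A₀ := A₀) (E := E) (L := Lf)
  have hπ0 : algebraMap A₀ Lf π ≠ 0 := (map_ne_zero_iff _ hinj).mpr hπ.ne_zero
  have h' : ((chartEquiv hu (X : A₀[X])) ^ k) • x
      = (algebraMap A₀ (Algebra.adjoin A₀ {u}) π) • (u ^ k * y) := by
    rw [Algebra.smul_def, Algebra.smul_def]
    have e1 : algebraMap (Algebra.adjoin A₀ {u}) Lf ((chartEquiv hu (X : A₀[X])) ^ k)
        = u ^ k := by
      rw [map_pow]
      congr 1
      exact chartEquiv_X hu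
    have e2 : algebraMap (Algebra.adjoin A₀ {u}) Lf (algebraMap A₀ (Algebra.adjoin A₀ {u}) π)
        = algebraMap A₀ Lf π := rfl
    rw [e1, e2, hxy]
    ring
  obtain ⟨z, hz, hxz⟩ := exists_isIntegral_smul_eq hπR hf hx hk h'
  have hzy : z = y := by
    have e2 : algebraMap (Algebra.adjoin A₀ {u}) Lf (algebraMap A₀ (Algebra.adjoin A₀ {u}) π)
        = algebraMap A₀ Lf π := rfl
    rw [Algebra.smul_def, e2, hxy] at hxz
    exact (mul_left_cancel₀ hπ0 hxz).symm
  rw [← hzy]
  exact hz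

/-- `π` is not a unit of the chart -/
theorem tsg_not_isUnit {τ : Lf} (hτ : Transcendental E τ) (hπ : Irreducible π) :
    ¬ IsUnit (algebraMap A₀ (integralClosure (Algebra.adjoin A₀ {τ}) Lf) π) := by
  intro hunit
  have hπR := chart_prime hτ hπ
  haveI hprime : (Ideal.span {algebraMap A₀ ↥(Algebra.adjoin A₀ {τ}) π}).IsPrime :=
    (Ideal.span_singleton_prime hπR.ne_zero).mpr hπR
  obtain ⟨Q, -, hQ, hQP⟩ := Ideal.exists_ideal_over_prime_of_isIntegral
    (S := integralClosure (Algebra.adjoin A₀ {τ}) Lf)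
    (Ideal.span {algebraMap A₀ ↥(Algebra.adjoin A₀ {τ}) π}) ⊥ (by
      intro r hr
      rw [Ideal.mem_comap, Ideal.mem_bot] at hr
      have hr0 : r = 0 := by
        apply Subtype.ext
        have := congrArg Subtype.val hr
        exact this
      rw [hr0]
      exact Ideal.zero_mem _)
  have hmem : algebraMap A₀ (integralClosure (Algebra.adjoin A₀ {τ}) Lf) π ∈ Q := by
    have h1 : algebraMap A₀ ↥(Algebra.adjoin A₀ {τ}) π ∈
        Q.comap (algebraMap ↥(Algebra.adjoin A₀ {τ})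
          (integralClosure (Algebra.adjoin A₀ {τ}) Lf)) := by
      rw [hQP]
      exact Ideal.mem_span_singleton_self _
    exact h1
  exact hQ.ne_top (Ideal.eq_top_of_isUnit_mem _ hmem hunit)

/-- **A5: the tame specialization theorem, from the two local normality statements.** -/
theorem tameSpec_of_local (hG : NGoodStmt.{u}) (hT : NTameStmt.{u}) : TameSpecStmt.{u} := by
  intro A₀ E Lf _ _ _ _ _ _ _ _ _ _ _ π hπ t ht _ hcl hgood S hS hb e he hζ htame hP₀
  have ht0 : t ≠ 0 := by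
    rintro rfl
    exact ht isAlgebraic_zero
  have htt' : t * t⁻¹ = 1 := mul_inv_cancel₀ ht0
  have ht't : t⁻¹ * t = 1 := inv_mul_cancel₀ ht0
  have hinv : Transcendental E t⁻¹ := zch_transcendental_inv ht
  haveI : FiniteDimensional E⟮t⁻¹⟯ Lf := tsg_finiteDimensional_of_eq (zch_adjoin_inv t)
  have hgood' : TSGoodBasis (E := E) π t⁻¹ := ChartInv.tsGoodBasis_inv hπ ht hgood
  have hinj := zch_algebraMap_injective (A₀ := A₀) (E := E) (L := Lf)
  have hπ0 : algebraMap A₀ Lf π ≠ 0 := (map_ne_zero_iff _ hinj).mpr hπ.ne_zero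
  have hsub₁ : Algebra.adjoin A₀ ({t} : Set Lf) ≤ Algebra.adjoin A₀ {t, t⁻¹} :=
    Algebra.adjoin_mono (by intro x hx; exact Or.inl hx)
  have hsub₂ : Algebra.adjoin A₀ ({t⁻¹} : Set Lf) ≤ Algebra.adjoin A₀ {t, t⁻¹} :=
    Algebra.adjoin_mono (by intro x hx; exact Or.inr hx)
  have hpair : ({t⁻¹, t} : Set Lf) = {t, t⁻¹} := Set.pair_comm _ _
  haveI : IsNoetherianRing (integralClosure (Algebra.adjoin A₀ {t}) Lf) :=
    chart_closure_isNoetherianRing (A₀ := A₀) (E := E) ht
  -- the place at infinity serves every branch point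
  have hP₀' : ∀ c ∈ S, ∃ P₀ : Place E Lf, P₀.ord (t - algebraMap A₀ Lf c) = 1 ∨
      P₀.ord (t - algebraMap A₀ Lf c) = -1 := by
    intro c _
    obtain ⟨P₀, hP₀⟩ := hP₀
    refine ⟨P₀, Or.inr ?_⟩
    rcases eq_or_ne (algebraMap A₀ Lf c) 0 with h0 | h0
    · rw [h0, sub_zero]; exact hP₀
    · rw [sub_eq_add_neg]
      rw [Fermat.Agent.S24.PlaceAux.ord_add_eq_of_lt P₀ ht0 (neg_ne_zero.mpr h0)]
      · exact hP₀
      · rw [Fermat.Agent.S24.PlaceAux.ord_neg, centre_ord_algebraMap, hP₀]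
        norm_num
  have hloc₁ : LocDomain (integralClosure (Algebra.adjoin A₀ {t}) Lf)
      (algebraMap A₀ (integralClosure (Algebra.adjoin A₀ {t}) Lf) π) :=
    locDomain_of_forall_maximal (fun m hm hπm =>
      chart_locDomainAt hG hT hπ ht hgood S hS hb e he hζ htame.1 hP₀' m hm hπm)
  have hloc₂ : ∀ m : Ideal (integralClosure (Algebra.adjoin A₀ {t⁻¹}) Lf), m.IsMaximal →
      algebraMap A₀ (integralClosure (Algebra.adjoin A₀ {t⁻¹}) Lf) π ∈ m →
      chartElt hinv X ∈ m →
      LocDomainAt (integralClosure (Algebra.adjoin A₀ {t⁻¹}) Lf)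
        (algebraMap A₀ (integralClosure (Algebra.adjoin A₀ {t⁻¹}) Lf) π) m :=
    fun m hm hπm hσm =>
      chart_inv_locDomainAt hT hπ ht hinv hgood' S hb e he hζ htame.2 hP₀ m hm hπm hσm
  refine ⟨?_, tsg_not_isUnit ht hπ, ?_⟩
  · intro h0
    apply hπ0
    have := congrArg Subtype.val h0
    exact this
  · intro x y hxy
    refine dvd_or_dvd_of_locDomain (tsgIncl hsub₁) (tsgIncl hsub₂)
      (algebraMap A₀ (integralClosure (Algebra.adjoin A₀ {t}) Lf) π)
      (algebraMap A₀ (integralClosure (Algebra.adjoin A₀ {t⁻¹}) Lf) π)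
      (algebraMap A₀ (integralClosure (Algebra.adjoin A₀ {t, t⁻¹}) Lf) π)
      (Subtype.ext rfl) (Subtype.ext rfl) ?_ (chartElt hinv X) ?_ ?_ hloc₁ hloc₂ ?_ hxy
    · -- saturation of the chart at infinity
      intro z hz
      obtain ⟨y', hy', hzy'⟩ := (tsg_dvd_iff _ _).mp hz
      rw [tsgIncl_coe] at hzy'
      rw [← hpair] at hy'
      exact (tsg_dvd_iff _ _).mpr ⟨y', tsg_sat hπ hinv ht't z.2 hy' hzy', hzy'⟩
    · -- the overlap is the localization of the chart at infinity at `t⁻¹`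
      intro b
      have hb' : IsIntegral (Algebra.adjoin A₀ {t⁻¹, t}) (b : Lf) := by
        rw [hpair]; exact b.2
      obtain ⟨k, hk⟩ := zch_exists_pow_mul_isIntegral ht't hb'
      refine ⟨k, ⟨_, hk⟩, Subtype.ext ?_⟩
      rw [Subalgebra.coe_mul, SubmonoidClass.coe_pow, tsgIncl_coe, tsgIncl_coe, chartElt_coe,
        aeval_X]
    · -- `t⁻¹` is a unit on the overlap
      intro b hb
      obtain ⟨y', hy', hby'⟩ := (tsg_dvd_iff _ _).mp hb
      have htB : IsIntegral (Algebra.adjoin A₀ {t, t⁻¹}) t :=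
        isIntegral_algebraMap (R := Algebra.adjoin A₀ ({t, t⁻¹} : Set Lf))
          (x := ⟨t, Algebra.subset_adjoin (Or.inl rfl)⟩)
      refine (tsg_dvd_iff _ _).mpr ⟨t * y', htB.mul hy', ?_⟩
      rw [Subalgebra.coe_mul, tsgIncl_coe, chartElt_coe, aeval_X] at hby'
      calc (b : Lf) = t * (t⁻¹ * (b : Lf)) := by rw [← mul_assoc, htt', one_mul]
        _ = algebraMap A₀ Lf π * (t * y') := by rw [hby']; ring
    · -- Zariski connectedness
      intro e₁ e₂ h₁ h₂ h₁₂
      obtain ⟨c₁, hc₁, hec₁⟩ := (tsg_dvd_iff _ _).mp h₁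
      obtain ⟨c₂, hc₂, hec₂⟩ := (tsg_dvd_iff _ _).mp h₂
      obtain ⟨c, hc, hec⟩ := (tsg_dvd_iff _ _).mp h₁₂
      rw [Subalgebra.coe_sub, Subalgebra.coe_mul] at hec₁ hec₂
      rw [Subalgebra.coe_sub, tsgIncl_coe, tsgIncl_coe] at hec
      rcases zariski_connected_charts hπ ht hcl e₁.2 e₂.2 ⟨c₁, hc₁, hec₁⟩ ⟨c₂, hc₂, hec₂⟩
        ⟨c, hc, hec⟩ with ⟨y₁, hy₁, hey₁⟩ | ⟨y₁, hy₁, hey₁⟩
      · exact Or.inl ((tsg_dvd_iff _ _).mpr ⟨y₁, hy₁, hey₁⟩)
      · refine Or.inr ((tsg_dvd_iff _ _).mpr ⟨y₁, hy₁, ?_⟩)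
        rw [Subalgebra.coe_sub, Subalgebra.coe_one]
        exact hey₁

end Glue

/-- **A5**, with `NGoodStmt` (T3, `nGoodStmt`) discharged: only `NTameStmt` remains. -/
theorem tameSpec_of_nTame (hT : NTameStmt.{u}) : TameSpecStmt.{u} :=
  tameSpec_of_local nGoodStmt hT

end Fermat.Agent.INJ
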