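import Fermat.Agent.INJ.TSStmt
import Fermat.Agent.INJ.LocDomain

/-!
# (INJ) Part A, glue: the two local normality statements consumed by A5

Chart: `τ : Lf` (`τ = t` or `τ = t⁻¹`), `R = Algebra.adjoin A₀ {τ}`, `C = integralClosure R Lf`.

* `NGoodStmt` (N-good): `C / π` is a domain locally at a maximal ideal `m ∋ π` such that every
  irreducible `r ∈ R` with `r ∈ m` is unramified in `Lf` (all places `P` with `0 < ord_P r` have
  `ord_P r = 1`).  [= A3 (helper91) + A2 (helper29) + DiscLocal (helper27) + bridge T2 + T1]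
* `NTameStmt` (N-tame): the same at a maximal ideal `m ∋ π, τ - c` when `τ - c` is tamely ramified
  (indices divide `e`, `e` a unit of `A₀`, `μ_e ⊂ A₀`), all other irreducible `r ∈ m` are
  unramified, and some place `P₀` has `ord (τ - c) = ± 1`.
  [= A4: Kummer base change `s ^ e = τ - c` + N-good for `(Lf(s), s)` + invariants; or G-abs]

`LocDomainAt C p m` (LocDomain.lean) is `∀ x y, p ∣ x * y → ∃ u ∉ m, p ∣ u * x ∨ p ∣ u * y`
(= helper81's `PiLocallyPrimeAt p m`).
-/

set_option autoImplicit false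

namespace Fermat.Agent.INJ

open Polynomial IntermediateField AlgebraicCurve

universe u

/-- **(N-good)**: normality of the special fibre at a point over which `Lf` is unramified. -/
def NGoodStmt : Prop :=
  ∀ (A₀ E Lf : Type u) [CommRing A₀] [IsDomain A₀] [IsDiscreteValuationRing A₀]
    [Field E] [Algebra A₀ E] [IsFractionRing A₀ E] [CharZero E]
    [Field Lf] [Algebra E Lf] [Algebra A₀ Lf] [IsScalarTower A₀ E Lf]
    (π : A₀) (_ : Irreducible π) (τ : Lf) (_ : Transcendental E τ) [FiniteDimensional E⟮τ⟯ Lf]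
    (_ : TSGoodBasis (E := E) π τ)
    (m : Ideal (integralClosure (Algebra.adjoin A₀ {τ}) Lf)) (_ : m.IsMaximal)
    (_ : algebraMap A₀ (integralClosure (Algebra.adjoin A₀ {τ}) Lf) π ∈ m)
    (_ : ∀ (P : Place E Lf) (r : Algebra.adjoin A₀ {τ}), Irreducible r →
        algebraMap (Algebra.adjoin A₀ {τ}) (integralClosure (Algebra.adjoin A₀ {τ}) Lf) r ∈ m →
        0 < P.ord (r : Lf) → P.ord (r : Lf) = 1),
    LocDomainAt (integralClosure (Algebra.adjoin A₀ {τ}) Lf)
      (algebraMap A₀ (integralClosure (Algebra.adjoin A₀ {τ}) Lf) π) m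

/-- **(N-tame)**: normality of the special fibre at a point over a tame branch point `τ = c`. -/
def NTameStmt : Prop :=
  ∀ (A₀ E Lf : Type u) [CommRing A₀] [IsDomain A₀] [IsDiscreteValuationRing A₀]
    [Field E] [Algebra A₀ E] [IsFractionRing A₀ E] [CharZero E]
    [Field Lf] [Algebra E Lf] [Algebra A₀ Lf] [IsScalarTower A₀ E Lf]
    (π : A₀) (_ : Irreducible π) (τ : Lf) (_ : Transcendental E τ) [FiniteDimensional E⟮τ⟯ Lf]
    (_ : TSGoodBasis (E := E) π τ)
    (c : A₀) (e : ℕ) (_ : IsUnit (e : A₀)) (_ : ∃ ζ : A₀, IsPrimitiveRoot ζ e)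
    (_ : ∀ P : Place E Lf, 0 < P.ord (τ - algebraMap A₀ Lf c) →
        P.ord (τ - algebraMap A₀ Lf c) ∣ (e : ℤ))
    (_ : ∃ P₀ : Place E Lf, P₀.ord (τ - algebraMap A₀ Lf c) = 1 ∨
        P₀.ord (τ - algebraMap A₀ Lf c) = -1)
    (m : Ideal (integralClosure (Algebra.adjoin A₀ {τ}) Lf)) (_ : m.IsMaximal)
    (_ : algebraMap A₀ (integralClosure (Algebra.adjoin A₀ {τ}) Lf) π ∈ m)
    (_ : ∀ r₀ : Algebra.adjoin A₀ {τ}, (r₀ : Lf) = τ - algebraMap A₀ Lf c →
        algebraMap (Algebra.adjoin A₀ {τ}) (integralClosure (Algebra.adjoin A₀ {τ}) Lf) r₀ ∈ m)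
    (_ : ∀ (P : Place E Lf) (r : Algebra.adjoin A₀ {τ}), Irreducible r →
        algebraMap (Algebra.adjoin A₀ {τ}) (integralClosure (Algebra.adjoin A₀ {τ}) Lf) r ∈ m →
        0 < P.ord (r : Lf) → P.ord (τ - algebraMap A₀ Lf c) = 0 → P.ord (r : Lf) = 1),
    LocDomainAt (integralClosure (Algebra.adjoin A₀ {τ}) Lf)
      (algebraMap A₀ (integralClosure (Algebra.adjoin A₀ {τ}) Lf) π) m

end Fermat.Agent.INJ
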