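import Mathlib

/-!
# (INJ) piece B2-UL, core: adjoining a root of a monic separable polynomial is unramified

`V` a valuation subring of a field `L`, `R ⊆ V` a subring which is a "`π`-adic valuation ring"
(`UnramBase`: elements of `R` of value `< 1` are divisible by `π` in `R`, elements of value `1`
are units of `R`).  If `α ∈ L` is a root of a monic separable `f ∈ R[X]`, then the value of every
polynomial expression `P(α)`, `P ∈ R[X]`, is a power of the value of `π`
(`UnramBase.val_eq_pow`).  No residue fields, no completions: division by a monic `G` of minimal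
degree with `v (G(α)) < 1`.
-/

set_option autoImplicit false

open Polynomial

namespace Fermat.Agent.INJ

section Core

variable {L : Type*} [Field L] (V : ValuationSubring L)

/-- The hypotheses on the base ring `R ⊆ V` (a "`π`-adic valuation ring inside `V`"). -/
structure UnramBase (R : Subring L) (π : L) : Prop where
  le : ∀ x ∈ R, x ∈ V
  pi_mem : π ∈ R
  pi_lt : V.valuation π < 1
  pi_ne : π ≠ 0
  div_pi : ∀ x ∈ R, V.valuation x < 1 → ∃ y ∈ R, x = π * y
  inv_mem : ∀ x ∈ R, V.valuation x = 1 → x⁻¹ ∈ R

variable {V} {R : Subring L} {π : L}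

theorem UnramBase.val_le_one (h : UnramBase V R π) (x : R) : V.valuation (x : L) ≤ 1 :=
  (V.valuation_le_one_iff _).mpr (h.le _ x.2)

/-- a root of a monic polynomial over `R` lies in `V`. -/
theorem UnramBase.root_mem (h : UnramBase V R π) {α : L} {f : R[X]} (hf : f.Monic)
    (hα : aeval α f = 0) : V.valuation α ≤ 1 := by
  rw [V.valuation_le_one_iff]
  have hint : IsIntegral V α := by
    let φ : R →+* V := Subring.inclusion (S := R) (T := V.toSubring) (fun x hx => h.le x hx)
    refine ⟨f.map φ, hf.map φ, ?_⟩
    rw [eval₂_map]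
    have hφ : (algebraMap V L).comp φ = algebraMap R L := rfl
    rw [hφ, ← aeval_def]
    exact hα
  obtain ⟨y, hy⟩ := (IsIntegrallyClosed.isIntegral_iff (R := V) (K := L)).mp hint
  rw [← hy]
  exact y.2

theorem UnramBase.val_aeval_le_one (h : UnramBase V R π) {α : L} (hα : V.valuation α ≤ 1)
    (P : R[X]) : V.valuation (aeval α P) ≤ 1 := by
  rw [aeval_eq_sum_range]
  refine Valuation.map_sum_le _ fun i _ => ?_
  rw [Algebra.smul_def, map_mul, map_pow]
  exact mul_le_one' (h.val_le_one _) (pow_le_one' hα _)

/-- values of polynomials with small value: `v (x) < 1` from a decomposition. -/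
theorem UnramBase.val_lt_of_decomp (h : UnramBase V R π) {α : L} (hα : V.valuation α ≤ 1)
    {G : R[X]} (hG : V.valuation (aeval α G) < 1) (A B : R[X]) :
    V.valuation (aeval α (G * A + C (⟨π, h.pi_mem⟩ : R) * B)) < 1 := by
  rw [map_add, map_mul, map_mul, aeval_C]
  refine lt_of_le_of_lt (Valuation.map_add _ _ _) (max_lt ?_ ?_)
  · rw [map_mul]
    calc V.valuation (aeval α G) * V.valuation (aeval α A)
        ≤ V.valuation (aeval α G) * 1 := by
          gcongr
          exact h.val_aeval_le_one hα A
      _ < 1 := by rwa [mul_one]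
  · rw [map_mul]
    have : V.valuation ((algebraMap R L) ⟨π, h.pi_mem⟩) = V.valuation π := rfl
    rw [this]
    calc V.valuation π * V.valuation (aeval α B)
        ≤ V.valuation π * 1 := by
          gcongr
          exact h.val_aeval_le_one hα B
      _ < 1 := by rw [mul_one]; exact h.pi_lt

/-- Coefficients of a low degree polynomial with small value are small. -/
theorem UnramBase.coeff_lt_of_minimal (h : UnramBase V R π) {α : L} (hα : V.valuation α ≤ 1)
    (d : ℕ) (hmin : ∀ G : R[X], G.Monic → G.natDegree < d → ¬ V.valuation (aeval α G) < 1) :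
    ∀ (n : ℕ) (r : R[X]), r.natDegree ≤ n → n < d → V.valuation (aeval α r) < 1 →
      ∀ i, V.valuation (r.coeff i : L) < 1 := by
  intro n
  induction n with
  | zero =>
    intro r hr hd hv i
    have hrC : r = C (r.coeff 0) := eq_C_of_natDegree_le_zero hr
    have hv0 : V.valuation (r.coeff 0 : L) < 1 := by
      rw [hrC, aeval_C] at hv
      exact hv
    rcases Nat.eq_zero_or_pos i with hi | hi
    · rw [hi]; exact hv0
    · rw [coeff_eq_zero_of_natDegree_lt (lt_of_le_of_lt hr hi)]
      simp
  | succ n ih =>
    intro r hr hd hv i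
    by_cases hrn : r.natDegree ≤ n
    · exact ih r hrn (by omega) hv i
    have hrn' : r.natDegree = n + 1 := by omega
    have hr0 : r ≠ 0 := by
      rintro rfl
      simp at hrn'
    -- the leading coefficient is small
    have hc : V.valuation (r.leadingCoeff : L) < 1 := by
      by_contra hc
      have hc1 : V.valuation (r.leadingCoeff : L) = 1 :=
        le_antisymm (h.val_le_one _) (not_lt.mp hc)
      have hinv := h.inv_mem _ r.leadingCoeff.2 hc1
      set c' : R := ⟨(r.leadingCoeff : L)⁻¹, hinv⟩ with hc'
      have hcc : c' * r.leadingCoeff = 1 := by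
        apply Subtype.ext
        have hne : (r.leadingCoeff : L) ≠ 0 := by
          intro h0
          rw [h0] at hc1
          simp at hc1
        simp [hc', inv_mul_cancel₀ hne]
      have hmonic : (C c' * r).Monic := by
        rw [Monic, leadingCoeff_mul', leadingCoeff_C, hcc]
        rw [leadingCoeff_C, hcc]
        exact one_ne_zero
      have hdeg : (C c' * r).natDegree < d := by
        calc (C c' * r).natDegree ≤ r.natDegree := natDegree_C_mul_le _ _
          _ < d := by omega
      apply hmin _ hmonic hdeg
      rw [map_mul, aeval_C, map_mul]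
      have h1 : V.valuation ((algebraMap R L) c') ≤ 1 := h.val_le_one c'
      calc V.valuation ((algebraMap R L) c') * V.valuation (aeval α r)
          ≤ 1 * V.valuation (aeval α r) := by gcongr
        _ < 1 := by rwa [one_mul]
    -- erase the leading term
    have hdec := eraseLead_add_C_mul_X_pow r
    have hv' : V.valuation (aeval α r.eraseLead) < 1 := by
      have : aeval α r.eraseLead = aeval α r - (r.leadingCoeff : L) * α ^ r.natDegree := by
        have h2 : aeval α r = aeval α r.eraseLead + (r.leadingCoeff : L) * α ^ r.natDegree := by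
          conv_lhs => rw [← hdec]
          rw [map_add, map_mul, aeval_C, map_pow, aeval_X]
          rfl
        rw [h2, add_sub_cancel_right]
      rw [this]
      refine lt_of_le_of_lt (Valuation.map_sub _ _ _) (max_lt hv ?_)
      rw [map_mul, map_pow]
      calc V.valuation (r.leadingCoeff : L) * V.valuation α ^ r.natDegree
          ≤ V.valuation (r.leadingCoeff : L) * 1 := by
            gcongr
            exact pow_le_one' hα _
        _ < 1 := by rwa [mul_one]
    have hdeg' : r.eraseLead.natDegree ≤ n := by
      have := eraseLead_natDegree_le r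
      omega
    have ih' := ih r.eraseLead hdeg' (by omega) hv'
    by_cases hi : i = r.natDegree
    · rw [hi]; exact hc
    · have := ih' i
      rwa [eraseLead_coeff_of_ne _ hi] at this

/-- Division with remainder by a minimal `G`: the remainder is divisible by `π`. -/
theorem UnramBase.exists_decomp (h : UnramBase V R π) {α : L} (hα : V.valuation α ≤ 1)
    {G : R[X]} (hGm : G.Monic) (hG : V.valuation (aeval α G) < 1)
    (hmin : ∀ G' : R[X], G'.Monic → G'.natDegree < G.natDegree →
      ¬ V.valuation (aeval α G') < 1)
    (P : R[X]) (hP : V.valuation (aeval α P) < 1) :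
    ∃ Q S : R[X], P = G * Q + C (⟨π, h.pi_mem⟩ : R) * S := by
  have hnt : Nontrivial R := inferInstance
  have hG1 : G ≠ 1 := by
    rintro rfl
    simp at hG
  have hdec := modByMonic_add_div P G
  set r := P %ₘ G with hr
  have hrdeg : r.natDegree < G.natDegree := natDegree_modByMonic_lt P hGm hG1
  have hrv : V.valuation (aeval α r) < 1 := by
    have : aeval α r = aeval α P - aeval α G * aeval α (P /ₘ G) := by
      have h2 := congrArg (aeval α) hdec
      rw [map_add, map_mul] at h2
      rw [← h2, add_sub_cancel_right]
    rw [this]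
    refine lt_of_le_of_lt (Valuation.map_sub _ _ _) (max_lt hP ?_)
    rw [map_mul]
    calc V.valuation (aeval α G) * V.valuation (aeval α (P /ₘ G))
        ≤ V.valuation (aeval α G) * 1 := by
          gcongr
          exact h.val_aeval_le_one hα _
      _ < 1 := by rwa [mul_one]
  have hcoeff := h.coeff_lt_of_minimal hα G.natDegree hmin r.natDegree r le_rfl hrdeg hrv
  have hdvd : C (⟨π, h.pi_mem⟩ : R) ∣ r := by
    rw [C_dvd_iff_dvd_coeff]
    intro i
    obtain ⟨y, hy, hxy⟩ := h.div_pi _ (r.coeff i).2 (hcoeff i)
    exact ⟨⟨y, hy⟩, Subtype.ext hxy⟩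
  obtain ⟨S, hS⟩ := hdvd
  exact ⟨P /ₘ G, S, by rw [← hS, add_comm]; exact hdec.symm⟩

/-- Existence of a minimal monic `G` with small value at `α`. -/
theorem UnramBase.exists_minimal (_h : UnramBase V R π) {α : L} {f : R[X]} (hf : f.Monic)
    (hα : aeval α f = 0) :
    ∃ G : R[X], G.Monic ∧ V.valuation (aeval α G) < 1 ∧
      ∀ G' : R[X], G'.Monic → G'.natDegree < G.natDegree → ¬ V.valuation (aeval α G') < 1 := by
  classical
  let p : ℕ → Prop := fun d => ∃ G : R[X], G.Monic ∧ G.natDegree = d ∧ V.valuation (aeval α G) < 1
  have hex : ∃ d, p d := ⟨f.natDegree, f, hf, rfl, by rw [hα]; simp⟩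
  obtain ⟨G, hGm, hGd, hGv⟩ := Nat.find_spec hex
  refine ⟨G, hGm, hGv, fun G' hG'm hlt hv => ?_⟩
  rw [hGd] at hlt
  exact Nat.find_min hex hlt ⟨G', hG'm, rfl, hv⟩

/-- The cofactor `H` with `f = G H + π S` is a unit at `α`. -/
theorem UnramBase.exists_cofactor (h : UnramBase V R π) {α : L} {f : R[X]} (hf : f.Monic)
    (hsep : f.Separable) (hα : aeval α f = 0) :
    ∃ G H S : R[X], V.valuation (aeval α G) < 1 ∧ V.valuation (aeval α H) = 1 ∧
      f = G * H + C (⟨π, h.pi_mem⟩ : R) * S ∧
      ∀ P : R[X], V.valuation (aeval α P) < 1 →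
        ∃ Q S' : R[X], P = G * Q + C (⟨π, h.pi_mem⟩ : R) * S' := by
  have hαV := h.root_mem hf hα
  obtain ⟨G, hGm, hGv, hmin⟩ := h.exists_minimal hf hα
  have hdecomp := h.exists_decomp hαV hGm hGv hmin
  obtain ⟨H, S, hfH⟩ := hdecomp f (by rw [hα]; simp)
  refine ⟨G, H, S, hGv, ?_, hfH, hdecomp⟩
  refine le_antisymm (h.val_aeval_le_one hαV H) (not_lt.mp fun hH => ?_)
  obtain ⟨Q', S₂, hH'⟩ := hdecomp H hH
  obtain ⟨a, b, hab⟩ := hsep
  set p' : R[X] := C (⟨π, h.pi_mem⟩ : R) with hp'
  have hf2 : f = G * (G * Q') + p' * (G * S₂ + S) := by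
    rw [hfH, hH']; ring
  have hder : derivative f = G * (derivative G * Q' + derivative (G * Q'))
      + p' * derivative (G * S₂ + S) := by
    rw [hf2, derivative_add, derivative_mul (f := G), hp', derivative_C_mul]
    ring
  have hone : (1 : R[X]) = G * (a * (G * Q') + b * (derivative G * Q' + derivative (G * Q')))
      + p' * (a * (G * S₂ + S) + b * derivative (G * S₂ + S)) := by
    rw [← hab]
    conv_lhs => rw [hder]
    conv_lhs => rw [hf2]
    ring
  have hlt := h.val_lt_of_decomp hαV hGv
    (a * (G * Q') + b * (derivative G * Q' + derivative (G * Q')))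
    (a * (G * S₂ + S) + b * derivative (G * S₂ + S))
  rw [← hp', ← hone] at hlt
  simp at hlt

/-- **Core of the unramifiedness lemma**: the value of every polynomial expression in `α`
is a power of the value of `π`, as soon as it is bounded below by such a power. -/
theorem UnramBase.val_eq_pow (h : UnramBase V R π) {α : L} {f : R[X]} (hf : f.Monic)
    (hsep : f.Separable) (hα : aeval α f = 0) :
    ∀ (N : ℕ) (P : R[X]), aeval α P ≠ 0 → V.valuation π ^ N ≤ V.valuation (aeval α P) →
      ∃ n : ℕ, V.valuation (aeval α P) = V.valuation π ^ n := by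
  have hαV := h.root_mem hf hα
  obtain ⟨G, H, S, hGv, hHv, hfH, hdecomp⟩ := h.exists_cofactor hf hsep hα
  have hπv : V.valuation π ≠ 0 := (Valuation.ne_zero_iff _).mpr h.pi_ne
  intro N
  induction N with
  | zero =>
    intro P _ hle
    refine ⟨0, ?_⟩
    rw [pow_zero] at hle ⊢
    exact le_antisymm (h.val_aeval_le_one hαV P) hle
  | succ N ih =>
    intro P hP0 hle
    by_cases hP1 : V.valuation (aeval α P) < 1
    · obtain ⟨Q, S', hPd⟩ := hdecomp P hP1
      set p' : R[X] := C (⟨π, h.pi_mem⟩ : R) with hp'
      have hkey : H * P = f * Q + p' * (H * S' - S * Q) := by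
        rw [hPd, hfH]; ring
      have hev : aeval α H * aeval α P = π * aeval α (H * S' - S * Q) := by
        have := congrArg (aeval α) hkey
        rw [map_mul, map_add, map_mul, hα, zero_mul, zero_add, map_mul, hp', aeval_C] at this
        exact this
      have hval : V.valuation (aeval α P) = V.valuation π * V.valuation (aeval α (H * S' - S * Q)) := by
        have := congrArg V.valuation hev
        rwa [map_mul, hHv, one_mul, map_mul] at this
      have hP1ne : aeval α (H * S' - S * Q) ≠ 0 := by
        intro h0
        rw [h0, mul_zero] at hev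
        have hH0 : aeval α H ≠ 0 := by
          intro hH0
          rw [hH0] at hHv
          simp at hHv
        exact hP0 ((mul_eq_zero.mp hev).resolve_left hH0)
      have hle' : V.valuation π ^ N ≤ V.valuation (aeval α (H * S' - S * Q)) := by
        rw [hval, pow_succ'] at hle
        exact le_of_mul_le_mul_left hle (zero_lt_iff.mpr hπv)
      obtain ⟨n, hn⟩ := ih _ hP1ne hle'
      exact ⟨n + 1, by rw [hval, hn, pow_succ']⟩
    · exact ⟨0, by rw [pow_zero]; exact le_antisymm (h.val_aeval_le_one hαV P) (not_lt.mp hP1)⟩

end Core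

end Fermat.Agent.INJ
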