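import Mathlib
import Fermat.Agent.INJ.UnramCore

/-!
# (INJ) piece B2-UL: the unramifiedness lemma

`piDisc_adjoin`: let `V` be a valuation subring of `L ⊇ F`, `π ∈ F` with `v π < 1`, such that every
nonzero element of `F` has the value of a power of `π`.  If `S ⊆ L` consists of roots of monic
separable polynomials over `V ∩ F` (as `Polynomial ↥(V.comap (algebraMap F L))`), then every
nonzero element of `F(S)` has the value of a power of `π`.

Instances: constant field extensions in characteristic `0` (`S` = constants, `f` = minimal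
polynomial over the constant field), Kummer extensions `h ^ p = unit`, `p` invertible.
-/

set_option autoImplicit false

open Polynomial

namespace Fermat.Agent.INJ

section Step

variable {F L : Type*} [Field F] [Field L] [Algebra F L] (V : ValuationSubring L)

/-- The ring `V ∩ K` as a subring of `L`. -/
def unramRing (K : IntermediateField F L) : Subring L := K.toSubfield.toSubring ⊓ V.toSubring

theorem mem_unramRing {K : IntermediateField F L} {x : L} :
    x ∈ unramRing V K ↔ x ∈ K ∧ x ∈ V := Iff.rfl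

variable {V}

/-- clearing denominators -/
theorem exists_clear_denominators {π : L} (hπV : V.valuation π < 1) (hπ0 : π ≠ 0)
    (K : IntermediateField F L) (hπK : π ∈ K)
    (hK : ∀ x ∈ K, x ≠ 0 → ∃ n : ℤ, V.valuation x = V.valuation π ^ n) (α : L)
    (P₀ : Polynomial K) :
    ∃ (k : ℕ) (P : Polynomial (unramRing V K)), aeval α P = π ^ k * aeval α P₀ := by
  have hπv0 : 0 < V.valuation π := zero_lt_iff.mpr ((Valuation.ne_zero_iff _).mpr hπ0)
  have hπR : π ∈ unramRing V K := ⟨hπK, (V.valuation_le_one_iff _).mp hπV.le⟩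
  induction P₀ using Polynomial.induction_on' with
  | add p q hp hq =>
    obtain ⟨k₁, P₁, h₁⟩ := hp
    obtain ⟨k₂, P₂, h₂⟩ := hq
    refine ⟨k₁ + k₂, C (⟨π, hπR⟩ ^ k₂) * P₁ + C (⟨π, hπR⟩ ^ k₁) * P₂, ?_⟩
    rw [map_add, map_mul, map_mul, aeval_C, aeval_C, h₁, h₂, map_add]
    simp only [map_pow]
    have : (algebraMap (unramRing V K) L) ⟨π, hπR⟩ = π := rfl
    rw [this]
    ring
  | monomial i c =>
    by_cases hc : (c : L) = 0
    · refine ⟨0, 0, ?_⟩
      have : c = 0 := Subtype.ext hc
      simp [this]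
    · obtain ⟨n, hn⟩ := hK c c.2 hc
      set k : ℕ := (-n).toNat with hk
      have hmem : π ^ k * (c : L) ∈ unramRing V K := by
        refine ⟨K.mul_mem (pow_mem hπK k) c.2, ?_⟩
        show π ^ k * (c : L) ∈ V
        rw [← V.valuation_le_one_iff, map_mul, map_pow, hn, ← zpow_natCast, ← zpow_add₀ hπv0.ne']
        have hkn : (0 : ℤ) ≤ (k : ℤ) + n := by
          rw [hk]
          have := Int.self_le_toNat (-n)
          omega
        exact zpow_le_one₀ hπv0 hπV.le hkn
      refine ⟨k, monomial i ⟨π ^ k * (c : L), hmem⟩, ?_⟩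
      rw [aeval_monomial, aeval_monomial]
      have h1 : (algebraMap (unramRing V K) L) ⟨π ^ k * (c : L), hmem⟩ = π ^ k * (c : L) := rfl
      have h2 : (algebraMap K L) c = (c : L) := rfl
      rw [h1, h2]
      ring

/-- `V ∩ K` is an unramified base as soon as `V` is `π`-discrete on `K`. -/
theorem unramBase_of_piDisc {π : L} (hπV : V.valuation π < 1) (hπ0 : π ≠ 0)
    (K : IntermediateField F L) (hπK : π ∈ K)
    (hK : ∀ x ∈ K, x ≠ 0 → ∃ n : ℤ, V.valuation x = V.valuation π ^ n) :
    UnramBase V (unramRing V K) π := by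
  have hπv0 : 0 < V.valuation π := zero_lt_iff.mpr ((Valuation.ne_zero_iff _).mpr hπ0)
  refine ⟨fun x hx => hx.2, ⟨hπK, (V.valuation_le_one_iff _).mp hπV.le⟩, hπV, hπ0, ?_, ?_⟩
  · intro x hx hv
    by_cases hx0 : x = 0
    · exact ⟨0, Subring.zero_mem _, by rw [hx0, mul_zero]⟩
    obtain ⟨n, hn⟩ := hK x hx.1 hx0
    rw [hn] at hv
    have hn0 : 0 < n := (zpow_lt_one_iff_right_of_lt_one₀ hπv0 hπV).mp hv
    refine ⟨x / π, ⟨K.div_mem hx.1 hπK, ?_⟩, by field_simp⟩
    show x / π ∈ V
    rw [← V.valuation_le_one_iff, map_div₀, hn, div_eq_mul_inv, ← zpow_neg_one,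
      ← zpow_add₀ hπv0.ne']
    exact zpow_le_one₀ hπv0 hπV.le (by omega)
  · intro x hx hv
    refine ⟨K.inv_mem hx.1, ?_⟩
    show x⁻¹ ∈ V
    rw [← V.valuation_le_one_iff, map_inv₀, hv, inv_one]

/-- **One step**: adjoining a root of a monic separable polynomial over `V ∩ K` keeps
`π`-discreteness. -/
theorem piDisc_step {π : L} (hπV : V.valuation π < 1) (hπ0 : π ≠ 0)
    (K : IntermediateField F L) (hπK : π ∈ K)
    (hK : ∀ x ∈ K, x ≠ 0 → ∃ n : ℤ, V.valuation x = V.valuation π ^ n) (α : L)
    (f : Polynomial (unramRing V K)) (hf : f.Monic) (hsep : f.Separable) (hα : aeval α f = 0)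
    (x : L) (hx : x ∈ Algebra.adjoin K {α}) (hx0 : x ≠ 0) :
    ∃ n : ℤ, V.valuation x = V.valuation π ^ n := by
  have hπv0 : 0 < V.valuation π := zero_lt_iff.mpr ((Valuation.ne_zero_iff _).mpr hπ0)
  have hbase := unramBase_of_piDisc hπV hπ0 K hπK hK
  have halg : IsAlgebraic K α := by
    refine ⟨f.map (Subring.inclusion (S := unramRing V K) (T := K.toSubfield.toSubring)
      (fun y hy => hy.1)), (hf.map _).ne_zero, ?_⟩
    rw [aeval_def, eval₂_map]
    rw [aeval_def] at hα
    exact hα
  have hfield : (IntermediateField.adjoin K {α}).toSubalgebra = Algebra.adjoin K {α} :=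
    IntermediateField.adjoin_simple_toSubalgebra_of_isAlgebraic halg
  have hxinv : x⁻¹ ∈ Algebra.adjoin K {α} := by
    rw [← hfield] at hx ⊢
    exact (IntermediateField.adjoin K {α}).inv_mem hx
  rw [Algebra.adjoin_singleton_eq_range_aeval] at hx hxinv
  obtain ⟨P₀, hP₀⟩ := hx
  obtain ⟨P₀', hP₀'⟩ := hxinv
  replace hP₀ : aeval α P₀ = x := hP₀
  replace hP₀' : aeval α P₀' = x⁻¹ := hP₀'
  obtain ⟨k, P, hP⟩ := exists_clear_denominators hπV hπ0 K hπK hK α P₀
  obtain ⟨k', P', hP'⟩ := exists_clear_denominators hπV hπ0 K hπK hK α P₀'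
  have hαV := hbase.root_mem hf hα
  have hprod : aeval α P * aeval α P' = π ^ (k + k') := by
    rw [hP, hP', hP₀', hP₀]
    field_simp
    ring
  have hPne : aeval α P ≠ 0 := by
    rw [hP, hP₀]
    exact mul_ne_zero (pow_ne_zero _ hπ0) hx0
  have hle : V.valuation π ^ (k + k') ≤ V.valuation (aeval α P) := by
    have h1 := congrArg V.valuation hprod
    rw [map_mul, map_pow] at h1
    rw [← h1]
    calc V.valuation (aeval α P) * V.valuation (aeval α P')
        ≤ V.valuation (aeval α P) * 1 := by
          gcongr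
          exact hbase.val_aeval_le_one hαV P'
      _ = V.valuation (aeval α P) := mul_one _
  obtain ⟨n, hn⟩ := hbase.val_eq_pow hf hsep hα (k + k') P hPne hle
  refine ⟨(n : ℤ) - k, ?_⟩
  have h2 : V.valuation (aeval α P) = V.valuation π ^ k * V.valuation x := by
    rw [hP, hP₀, map_mul, map_pow]
  rw [zpow_sub₀ hπv0.ne', zpow_natCast, zpow_natCast, ← hn, h2]
  field_simp

variable (V) in
/-- **B2-UL, the unramifiedness lemma.**  Let `V` be a valuation subring of `L ⊇ F` which is
`π`-discrete on `F` (every nonzero element of `F` has the value of a power of `π`, `v π < 1`).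
If `S ⊆ L` consists of roots of monic separable polynomials with coefficients in `V ∩ F`, then
`V` is `π`-discrete on `F(S)`: the extension is unramified. -/
theorem piDisc_adjoin (π : F) (hπ : V.valuation (algebraMap F L π) < 1) (hπ0 : π ≠ 0)
    (hF : ∀ x : F, x ≠ 0 →
      ∃ n : ℤ, V.valuation (algebraMap F L x) = V.valuation (algebraMap F L π) ^ n)
    (S : Set L)
    (hS : ∀ α ∈ S, ∃ f : Polynomial (V.comap (algebraMap F L)), f.Monic ∧ f.Separable ∧
        Polynomial.eval₂ ((algebraMap F L).comp (V.comap (algebraMap F L)).subtype) α f = 0)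
    (x : L) (hx : x ∈ IntermediateField.adjoin F S) (hx0 : x ≠ 0) :
    ∃ n : ℤ, V.valuation x = V.valuation (algebraMap F L π) ^ n := by
  classical
  have hπL : algebraMap F L π ≠ 0 := by
    rwa [Ne, map_eq_zero]
  obtain ⟨T, hTS, hxT⟩ := IntermediateField.exists_finset_of_mem_adjoin hx
  clear hx
  induction T using Finset.induction_on generalizing x with
  | empty =>
    rw [Finset.coe_empty, IntermediateField.adjoin_empty, IntermediateField.mem_bot] at hxT
    obtain ⟨y, rfl⟩ := hxT
    exact hF y (by rintro rfl; simp at hx0)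
  | insert α T hαT ih =>
    have hTS' : (T : Set L) ⊆ S := fun y hy => hTS (by simp [hy])
    have hαS : α ∈ S := hTS (by simp)
    set K := IntermediateField.adjoin F (T : Set L) with hKdef
    have hK : ∀ y ∈ K, y ≠ 0 →
        ∃ n : ℤ, V.valuation y = V.valuation (algebraMap F L π) ^ n :=
      fun y hy hy0 => ih y hy0 hTS' hy
    obtain ⟨f, hfm, hfsep, hfα⟩ := hS α hαS
    -- the polynomial over `V ∩ K`
    let φ : (V.comap (algebraMap F L)) →+* unramRing V K :=
      ((algebraMap F L).comp (V.comap (algebraMap F L)).subtype).codRestrict (unramRing V K)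
        (fun y => ⟨K.algebraMap_mem _, y.2⟩)
    have hφ : (algebraMap (unramRing V K) L).comp φ =
        (algebraMap F L).comp (V.comap (algebraMap F L)).subtype := RingHom.ext fun _ => rfl
    have hα' : aeval α (f.map φ) = 0 := by
      rw [aeval_def, eval₂_map, hφ]
      exact hfα
    -- all elements of `S` are algebraic
    have halgS : ∀ β ∈ S, IsAlgebraic F β := by
      intro β hβ
      obtain ⟨g, hgm, -, hgβ⟩ := hS β hβ
      refine ⟨g.map (V.comap (algebraMap F L)).subtype, (hgm.map _).ne_zero, ?_⟩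
      rw [aeval_def, eval₂_map]
      exact hgβ
    have hxA : x ∈ Algebra.adjoin F ((insert α T : Finset L) : Set L) := by
      rw [← IntermediateField.adjoin_toSubalgebra_of_isAlgebraic
        (fun β hβ => halgS β (hTS hβ))]
      exact hxT
    have hle : Algebra.adjoin F ((insert α T : Finset L) : Set L) ≤
        (Algebra.adjoin K {α}).restrictScalars F := by
      refine Algebra.adjoin_le ?_
      intro y hy
      rw [Finset.coe_insert, Set.mem_insert_iff] at hy
      rw [SetLike.mem_coe, Subalgebra.mem_restrictScalars]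
      rcases hy with rfl | hy
      · exact Algebra.subset_adjoin (Set.mem_singleton _)
      · have hyK : y ∈ K := IntermediateField.subset_adjoin F _ hy
        have hy' : algebraMap K L ⟨y, hyK⟩ ∈ Algebra.adjoin K {α} :=
          Subalgebra.algebraMap_mem _ _
        exact hy'
    exact piDisc_step hπ hπL K (K.algebraMap_mem π) hK α (f.map φ) (hfm.map φ)
      (hfsep.map) hα' x (hle hxA) hx0

end Step

end Fermat.Agent.INJ
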